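import Mathlib
import Fermat.Prelude.Def_FLTPrelim_Ramification
import Fermat.Prelude.Def_EllipticCurve_FrobeniusTrace
import Fermat.Prelude.Def_GaloisRep_ComplexConjugation

/-!
# S30-CYCLOPKG: the `p`-adic cyclotomic character with values in an abstract complete local ring

Board row #1265 (helper6350).  Self-contained: Mathlib + three Prelude definition modules.

Main result `exists_cycloPkg`: for a prime `p` and any adically complete local ring `O` with
`(p : O)` in its maximal ideal there is a character `ε : Gal(ℚ̄/ℚ) →* Oˣ` which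

* is trivial modulo `𝔪 ^ n` on the fixing subgroup of a finite extension of `ℚ` (for every `n`),
* is trivial on the inertia subgroups at the primes `q ≠ p`,
* takes the value `ℓ` at every Frobenius lift at a prime `ℓ ≠ p`,
* takes the value `-1` at the Prelude `complexConjugation`.

Ingredients (all exported):

* `padicIntToComplete` : a ring homomorphism `ℤ_[p] →+* S` for every `I`-adically complete ring
  `S` with `(p : S) ∈ I`;
* `eq_of_pow_eq_one_of_valuation_sub_lt_one` : roots of unity of order prime to the residue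
  characteristic are distinct modulo the maximal ideal of a valuation subring;
* `IsFrobeniusAt.apply_root_of_unity`, `apply_root_of_unity_of_mem_inertiaSubgroupIn`,
  `complexConjugation_root_of_unity` : action of Frobenius lifts, inertia and complex conjugation
  on roots of unity;
* `padicCyclo`, the Mathlib cyclotomic character on `Gal(ℚ̄/ℚ)`, with its values.
-/

set_option autoImplicit false

namespace Fermat.Agent.S30.helper6350

/-! ### A ring homomorphism `ℤ_[p] →+* S` into an adically complete ring -/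

section PadicHom

variable (p : ℕ) [Fact p.Prime]

/-- Two ring homomorphisms from `ℤ_[p]` to a ring killed by a power of `p` agree. -/
theorem padicInt_ringHom_ext {T : Type*} [Ring T] (m : ℕ) (hT : (p : T) ^ m = 0)
    (g₁ g₂ : ℤ_[p] →+* T) : g₁ = g₂ := by
  have key : ∀ g : ℤ_[p] →+* T, ∀ x : ℤ_[p], g x = ((x.appr m : ℕ) : T) := by
    intro g x
    obtain ⟨y, hy⟩ := Ideal.mem_span_singleton.mp (PadicInt.appr_spec m x)
    have hx : x = ((x.appr m : ℕ) : ℤ_[p]) + (p : ℤ_[p]) ^ m * y := by rw [← hy]; ring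
    conv_lhs => rw [hx]
    rw [map_add, map_mul, map_pow, map_natCast, map_natCast, hT, zero_mul, add_zero]
  ext x
  rw [key g₁ x, key g₂ x]

omit [Fact p.Prime] in
theorem natCast_pow_eq_zero_quotient {S : Type*} [CommRing S] (I : Ideal S) (hp : (p : S) ∈ I)
    (n : ℕ) : ((p : S ⧸ I ^ n)) ^ n = 0 := by
  rw [← map_natCast (Ideal.Quotient.mk (I ^ n)), ← map_pow]
  exact Ideal.Quotient.eq_zero_iff_mem.mpr (Ideal.pow_mem_pow hp n)

/-- The level-`n` ring homomorphism `ℤ_[p] →+* S ⧸ I ^ n` when `(p : S) ∈ I`. -/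
noncomputable def padicIntToQuotient {S : Type*} [CommRing S] (I : Ideal S) (hp : (p : S) ∈ I)
    (n : ℕ) : ℤ_[p] →+* S ⧸ I ^ n :=
  haveI : CharP (S ⧸ I ^ n) (ringChar (S ⧸ I ^ n)) := ringChar.charP _
  (ZMod.castHom (ringChar.dvd (R := S ⧸ I ^ n) (x := p ^ n) (by
      rw [Nat.cast_pow]; exact natCast_pow_eq_zero_quotient p I hp n)) (S ⧸ I ^ n)).comp
    (PadicInt.toZModPow n)

/-- A ring homomorphism `ℤ_[p] →+* S` for an `I`-adically complete ring `S` with `(p : S) ∈ I`
(it is the unique one, but only its existence is used below). -/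
noncomputable def padicIntToComplete {S : Type*} [CommRing S] (I : Ideal S) [IsAdicComplete I S]
    (hp : (p : S) ∈ I) : ℤ_[p] →+* S :=
  IsAdicComplete.liftRingHom I (padicIntToQuotient p I hp) (fun {m _} _ =>
    padicInt_ringHom_ext p m (natCast_pow_eq_zero_quotient p I hp m) _ _)

/-- `padicIntToComplete` maps `p ^ n ℤ_[p]` into `I ^ n`. -/
theorem padicIntToComplete_mem_pow {S : Type*} [CommRing S] (I : Ideal S) [IsAdicComplete I S]
    (hp : (p : S) ∈ I) (n : ℕ) {x : ℤ_[p]} (hx : x ∈ Ideal.span {(p : ℤ_[p]) ^ n}) :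
    padicIntToComplete p I hp x ∈ I ^ n := by
  obtain ⟨y, rfl⟩ := Ideal.mem_span_singleton.mp hx
  rw [map_mul, map_pow, map_natCast]
  exact Ideal.mul_mem_right _ _ (Ideal.pow_mem_pow hp n)

end PadicHom

/-! ### Roots of unity modulo the maximal ideal of a valuation subring -/

section Separation

variable {L : Type*} [Field L]

theorem valuation_eq_one_of_pow_eq_one (A : ValuationSubring L) {ζ : L} {m : ℕ} (hm : m ≠ 0)
    (hζ : ζ ^ m = 1) : A.valuation ζ = 1 := by
  have h : A.valuation ζ ^ m = 1 := by rw [← map_pow, hζ, map_one]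
  exact (pow_eq_one_iff.mp h).resolve_right hm

theorem mem_of_pow_eq_one (A : ValuationSubring L) {ζ : L} {m : ℕ} (hm : m ≠ 0)
    (hζ : ζ ^ m = 1) : ζ ∈ A :=
  (A.valuation_le_one_iff ζ).mp (valuation_eq_one_of_pow_eq_one A hm hζ).le

/-- Two `m`-th roots of unity which are congruent modulo the maximal ideal of a valuation
subring of residue characteristic `ℓ` prime to `m` are equal. -/
theorem eq_of_pow_eq_one_of_valuation_sub_lt_one (A : ValuationSubring L) {ℓ m : ℕ}
    (hℓ : A.LiesOverPrime ℓ) (hcop : Nat.Coprime ℓ m) {x y : L} (hx : x ^ m = 1) (hy : y ^ m = 1)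
    (hxy : A.valuation (x - y) < 1) : x = y := by
  by_contra hne
  have hm : m ≠ 0 := by
    rintro rfl
    rw [Nat.coprime_zero_right] at hcop
    subst hcop
    have h1 : ((1 : ℕ) : L) ∈ A.nonunits := hℓ
    rw [Nat.cast_one, ValuationSubring.mem_nonunits_iff, map_one] at h1
    exact lt_irrefl _ h1
  have hy0 : y ≠ 0 := by
    rintro rfl
    rw [zero_pow hm] at hy
    exact zero_ne_one hy
  have hvy : A.valuation y = 1 := valuation_eq_one_of_pow_eq_one A hm hy
  obtain ⟨u, hu⟩ : ∃ u : L, u = x * y⁻¹ := ⟨_, rfl⟩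
  have hum : u ^ m = 1 := by rw [hu, mul_pow, inv_pow, hx, hy, inv_one, mul_one]
  have hu1 : u ≠ 1 := by
    intro h
    apply hne
    rw [hu] at h
    field_simp at h
    exact h
  have hvu1 : A.valuation (1 - u) < 1 := by
    have : 1 - u = -((x - y) * y⁻¹) := by rw [hu]; field_simp; ring
    rw [this, Valuation.map_neg, map_mul, map_inv₀, hvy, inv_one, mul_one]
    exact hxy
  have hvu : ∀ i : ℕ, A.valuation (u ^ i) ≤ 1 := by
    intro i
    rw [map_pow, valuation_eq_one_of_pow_eq_one A hm hum, one_pow]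
  have hsum : ∑ i ∈ Finset.range m, u ^ i = 0 := by
    have h := geom_sum_mul u m
    rw [hum, sub_self] at h
    exact (mul_eq_zero.mp h).resolve_right (sub_ne_zero.mpr hu1)
  have hterm : ∀ i : ℕ, A.valuation (1 - u ^ i) < 1 := by
    intro i
    have h := geom_sum_mul u i
    have h2 : 1 - u ^ i = (∑ j ∈ Finset.range i, u ^ j) * (1 - u) := by
      linear_combination h
    rw [h2, map_mul]
    have h3 : A.valuation (∑ j ∈ Finset.range i, u ^ j) ≤ 1 :=
      (A.valuation_le_one_iff _).mpr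
        (Subring.sum_mem _ fun j _ => (A.valuation_le_one_iff _).mp (hvu j))
    calc A.valuation (∑ j ∈ Finset.range i, u ^ j) * A.valuation (1 - u)
        ≤ 1 * A.valuation (1 - u) := mul_le_mul' h3 le_rfl
      _ = A.valuation (1 - u) := one_mul _
      _ < 1 := hvu1
  have hmsum : (m : L) = ∑ i ∈ Finset.range m, (1 - u ^ i) := by
    rw [Finset.sum_sub_distrib, hsum, sub_zero, Finset.sum_const, Finset.card_range,
      nsmul_eq_mul, mul_one]
  have hvm : A.valuation (m : L) < 1 := by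
    rw [hmsum]
    exact Valuation.map_sum_lt _ one_ne_zero fun i _ => hterm i
  have hvℓ : A.valuation (ℓ : L) < 1 := (ValuationSubring.mem_nonunits_iff A).mp hℓ
  -- Bezout
  have hbez : (1 : L) = (ℓ : L) * (Nat.gcdA ℓ m : L) + (m : L) * (Nat.gcdB ℓ m : L) := by
    have h := Nat.gcd_eq_gcd_ab ℓ m
    rw [hcop.gcd_eq_one] at h
    have h' := congrArg (fun z : ℤ => (z : L)) h
    simp only [Nat.cast_one, Int.cast_one, Int.cast_add, Int.cast_mul, Int.cast_natCast] at h'
    exact h'
  have hint : ∀ z : ℤ, A.valuation (z : L) ≤ 1 := fun z =>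
    (A.valuation_le_one_iff _).mpr (intCast_mem A.toSubring z)
  have h1 : A.valuation (1 : L) < 1 := by
    rw [hbez]
    refine Valuation.map_add_lt _ ?_ ?_
    · rw [map_mul]
      calc A.valuation (ℓ : L) * A.valuation (Nat.gcdA ℓ m : L)
          ≤ A.valuation (ℓ : L) * 1 := mul_le_mul' le_rfl (hint _)
        _ = A.valuation (ℓ : L) := mul_one _
        _ < 1 := hvℓ
    · rw [map_mul]
      calc A.valuation (m : L) * A.valuation (Nat.gcdB ℓ m : L)
          ≤ A.valuation (m : L) * 1 := mul_le_mul' le_rfl (hint _)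
        _ = A.valuation (m : L) := mul_one _
        _ < 1 := hvm
  rw [map_one] at h1
  exact lt_irrefl _ h1

end Separation

/-! ### Frobenius lifts, inertia and complex conjugation on roots of unity -/

section LocalAction

variable {K L : Type*} [Field K] [Field L] [Algebra K L]

/-- A Frobenius lift at `ℓ` raises every root of unity of order prime to `ℓ` to the `ℓ`-th
power. -/
theorem IsFrobeniusAt.apply_root_of_unity {A : ValuationSubring L} {σ : L ≃ₐ[K] L} {ℓ m : ℕ}
    (hσ : A.IsFrobeniusAt σ ℓ) (hℓ : A.LiesOverPrime ℓ) (hcop : Nat.Coprime ℓ m) {ζ : L}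
    (hζ : ζ ^ m = 1) : σ ζ = ζ ^ ℓ := by
  have hm : m ≠ 0 := by
    rintro rfl
    rw [Nat.coprime_zero_right] at hcop
    subst hcop
    have h1 : ((1 : ℕ) : L) ∈ A.nonunits := hℓ
    rw [Nat.cast_one, ValuationSubring.mem_nonunits_iff, map_one] at h1
    exact lt_irrefl _ h1
  have hζA : ζ ∈ A := mem_of_pow_eq_one A hm hζ
  set d : A.decompositionSubgroup K := ⟨σ, hσ.mem_decompositionSubgroup⟩ with hd
  set z : A := ⟨ζ, hζA⟩ with hz
  have hres : IsLocalRing.residue A (d • z) = IsLocalRing.residue A (z ^ ℓ) := by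
    rw [IsLocalRing.ResidueField.residue_smul, map_pow]
    exact hσ.smul_residue_eq _
  have hmem : d • z - z ^ ℓ ∈ IsLocalRing.maximalIdeal A := by
    rw [← IsLocalRing.residue_eq_zero_iff, map_sub, hres, sub_self]
  have hval : A.valuation (σ ζ - ζ ^ ℓ) < 1 := (A.valuation_lt_one_iff _).mp hmem
  refine eq_of_pow_eq_one_of_valuation_sub_lt_one A hℓ hcop ?_ ?_ hval
  · rw [← map_pow, hζ, map_one]
  · rw [← pow_mul, mul_comm, pow_mul, hζ, one_pow]

/-- An element of the inertia subgroup at a place of residue characteristic `q` fixes every root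
of unity of order prime to `q`. -/
theorem apply_root_of_unity_of_mem_inertiaSubgroupIn {A : ValuationSubring L} {τ : L ≃ₐ[K] L}
    {q m : ℕ} (hτ : τ ∈ A.inertiaSubgroupIn K) (hq : A.LiesOverPrime q) (hcop : Nat.Coprime q m)
    {ζ : L} (hζ : ζ ^ m = 1) : τ ζ = ζ := by
  have hm : m ≠ 0 := by
    rintro rfl
    rw [Nat.coprime_zero_right] at hcop
    subst hcop
    have h1 : ((1 : ℕ) : L) ∈ A.nonunits := hq
    rw [Nat.cast_one, ValuationSubring.mem_nonunits_iff, map_one] at h1
    exact lt_irrefl _ h1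
  obtain ⟨d, hd, rfl⟩ := Subgroup.mem_map.mp hτ
  have hζA : ζ ∈ A := mem_of_pow_eq_one A hm hζ
  set z : A := ⟨ζ, hζA⟩ with hz
  have hdz : ∀ r : IsLocalRing.ResidueField A, d • r = r := by
    intro r
    have h := MonoidHom.mem_ker.mp hd
    have h2 := congrArg (fun e : RingAut (IsLocalRing.ResidueField A) => e r) h
    exact h2
  have hres : IsLocalRing.residue A (d • z) = IsLocalRing.residue A z := by
    rw [IsLocalRing.ResidueField.residue_smul]
    exact hdz _
  have hmem : d • z - z ∈ IsLocalRing.maximalIdeal A := by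
    rw [← IsLocalRing.residue_eq_zero_iff, map_sub, hres, sub_self]
  have hval : A.valuation ((A.decompositionSubgroup K).subtype d ζ - ζ) < 1 :=
    (A.valuation_lt_one_iff _).mp hmem
  refine eq_of_pow_eq_one_of_valuation_sub_lt_one A hq hcop ?_ hζ hval
  rw [← map_pow, hζ, map_one]

end LocalAction

/-- Complex conjugation inverts the roots of unity of `ℚ̄`. -/
theorem complexConjugation_root_of_unity {ζ : AlgebraicClosure ℚ} {m : ℕ} (hm : m ≠ 0)
    (hζ : ζ ^ m = 1) : complexConjugation ζ = ζ⁻¹ := by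
  apply (complexEmbedding : AlgebraicClosure ℚ →+* ℂ).injective
  show complexEmbedding (complexConjugation ζ) = complexEmbedding ζ⁻¹
  rw [complexEmbedding_complexConjugation, map_inv₀]
  have h1 : complexEmbedding ζ ^ m = 1 := by rw [← map_pow, hζ, map_one]
  exact (Complex.inv_eq_conj (Complex.norm_eq_one_of_pow_eq_one h1 hm)).symm

/-! ### The `p`-adic cyclotomic character of `Gal(ℚ̄/ℚ)` -/

section Cyclo

variable (p : ℕ) [Fact p.Prime]

/-- The Mathlib `p`-adic cyclotomic character, restricted to `Gal(ℚ̄/ℚ)`. -/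
noncomputable def padicCyclo :
    (AlgebraicClosure ℚ ≃ₐ[ℚ] AlgebraicClosure ℚ) →* ℤ_[p]ˣ :=
  (cyclotomicCharacter (AlgebraicClosure ℚ) p).comp
    (MulSemiringAction.toRingAut (AlgebraicClosure ℚ ≃ₐ[ℚ] AlgebraicClosure ℚ)
      (AlgebraicClosure ℚ))

/-- If `g` raises every `p ^ n`-th root of unity to the `k`-th power, then the cyclotomic
character of `g` is `k` modulo `p ^ n`. -/
theorem toZModPow_padicCyclo (g : AlgebraicClosure ℚ ≃ₐ[ℚ] AlgebraicClosure ℚ) (n k : ℕ)
    (h : ∀ t : AlgebraicClosure ℚ, t ^ p ^ n = 1 → g t = t ^ k) :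
    PadicInt.toZModPow n (padicCyclo p g : ℤ_[p]) = (k : ZMod (p ^ n)) := by
  unfold padicCyclo
  rw [MonoidHom.comp_apply, cyclotomicCharacter.toZModPow]
  symm
  refine modularCyclotomicCharacter.unique (AlgebraicClosure ℚ) _ _ (c := (k : ZMod (p ^ n))) ?_
  intro t ht
  have ht' : (t : AlgebraicClosure ℚ) ^ p ^ n = 1 := by
    rw [← Units.val_pow_eq_pow_val, (mem_rootsOfUnity _ _).mp ht, Units.val_one]
  rw [ZMod.val_natCast, ← pow_eq_pow_mod k ht']
  exact h _ ht'

theorem padicCyclo_eq_natCast (g : AlgebraicClosure ℚ ≃ₐ[ℚ] AlgebraicClosure ℚ) (k : ℕ)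
    (h : ∀ (n : ℕ) (t : AlgebraicClosure ℚ), t ^ p ^ n = 1 → g t = t ^ k) :
    (padicCyclo p g : ℤ_[p]) = (k : ℤ_[p]) := by
  refine PadicInt.ext_of_toZModPow.mp fun n => ?_
  rw [toZModPow_padicCyclo p g n k (h n), map_natCast]

/-- Value at Frobenius lifts. -/
theorem padicCyclo_frobenius {ℓ : ℕ} (hℓp : ℓ.Prime) (hne : ℓ ≠ p)
    {A : ValuationSubring (AlgebraicClosure ℚ)} (hA : A.LiesOverPrime ℓ)
    {σ : AlgebraicClosure ℚ ≃ₐ[ℚ] AlgebraicClosure ℚ} (hσ : A.IsFrobeniusAt σ ℓ) :
    (padicCyclo p σ : ℤ_[p]) = (ℓ : ℤ_[p]) := by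
  refine padicCyclo_eq_natCast p σ ℓ fun n t ht => ?_
  have hcop : Nat.Coprime ℓ (p ^ n) :=
    Nat.Coprime.pow_right n ((Nat.coprime_primes hℓp (Fact.out : p.Prime)).mpr hne)
  exact IsFrobeniusAt.apply_root_of_unity hσ hA hcop ht

/-- Triviality on inertia at the primes different from `p`. -/
theorem padicCyclo_inertia {q : ℕ} (hqp : q.Prime) (hne : q ≠ p)
    {A : ValuationSubring (AlgebraicClosure ℚ)} (hA : A.LiesOverPrime q)
    {τ : AlgebraicClosure ℚ ≃ₐ[ℚ] AlgebraicClosure ℚ} (hτ : τ ∈ A.inertiaSubgroupIn ℚ) :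
    padicCyclo p τ = 1 := by
  apply Units.ext
  rw [Units.val_one]
  have h := padicCyclo_eq_natCast p τ 1 fun n t ht => by
    have hcop : Nat.Coprime q (p ^ n) :=
      Nat.Coprime.pow_right n ((Nat.coprime_primes hqp (Fact.out : p.Prime)).mpr hne)
    rw [pow_one]
    exact apply_root_of_unity_of_mem_inertiaSubgroupIn hτ hA hcop ht
  rw [h, Nat.cast_one]

/-- Oddness. -/
theorem padicCyclo_complexConjugation : (padicCyclo p complexConjugation : ℤ_[p]) = -1 := by
  refine PadicInt.ext_of_toZModPow.mp fun n => ?_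
  have hpos : 0 < p ^ n := pow_pos (Fact.out : p.Prime).pos n
  rw [toZModPow_padicCyclo p complexConjugation n (p ^ n - 1), map_neg, map_one,
    Nat.cast_pred hpos, ZMod.natCast_self, zero_sub]
  intro t ht
  rw [complexConjugation_root_of_unity hpos.ne' ht]
  apply inv_eq_of_mul_eq_one_right
  rw [← pow_succ', Nat.sub_add_cancel hpos, ht]

/-- Finite level: the cyclotomic character is trivial modulo `p ^ n` on the fixing subgroup of a
finite extension of `ℚ`. -/
theorem exists_level_padicCyclo (n : ℕ) :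
    ∃ L : IntermediateField ℚ (AlgebraicClosure ℚ), FiniteDimensional ℚ L ∧
      ∀ σ : AlgebraicClosure ℚ ≃ₐ[ℚ] AlgebraicClosure ℚ, (∀ x ∈ L, σ x = x) →
        (padicCyclo p σ : ℤ_[p]) - 1 ∈ Ideal.span {(p : ℤ_[p]) ^ n} := by
  have hne : NeZero (p ^ n) := ⟨(pow_pos (Fact.out : p.Prime).pos n).ne'⟩
  obtain ⟨ζ, hζ⟩ := HasEnoughRootsOfUnity.exists_primitiveRoot (AlgebraicClosure ℚ) (p ^ n)
  refine ⟨IntermediateField.adjoin ℚ {ζ}, IntermediateField.adjoin.finiteDimensional
    (hζ.isIntegral (pow_pos (Fact.out : p.Prime).pos n)).tower_top, fun σ hσ => ?_⟩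
  rw [← PadicInt.ker_toZModPow, RingHom.mem_ker, map_sub, map_one,
    toZModPow_padicCyclo p σ n 1, Nat.cast_one, sub_self]
  intro t ht
  obtain ⟨i, -, rfl⟩ := hζ.eq_pow_of_pow_eq_one ht
  rw [pow_one, map_pow, hσ ζ (IntermediateField.mem_adjoin_simple_self ℚ ζ)]

end Cyclo

/-! ### The package -/

/-- **S30-CYCLOPKG.** The `p`-adic cyclotomic character with values in an arbitrary adically
complete local ring `O` whose maximal ideal contains `p`: continuous (finite level modulo every
power of the maximal ideal), unramified outside `p`, with value `ℓ` at Frobenius lifts at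
`ℓ ≠ p`, and odd. -/
theorem exists_cycloPkg (p : ℕ) [Fact p.Prime] (O : Type) [CommRing O] [IsLocalRing O]
    [IsAdicComplete (IsLocalRing.maximalIdeal O) O]
    (hp : (p : O) ∈ IsLocalRing.maximalIdeal O) :
    ∃ ε : (AlgebraicClosure ℚ ≃ₐ[ℚ] AlgebraicClosure ℚ) →* Oˣ,
      (∀ n : ℕ, ∃ L : IntermediateField ℚ (AlgebraicClosure ℚ), FiniteDimensional ℚ L ∧
        ∀ σ : AlgebraicClosure ℚ ≃ₐ[ℚ] AlgebraicClosure ℚ, (∀ x ∈ L, σ x = x) →
          (ε σ : O) - 1 ∈ IsLocalRing.maximalIdeal O ^ n) ∧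
      (∀ q : ℕ, q.Prime → q ≠ p →
        ∀ A : ValuationSubring (AlgebraicClosure ℚ), A.LiesOverPrime q →
          ∀ σ ∈ A.inertiaSubgroupIn ℚ, ε σ = 1) ∧
      (∀ ℓ : ℕ, ℓ.Prime → ℓ ≠ p →
        ∀ A : ValuationSubring (AlgebraicClosure ℚ), A.LiesOverPrime ℓ →
          ∀ σ : AlgebraicClosure ℚ ≃ₐ[ℚ] AlgebraicClosure ℚ, A.IsFrobeniusAt σ ℓ →
            (ε σ : O) = (ℓ : O)) ∧
      (ε complexConjugation : O) = -1 := by
  set φ : ℤ_[p] →+* O := padicIntToComplete p (IsLocalRing.maximalIdeal O) hp with hφ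
  refine ⟨(Units.map (φ : ℤ_[p] →* O)).comp (padicCyclo p), ?_, ?_, ?_, ?_⟩
  · intro n
    obtain ⟨L, hL, h⟩ := exists_level_padicCyclo p n
    refine ⟨L, hL, fun σ hσ => ?_⟩
    have h1 := padicIntToComplete_mem_pow p (IsLocalRing.maximalIdeal O) hp n (h σ hσ)
    rw [map_sub, map_one] at h1
    exact h1
  · intro q hq hqp A hA σ hσ
    rw [MonoidHom.comp_apply, padicCyclo_inertia p hq hqp hA hσ, map_one]
  · intro ℓ hℓ hℓp A hA σ hσ
    show φ (padicCyclo p σ : ℤ_[p]) = (ℓ : O)
    rw [padicCyclo_frobenius p hℓ hℓp hA hσ, map_natCast]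
  · show φ (padicCyclo p complexConjugation : ℤ_[p]) = -1
    rw [padicCyclo_complexConjugation, map_neg, map_one]

end Fermat.Agent.S30.helper6350
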