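/-
S30 leaf S30-EPS (board #1003), owner helper3994.  Mathlib + Prelude only.

The cyclotomic character at Frobenius lifts and on inertia, in the vocabulary of the frozen
statements (`ValuationSubring.IsFrobeniusAt`, `ValuationSubring.LiesOverPrime`,
`ValuationSubring.inertiaSubgroupIn`).

Main results (`L/K` any field extension, `A : ValuationSubring L`):
* `eq_of_sub_mem_nonunits` : reduction modulo the maximal ideal of `A` is injective on the
  `m`-th roots of unity as soon as `m` is a unit of `A`.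
* `apply_eq_pow_of_isFrobeniusAt` : a Frobenius lift at `q` raises such roots of unity to the
  `q`-th power.
* `apply_eq_self_of_mem_inertiaSubgroupIn` : inertia fixes such roots of unity.
* `cyclotomicCharacter_of_isFrobeniusAt`, `cyclotomicCharacter_of_mem_inertiaSubgroupIn` : the
  same statements for Mathlib's `cyclotomicCharacter L p`.
* `exists_level_cyclotomicCharacter` : `cyclotomicCharacter L p` modulo `p ^ n` is trivial on the
  fixing subgroup of a finite subextension.
-/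
import Mathlib
import Fermat.Prelude.Def_EllipticCurve_FrobeniusTrace
import Fermat.Prelude.Def_FLTPrelim_Ramification
import Fermat.Prelude.Def_ExtCitation_KummerBridge

set_option autoImplicit false

namespace Fermat.Agent.S30.helper3994

open ValuationSubring

section General

variable {K L : Type*} [Field K] [Field L] [Algebra K L]

/-- A root of unity lies in every valuation subring. -/
theorem mem_of_pow_eq_one (A : ValuationSubring L) {ζ : L} {m : ℕ} (hm : m ≠ 0)
    (hζ : ζ ^ m = 1) : ζ ∈ A := by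
  rw [← A.valuation_le_one_iff]
  have h1 : A.valuation ζ ^ m = 1 := by rw [← map_pow, hζ, map_one]
  by_contra hlt
  have hgt : 1 < A.valuation ζ := lt_of_not_ge hlt
  have : 1 < A.valuation ζ ^ m := one_lt_pow₀ hgt hm
  rw [h1] at this
  exact lt_irrefl _ this

/-- If `m` is a unit of `A` (i.e. `(m : L) ∉ A.nonunits`), then `m ≠ 0`. -/
theorem ne_zero_of_natCast_notMem_nonunits (A : ValuationSubring L) {m : ℕ}
    (hm : (m : L) ∉ A.nonunits) : m ≠ 0 := by
  rintro rfl
  exact hm (by simp [A.nonunits.zero_mem])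

/-- Integers lie in every valuation subring. -/
theorem natCast_mem_valuationSubring (A : ValuationSubring L) (m : ℕ) : (m : L) ∈ A :=
  natCast_mem A m

/-- If `A` lies over `q` and `m` is prime to `q`, then `m` is a unit of `A`. -/
theorem natCast_notMem_nonunits_of_coprime (A : ValuationSubring L) {q m : ℕ}
    (hA : A.LiesOverPrime q) (hqm : Nat.Coprime q m) : (m : L) ∉ A.nonunits := by
  intro hm
  have hq : (q : L) ∈ A.nonunits := hA
  obtain ⟨a, b, hab⟩ := Nat.isCoprime_iff_coprime.mpr hqm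
  have h1 : ((a : ℤ) : L) * (q : L) + ((b : ℤ) : L) * (m : L) = 1 := by
    have := congrArg (Int.cast : ℤ → L) hab
    push_cast at this
    exact this
  have ha : ((a : ℤ) : L) ∈ A := intCast_mem A a
  have hb : ((b : ℤ) : L) ∈ A := intCast_mem A b
  have hqv : A.valuation (q : L) < 1 := A.mem_nonunits_iff.mp hq
  have hmv : A.valuation (m : L) < 1 := A.mem_nonunits_iff.mp hm
  have hav : A.valuation ((a : ℤ) : L) ≤ 1 := (A.valuation_le_one_iff _).mpr ha
  have hbv : A.valuation ((b : ℤ) : L) ≤ 1 := (A.valuation_le_one_iff _).mpr hb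
  have h2 : A.valuation (((a : ℤ) : L) * (q : L) + ((b : ℤ) : L) * (m : L)) < 1 := by
    refine lt_of_le_of_lt (A.valuation.map_add _ _) (max_lt ?_ ?_)
    · rw [map_mul]
      exact lt_of_le_of_lt (mul_le_of_le_one_left' hav) hqv
    · rw [map_mul]
      exact lt_of_le_of_lt (mul_le_of_le_one_left' hbv) hmv
  rw [h1, map_one] at h2
  exact lt_irrefl _ h2

/-- If `A` lies over `q` and the prime `p` is different from the prime `q`, then every power of
`p` is a unit of `A`. -/
theorem natCast_pow_notMem_nonunits (A : ValuationSubring L) {q p : ℕ} (hq : q.Prime)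
    (hp : p.Prime) (hqp : q ≠ p) (hA : A.LiesOverPrime q) (n : ℕ) :
    ((p ^ n : ℕ) : L) ∉ A.nonunits :=
  natCast_notMem_nonunits_of_coprime A hA
    (Nat.Coprime.pow_right n ((Nat.coprime_primes hq hp).mpr hqp))

/-- **Injectivity of reduction on roots of unity.**  If `m` is a unit of the valuation subring `A`
then two `m`-th roots of unity which are congruent modulo the maximal ideal of `A` are equal. -/
theorem eq_of_sub_mem_nonunits (A : ValuationSubring L) {ζ ξ : L} {m : ℕ}
    (hm : (m : L) ∉ A.nonunits) (hζ : ζ ^ m = 1) (hξ : ξ ^ m = 1)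
    (h : ζ - ξ ∈ A.nonunits) : ζ = ξ := by
  have hm0 : m ≠ 0 := ne_zero_of_natCast_notMem_nonunits A hm
  by_contra hne
  have hζA : ζ ∈ A := mem_of_pow_eq_one A hm0 hζ
  have hξA : ξ ∈ A := mem_of_pow_eq_one A hm0 hξ
  -- the elements of `A`
  set z : A := ⟨ζ, hζA⟩ with hz
  set x : A := ⟨ξ, hξA⟩ with hx
  have hzx : IsLocalRing.residue A z = IsLocalRing.residue A x := by
    rw [← sub_eq_zero, ← map_sub, IsLocalRing.residue_eq_zero_iff]
    exact coe_mem_nonunits_iff.mp (by simpa [hz, hx] using h)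
  -- the geometric sum vanishes in `L`, hence in `A`
  have hsumL : (∑ i ∈ Finset.range m, ζ ^ i * ξ ^ (m - 1 - i)) = 0 := by
    have h1 := (Commute.all ζ ξ).geom_sum₂_mul m
    rw [hζ, hξ, sub_self] at h1
    rcases mul_eq_zero.mp h1 with h2 | h2
    · exact h2
    · exact absurd (sub_eq_zero.mp h2) hne
  have hsumA : (∑ i ∈ Finset.range m, z ^ i * x ^ (m - 1 - i)) = 0 := by
    apply Subtype.ext
    push_cast
    simpa [hz, hx] using hsumL
  have hres := congrArg (IsLocalRing.residue A) hsumA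
  rw [map_sum, map_zero] at hres
  have hterm : ∀ i ∈ Finset.range m,
      IsLocalRing.residue A (z ^ i * x ^ (m - 1 - i)) = (IsLocalRing.residue A x) ^ (m - 1) := by
    intro i hi
    rw [map_mul, map_pow, map_pow, hzx, ← pow_add]
    congr 1
    have := Finset.mem_range.mp hi
    omega
  rw [Finset.sum_congr rfl hterm, Finset.sum_const, Finset.card_range, nsmul_eq_mul] at hres
  -- `residue x` is a unit of the residue field
  have hxm : (IsLocalRing.residue A x) ^ m = 1 := by
    rw [← map_pow]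
    have : x ^ m = 1 := Subtype.ext (by simpa [hx] using hξ)
    rw [this, map_one]
  have hx0 : IsLocalRing.residue A x ≠ 0 := by
    intro h0
    rw [h0, zero_pow hm0] at hxm
    exact zero_ne_one hxm
  have hmres : ((m : ℕ) : IsLocalRing.ResidueField A) = 0 := by
    rcases mul_eq_zero.mp hres with h1 | h1
    · exact h1
    · exact absurd h1 (pow_ne_zero _ hx0)
  apply hm
  have h3 : IsLocalRing.residue A ((m : ℕ) : A) = 0 := by rw [map_natCast]; exact hmres
  rw [IsLocalRing.residue_eq_zero_iff] at h3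
  have := coe_mem_nonunits_iff.mpr h3
  simpa using this

end General


section FrobInertia

variable {K L : Type*} [Field K] [Field L] [Algebra K L]

/-- A Frobenius lift at `q` is congruent to the `q`-th power map on `A`. -/
theorem apply_sub_pow_mem_nonunits_of_isFrobeniusAt {A : ValuationSubring L} {σ : L ≃ₐ[K] L}
    {q : ℕ} (h : A.IsFrobeniusAt σ q) {a : L} (ha : a ∈ A) : σ a - a ^ q ∈ A.nonunits := by
  obtain ⟨hσ, hfrob⟩ := h
  have h1 := hfrob (IsLocalRing.residue A ⟨a, ha⟩)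
  rw [← IsLocalRing.ResidueField.residue_smul, ← map_pow, ← sub_eq_zero, ← map_sub,
    IsLocalRing.residue_eq_zero_iff] at h1
  exact coe_mem_nonunits_iff.mpr h1

/-- An element of the inertia group is congruent to the identity on `A`. -/
theorem apply_sub_mem_nonunits_of_mem_inertiaSubgroupIn {A : ValuationSubring L}
    {τ : L ≃ₐ[K] L} (hτ : τ ∈ A.inertiaSubgroupIn K) {a : L} (ha : a ∈ A) :
    τ a - a ∈ A.nonunits := by
  obtain ⟨g, hg, rfl⟩ := hτ
  have hg' : ∀ x : IsLocalRing.ResidueField A, g • x = x := by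
    intro x
    have h2 := congrArg (fun f : RingAut (IsLocalRing.ResidueField A) => f x)
      (MonoidHom.mem_ker.mp hg)
    simpa using h2
  have h1 := hg' (IsLocalRing.residue A ⟨a, ha⟩)
  rw [← IsLocalRing.ResidueField.residue_smul, ← sub_eq_zero, ← map_sub,
    IsLocalRing.residue_eq_zero_iff] at h1
  exact coe_mem_nonunits_iff.mpr h1

/-- **(E1)** A Frobenius lift at `q` raises to the `q`-th power every root of unity whose order is
a unit of `A`. -/
theorem apply_eq_pow_of_isFrobeniusAt {A : ValuationSubring L} {σ : L ≃ₐ[K] L} {q : ℕ}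
    (h : A.IsFrobeniusAt σ q) {ζ : L} {m : ℕ} (hm : (m : L) ∉ A.nonunits) (hζ : ζ ^ m = 1) :
    σ ζ = ζ ^ q := by
  have hm0 := ne_zero_of_natCast_notMem_nonunits A hm
  refine eq_of_sub_mem_nonunits A hm ?_ ?_
    (apply_sub_pow_mem_nonunits_of_isFrobeniusAt h (mem_of_pow_eq_one A hm0 hζ))
  · rw [← map_pow, hζ, map_one]
  · rw [← pow_mul, mul_comm, pow_mul, hζ, one_pow]

/-- **(E1)**, prime form: `A` over `l`, `σ` a Frobenius lift at `l`, `ζ ^ m = 1` with `m` prime to
`l`: then `σ ζ = ζ ^ l`. -/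
theorem apply_eq_pow_of_isFrobeniusAt_of_coprime {A : ValuationSubring L} {σ : L ≃ₐ[K] L}
    {l : ℕ} (hA : A.LiesOverPrime l) (h : A.IsFrobeniusAt σ l) {ζ : L} {m : ℕ}
    (hlm : Nat.Coprime l m) (hζ : ζ ^ m = 1) : σ ζ = ζ ^ l :=
  apply_eq_pow_of_isFrobeniusAt h (natCast_notMem_nonunits_of_coprime A hA hlm) hζ

/-- **(E2)** Inertia fixes every root of unity whose order is a unit of `A`. -/
theorem apply_eq_self_of_mem_inertiaSubgroupIn {A : ValuationSubring L} {τ : L ≃ₐ[K] L}
    (hτ : τ ∈ A.inertiaSubgroupIn K) {ζ : L} {m : ℕ} (hm : (m : L) ∉ A.nonunits)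
    (hζ : ζ ^ m = 1) : τ ζ = ζ := by
  have hm0 := ne_zero_of_natCast_notMem_nonunits A hm
  refine eq_of_sub_mem_nonunits A hm ?_ hζ
    (apply_sub_mem_nonunits_of_mem_inertiaSubgroupIn hτ (mem_of_pow_eq_one A hm0 hζ))
  rw [← map_pow, hζ, map_one]

/-- **(E2)**, prime form: `A` over `q`, `τ` in the inertia group of `A`, `ζ ^ m = 1` with `m`
prime to `q`: then `τ ζ = ζ`. -/
theorem apply_eq_self_of_mem_inertiaSubgroupIn_of_coprime {A : ValuationSubring L}
    {τ : L ≃ₐ[K] L} {q : ℕ} (hA : A.LiesOverPrime q) (hτ : τ ∈ A.inertiaSubgroupIn K) {ζ : L}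
    {m : ℕ} (hqm : Nat.Coprime q m) (hζ : ζ ^ m = 1) : τ ζ = ζ :=
  apply_eq_self_of_mem_inertiaSubgroupIn hτ (natCast_notMem_nonunits_of_coprime A hA hqm) hζ

end FrobInertia


section CycloChar

variable {K L : Type*} [Field K] [Field L] [Algebra K L]

/-- If `p` is a unit of `A`, so is every power of `p`. -/
theorem natCast_pow_notMem_nonunits_of_notMem (A : ValuationSubring L) {p : ℕ}
    (hp : (p : L) ∉ A.nonunits) (n : ℕ) : ((p ^ n : ℕ) : L) ∉ A.nonunits := by
  have h1 : A.valuation (p : L) = 1 := by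
    refine le_antisymm ((A.valuation_le_one_iff _).mpr (natCast_mem A p)) ?_
    exact not_lt.mp (fun hlt => hp (A.mem_nonunits_iff.mpr hlt))
  intro h
  have h2 := A.mem_nonunits_iff.mp h
  rw [Nat.cast_pow, map_pow, h1, one_pow] at h2
  exact lt_irrefl _ h2

/-- Characterisation of the value of the `p`-adic cyclotomic character by its action on the
`p`-power roots of unity: if `g t = t ^ c` for every `p`-power root of unity `t`, then
`cyclotomicCharacter L p g = c`. -/
theorem cyclotomicCharacter_eq_natCast (p : ℕ) [Fact p.Prime]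
    [∀ i, HasEnoughRootsOfUnity L (p ^ i)] (g : L ≃+* L) (c : ℕ)
    (hc : ∀ (n : ℕ) (t : L), t ^ p ^ n = 1 → g t = t ^ c) :
    ((cyclotomicCharacter L p g : ℤ_[p]ˣ) : ℤ_[p]) = (c : ℤ_[p]) := by
  refine PadicInt.ext_of_toZModPow.mp fun n => ?_
  rw [map_natCast]
  obtain ⟨ζ, hζ⟩ := HasEnoughRootsOfUnity.exists_primitiveRoot L (p ^ n)
  have h1 := cyclotomicCharacter.spec p g ζ hζ.pow_eq_one
  rw [hc n ζ hζ.pow_eq_one] at h1
  have h2 : c ≡ ((cyclotomicCharacter L p g).val.toZModPow n).val [MOD p ^ n] := by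
    have hpn : p ^ n ≠ 0 := pow_ne_zero n (Fact.out : p.Prime).ne_zero
    have h3 := (hζ.isOfFinOrder hpn).pow_inj_mod.mp h1
    rw [← hζ.eq_orderOf] at h3
    exact h3
  have h4 := (ZMod.natCast_eq_natCast_iff _ _ _).mpr h2
  rw [ZMod.natCast_zmod_val] at h4
  exact h4.symm

/-- **(E3a)** The `p`-adic cyclotomic character of a Frobenius lift at `q` is `q`, provided `p`
is a unit of `A`. -/
theorem cyclotomicCharacter_of_isFrobeniusAt (p : ℕ) [Fact p.Prime]
    [∀ i, HasEnoughRootsOfUnity L (p ^ i)] {A : ValuationSubring L} {σ : L ≃ₐ[K] L} {q : ℕ}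
    (h : A.IsFrobeniusAt σ q) (hp : (p : L) ∉ A.nonunits) :
    ((cyclotomicCharacter L p σ.toRingEquiv : ℤ_[p]ˣ) : ℤ_[p]) = (q : ℤ_[p]) := by
  refine cyclotomicCharacter_eq_natCast p σ.toRingEquiv q fun n t ht => ?_
  exact apply_eq_pow_of_isFrobeniusAt h (natCast_pow_notMem_nonunits_of_notMem A hp n)
    (by simpa using ht)

/-- **(E3a)**, prime form: `A` over the prime `l ≠ p`, `σ` a Frobenius lift at `l`: then
`cyclotomicCharacter L p σ = l`. -/
theorem cyclotomicCharacter_of_isFrobeniusAt_of_ne (p : ℕ) [Fact p.Prime]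
    [∀ i, HasEnoughRootsOfUnity L (p ^ i)] {A : ValuationSubring L} {σ : L ≃ₐ[K] L} {l : ℕ}
    (hl : l.Prime) (hlp : l ≠ p) (hA : A.LiesOverPrime l) (h : A.IsFrobeniusAt σ l) :
    ((cyclotomicCharacter L p σ.toRingEquiv : ℤ_[p]ˣ) : ℤ_[p]) = (l : ℤ_[p]) :=
  cyclotomicCharacter_of_isFrobeniusAt p h
    (natCast_notMem_nonunits_of_coprime A hA
      ((Nat.coprime_primes hl (Fact.out : p.Prime)).mpr hlp))

/-- **(E3b)** The `p`-adic cyclotomic character is trivial on the inertia group of `A`, provided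
`p` is a unit of `A`. -/
theorem cyclotomicCharacter_of_mem_inertiaSubgroupIn (p : ℕ) [Fact p.Prime]
    [∀ i, HasEnoughRootsOfUnity L (p ^ i)] {A : ValuationSubring L} {τ : L ≃ₐ[K] L}
    (hτ : τ ∈ A.inertiaSubgroupIn K) (hp : (p : L) ∉ A.nonunits) :
    cyclotomicCharacter L p τ.toRingEquiv = 1 := by
  apply Units.ext
  have h1 := cyclotomicCharacter_eq_natCast p τ.toRingEquiv 1 fun n t ht => by
    rw [pow_one]
    exact apply_eq_self_of_mem_inertiaSubgroupIn hτ
      (natCast_pow_notMem_nonunits_of_notMem A hp n) (by simpa using ht)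
  simpa using h1

/-- **(E3b)**, prime form: `A` over the prime `q ≠ p`, `τ` in the inertia group of `A`: then
`cyclotomicCharacter L p τ = 1`. -/
theorem cyclotomicCharacter_of_mem_inertiaSubgroupIn_of_ne (p : ℕ) [Fact p.Prime]
    [∀ i, HasEnoughRootsOfUnity L (p ^ i)] {A : ValuationSubring L} {τ : L ≃ₐ[K] L} {q : ℕ}
    (hq : q.Prime) (hqp : q ≠ p) (hA : A.LiesOverPrime q) (hτ : τ ∈ A.inertiaSubgroupIn K) :
    cyclotomicCharacter L p τ.toRingEquiv = 1 :=
  cyclotomicCharacter_of_mem_inertiaSubgroupIn p hτ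
    (natCast_notMem_nonunits_of_coprime A hA
      ((Nat.coprime_primes hq (Fact.out : p.Prime)).mpr hqp))

/-- **(E4)** Level of the cyclotomic character: modulo `p ^ n` it is trivial on the automorphisms
fixing a suitable finite subextension (generated by a primitive `p ^ n`-th root of unity). -/
theorem exists_level_cyclotomicCharacter (p : ℕ) [Fact p.Prime]
    [∀ i, HasEnoughRootsOfUnity L (p ^ i)] (n : ℕ) :
    ∃ F : IntermediateField K L, FiniteDimensional K F ∧
      ∀ σ : L ≃ₐ[K] L, (∀ x ∈ F, σ x = x) →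
        PadicInt.toZModPow n ((cyclotomicCharacter L p σ.toRingEquiv : ℤ_[p]ˣ) : ℤ_[p]) = 1 := by
  obtain ⟨ζ, hζ⟩ := HasEnoughRootsOfUnity.exists_primitiveRoot L (p ^ n)
  have hpn : 0 < p ^ n := pow_pos (Fact.out : p.Prime).pos n
  refine ⟨IntermediateField.adjoin K {ζ},
    IntermediateField.adjoin.finiteDimensional (hζ.isIntegral hpn).tower_top, fun σ hσ => ?_⟩
  have hfix : σ ζ = ζ := hσ ζ (IntermediateField.mem_adjoin_simple_self K ζ)
  have h1 := cyclotomicCharacter.spec p σ.toRingEquiv ζ hζ.pow_eq_one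
  have h1' : ζ ^ 1 = ζ ^ ((cyclotomicCharacter L p σ.toRingEquiv).val.toZModPow n).val := by
    rw [pow_one, ← h1]
    exact hfix.symm
  have h2 : 1 ≡ ((cyclotomicCharacter L p σ.toRingEquiv).val.toZModPow n).val [MOD p ^ n] := by
    have h3 := (hζ.isOfFinOrder hpn.ne').pow_inj_mod.mp h1'
    rw [← hζ.eq_orderOf] at h3
    exact h3
  have h4 := (ZMod.natCast_eq_natCast_iff _ _ _).mpr h2
  rw [ZMod.natCast_zmod_val, Nat.cast_one] at h4
  exact h4.symm

end CycloChar


/-! ## Specialisation to `AlgebraicClosure ℚ` (the vocabulary of the frozen statements) -/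

section Qbar

/-- **(E1) over `ℚ̄`.** -/
theorem frobenius_apply_rootOfUnity {l : ℕ} {A : ValuationSubring (AlgebraicClosure ℚ)}
    (hA : A.LiesOverPrime l) {σ : AlgebraicClosure ℚ ≃ₐ[ℚ] AlgebraicClosure ℚ}
    (hσ : A.IsFrobeniusAt σ l) {m : ℕ} (hlm : Nat.Coprime l m) {ζ : AlgebraicClosure ℚ}
    (hζ : ζ ^ m = 1) : σ ζ = ζ ^ l :=
  apply_eq_pow_of_isFrobeniusAt_of_coprime hA hσ hlm hζ

/-- **(E2) over `ℚ̄`.** -/
theorem inertia_apply_rootOfUnity {q : ℕ} {A : ValuationSubring (AlgebraicClosure ℚ)}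
    (hA : A.LiesOverPrime q) {τ : AlgebraicClosure ℚ ≃ₐ[ℚ] AlgebraicClosure ℚ}
    (hτ : τ ∈ A.inertiaSubgroupIn ℚ) {m : ℕ} (hqm : Nat.Coprime q m) {ζ : AlgebraicClosure ℚ}
    (hζ : ζ ^ m = 1) : τ ζ = ζ :=
  apply_eq_self_of_mem_inertiaSubgroupIn_of_coprime hA hτ hqm hζ

/-- **(E3a) over `ℚ̄`**: the `p`-adic cyclotomic character of a Frobenius lift at `l ≠ p` is
`l`. -/
theorem cyclotomicCharacter_frobenius (p : ℕ) [Fact p.Prime] {l : ℕ} (hl : l.Prime)
    (hlp : l ≠ p) {A : ValuationSubring (AlgebraicClosure ℚ)} (hA : A.LiesOverPrime l)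
    {σ : AlgebraicClosure ℚ ≃ₐ[ℚ] AlgebraicClosure ℚ} (hσ : A.IsFrobeniusAt σ l) :
    ((cyclotomicCharacter (AlgebraicClosure ℚ) p σ.toRingEquiv : ℤ_[p]ˣ) : ℤ_[p])
      = (l : ℤ_[p]) :=
  cyclotomicCharacter_of_isFrobeniusAt_of_ne p hl hlp hA hσ

/-- **(E3b) over `ℚ̄`**: the `p`-adic cyclotomic character is trivial on inertia at `q ≠ p`. -/
theorem cyclotomicCharacter_inertia (p : ℕ) [Fact p.Prime] {q : ℕ} (hq : q.Prime)
    (hqp : q ≠ p) {A : ValuationSubring (AlgebraicClosure ℚ)} (hA : A.LiesOverPrime q)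
    {τ : AlgebraicClosure ℚ ≃ₐ[ℚ] AlgebraicClosure ℚ} (hτ : τ ∈ A.inertiaSubgroupIn ℚ) :
    cyclotomicCharacter (AlgebraicClosure ℚ) p τ.toRingEquiv = 1 :=
  cyclotomicCharacter_of_mem_inertiaSubgroupIn_of_ne p hq hqp hA hτ

/-- **(E4) over `ℚ̄`**: level of the cyclotomic character modulo `p ^ n`. -/
theorem cyclotomicCharacter_level (p : ℕ) [Fact p.Prime] (n : ℕ) :
    ∃ F : IntermediateField ℚ (AlgebraicClosure ℚ), FiniteDimensional ℚ F ∧
      ∀ σ : AlgebraicClosure ℚ ≃ₐ[ℚ] AlgebraicClosure ℚ, (∀ x ∈ F, σ x = x) →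
        PadicInt.toZModPow n
          ((cyclotomicCharacter (AlgebraicClosure ℚ) p σ.toRingEquiv : ℤ_[p]ˣ) : ℤ_[p]) = 1 :=
  exists_level_cyclotomicCharacter p n

/-- The Prelude's mod-`p` cyclotomic character `ExtCitation.cycloChar p` at a Frobenius lift at
`l ≠ p` is `l`. -/
theorem cycloChar_frobenius (p : ℕ) [Fact p.Prime] {l : ℕ} (hl : l.Prime) (hlp : l ≠ p)
    {A : ValuationSubring (AlgebraicClosure ℚ)} (hA : A.LiesOverPrime l)
    {σ : AlgebraicClosure ℚ ≃ₐ[ℚ] AlgebraicClosure ℚ} (hσ : A.IsFrobeniusAt σ l) :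
    ((ExtCitation.cycloChar p σ : (ZMod p)ˣ) : ZMod p) = (l : ZMod p) := by
  have : NeZero p := ⟨(Fact.out : p.Prime).ne_zero⟩
  symm
  refine modularCyclotomicCharacter.unique (AlgebraicClosure ℚ)
    (ExtCitation.card_rootsOfUnity_eq_self p) (σ : AlgebraicClosure ℚ ≃+* AlgebraicClosure ℚ) ?_
  intro t ht
  have ht' : (t : AlgebraicClosure ℚ) ^ p = 1 := by
    have h0 := (mem_rootsOfUnity p t).mp ht
    simpa using congrArg Units.val h0
  have h1 := apply_eq_pow_of_isFrobeniusAt_of_coprime hA hσ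
    ((Nat.coprime_primes hl (Fact.out : p.Prime)).mpr hlp) ht'
  rw [ZMod.val_natCast, ← pow_eq_pow_mod l ht']
  exact h1

/-- The Prelude's mod-`p` cyclotomic character `ExtCitation.cycloChar p` is trivial on inertia at
`q ≠ p`. -/
theorem cycloChar_inertia (p : ℕ) [Fact p.Prime] {q : ℕ} (hq : q.Prime) (hqp : q ≠ p)
    {A : ValuationSubring (AlgebraicClosure ℚ)} (hA : A.LiesOverPrime q)
    {τ : AlgebraicClosure ℚ ≃ₐ[ℚ] AlgebraicClosure ℚ} (hτ : τ ∈ A.inertiaSubgroupIn ℚ) :
    ExtCitation.cycloChar p τ = 1 := by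
  have : NeZero p := ⟨(Fact.out : p.Prime).ne_zero⟩
  apply Units.ext
  symm
  refine modularCyclotomicCharacter.unique (AlgebraicClosure ℚ)
    (ExtCitation.card_rootsOfUnity_eq_self p) (τ : AlgebraicClosure ℚ ≃+* AlgebraicClosure ℚ) ?_
  intro t ht
  have ht' : (t : AlgebraicClosure ℚ) ^ p = 1 := by
    have h0 := (mem_rootsOfUnity p t).mp ht
    simpa using congrArg Units.val h0
  have h1 := apply_eq_self_of_mem_inertiaSubgroupIn_of_coprime hA hτ
    ((Nat.coprime_primes hq (Fact.out : p.Prime)).mpr hqp) ht'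
  rw [Units.val_one, ZMod.val_one'' (Fact.out : p.Prime).ne_one, pow_one]
  exact h1

end Qbar

end Fermat.Agent.S30.helper3994
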