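import Fermat.Agent.S30.helper831_Wiring
import Fermat.Agent.S29.helper405_ESFinal
import Fermat.Agent.S18.helper789_LineInst

/-!
# S30 machine export (helper54, S30 captain): `(U)` and `(ES)` are theorems

The two machine statements of `S30/helper831_Wiring` about `J₀(N)` at the good primes,
unconditionally, for every consumer of the S30 core (S33, S34, S35, S36, S48):

* `stmt_KF0All : S29.helper405.Stmt_KF0All`  (the S18 export, the same term as in the landed
  `Fermat/Agent/S30.lean`);
* `stmt_UMod  : helper831.Stmt_UMod`,  `stmt_ESMod  : helper831.Stmt_ESMod`  (any modulus `m`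
  prime to `ℓ`, every `ℓ ∤ N`);
* `stmt_UPow  : helper831.Stmt_UPow`,  `stmt_ESPow  : helper831.Stmt_ESPow`  (`p`-power torsion,
  every `ℓ ∤ N p`).

Every import of this file lies in the frozen closure of `Fermat/Agent/S30.lean`; this file itself
is final as landed (additions go to new files).
-/

set_option autoImplicit false

namespace Fermat.Agent.S30.helper54

/-- The S18 export: the Kummer field form `Stmt_KF0` at every level and every good prime. -/
theorem stmt_KF0All : Fermat.Agent.S29.helper405.Stmt_KF0All := fun N _ ℓ hℓ hℓN =>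
  Fermat.Agent.S18.helper2118.kf0_of_kfr Fermat.Agent.S18.helper789.stmt_KFr_two
    Fermat.Agent.S18.helper789.stmt_KFr_three N ℓ hℓ hℓN

/-- **(U), any modulus**: inertia at `ℓ ∤ N m` acts trivially on `J₀(N)[m]`. -/
theorem stmt_UMod : Fermat.Agent.S30.helper831.Stmt_UMod :=
  Fermat.Agent.S29.helper405.stmt_UMod_of_kf0 stmt_KF0All

/-- **(ES), any modulus**: `σ² − T_ℓ σ + ℓ = 0` on `J₀(N)[m]` for every Frobenius lift `σ` at
`ℓ ∤ N m`. -/
theorem stmt_ESMod : Fermat.Agent.S30.helper831.Stmt_ESMod :=
  Fermat.Agent.S29.helper405.stmt_ESMod_of_kf0 stmt_KF0All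

/-- **(U) on `p`-power torsion**, at every `ℓ ∤ N p`. -/
theorem stmt_UPow : Fermat.Agent.S30.helper831.Stmt_UPow :=
  Fermat.Agent.S30.helper831.stmt_UPow_of_mod stmt_UMod

/-- **(ES) on `p`-power torsion**, at every Frobenius lift at every `ℓ ∤ N p`. -/
theorem stmt_ESPow : Fermat.Agent.S30.helper831.Stmt_ESPow :=
  Fermat.Agent.S30.helper831.stmt_ESPow_of_mod stmt_ESMod

end Fermat.Agent.S30.helper54
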