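import Mathlib
import Fermat.Prelude.Def_CuspForm_HeckeGaloisRepDatum

/-!
# S30 (Galois representation attached to a point of the weight-2 Hecke algebra): interface file

Architect proposal (helper54), findings rows #2153 / #2276.

The frozen statement is split along ONE interface, `EigenDatum`:

* **geometric side** (`Stmt_Eigen`): from the `p`-adic Tate module of `JZero N` (Kummer classes of
  the function field of `X₀(N)` at levels `p ^ n`), the frozen S37 statement and the comparison with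
  the cocycle lattice, produce a NONZERO finite free `𝒪'`-module with a continuous Galois action,
  unramified outside `N p`, on which every Frobenius lift at `ℓ ∉ S` satisfies
  `σ² - χ(T_ℓ) σ + ℓ = 0`.  No rank, multiplicity-one or pairing statement is required.
* **algebraic side** (`Stmt_Core`): from such a module and generator-Chebotarev
  (`Stmt_GenCheb`, the S29 / Lib module), extract a rank-two lattice over a finite extension
  `𝒪''` with the exact characteristic polynomials.  Pure algebra; no modular curves.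

`result_of` derives the frozen statement from the three Props.
-/

set_option autoImplicit false

open Polynomial

namespace Fermat.Agent.S30.helper54

/-- The absolute Galois group of `ℚ`. -/
abbrev Gal : Type := AlgebraicClosure ℚ ≃ₐ[ℚ] AlgebraicClosure ℚ

/-- **Eigen-datum** with Frobenius eigenvalues `a ℓ` over a local ring `R`: a nonzero finite free
`R`-module with an adically continuous action of `G_ℚ`, unramified at the primes not dividing
`N p`, such that every Frobenius lift `σ` at a prime `ℓ ∉ S`, `ℓ ∤ N`, satisfies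
`σ² - a ℓ • σ + ℓ = 0`. -/
def EigenDatum (p N : ℕ) (S : Finset ℕ) (R : Type) [CommRing R] [IsLocalRing R] (a : ℕ → R) :
    Prop :=
  ∃ (M : Type) (_ : AddCommGroup M) (_ : Module R M) (_ : Module.Free R M) (_ : Module.Finite R M)
    (ρ : Gal →* Module.End R M),
    Nontrivial M ∧ GaloisActionIsAdicContinuous R ρ ∧
    (∀ q : ℕ, q.Prime → ¬ q ∣ N → q ≠ p →
      ∀ A : ValuationSubring (AlgebraicClosure ℚ), A.LiesOverPrime q →
        ∀ σ ∈ A.inertiaSubgroupIn ℚ, ρ σ = 1) ∧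
    (∀ ℓ : ℕ, ℓ.Prime → ¬ ℓ ∣ N → ℓ ∉ S →
      ∀ A : ValuationSubring (AlgebraicClosure ℚ), A.LiesOverPrime ℓ →
        ∀ σ : Gal, A.IsFrobeniusAt σ ℓ → ρ σ * ρ σ - a ℓ • ρ σ + (ℓ : R) • 1 = 0)

/-- The eigenvalue function attached to a point `χ` of the Hecke algebra (junk value `0` at the
primes in `S`, at the primes dividing `N` and at non-primes). -/
noncomputable def eigenvalue {N : ℕ} [NeZero N] {S : Finset ℕ} {R : Type} [CommRing R]
    (χ : CuspForm.heckeAlgebra N 2 (↑S : Set ℕ) →+* R) (ℓ : ℕ) : R :=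
  open Classical in
  if h : ℓ.Prime ∧ ¬ ℓ ∣ N ∧ ℓ ∉ (↑S : Set ℕ) then χ (CuspForm.heckeAlgebra.T h.1 h.2.1 h.2.2)
  else 0

theorem eigenvalue_eq {N : ℕ} [NeZero N] {S : Finset ℕ} {R : Type} [CommRing R]
    (χ : CuspForm.heckeAlgebra N 2 (↑S : Set ℕ) →+* R) {ℓ : ℕ} (hℓ : ℓ.Prime) (hℓN : ¬ ℓ ∣ N)
    (hℓS : ℓ ∉ (↑S : Set ℕ)) :
    eigenvalue χ ℓ = χ (CuspForm.heckeAlgebra.T hℓ hℓN hℓS) := by
  unfold eigenvalue
  rw [dif_pos ⟨hℓ, hℓN, hℓS⟩]

/-- **Geometric side**: every point of the Hecke algebra with values in a complete DVR has an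
eigen-datum over that DVR. -/
def Stmt_Eigen : Prop :=
  ∀ (p : ℕ) [Fact p.Prime] (N : ℕ) [NeZero N] (S : Finset ℕ)
    (_hpS : p ∈ S) (_hNS : ∀ q : ℕ, q.Prime → q ∣ N → q ∈ S)
    (𝒪' : Type) [CommRing 𝒪'] [IsDomain 𝒪'] [IsDiscreteValuationRing 𝒪']
    [IsAdicComplete (IsLocalRing.maximalIdeal 𝒪') 𝒪'] [Finite (IsLocalRing.ResidueField 𝒪')]
    [CharZero 𝒪'] (_hp𝒪' : (p : 𝒪') ∈ IsLocalRing.maximalIdeal 𝒪')
    (χ : CuspForm.heckeAlgebra N 2 (↑S : Set ℕ) →+* 𝒪'),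
    EigenDatum p N S 𝒪' (eigenvalue χ)

/-- **Generator-Chebotarev** (shape of the S29 / Lib modules `exists_frobenius_pow_eq`,
`exists_frobenius_generator`): at every finite level every element of `G_ℚ` is a power of a
Frobenius lift at a prime outside a given finite set. -/
def Stmt_GenCheb : Prop :=
  ∀ (L : IntermediateField ℚ (AlgebraicClosure ℚ)) [FiniteDimensional ℚ L] (T : Finset ℕ)
    (g : Gal),
    ∃ (ℓ : ℕ) (A : ValuationSubring (AlgebraicClosure ℚ)) (σ : Gal) (n : ℕ),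
      ℓ.Prime ∧ ℓ ∉ T ∧ A.LiesOverPrime ℓ ∧ A.IsFrobeniusAt σ ℓ ∧ ∀ x ∈ L, (σ ^ n) x = g x

/-- The conclusion of the frozen statement for a family of eigenvalues `a`. -/
def Conclusion (p N : ℕ) (S : Finset ℕ) (𝒪' : Type) [CommRing 𝒪'] (a : ℕ → 𝒪') : Prop :=
  ∃ (𝒪'' : Type) (_ : CommRing 𝒪'') (_ : IsDomain 𝒪'') (_ : IsDiscreteValuationRing 𝒪'')
    (_ : IsAdicComplete (IsLocalRing.maximalIdeal 𝒪'') 𝒪'')
    (_ : Finite (IsLocalRing.ResidueField 𝒪'')) (_ : CharZero 𝒪'')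
    (_ : Algebra 𝒪' 𝒪'') (_ : Module.Finite 𝒪' 𝒪'') (_ : IsLocalHom (algebraMap 𝒪' 𝒪'')),
    Function.Injective (algebraMap 𝒪' 𝒪'') ∧
    ∃ ρ : GaloisRepAdic 𝒪'',
      (∀ ℓ : ℕ, ℓ.Prime → ¬ ℓ ∣ N → ℓ ∉ (↑S : Set ℕ) →
        ∀ A : ValuationSubring (AlgebraicClosure ℚ), A.LiesOverPrime ℓ →
          ∀ σ : AlgebraicClosure ℚ ≃ₐ[ℚ] AlgebraicClosure ℚ, A.IsFrobeniusAt σ ℓ →
            LinearMap.charpoly (ρ.ρ σ) =
              X ^ 2 - C (algebraMap 𝒪' 𝒪'' (a ℓ)) * X + C ((ℓ : 𝒪''))) ∧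
      (∀ q : ℕ, q.Prime → ¬ q ∣ N → q ≠ p → ρ.IsUnramifiedAt q)

/-- **Algebraic side**: an eigen-datum over a complete DVR of characteristic zero with finite
residue field of characteristic `p` gives a two-dimensional representation over a finite
extension with the exact Frobenius characteristic polynomials. -/
def Stmt_Core : Prop :=
  ∀ (p : ℕ) [Fact p.Prime] (N : ℕ) (S : Finset ℕ) (_hpS : p ∈ S)
    (𝒪' : Type) [CommRing 𝒪'] [IsDomain 𝒪'] [IsDiscreteValuationRing 𝒪']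
    [IsAdicComplete (IsLocalRing.maximalIdeal 𝒪') 𝒪'] [Finite (IsLocalRing.ResidueField 𝒪')]
    [CharZero 𝒪'] (_hp𝒪' : (p : 𝒪') ∈ IsLocalRing.maximalIdeal 𝒪') (a : ℕ → 𝒪'),
    Stmt_GenCheb → EigenDatum p N S 𝒪' a → Conclusion p N S 𝒪' a

/-- The frozen statement S30 follows from the three interface statements. -/
theorem result_of (hE : Stmt_Eigen) (hC : Stmt_Core) (hG : Stmt_GenCheb) :
    ∀ (p : ℕ) [Fact p.Prime] (N : ℕ) [NeZero N] (S : Finset ℕ)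
      (_hpS : p ∈ S) (_hNS : ∀ q : ℕ, q.Prime → q ∣ N → q ∈ S)
      (𝒪' : Type) [CommRing 𝒪'] [IsDomain 𝒪'] [IsDiscreteValuationRing 𝒪']
      [IsAdicComplete (IsLocalRing.maximalIdeal 𝒪') 𝒪'] [Finite (IsLocalRing.ResidueField 𝒪')]
      [CharZero 𝒪'] (_hp𝒪' : (p : 𝒪') ∈ IsLocalRing.maximalIdeal 𝒪')
      (χ : CuspForm.heckeAlgebra N 2 (↑S : Set ℕ) →+* 𝒪'),
      ∃ (𝒪'' : Type) (_ : CommRing 𝒪'') (_ : IsDomain 𝒪'') (_ : IsDiscreteValuationRing 𝒪'')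
        (_ : IsAdicComplete (IsLocalRing.maximalIdeal 𝒪'') 𝒪'')
        (_ : Finite (IsLocalRing.ResidueField 𝒪'')) (_ : CharZero 𝒪'')
        (_ : Algebra 𝒪' 𝒪'') (_ : Module.Finite 𝒪' 𝒪'') (_ : IsLocalHom (algebraMap 𝒪' 𝒪'')),
      Function.Injective (algebraMap 𝒪' 𝒪'') ∧
      ∃ ρ : GaloisRepAdic 𝒪'',
        (∀ (ℓ : ℕ) (hℓ : ℓ.Prime) (hℓN : ¬ ℓ ∣ N) (hℓS : ℓ ∉ (↑S : Set ℕ)),
          ∀ A : ValuationSubring (AlgebraicClosure ℚ), A.LiesOverPrime ℓ →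
            ∀ σ : AlgebraicClosure ℚ ≃ₐ[ℚ] AlgebraicClosure ℚ, A.IsFrobeniusAt σ ℓ →
              LinearMap.charpoly (ρ.ρ σ) =
                X ^ 2 - C (algebraMap 𝒪' 𝒪'' (χ (CuspForm.heckeAlgebra.T hℓ hℓN hℓS))) * X
                  + C ((ℓ : 𝒪''))) ∧
        (∀ q : ℕ, q.Prime → ¬ q ∣ N → q ≠ p → ρ.IsUnramifiedAt q) := by
  intro p _ N _ S hpS hNS 𝒪' _ _ _ _ _ _ hp𝒪' χ
  obtain ⟨𝒪'', i1, i2, i3, i4, i5, i6, i7, i8, i9, hinj, ρ, hρ, hunr⟩ :=
    hC p N S hpS 𝒪' hp𝒪' (eigenvalue χ) hG (hE p N S hpS hNS 𝒪' hp𝒪' χ)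
  refine ⟨𝒪'', i1, i2, i3, i4, i5, i6, i7, i8, i9, hinj, ρ, ?_, hunr⟩
  intro ℓ hℓ hℓN hℓS A hA σ hσ
  rw [hρ ℓ hℓ hℓN hℓS A hA σ hσ, eigenvalue_eq χ hℓ hℓN hℓS]

end Fermat.Agent.S30.helper54
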