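import Mathlib
import Fermat.Agent.S30.helper54_Spec
import Fermat.Agent.S37.helper8353_Top

/-!
# S30, geometric instance of `Stmt_Eigen` (leaf E2)

`helper54.Stmt_Eigen` (the geometric side of the frozen S30) is split along ONE abstract interface,
`JDatum`:

* `Stmt_E1` (geometry-free): an abstract abelian group `J` with a Galois action and additive
  operators `τ ℓ`, with finite `p`-torsion, open stabilisers on `p`-power torsion, trivial inertia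
  and the Eichler–Shimura relation on `p`-power torsion, together with a lattice `Λ` carrying a
  faithful action of a commutative ring `R` and level-wise equivariant injections
  `Λ / p ^ n → J[p ^ n]` compatible in `n`, gives an `EigenDatum` (Tate module, base change to
  `𝒪'`, eigen-lattice, occurrence).
* machine statements about `J := JZero N`, `τ ℓ := heckeOperatorBar N ℓ`, all OPERATOR-WISE
  (no `HeckeOperatorsCommuteBar`, no `heckeModuleBar`, no `SMulCommClass`).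

`stmt_Eigen_of` derives `helper54.Stmt_Eigen` from these.
-/

set_option autoImplicit false

namespace Fermat.Agent.S30.helper1094

open Fermat.Agent.S30.helper54 ModularCurve

/-- **Abstract Jacobian datum.**  No cardinality of `J[p ^ n]`, no surjectivity of the level maps,
no commutation of the `τ ℓ` among themselves, no Hecke-module structure on `J`. -/
def JDatum (p N : ℕ) (S : Finset ℕ) (𝒪' : Type) [CommRing 𝒪'] (a : ℕ → 𝒪') : Prop :=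
  ∃ (J : Type) (_ : AddCommGroup J) (_ : DistribMulAction Gal J) (τ : ℕ → J →+ J),
    -- (fin) finitely many `p`-torsion points
    Set.Finite {x : J | p • x = 0} ∧
    -- (lev) open stabilisers on `p`-power torsion
    (∀ x : J, (∃ n : ℕ, p ^ n • x = 0) →
      ∃ L : IntermediateField ℚ (AlgebraicClosure ℚ), FiniteDimensional ℚ L ∧
        ∀ σ : Gal, (∀ y ∈ L, σ y = y) → σ • x = x) ∧
    -- (comm) the operators commute with the Galois action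
    (∀ ℓ : ℕ, ℓ.Prime → ¬ ℓ ∣ N → ℓ ∉ S → ∀ (σ : Gal) (x : J), σ • τ ℓ x = τ ℓ (σ • x)) ∧
    -- (unr) inertia at `q ∤ N p` acts trivially on `p`-power torsion
    (∀ q : ℕ, q.Prime → ¬ q ∣ N → q ≠ p →
      ∀ A : ValuationSubring (AlgebraicClosure ℚ), A.LiesOverPrime q →
        ∀ σ ∈ A.inertiaSubgroupIn ℚ, ∀ x : J, (∃ n : ℕ, p ^ n • x = 0) → σ • x = x) ∧
    -- (frob) Eichler–Shimura relation on `p`-power torsion
    (∀ ℓ : ℕ, ℓ.Prime → ¬ ℓ ∣ N → ℓ ∉ S →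
      ∀ A : ValuationSubring (AlgebraicClosure ℚ), A.LiesOverPrime ℓ →
        ∀ σ : Gal, A.IsFrobeniusAt σ ℓ → ∀ x : J, (∃ n : ℕ, p ^ n • x = 0) →
          σ • σ • x - τ ℓ (σ • x) + ℓ • x = 0) ∧
    -- (occ) a lattice with a faithful ring action and level-wise equivariant injections
    ∃ (Λ : Type) (_ : AddCommGroup Λ) (_ : Module.Free ℤ Λ) (_ : Module.Finite ℤ Λ)
      (R : Type) (_ : CommRing R) (_ : Module R Λ) (t : ℕ → R) (χ : R →+* 𝒪')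
      (ι : ℕ → Λ →+ J),
      (∀ r : R, (∀ x : Λ, r • x = 0) → r = 0) ∧
      (∀ ℓ : ℕ, ℓ.Prime → ¬ ℓ ∣ N → ℓ ∉ S → χ (t ℓ) = a ℓ) ∧
      (∀ (n : ℕ) (x : Λ), p ^ n • ι n x = 0) ∧
      (∀ (n : ℕ) (x : Λ), ι n x = 0 → ∃ y : Λ, x = p ^ n • y) ∧
      (∀ (n : ℕ) (x : Λ), p • ι (n + 1) x = ι n x) ∧
      (∀ ℓ : ℕ, ℓ.Prime → ¬ ℓ ∣ N → ℓ ∉ S → ∀ (n : ℕ) (x : Λ), ι n (t ℓ • x) = τ ℓ (ι n x))

/-- **E1** (geometry-free): an abstract Jacobian datum gives an eigen-datum. -/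
def Stmt_E1 : Prop :=
  ∀ (p : ℕ) [Fact p.Prime] (N : ℕ) (S : Finset ℕ) (_hpS : p ∈ S)
    (𝒪' : Type) [CommRing 𝒪'] [IsDomain 𝒪'] [IsDiscreteValuationRing 𝒪']
    [IsAdicComplete (IsLocalRing.maximalIdeal 𝒪') 𝒪'] [Finite (IsLocalRing.ResidueField 𝒪')]
    [CharZero 𝒪'] (_hp𝒪' : (p : 𝒪') ∈ IsLocalRing.maximalIdeal 𝒪') (a : ℕ → 𝒪'),
    JDatum p N S 𝒪' a → EigenDatum p N S 𝒪' a

/-! ### Machine statements for `JZero N` (operator-wise) -/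

/-- `J₀(N)[p]` is finite. -/
def Stmt_TorsFin : Prop :=
  ∀ (N : ℕ) [NeZero N] (p : ℕ) [Fact p.Prime], Set.Finite {x : JZero N | p • x = 0}

/-- Every point of `J₀(N)` is fixed by an open subgroup of `G_ℚ`. -/
def Stmt_FinLevel : Prop :=
  ∀ (N : ℕ) [NeZero N] (x : JZero N),
    ∃ L : IntermediateField ℚ (AlgebraicClosure ℚ), FiniteDimensional ℚ L ∧
      ∀ σ : Gal, (∀ y ∈ L, σ y = y) → σ • x = x

/-- The Hecke operators commute with the Galois action (operator-wise). -/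
def Stmt_GalHecke : Prop :=
  ∀ (N : ℕ) [NeZero N] (ℓ : Nat.Primes) (σ : Gal) (x : JZero N),
    σ • heckeOperatorBar N ℓ x = heckeOperatorBar N ℓ (σ • x)

/-- The S37 back end (subgroup form of `helper8353`), for all levels and primes. -/
def Stmt_S37Core : Prop :=
  ∀ (N : ℕ) [NeZero N] (p : ℕ) [Fact p.Prime], Fermat.Agent.S37.helper8353.Stmt_Core N p

/-- The lattice of integral parabolic homomorphisms at all levels `p ^ n`: a finite free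
`ℤ`-module with a faithful action of the anemic Hecke algebra and Hecke-equivariant injections
`Λ / p ^ n → J₀(N)[p ^ n]`, compatible in `n`. -/
def Stmt_LatticeLevel : Prop :=
  ∀ (N : ℕ) [NeZero N] (p : ℕ) [Fact p.Prime] (S : Finset ℕ), p ∈ S →
    (∀ q : ℕ, q.Prime → q ∣ N → q ∈ S) →
    ∃ (Λ : Type) (_ : AddCommGroup Λ) (_ : Module.Free ℤ Λ) (_ : Module.Finite ℤ Λ)
      (_ : Module (CuspForm.heckeAlgebra N 2 (↑S : Set ℕ)) Λ) (ι : ℕ → Λ →+ JZero N),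
      (∀ r : CuspForm.heckeAlgebra N 2 (↑S : Set ℕ), (∀ x : Λ, r • x = 0) → r = 0) ∧
      (∀ (n : ℕ) (x : Λ), p ^ n • ι n x = 0) ∧
      (∀ (n : ℕ) (x : Λ), ι n x = 0 → ∃ y : Λ, x = p ^ n • y) ∧
      (∀ (n : ℕ) (x : Λ), p • ι (n + 1) x = ι n x) ∧
      (∀ (ℓ : ℕ) (hℓ : ℓ.Prime) (hℓN : ¬ ℓ ∣ N) (hℓS : ℓ ∉ (↑S : Set ℕ)) (n : ℕ) (x : Λ),
        ι n ((CuspForm.heckeAlgebra.T hℓ hℓN hℓS : CuspForm.heckeAlgebra N 2 (↑S : Set ℕ)) • x) =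
          heckeOperatorBar N ⟨ℓ, hℓ⟩ (ι n x))

/-! ### Consequences of the S37 back end on `p`-power torsion -/

section S37

open Fermat.Agent.S37.helper8353

variable {N : ℕ} [NeZero N] {p : ℕ}

/-- The Galois action commutes with multiplication by natural numbers. -/
theorem gal_nsmul (σ : Gal) (n : ℕ) (x : JZero N) : σ • (n • x) = n • (σ • x) :=
  map_nsmul (DistribMulAction.toAddMonoidHom (JZero N) σ) n x

theorem gal_zero (σ : Gal) : σ • (0 : JZero N) = 0 :=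
  map_zero (DistribMulAction.toAddMonoidHom (JZero N) σ)

/-- Inertia at `ℓ ∤ N p` fixes the `p`-power torsion of `J₀(N)`. -/
theorem inertia_smul_eq (h : Stmt_Core N p) {ℓ : ℕ} (hℓ : ℓ.Prime) (hℓNp : ¬ ℓ ∣ N * p)
    (A : ValuationSubring (AlgebraicClosure ℚ)) (hA : A.LiesOverPrime ℓ)
    {τ : Gal} (hτ : τ ∈ A.inertiaSubgroupIn ℚ) (x : JZero N) (hx : ∃ n : ℕ, p ^ n • x = 0) :
    τ • x = x := by
  obtain ⟨σ, -, hσ⟩ := h ℓ hℓ hℓNp A hA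
  obtain ⟨n, hn⟩ := hx
  have hmem : τ • x - x ∈ relBar N A ⟨ℓ, hℓ⟩ σ :=
    AddSubgroup.subset_closure (Or.inl ⟨τ, hτ, x, rfl⟩)
  have htor : p ^ n • (τ • x - x) = 0 := by
    rw [nsmul_sub, ← gal_nsmul, hn, gal_zero, sub_zero]
  exact sub_eq_zero.mp (hσ _ hmem ⟨n, htor⟩)

/-- The Eichler–Shimura relation on the `p`-power torsion of `J₀(N)`, for EVERY Frobenius
element at `A`. -/
theorem frobenius_relation (h : Stmt_Core N p) {ℓ : ℕ} (hℓ : ℓ.Prime) (hℓNp : ¬ ℓ ∣ N * p)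
    (A : ValuationSubring (AlgebraicClosure ℚ)) (hA : A.LiesOverPrime ℓ)
    {σ : Gal} (hσ : A.IsFrobeniusAt σ ℓ) (x : JZero N) (hx : ∃ n : ℕ, p ^ n • x = 0) :
    σ • σ • x - heckeOperatorBar N ⟨ℓ, hℓ⟩ (σ • x) + ℓ • x = 0 := by
  obtain ⟨σ₀, hσ₀, h0⟩ := h ℓ hℓ hℓNp A hA
  obtain ⟨n, hn⟩ := hx
  -- the relation for `σ₀`
  have hmem : esBar N ⟨ℓ, hℓ⟩ σ₀ x ∈ relBar N A ⟨ℓ, hℓ⟩ σ₀ :=
    AddSubgroup.subset_closure (Or.inr ⟨x, rfl⟩)
  have htor : p ^ n • esBar N ⟨ℓ, hℓ⟩ σ₀ x = 0 := by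
    show p ^ n • (σ₀ • σ₀ • x - heckeOperatorBar N ⟨ℓ, hℓ⟩ (σ₀ • x) + ℓ • x) = 0
    rw [nsmul_add, nsmul_sub, ← gal_nsmul, ← gal_nsmul, ← map_nsmul, ← gal_nsmul,
      smul_comm (p ^ n) ℓ x, hn, gal_zero, gal_zero, map_zero, sub_zero, smul_zero, add_zero]
  have h1 : esBar N ⟨ℓ, hℓ⟩ σ₀ x = 0 := h0 _ hmem ⟨n, htor⟩
  -- `σ = τ σ₀` with `τ` in the inertia group
  have hτ : σ * σ₀⁻¹ ∈ A.inertiaSubgroupIn ℚ := frobenius_mul_inv_mem_inertia hσ hσ₀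
  have hfix : ∀ y : JZero N, (∃ n : ℕ, p ^ n • y = 0) → σ • y = σ₀ • y := by
    intro y ⟨m, hm⟩
    have h2 : (σ * σ₀⁻¹) • (σ₀ • y) = σ₀ • y := by
      refine inertia_smul_eq h hℓ hℓNp A hA hτ _ ⟨m, ?_⟩
      rw [← gal_nsmul, hm, gal_zero]
    rw [← h2, ← mul_smul, inv_mul_cancel_right]
  have hx1 : σ • x = σ₀ • x := hfix x ⟨n, hn⟩
  have hx2 : σ • σ₀ • x = σ₀ • σ₀ • x := by
    refine hfix _ ⟨n, ?_⟩
    rw [← gal_nsmul, hn, gal_zero]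
  rw [hx1, hx2]
  exact h1

end S37

/-! ### The geometric instance -/

/-- The operator `τ ℓ` on `J₀(N)` (junk value `0` at non-primes). -/
noncomputable def tauBar (N : ℕ) [NeZero N] (ℓ : ℕ) : JZero N →+ JZero N :=
  open Classical in
  if h : ℓ.Prime then (heckeOperatorBar N ⟨ℓ, h⟩).toAddMonoidHom else 0

theorem tauBar_apply (N : ℕ) [NeZero N] {ℓ : ℕ} (hℓ : ℓ.Prime) (x : JZero N) :
    tauBar N ℓ x = heckeOperatorBar N ⟨ℓ, hℓ⟩ x := by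
  unfold tauBar
  rw [dif_pos hℓ]
  rfl

/-- The element `T_ℓ` of the anemic Hecke algebra (junk value `0` at bad `ℓ`). -/
noncomputable def tElt (N : ℕ) [NeZero N] (S : Finset ℕ) (ℓ : ℕ) :
    CuspForm.heckeAlgebra N 2 (↑S : Set ℕ) :=
  open Classical in
  if h : ℓ.Prime ∧ ¬ ℓ ∣ N ∧ ℓ ∉ (↑S : Set ℕ) then CuspForm.heckeAlgebra.T h.1 h.2.1 h.2.2 else 0

theorem tElt_eq (N : ℕ) [NeZero N] (S : Finset ℕ) {ℓ : ℕ} (hℓ : ℓ.Prime) (hℓN : ¬ ℓ ∣ N)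
    (hℓS : ℓ ∉ (↑S : Set ℕ)) : tElt N S ℓ = CuspForm.heckeAlgebra.T hℓ hℓN hℓS := by
  unfold tElt
  rw [dif_pos ⟨hℓ, hℓN, hℓS⟩]

/-- **The Jacobian datum of `J₀(N)`** from the machine statements. -/
theorem jDatum_JZero (hfin : Stmt_TorsFin) (hlev : Stmt_FinLevel) (hgh : Stmt_GalHecke)
    (h37 : Stmt_S37Core) (hlat : Stmt_LatticeLevel)
    (p : ℕ) [Fact p.Prime] (N : ℕ) [NeZero N] (S : Finset ℕ)
    (hpS : p ∈ S) (hNS : ∀ q : ℕ, q.Prime → q ∣ N → q ∈ S)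
    (𝒪' : Type) [CommRing 𝒪'] (χ : CuspForm.heckeAlgebra N 2 (↑S : Set ℕ) →+* 𝒪') :
    JDatum p N S 𝒪' (eigenvalue χ) := by
  have hp : p.Prime := Fact.out
  have hNp : ∀ ℓ : ℕ, ℓ.Prime → ¬ ℓ ∣ N → ℓ ≠ p → ¬ ℓ ∣ N * p := by
    intro ℓ hℓ hℓN hℓp hdvd
    rcases (Nat.Prime.dvd_mul hℓ).mp hdvd with h | h
    · exact hℓN h
    · exact hℓp ((Nat.prime_dvd_prime_iff_eq hℓ hp).mp h)
  have hSp : ∀ ℓ : ℕ, ℓ ∉ S → ℓ ≠ p := fun ℓ hℓS h => hℓS (h ▸ hpS)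
  obtain ⟨Λ, i1, i2, i3, i4, ι, hfaith, hι1, hι2, hι3, hι4⟩ := hlat N p S hpS hNS
  refine ⟨JZero N, inferInstance, inferInstance, tauBar N, hfin N p, fun x _ => hlev N x, ?_, ?_,
    ?_, Λ, i1, i2, i3, CuspForm.heckeAlgebra N 2 (↑S : Set ℕ), inferInstance, i4, tElt N S, χ, ι,
    hfaith, ?_, hι1, hι2, hι3, ?_⟩
  · intro ℓ hℓ _ _ σ x
    rw [tauBar_apply N hℓ, tauBar_apply N hℓ]
    exact hgh N ⟨ℓ, hℓ⟩ σ x
  · intro q hq hqN hqp A hA σ hσ x hx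
    exact inertia_smul_eq (h37 N p) hq (hNp q hq hqN hqp) A hA hσ x hx
  · intro ℓ hℓ hℓN hℓS A hA σ hσ x hx
    rw [tauBar_apply N hℓ]
    exact frobenius_relation (h37 N p) hℓ (hNp ℓ hℓ hℓN (hSp ℓ hℓS)) A hA hσ x hx
  · intro ℓ hℓ hℓN hℓS
    rw [tElt_eq N S hℓ hℓN (by exact_mod_cast hℓS), eigenvalue_eq χ hℓ hℓN (by exact_mod_cast hℓS)]
  · intro ℓ hℓ hℓN hℓS n x
    rw [tElt_eq N S hℓ hℓN (by exact_mod_cast hℓS), tauBar_apply N hℓ]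
    exact hι4 ℓ hℓ hℓN (by exact_mod_cast hℓS) n x

/-- **`Stmt_Eigen` from E1 and the machine statements.** -/
theorem stmt_Eigen_of (hE1 : Stmt_E1) (hfin : Stmt_TorsFin) (hlev : Stmt_FinLevel)
    (hgh : Stmt_GalHecke) (h37 : Stmt_S37Core) (hlat : Stmt_LatticeLevel) : Stmt_Eigen := by
  intro p _ N _ S hpS hNS 𝒪' _ _ _ _ _ _ hp𝒪' χ
  exact hE1 p N S hpS 𝒪' hp𝒪' (eigenvalue χ)
    (jDatum_JZero hfin hlev hgh h37 hlat p N S hpS hNS 𝒪' χ)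

end Fermat.Agent.S30.helper1094
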