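import Mathlib
import Fermat.Prelude.Def_CuspForm_HeckeGaloisRepDatum

set_option autoImplicit false

open scoped TensorProduct

namespace Fermat.Agent.S30.helper4204

/-! ## The simultaneous eigen-lattice of a commuting family (abstract module) -/

section General

variable {O : Type*} [CommRing O]
variable {M : Type*} [AddCommGroup M] [Module O M]
variable {ι : Type*}

/-- The simultaneous eigen-lattice of a family of endomorphisms `σ i` of `M` with
eigenvalues `a i : O`. -/
def eigenLattice (σ : ι → Module.End O M) (a : ι → O) : Submodule O M :=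
  ⨅ i, LinearMap.ker (σ i - a i • LinearMap.id)

theorem mem_eigenLattice {σ : ι → Module.End O M} {a : ι → O} {x : M} :
    x ∈ eigenLattice σ a ↔ ∀ i, σ i x = a i • x := by
  simp only [eigenLattice, Submodule.mem_iInf, LinearMap.mem_ker, LinearMap.sub_apply,
    LinearMap.smul_apply, LinearMap.id_coe, id_eq, sub_eq_zero]

/-- (L4) The eigen-lattice is nontrivial iff there is a nonzero simultaneous eigenvector. -/
theorem nontrivial_eigenLattice_iff {σ : ι → Module.End O M} {a : ι → O} :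
    Nontrivial (eigenLattice σ a) ↔ ∃ x : M, x ≠ 0 ∧ ∀ i, σ i x = a i • x := by
  constructor
  · intro h
    obtain ⟨x, hx⟩ := exists_ne (0 : eigenLattice σ a)
    exact ⟨x, fun h0 => hx (Subtype.ext h0), mem_eigenLattice.1 x.2⟩
  · rintro ⟨x, hx, hx'⟩
    exact ⟨⟨⟨x, mem_eigenLattice.2 hx'⟩, 0, fun h => hx (congrArg Subtype.val h)⟩⟩

/-- (L1) The eigen-lattice is saturated in `M`. -/
theorem mem_eigenLattice_of_smul_mem [IsDomain O] [Module.IsTorsionFree O M]
    {σ : ι → Module.End O M} {a : ι → O} {c : O} (hc : c ≠ 0) {x : M}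
    (hx : c • x ∈ eigenLattice σ a) : x ∈ eigenLattice σ a := by
  rw [mem_eigenLattice] at hx ⊢
  intro i
  have h := hx i
  rw [map_smul, smul_comm (a i) c x, ← sub_eq_zero] at h
  have h' : c • (σ i x - a i • x) = 0 := by rw [smul_sub]; exact h
  exact sub_eq_zero.1 ((smul_eq_zero.1 h').resolve_left hc)

instance finite_eigenLattice [IsDomain O] [IsPrincipalIdealRing O] [Module.Finite O M]
    (σ : ι → Module.End O M) (a : ι → O) : Module.Finite O (eigenLattice σ a) := inferInstance

instance free_eigenLattice [IsDomain O] [IsPrincipalIdealRing O] [Module.Finite O M]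
    [Module.IsTorsionFree O M] (σ : ι → Module.End O M) (a : ι → O) :
    Module.Free O (eigenLattice σ a) :=
  @Module.free_of_finite_type_torsion_free' O _ (eigenLattice σ a) _ _ _ _ _ _

/-- (L2) An endomorphism commuting with all `σ i` preserves the eigen-lattice. -/
theorem apply_mem_eigenLattice {σ : ι → Module.End O M} {a : ι → O}
    {f : Module.End O M} (hf : ∀ i, Commute f (σ i)) {x : M}
    (hx : x ∈ eigenLattice σ a) : f x ∈ eigenLattice σ a := by
  rw [mem_eigenLattice] at hx ⊢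
  intro i
  have h1 : σ i (f x) = f (σ i x) := by
    have := congrArg (fun g : Module.End O M => g x) (hf i).eq
    simp only [Module.End.mul_apply] at this
    exact this.symm
  rw [h1, hx i, map_smul]

/-- The restriction to the eigen-lattice of an endomorphism commuting with all `σ i`. -/
def eigRestrict (σ : ι → Module.End O M) (a : ι → O)
    (f : Module.End O M) (hf : ∀ i, Commute f (σ i)) : Module.End O (eigenLattice σ a) :=
  f.restrict (fun _ hx => apply_mem_eigenLattice hf hx)

@[simp] theorem coe_eigRestrict (σ : ι → Module.End O M) (a : ι → O)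
    (f : Module.End O M) (hf : ∀ i, Commute f (σ i)) (x : eigenLattice σ a) :
    ((eigRestrict σ a f hf x : eigenLattice σ a) : M) = f x := rfl

/-- (L2) The restricted action of a monoid on the eigen-lattice. -/
def eigRep {G : Type*} [Monoid G] (σ : ι → Module.End O M) (a : ι → O)
    (ρ : G →* Module.End O M) (hρ : ∀ g i, Commute (ρ g) (σ i)) :
    G →* Module.End O (eigenLattice σ a) where
  toFun g := eigRestrict σ a (ρ g) (hρ g)
  map_one' := by
    refine LinearMap.ext fun x => Subtype.ext ?_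
    rw [coe_eigRestrict, map_one]
    rfl
  map_mul' g h := by
    refine LinearMap.ext fun x => Subtype.ext ?_
    rw [coe_eigRestrict, map_mul]
    rfl

@[simp] theorem coe_eigRep {G : Type*} [Monoid G] (σ : ι → Module.End O M) (a : ι → O)
    (ρ : G →* Module.End O M) (hρ : ∀ g i, Commute (ρ g) (σ i)) (g : G)
    (x : eigenLattice σ a) :
    ((eigRep σ a ρ hρ g x : eigenLattice σ a) : M) = ρ g x := rfl

/-- (L3a) Trivial action on `M` gives trivial action on the eigen-lattice. -/
theorem eigRep_eq_one {G : Type*} [Monoid G] (σ : ι → Module.End O M) (a : ι → O)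
    (ρ : G →* Module.End O M) (hρ : ∀ g i, Commute (ρ g) (σ i)) {g : G} (hg : ρ g = 1) :
    eigRep σ a ρ hρ g = 1 := by
  refine LinearMap.ext fun x => Subtype.ext ?_
  rw [coe_eigRep, hg]
  rfl

/-- (L3b) A quadratic relation `ρ g ^ 2 - σ i * ρ g + c = 0` on `M` becomes
`ρχ g ^ 2 - a i • ρχ g + c = 0` on the eigen-lattice. -/
theorem eigRep_quadratic {G : Type*} [Monoid G] (σ : ι → Module.End O M) (a : ι → O)
    (ρ : G →* Module.End O M) (hρ : ∀ g i, Commute (ρ g) (σ i)) {g : G} {i : ι} {c : O}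
    (h : ρ g * ρ g - σ i * ρ g + c • (1 : Module.End O M) = 0) :
    (eigRep σ a ρ hρ g * eigRep σ a ρ hρ g - a i • eigRep σ a ρ hρ g
      + c • (1 : Module.End O (eigenLattice σ a)) : Module.End O (eigenLattice σ a)) = 0 := by
  refine LinearMap.ext fun x => Subtype.ext ?_
  have h1 := congrArg (fun f : Module.End O M => f (x : M)) h
  simp only [LinearMap.add_apply, LinearMap.sub_apply, Module.End.mul_apply,
    LinearMap.smul_apply, Module.End.one_apply, LinearMap.zero_apply] at h1
  have h2 : σ i (ρ g (x : M)) = a i • ρ g (x : M) :=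
    mem_eigenLattice.1 (apply_mem_eigenLattice (hρ g) x.2) i
  rw [h2] at h1
  simp only [LinearMap.add_apply, LinearMap.sub_apply, Module.End.mul_apply,
    LinearMap.smul_apply, Module.End.one_apply, LinearMap.zero_apply, Submodule.coe_add,
    Submodule.coe_sub, Submodule.coe_smul, coe_eigRep, Submodule.coe_zero]
  exact h1

/-- (L3c) Congruence `ρ g ≡ 1 mod π ^ n` on `M` gives `ρχ g v - v ∈ I ^ n • ⊤` on the
eigen-lattice, for any ideal `I` of `O` containing `π` (uses saturation). -/
theorem eigRep_sub_mem {G : Type*} [Monoid G] [IsDomain O] [Module.IsTorsionFree O M]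
    (σ : ι → Module.End O M) (a : ι → O)
    (ρ : G →* Module.End O M) (hρ : ∀ g i, Commute (ρ g) (σ i)) {g : G} {π : O}
    (hπ : π ≠ 0) {n : ℕ} (h : ∀ x : M, ∃ w : M, ρ g x - x = π ^ n • w)
    (I : Ideal O) (hI : π ∈ I) (v : eigenLattice σ a) :
    eigRep σ a ρ hρ g v - v ∈ (I ^ n) • (⊤ : Submodule O (eigenLattice σ a)) := by
  obtain ⟨w, hw⟩ := h (v : M)
  have hmem : π ^ n • w ∈ eigenLattice σ a := by
    rw [← hw]
    exact Submodule.sub_mem _ (apply_mem_eigenLattice (hρ g) v.2) v.2
  have hw' : w ∈ eigenLattice σ a := mem_eigenLattice_of_smul_mem (pow_ne_zero n hπ) hmem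
  have heq : eigRep σ a ρ hρ g v - v = π ^ n • (⟨w, hw'⟩ : eigenLattice σ a) :=
    Subtype.ext (by
      rw [Submodule.coe_sub, coe_eigRep, Submodule.coe_smul]
      exact hw)
  rw [heq]
  exact Submodule.smul_mem_smul (Ideal.pow_mem_pow hI n) Submodule.mem_top

end General

/-! ## Base change `O ⊗[R] T` of an `R`-module with commuting actions -/

section BaseChange

universe u

variable {R : Type*} [CommRing R]
variable {O : Type u} [CommRing O] [Algebra R O]
variable {T : Type u} [AddCommGroup T] [Module R T]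
variable {ι : Type*}

/-- Base change of a monoid action by `R`-endomorphisms. -/
noncomputable def baseChangeRep (O : Type u) [CommRing O] [Algebra R O] {G : Type*} [Monoid G]
    (ρ : G →* Module.End R T) : G →* Module.End O (O ⊗[R] T) where
  toFun g := (ρ g).baseChange O
  map_one' := by rw [map_one, LinearMap.baseChange_one]
  map_mul' g h := by rw [map_mul, LinearMap.baseChange_mul]

@[simp] theorem baseChangeRep_apply {G : Type*} [Monoid G] (ρ : G →* Module.End R T) (g : G) :
    baseChangeRep O ρ g = (ρ g).baseChange O := rfl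

theorem commute_baseChange {f g : Module.End R T} (h : Commute f g) :
    Commute (f.baseChange O) (g.baseChange O) := by
  have := congrArg (fun k : Module.End R T => k.baseChange O) h.eq
  simp only [LinearMap.baseChange_mul] at this
  exact this

/-- Congruence `f ≡ 1 mod π ^ n` on `T` passes to the base change `O ⊗[R] T`. -/
theorem exists_baseChange_sub_eq_smul {f : Module.End R T} {π : R} {n : ℕ}
    (h : ∀ t : T, ∃ y : T, f t - t = π ^ n • y) (x : O ⊗[R] T) :
    ∃ w : O ⊗[R] T, f.baseChange O x - x = algebraMap R O π ^ n • w := by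
  induction x using TensorProduct.induction_on with
  | zero => exact ⟨0, by simp⟩
  | tmul c t =>
    obtain ⟨y, hy⟩ := h t
    refine ⟨c ⊗ₜ[R] y, ?_⟩
    rw [LinearMap.baseChange_tmul, ← TensorProduct.tmul_sub, hy, TensorProduct.tmul_smul,
      ← map_pow, algebraMap_smul]
  | add x y hx hy =>
    obtain ⟨w₁, h₁⟩ := hx
    obtain ⟨w₂, h₂⟩ := hy
    exact ⟨w₁ + w₂, by rw [map_add, add_sub_add_comm, h₁, h₂, smul_add]⟩

/-- A quadratic relation on `T` passes to the base change. -/
theorem baseChange_quadratic {f t : Module.End R T} {c : R}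
    (h : f * f - t * f + c • (1 : Module.End R T) = 0) :
    f.baseChange O * f.baseChange O - t.baseChange O * f.baseChange O
      + algebraMap R O c • (1 : Module.End O (O ⊗[R] T)) = 0 := by
  refine LinearMap.ext fun x => ?_
  have h1 := congrArg (fun k : Module.End R T => k.baseChange O x) h
  simp only [LinearMap.baseChange_add, LinearMap.baseChange_sub, LinearMap.baseChange_mul,
    LinearMap.baseChange_smul, LinearMap.baseChange_one, LinearMap.baseChange_zero,
    LinearMap.add_apply, LinearMap.sub_apply, Module.End.mul_apply, LinearMap.smul_apply,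
    Module.End.one_apply, LinearMap.zero_apply] at h1
  simp only [LinearMap.add_apply, LinearMap.sub_apply, Module.End.mul_apply,
    LinearMap.smul_apply, Module.End.one_apply, LinearMap.zero_apply, algebraMap_smul]
  exact h1

/-- **Eigen-lattice package (general form).**  `R` a commutative ring, `O` a PID domain which
is an `R`-algebra, `T` a finite free `R`-module with a monoid action `ρ` and a family `τ` of
endomorphisms commuting with `ρ`, `a i : O` prescribed eigenvalues.  The simultaneous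
eigen-lattice `M` of the `τ i` in `O ⊗[R] T` is a finite free `O`-module carrying the restricted
action `ρ'`, and triviality, quadratic relations and congruences modulo powers of `π` are
inherited from `T`. -/
theorem exists_eigenLattice_rep [IsDomain O] [IsPrincipalIdealRing O]
    [Module.Free R T] [Module.Finite R T] {G : Type*} [Monoid G]
    (ρ : G →* Module.End R T) (τ : ι → Module.End R T) (hcomm : ∀ g i, Commute (ρ g) (τ i))
    (a : ι → O) (π : R) (hπ : algebraMap R O π ≠ 0) :
    ∃ (M : Type u) (_ : AddCommGroup M) (_ : Module O M) (_ : Module.Free O M)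
      (_ : Module.Finite O M) (ρ' : G →* Module.End O M),
      (Nontrivial M ↔ ∃ x : O ⊗[R] T, x ≠ 0 ∧ ∀ i, (τ i).baseChange O x = a i • x) ∧
      (∀ g, ρ g = 1 → ρ' g = 1) ∧
      (∀ g i (c : R), ρ g * ρ g - τ i * ρ g + c • (1 : Module.End R T) = 0 →
        ρ' g * ρ' g - a i • ρ' g + algebraMap R O c • (1 : Module.End O M) = 0) ∧
      (∀ g (n : ℕ), (∀ t : T, ∃ y : T, ρ g t - t = π ^ n • y) →
        ∀ I : Ideal O, algebraMap R O π ∈ I → ∀ v : M, ρ' g v - v ∈ (I ^ n) • (⊤ : Submodule O M)) := by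
  set σ : ι → Module.End O (O ⊗[R] T) := fun i => (τ i).baseChange O with hσ
  have hc : ∀ g i, Commute (baseChangeRep O ρ g) (σ i) := fun g i => commute_baseChange (hcomm g i)
  refine ⟨eigenLattice σ a, inferInstance, inferInstance, inferInstance, inferInstance,
    eigRep σ a (baseChangeRep O ρ) hc, nontrivial_eigenLattice_iff, ?_, ?_, ?_⟩
  · intro g hg
    exact eigRep_eq_one σ a _ hc (by rw [baseChangeRep_apply, hg, LinearMap.baseChange_one])
  · intro g i c h
    exact eigRep_quadratic σ a _ hc (i := i) (baseChange_quadratic h)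
  · intro g n h I hI v
    exact eigRep_sub_mem σ a _ hc hπ (fun x => exists_baseChange_sub_eq_smul h x) I hI v

end BaseChange

/-! ## The `S30` package: the `EigenLattice` input of the core from an abstract Tate datum -/

section Package

/-- **S30-EIGLAT.**  From an abstract Tate datum
(`T` finite free over `ℤ_[p]` with commuting actions of `G_ℚ` and of operators `τ ℓ`;
continuity modulo `p ^ n` on finite levels; trivial inertia at `q ∤ N p`; the Eichler–Shimura
relation `σ² - τ_ℓ σ + ℓ = 0` for Frobenius lifts; a nonzero `χ`-eigenvector in `O ⊗ T`)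
we get the eigen-lattice datum over `O`: a nontrivial finite free `O`-module with an
adically continuous `G_ℚ`-action, trivial inertia at `q ∤ N p`, and the relation
`σ² - χ(T_ℓ) σ + ℓ = 0` at Frobenius lifts. -/
theorem exists_eigenLattice_of_tateDatum
    (p : ℕ) [Fact p.Prime] (N : ℕ) [NeZero N] (S : Finset ℕ)
    (O : Type) [CommRing O] [IsDomain O] [IsDiscreteValuationRing O] [CharZero O]
    [Algebra ℤ_[p] O] (hpO : (p : O) ∈ IsLocalRing.maximalIdeal O)
    (χ : CuspForm.heckeAlgebra N 2 (↑S : Set ℕ) →+* O)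
    (T : Type) [AddCommGroup T] [Module ℤ_[p] T] [Module.Free ℤ_[p] T] [Module.Finite ℤ_[p] T]
    (ρ : (AlgebraicClosure ℚ ≃ₐ[ℚ] AlgebraicClosure ℚ) →* Module.End ℤ_[p] T)
    (τ : ℕ → Module.End ℤ_[p] T)
    (hcomm : ∀ g ℓ, Commute (ρ g) (τ ℓ))
    (hcont : ∀ n : ℕ, ∃ L : IntermediateField ℚ (AlgebraicClosure ℚ), FiniteDimensional ℚ L ∧
      ∀ σ : AlgebraicClosure ℚ ≃ₐ[ℚ] AlgebraicClosure ℚ, (∀ x ∈ L, σ x = x) →
        ∀ t : T, ∃ y : T, ρ σ t - t = (p : ℤ_[p]) ^ n • y)
    (hunr : ∀ q : ℕ, q.Prime → ¬ q ∣ N → q ≠ p →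
      ∀ P : ValuationSubring (AlgebraicClosure ℚ), P.LiesOverPrime q →
        ∀ σ ∈ P.inertiaSubgroupIn ℚ, ρ σ = 1)
    (hfrob : ∀ (ℓ : ℕ) (_hℓ : ℓ.Prime) (_hℓN : ¬ ℓ ∣ N) (_hℓS : ℓ ∉ (↑S : Set ℕ)),
      ∀ A : ValuationSubring (AlgebraicClosure ℚ), A.LiesOverPrime ℓ →
        ∀ σ : AlgebraicClosure ℚ ≃ₐ[ℚ] AlgebraicClosure ℚ, A.IsFrobeniusAt σ ℓ →
          ρ σ * ρ σ - τ ℓ * ρ σ + (ℓ : ℤ_[p]) • (1 : Module.End ℤ_[p] T) = 0)
    (hocc : ∃ x : O ⊗[ℤ_[p]] T, x ≠ 0 ∧
      ∀ (ℓ : ℕ) (hℓ : ℓ.Prime) (hℓN : ¬ ℓ ∣ N) (hℓS : ℓ ∉ (↑S : Set ℕ)),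
        (τ ℓ).baseChange O x = χ (CuspForm.heckeAlgebra.T hℓ hℓN hℓS) • x) :
    ∃ (M : Type) (_ : AddCommGroup M) (_ : Module O M) (_ : Module.Free O M)
      (_ : Module.Finite O M)
      (ρ' : (AlgebraicClosure ℚ ≃ₐ[ℚ] AlgebraicClosure ℚ) →* Module.End O M),
      Nontrivial M ∧ GaloisActionIsAdicContinuous O ρ' ∧
      (∀ q : ℕ, q.Prime → ¬ q ∣ N → q ≠ p →
        ∀ P : ValuationSubring (AlgebraicClosure ℚ), P.LiesOverPrime q →
          ∀ σ ∈ P.inertiaSubgroupIn ℚ, ρ' σ = 1) ∧
      (∀ (ℓ : ℕ) (hℓ : ℓ.Prime) (hℓN : ¬ ℓ ∣ N) (hℓS : ℓ ∉ (↑S : Set ℕ)),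
        ∀ A : ValuationSubring (AlgebraicClosure ℚ), A.LiesOverPrime ℓ →
          ∀ σ : AlgebraicClosure ℚ ≃ₐ[ℚ] AlgebraicClosure ℚ, A.IsFrobeniusAt σ ℓ →
            ρ' σ * ρ' σ - χ (CuspForm.heckeAlgebra.T hℓ hℓN hℓS) • ρ' σ
              + (ℓ : O) • (1 : Module.End O M) = 0) := by
  classical
  -- index set: the good primes
  let ι : Type := {ℓ : ℕ // ℓ.Prime ∧ ¬ ℓ ∣ N ∧ ℓ ∉ (↑S : Set ℕ)}
  let τ' : ι → Module.End ℤ_[p] T := fun i => τ i.1
  let a : ι → O := fun i => χ (CuspForm.heckeAlgebra.T i.2.1 i.2.2.1 i.2.2.2)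
  have hp0 : algebraMap ℤ_[p] O (p : ℤ_[p]) ≠ 0 := by
    rw [map_natCast]
    exact Nat.cast_ne_zero.2 (Fact.out : p.Prime).ne_zero
  obtain ⟨M, iM1, iM2, iM3, iM4, ρ', hnt, h1, hq, hc⟩ :=
    exists_eigenLattice_rep (O := O) ρ τ' (fun g i => hcomm g i.1) a (p : ℤ_[p]) hp0
  refine ⟨M, iM1, iM2, iM3, iM4, ρ', ?_, ?_, ?_, ?_⟩
  · obtain ⟨x, hx0, hx⟩ := hocc
    exact hnt.2 ⟨x, hx0, fun i => hx i.1 i.2.1 i.2.2.1 i.2.2.2⟩
  · intro n
    obtain ⟨L, hL, hLσ⟩ := hcont n
    refine ⟨L, hL, fun σ hσ v => ?_⟩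
    exact hc σ n (hLσ σ hσ) (IsLocalRing.maximalIdeal O) (by rw [map_natCast]; exact hpO) v
  · intro q hq' hqN hqp P hP σ hσ
    exact h1 σ (hunr q hq' hqN hqp P hP σ hσ)
  · intro ℓ hℓ hℓN hℓS A hA σ hσ
    have := hq σ (⟨ℓ, hℓ, hℓN, hℓS⟩ : ι) (ℓ : ℤ_[p]) (hfrob ℓ hℓ hℓN hℓS A hA σ hσ)
    rw [map_natCast] at this
    exact this

end Package

end Fermat.Agent.S30.helper4204
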