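import Mathlib
import Fermat.Agent.S30.helper1094_JDatum
import Fermat.Agent.Lib.helper4786_TateModule
import Fermat.Agent.Lib.helper9377_PadicIntAlgebra
import Fermat.Agent.S30.helper4204_EigenLattice

/-!
# S30, leaf E1c: the glue `JDatum → EigenDatum`

`Stmt_E1` (an abstract Jacobian datum gives an eigen-datum) from

* the Tate module of an abelian group (`Lib/helper4786_TateModule`),
* the canonical `ℤ_p`-algebra structure on a complete local ring (`Lib/helper9377_PadicIntAlgebra`),
* the eigen-lattice package (`S30/helper4204_EigenLattice`),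

and two statements kept as hypotheses here:

* `Stmt_TateFin`: finitely many `p`-torsion points ⟹ the Tate module is finitely generated;
* `Stmt_OccTransport`: transport of an eigenvector from a lattice with a faithful ring action
  into the Tate module (over a field containing `ℤ_p`).
-/

set_option autoImplicit false

open scoped TensorProduct

namespace Fermat.Agent.S30.helper1094

open Fermat.Agent.S30.helper54 Fermat.Agent.Lib.helper4786 Fermat.Agent.Lib.helper9377
  Fermat.Agent.S30.helper4204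

/-! ### The two hypotheses -/

/-- **TATE-FIN**: if `A[p]` is finite, the Tate module `T_p(A)` is a finitely generated
`ℤ_p`-module. -/
def Stmt_TateFin : Prop :=
  ∀ (p : ℕ) [Fact p.Prime] (A : Type) [AddCommGroup A],
    Set.Finite {a : A | p • a = 0} → Module.Finite ℤ_[p] (tateModule A p)

/-- **OCC-TRANSPORT**: `Λ` a finite free `ℤ`-module with a faithful action of a commutative ring
`R`; `T` a `ℤ_p`-module without `p`-torsion; `j : Λ →+ T` injective modulo `p`, intertwining
`t i ∈ R` with endomorphisms `τ i` of `T`; `K` a field containing `ℤ_p`; `χ : R →+* K`.  Then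
`K ⊗ T` contains a nonzero common eigenvector of the `τ i` with eigenvalues `χ (t i)`. -/
def Stmt_OccTransport : Prop :=
  ∀ (p : ℕ) [Fact p.Prime] (Λ : Type) [AddCommGroup Λ] [Module.Free ℤ Λ] [Module.Finite ℤ Λ]
    (R : Type) [CommRing R] [Module R Λ] (_ : ∀ r : R, (∀ x : Λ, r • x = 0) → r = 0)
    (T : Type) [AddCommGroup T] [Module ℤ_[p] T] (_ : ∀ y : T, (p : ℤ_[p]) • y = 0 → y = 0)
    (j : Λ →+ T) (_ : ∀ x : Λ, (∃ y : T, j x = (p : ℤ_[p]) • y) → ∃ z : Λ, x = (p : ℤ) • z)
    (I : Type) (t : I → R) (τ : I → Module.End ℤ_[p] T) (_ : ∀ i x, j (t i • x) = τ i (j x))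
    (K : Type) [Field K] [Algebra ℤ_[p] K] (_ : Function.Injective (algebraMap ℤ_[p] K))
    (χ : R →+* K),
    ∃ v : K ⊗[ℤ_[p]] T, v ≠ 0 ∧ ∀ i, (τ i).baseChange K v = χ (t i) • v

/-! ### Clearing denominators -/

section Clear

variable {R O K : Type*} [CommRing R] [CommRing O] [IsDomain O] [Field K] [Algebra R O]
  [Algebra O K] [Algebra R K] [IsScalarTower R O K] [IsFractionRing O K]
variable {T : Type*} [AddCommGroup T] [Module R T]

/-- The comparison map `O ⊗ T → K ⊗ T`. -/
noncomputable def toFrac (R O K : Type*) [CommRing R] [CommRing O] [Field K] [Algebra R O]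
    [Algebra O K] [Algebra R K] [IsScalarTower R O K] (T : Type*) [AddCommGroup T] [Module R T] :
    O ⊗[R] T →ₗ[R] K ⊗[R] T :=
  LinearMap.rTensor T (IsScalarTower.toAlgHom R O K).toLinearMap

omit [IsDomain O] [IsFractionRing O K] in
theorem toFrac_tmul (c : O) (x : T) :
    toFrac R O K T (c ⊗ₜ[R] x) = algebraMap O K c ⊗ₜ[R] x := by
  unfold toFrac
  rw [LinearMap.rTensor_tmul]
  rfl

omit [IsDomain O] [IsFractionRing O K] in
theorem toFrac_smul (c : O) (x : O ⊗[R] T) :
    toFrac R O K T (c • x) = algebraMap O K c • toFrac R O K T x := by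
  induction x using TensorProduct.induction_on with
  | zero => simp
  | tmul o x =>
    rw [TensorProduct.smul_tmul', toFrac_tmul, toFrac_tmul, TensorProduct.smul_tmul', smul_eq_mul,
      smul_eq_mul, map_mul]
  | add x y hx hy => rw [smul_add, map_add, hx, hy, map_add, smul_add]

omit [IsDomain O] [IsFractionRing O K] in
theorem toFrac_baseChange (τ : Module.End R T) (x : O ⊗[R] T) :
    toFrac R O K T (τ.baseChange O x) = τ.baseChange K (toFrac R O K T x) := by
  induction x using TensorProduct.induction_on with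
  | zero => simp
  | tmul o x =>
    rw [LinearMap.baseChange_tmul, toFrac_tmul, toFrac_tmul, LinearMap.baseChange_tmul]
  | add x y hx hy => rw [map_add, map_add, hx, hy, map_add, map_add]

theorem toFrac_injective [Module.Flat R T] : Function.Injective (toFrac R O K T) := by
  unfold toFrac
  refine Module.Flat.rTensor_preserves_injective_linearMap _ ?_
  exact IsFractionRing.injective O K

theorem exists_smul_eq_toFrac (v : K ⊗[R] T) :
    ∃ s : O, s ≠ 0 ∧ ∃ x : O ⊗[R] T, toFrac R O K T x = algebraMap O K s • v := by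
  induction v using TensorProduct.induction_on with
  | zero => exact ⟨1, one_ne_zero, 0, by simp⟩
  | tmul k x =>
    obtain ⟨⟨c, s⟩, hcs⟩ := IsLocalization.surj (nonZeroDivisors O) k
    refine ⟨s, nonZeroDivisors.ne_zero s.2, c ⊗ₜ[R] x, ?_⟩
    rw [toFrac_tmul, TensorProduct.smul_tmul', smul_eq_mul, ← hcs, mul_comm]
  | add v w hv hw =>
    obtain ⟨s, hs, x, hx⟩ := hv
    obtain ⟨s', hs', y, hy⟩ := hw
    refine ⟨s * s', mul_ne_zero hs hs', s' • x + s • y, ?_⟩
    rw [map_add, toFrac_smul, toFrac_smul, hx, hy, smul_add, smul_smul, smul_smul, map_mul,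
      mul_comm (algebraMap O K s') (algebraMap O K s)]

/-- **Clearing denominators**: a nonzero common eigenvector in `K ⊗ T` with eigenvalues in `O`
gives a nonzero common eigenvector in `O ⊗ T`. -/
theorem exists_integral_eigenvector [Module.Flat R T] {I : Type*} (τ : I → Module.End R T)
    (a : I → O)
    (h : ∃ v : K ⊗[R] T, v ≠ 0 ∧ ∀ i, (τ i).baseChange K v = algebraMap O K (a i) • v) :
    ∃ x : O ⊗[R] T, x ≠ 0 ∧ ∀ i, (τ i).baseChange O x = a i • x := by
  obtain ⟨v, hv0, hv⟩ := h
  obtain ⟨s, hs, x, hx⟩ := exists_smul_eq_toFrac (R := R) (O := O) (K := K) v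
  have hsK : algebraMap O K s ≠ 0 := by
    intro h0
    exact hs (IsFractionRing.injective O K (by rw [h0, map_zero]))
  refine ⟨x, ?_, fun i => ?_⟩
  · rintro rfl
    rw [map_zero] at hx
    exact hv0 ((smul_eq_zero.mp hx.symm).resolve_left hsK)
  · apply toFrac_injective (R := R) (O := O) (K := K)
    rw [toFrac_baseChange, toFrac_smul, hx, map_smul, hv i, smul_comm]

end Clear

/-! ### Finite levels -/

section Level

variable {J : Type*} [AddCommGroup J]

/-- If `J[p]` is finite, so is every `J[p ^ n]`. -/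
theorem finite_pow_torsion (p : ℕ) (hfin : Set.Finite {x : J | p • x = 0}) (n : ℕ) :
    Set.Finite {x : J | p ^ n • x = 0} := by
  induction n with
  | zero =>
    refine Set.Finite.subset (Set.finite_singleton (0 : J)) ?_
    intro x hx
    simpa using hx
  | succ n ih =>
    have hsub : {x : J | p ^ (n + 1) • x = 0} ⊆ (fun x : J => p • x) ⁻¹' {x : J | p ^ n • x = 0} := by
      intro x hx
      show p ^ n • p • x = 0
      rw [← mul_smul, ← pow_succ]
      exact hx
    refine Set.Finite.subset (Set.Finite.preimage' ih ?_) hsub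
    intro b _
    by_cases hb : ∃ x₀ : J, p • x₀ = b
    · obtain ⟨x₀, hx₀⟩ := hb
      refine Set.Finite.subset (hfin.image (fun y => x₀ + y)) ?_
      intro x hx
      refine ⟨x - x₀, ?_, by simp⟩
      show p • (x - x₀) = 0
      rw [nsmul_sub, hx₀]
      exact sub_eq_zero.mpr hx
    · refine Set.Finite.subset Set.finite_empty ?_
      intro x hx
      exact (hb ⟨x, hx⟩).elim

end Level

section LevelGal

variable {J : Type*} [AddCommGroup J] [DistribMulAction Gal J]

/-- A common finite level for finitely many points with open stabilisers. -/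
theorem exists_common_level (s : Set J) (hs : s.Finite)
    (hlev : ∀ x ∈ s, ∃ L : IntermediateField ℚ (AlgebraicClosure ℚ), FiniteDimensional ℚ L ∧
      ∀ σ : Gal, (∀ y ∈ L, σ y = y) → σ • x = x) :
    ∃ L : IntermediateField ℚ (AlgebraicClosure ℚ), FiniteDimensional ℚ L ∧
      ∀ σ : Gal, (∀ y ∈ L, σ y = y) → ∀ x ∈ s, σ • x = x := by
  induction s, hs using Set.Finite.induction_on with
  | empty => exact ⟨⊥, inferInstance, fun _ _ x hx => (Set.notMem_empty x hx).elim⟩
  | @insert a s _ _ ih =>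
    obtain ⟨L₁, hL₁, h₁⟩ := ih fun x hx => hlev x (Set.mem_insert_of_mem a hx)
    obtain ⟨L₂, hL₂, h₂⟩ := hlev a (Set.mem_insert a s)
    refine ⟨L₁ ⊔ L₂, IntermediateField.finiteDimensional_sup L₁ L₂, fun σ hσ x hx => ?_⟩
    rcases Set.mem_insert_iff.mp hx with rfl | hx
    · exact h₂ σ fun y hy => hσ y ((le_sup_right : L₂ ≤ L₁ ⊔ L₂) hy)
    · exact h₁ σ (fun y hy => hσ y ((le_sup_left : L₁ ≤ L₁ ⊔ L₂) hy)) x hx

end LevelGal

/-! ### The Tate module is torsion-free -/

theorem tateModule_isTorsionFree (A : Type*) [AddCommGroup A] (p : ℕ) [Fact p.Prime] :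
    Module.IsTorsionFree ℤ_[p] (tateModule A p) := by
  rw [Module.isTorsionFree_iff_smul_eq_zero]
  intro r x hrx
  by_cases hr : r = 0
  · exact Or.inl hr
  right
  have hu := PadicInt.unitCoeff_spec hr
  have h1 : (p : ℤ_[p]) ^ r.valuation • x = 0 := by
    have h2 : PadicInt.unitCoeff hr • ((p : ℤ_[p]) ^ r.valuation • x) = 0 := by
      rw [Units.smul_def, smul_smul, ← hu, hrx]
    exact (smul_eq_zero_iff_eq _).mp h2
  generalize r.valuation = k at h1
  induction k with
  | zero => simpa using h1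
  | succ k ih =>
    apply ih
    apply tateModule.eq_zero_of_p_smul_eq_zero
    rw [smul_smul, ← pow_succ']
    exact h1

/-! ### The glue -/

/-- **E1**: an abstract Jacobian datum gives an eigen-datum, modulo TATE-FIN and
OCC-TRANSPORT. -/
theorem stmt_E1_of (hTF : Stmt_TateFin) (hOT : Stmt_OccTransport) : Stmt_E1 := by
  intro p _ N S _ 𝒪' _ _ _ _ _ _ hp𝒪' a hJ
  obtain ⟨J, iJ1, iJ2, τ, hfin, hlev, hcomm, hunr, hfrob, Λ, iΛ1, iΛ2, iΛ3, R, iR1, iR2, t, χ, ι,
    hfaith, hχ, hι1, hι2, hι3, hι4⟩ := hJ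
  have hp : p.Prime := Fact.out
  -- the `ℤ_p`-algebra structures
  letI alg𝒪 : Algebra ℤ_[p] 𝒪' := padicIntAlgebra p 𝒪' hp𝒪'
  -- the Tate module
  haveI hTfin : Module.Finite ℤ_[p] (tateModule J p) := hTF p J hfin
  haveI hTtf : Module.IsTorsionFree ℤ_[p] (tateModule J p) := tateModule_isTorsionFree J p
  haveI hTfree : Module.Free ℤ_[p] (tateModule J p) := Module.free_of_finite_type_torsion_free'
  -- the actions
  let ρ : Gal →* Module.End ℤ_[p] (tateModule J p) := tateRep J p Gal
  let ι' : Type := {ℓ : ℕ // ℓ.Prime ∧ ¬ ℓ ∣ N ∧ ℓ ∉ S}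
  let τ' : ι' → Module.End ℤ_[p] (tateModule J p) := fun i => tateEnd J p (τ i.1)
  have hc : ∀ g i, Commute (ρ g) (τ' i) := by
    intro g i
    show ρ g * τ' i = τ' i * ρ g
    ext x n
    exact hcomm i.1 i.2.1 i.2.2.1 i.2.2.2 g (x.1 n)
  have hp0 : algebraMap ℤ_[p] 𝒪' (p : ℤ_[p]) ≠ 0 := by
    rw [map_natCast]
    exact Nat.cast_ne_zero.2 hp.ne_zero
  obtain ⟨M, iM1, iM2, iM3, iM4, ρ', hnt, h1, hq, hcg⟩ :=
    exists_eigenLattice_rep (O := 𝒪') ρ τ' hc (fun i => a i.1) (p : ℤ_[p]) hp0
  refine ⟨M, iM1, iM2, iM3, iM4, ρ', ?_, ?_, ?_, ?_⟩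
  · -- nontriviality: occurrence
    rw [hnt]
    -- the compatible system of the level maps
    let j : Λ →+ tateModule J p :=
      { toFun := fun x => ⟨fun n => ι n x, ⟨fun n => hι1 n x, fun n => hι3 n x⟩⟩
        map_zero' := by
          ext n
          exact map_zero (ι n)
        map_add' := fun x y => by
          ext n
          exact map_add (ι n) x y }
    have hj : ∀ (x : Λ) (n : ℕ), (j x).1 n = ι n x := fun _ _ => rfl
    have hsat : ∀ x : Λ, (∃ y : tateModule J p, j x = (p : ℤ_[p]) • y) →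
        ∃ z : Λ, x = (p : ℤ) • z := by
      rintro x ⟨y, hy⟩
      have h0 : ι 1 x = 0 := by
        rw [← hj x 1, hy, tateModule.natCast_smul_apply]
        have := tateModule.pow_smul_apply y 1
        rwa [pow_one] at this
      obtain ⟨z, hz⟩ := hι2 1 x h0
      exact ⟨z, by rw [hz, pow_one, natCast_zsmul]⟩
    -- the fraction field
    let K : Type := FractionRing 𝒪'
    have hKinj : Function.Injective (algebraMap ℤ_[p] K) := by
      rw [IsScalarTower.algebraMap_eq ℤ_[p] 𝒪' K]
      exact (IsFractionRing.injective 𝒪' K).comp (algebraMap_padicIntAlgebra_injective p 𝒪' hp𝒪')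
    obtain ⟨v, hv0, hv⟩ := hOT p Λ R hfaith (tateModule J p)
      (fun y hy => tateModule.eq_zero_of_p_smul_eq_zero y hy) j hsat ι' (fun i => t i.1) τ'
      (fun i x => by
        ext n
        exact hι4 i.1 i.2.1 i.2.2.1 i.2.2.2 n x)
      K hKinj ((algebraMap 𝒪' K).comp χ)
    refine exists_integral_eigenvector (R := ℤ_[p]) (O := 𝒪') (K := K) τ' (fun i => a i.1)
      ⟨v, hv0, fun i => ?_⟩
    rw [hv i, RingHom.comp_apply, hχ i.1 i.2.1 i.2.2.1 i.2.2.2]
  · -- continuity
    intro n
    obtain ⟨L, hL, hLσ⟩ := exists_common_level {x : J | p ^ n • x = 0}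
      (finite_pow_torsion p hfin n) (fun x hx => hlev x ⟨n, hx⟩)
    refine ⟨L, hL, fun σ hσ v => ?_⟩
    refine hcg σ n (fun x => ?_) (IsLocalRing.maximalIdeal 𝒪') (by rw [map_natCast]; exact hp𝒪') v
    refine (tateModule.apply_eq_zero_iff (ρ σ x - x) n).mp ?_
    show σ • x.1 n - x.1 n = 0
    rw [hLσ σ hσ (x.1 n) (tateModule.pow_smul_apply x n), sub_self]
  · -- unramified
    intro q hq' hqN hqp A hA σ hσ
    exact h1 σ (tateRep_eq_one_of_forall σ fun x hx => hunr q hq' hqN hqp A hA σ hσ x hx)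
  · -- Frobenius
    intro ℓ hℓ hℓN hℓS A hA σ hσ
    have hrel : ρ σ * ρ σ - τ' ⟨ℓ, hℓ, hℓN, hℓS⟩ * ρ σ
        + (ℓ : ℤ_[p]) • (1 : Module.End ℤ_[p] (tateModule J p)) = 0 := by
      ext x n
      have h2 := hfrob ℓ hℓ hℓN hℓS A hA σ hσ (x.1 n) ⟨n, tateModule.pow_smul_apply x n⟩
      rw [LinearMap.add_apply, LinearMap.sub_apply, LinearMap.smul_apply, Module.End.one_apply]
      show (σ • σ • x.1 n - τ ℓ (σ • x.1 n)) + ((ℓ : ℤ_[p]) • x).1 n = 0
      rw [tateModule.natCast_smul_apply]
      exact h2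
    have := hq σ ⟨ℓ, hℓ, hℓN, hℓS⟩ (ℓ : ℤ_[p]) hrel
    rw [map_natCast] at this
    exact this

end Fermat.Agent.S30.helper1094
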