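import Mathlib
import Fermat.Agent.S30.helper1094_JDatum
import Fermat.Agent.S31.helper2756_K5JZero
import Fermat.Agent.S31.helper6356_LatticeHom
import Fermat.Agent.S37.helper8426_HeckeInputs
import Fermat.Agent.S29.helper288_FinTorsion

/-!
# S30: `helper1094.Stmt_LatticeLevel` from the analytic Kummer dictionary at the moduli `p ^ k`

`Stmt_LatticeLevel` asks for a finite free lattice `Λ` with a faithful action of the anemic Hecke
algebra and Hecke-equivariant injections `Λ / p ^ k → J₀(N)[p ^ k]` compatible in `k`.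

Everything except the analytic dictionary is already on main:

* `Λ := Lam N` (integral parabolic homomorphisms), finite free, with the faithful Hecke action
  `heckeLatticeHom` (S31 K6, `helper6356_LatticeHom`);
* the level maps come from (K5) (`helper2756_K5JZero`: `kummerCorr_JZero`, `relJ_hecke`);
* `HeckeInputsAlong ℚ̄ N ℓ` is a theorem (`S37/helper8426_HeckeInputs`).

The ONLY remaining input is `MultTower N p Mult`: the interface `MultSpec N (p ^ (k + 1))` of the
analytic dictionary at every modulus `p ^ (k + 1)` (this is exactly what S31 consumes at one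
modulus), plus the cross-level rule `down`: a `p ^ (k + 2)`-th root `h` of `u` with multiplier
`ζ_{p^(k+2)} ^ ψ` gives the `p ^ (k + 1)`-th root `h ^ p`, whose multiplier is `ζ_{p^(k+1)} ^ ψ`.

Main results: `latticeLevel_of_multTower`, `stmt_LatticeLevel_of`.

**No cross-level rule is needed** (second half of the file): since `J₀(N)[p ^ k]` is finite
(`S29/helper288_FinTorsion`) and `Λ` is finitely generated, the admissible maps of level `k` form
an inverse system of finite nonempty sets under `ι ↦ p • ι`, so a compatible family exists by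
Kőnig's lemma (`exists_compatible_family`, pure algebra).  Hence
`stmt_LatticeLevel_of_multSpec : Stmt_MultSpecPow → helper1094.Stmt_LatticeLevel`, where
`Stmt_MultSpecPow` only asks for SOME `Mult` with `MultSpec N (p ^ (k + 1)) Mult` at each level
separately (no uniformity in the modulus, no compatible system of roots of unity).
-/

set_option autoImplicit false

namespace Fermat.Agent.S30.helper30

open ModularCurve AlgebraicCurve CongruenceSubgroup CategoryTheory
open Fermat.Agent.S29.helper8217 Fermat.Agent.S31.helper2756 Fermat.Agent.S31.helper6356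
open scoped MatrixGroups

/-! ### Kummer classes at two moduli -/

section Cross

variable {K F : Type*} [Field K] [Field F] [Algebra K F]

/-- An `n * m`-Kummer element is an `n`-Kummer element. -/
theorem isKummer_of_mul {n m : ℕ} {u : F} (h : IsKummer K (n * m) u) : IsKummer K n u :=
  ⟨h.1, fun v => dvd_trans ⟨(m : ℤ), by push_cast; rfl⟩ (h.2 v)⟩

variable [HasPrincipalDivisors K F]

/-- `cls_n (u) = m • cls_{n m} (u)` for an `n * m`-Kummer element `u`. -/
theorem kummerClass_eq_nsmul {n m : ℕ} (hn : n ≠ 0) {u : F} (h : IsKummer K (n * m) u) :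
    kummerClass K n u = m • kummerClass K (n * m) u := by
  have h' : IsKummer K n u := isKummer_of_mul h
  rw [kummerClass_eq_mk h', kummerClass_eq_mk h, ← natCast_zsmul, zsmul_mk]
  refine mk_eq_mk_of_coe_eq (Finsupp.ext fun v => ?_)
  show kummerDivisor K n u v = ((m : ℤ) • kummerDivisor K (n * m) u) v
  rw [Finsupp.smul_apply, kummerDivisor_apply, kummerDivisor_apply, smul_eq_mul]
  obtain ⟨c, hc⟩ := h.2 v
  have hn' : (n : ℤ) ≠ 0 := Int.natCast_ne_zero.mpr hn
  rcases Nat.eq_zero_or_pos m with rfl | hm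
  · simp only [Nat.cast_zero, zero_mul]
    rw [hc]
    simp
  · have hm' : (m : ℤ) ≠ 0 := Int.natCast_ne_zero.mpr hm.ne'
    have hnm' : ((n * m : ℕ) : ℤ) ≠ 0 := by
      rw [Nat.cast_mul]
      exact mul_ne_zero hn' hm'
    rw [hc, Int.mul_ediv_cancel_left c hnm']
    rw [show ((n * m : ℕ) : ℤ) * c = (n : ℤ) * ((m : ℤ) * c) by push_cast; ring,
      Int.mul_ediv_cancel_left _ hn']

end Cross

/-! ### The tower of level maps -/

section Tower

variable (N : ℕ) [NeZero N]

/-- **The analytic Kummer dictionary at the moduli `p ^ (k + 1)`.**  `Mult n u ψ` stands for: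
"`u` has an analytic `n`-th root on `ℍ` whose multiplier is `γ ↦ ζ_n ^ ψ γ`". -/
structure MultTower (p : ℕ)
    (Mult : ℕ → modularFunctionFieldBar N → (Additive (Gamma0 N) →+ ℤ) → Prop) : Prop where
  /-- the (K5) interface at every modulus `p ^ (k + 1)` -/
  spec : ∀ k : ℕ, MultSpec N (p ^ (k + 1)) (Mult (p ^ (k + 1)))
  /-- cross-level: the `p`-th power of a `p ^ (k + 2)`-th root is a `p ^ (k + 1)`-th root with the
  same exponent of the multiplier -/
  down : ∀ (k : ℕ) {u : modularFunctionFieldBar N} {ψ : Additive (Gamma0 N) →+ ℤ},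
    IsKummer (AlgebraicClosure ℚ) (p ^ (k + 2)) u → Mult (p ^ (k + 2)) u ψ →
      Mult (p ^ (k + 1)) u ψ

/-- Uniform form: the (K5) interface at every modulus `n ≠ 0` and the rule
`Mult (n * m) u ψ → Mult n u ψ` give the tower for every `p ≠ 0`. -/
theorem multTower_of_forall {p : ℕ} (hp : p ≠ 0)
    {Mult : ℕ → modularFunctionFieldBar N → (Additive (Gamma0 N) →+ ℤ) → Prop}
    (spec : ∀ n : ℕ, n ≠ 0 → MultSpec N n (Mult n))
    (down : ∀ (n m : ℕ), n ≠ 0 → m ≠ 0 → ∀ {u : modularFunctionFieldBar N}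
      {ψ : Additive (Gamma0 N) →+ ℤ}, IsKummer (AlgebraicClosure ℚ) (n * m) u →
        Mult (n * m) u ψ → Mult n u ψ) :
    MultTower N p Mult where
  spec k := spec _ (pow_ne_zero _ hp)
  down k u ψ hu hM := by
    rw [pow_succ] at hu hM
    exact down _ _ (pow_ne_zero _ hp) hp hu hM

variable {N}
variable {p : ℕ} {Mult : ℕ → modularFunctionFieldBar N → (Additive (Gamma0 N) →+ ℤ) → Prop}

/-- The Kummer correspondence at level `p ^ (k + 1)`. -/
theorem MultTower.corr (hM : MultTower N p Mult) (hp : p ≠ 0) (k : ℕ) :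
    KummerCorr (p ^ (k + 1)) (RelJ (N := N) (p ^ (k + 1)) (Mult (p ^ (k + 1)))) :=
  kummerCorr_JZero (pow_ne_zero _ hp) (hM.spec k)

/-- The level maps `ι_k : Λ → J₀(N)[p ^ k]` (`ι_0 = 0`). -/
noncomputable def iotaLevel (hM : MultTower N p Mult) (hp : p ≠ 0) : ℕ → Lam N →+ JZero N
  | 0 => 0
  | k + 1 => (hM.corr hp k).iota

theorem iotaLevel_zero (hM : MultTower N p Mult) (hp : p ≠ 0) (ψ : Lam N) :
    iotaLevel hM hp 0 ψ = 0 := rfl

theorem iotaLevel_succ (hM : MultTower N p Mult) (hp : p ≠ 0) (k : ℕ) (ψ : Lam N) :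
    iotaLevel hM hp (k + 1) ψ = (hM.corr hp k).iota ψ := rfl

/-- `ι_k` takes values in the `p ^ k`-torsion. -/
theorem pow_nsmul_iotaLevel (hM : MultTower N p Mult) (hp : p ≠ 0) (k : ℕ) (ψ : Lam N) :
    p ^ k • iotaLevel hM hp k ψ = 0 := by
  cases k with
  | zero => rw [iotaLevel_zero, smul_zero]
  | succ k => exact (hM.corr hp k).nsmul_iota ψ

/-- The kernel of `ι_k` is `p ^ k • Λ`. -/
theorem exists_eq_nsmul_of_iotaLevel_eq_zero (hM : MultTower N p Mult) (hp : p ≠ 0) (k : ℕ)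
    (ψ : Lam N) (h : iotaLevel hM hp k ψ = 0) : ∃ φ : Lam N, ψ = p ^ k • φ := by
  cases k with
  | zero => exact ⟨ψ, by rw [pow_zero, one_nsmul]⟩
  | succ k => exact ((hM.corr hp k).iota_eq_zero_iff ψ).1 h

/-- Compatibility of the level maps: `p • ι_{k+1} = ι_k`. -/
theorem nsmul_iotaLevel_succ (hM : MultTower N p Mult) (hp : p ≠ 0) (k : ℕ) (ψ : Lam N) :
    p • iotaLevel hM hp (k + 1) ψ = iotaLevel hM hp k ψ := by
  cases k with
  | zero =>
    rw [iotaLevel_zero]
    have := pow_nsmul_iotaLevel hM hp 1 ψ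
    rwa [pow_one] at this
  | succ k =>
    rw [iotaLevel_succ hM hp (k + 1), iotaLevel_succ hM hp k]
    obtain ⟨u, hu, hMu, hx⟩ := (hM.corr hp (k + 1)).iota_spec ψ
    have hu' : IsKummer (AlgebraicClosure ℚ) (p ^ (k + 1) * p) u := by
      rwa [← pow_succ]
    refine ((hM.corr hp k).iota_eq_of ⟨u, isKummer_of_mul hu', hM.down k hu hMu, ?_⟩).symm
    rw [kummerClass_eq_nsmul (pow_ne_zero _ hp) hu', ← pow_succ, hx]

/-- Hecke-equivariance of the level maps. -/
theorem iotaLevel_hecke (hM : MultTower N p Mult) (hp : p ≠ 0) (S : Set ℕ) {ℓ : ℕ}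
    (hℓ : ℓ.Prime) (hℓN : ¬ ℓ ∣ N) (hℓS : ℓ ∉ S) (k : ℕ) (ψ : Lam N) :
    iotaLevel hM hp k (heckeLatticeHom N S (CuspForm.heckeAlgebra.T hℓ hℓN hℓS) ψ) =
      heckeOperatorBar N ⟨ℓ, hℓ⟩ (iotaLevel hM hp k ψ) := by
  cases k with
  | zero => rw [iotaLevel_zero, iotaLevel_zero, map_zero]
  | succ k =>
    have : NeZero ℓ := ⟨hℓ.ne_zero⟩
    rw [iotaLevel_succ, iotaLevel_succ]
    exact (hM.corr hp k).iota_eq_of
      (relJ_hecke (pow_ne_zero _ hp) (hM.spec k) ℓ hℓ hℓN
        (Fermat.Agent.S37.helper8426.heckeInputsAlong N ℓ) ψ _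
        (coe_heckeLatticeHom_T N S hℓ hℓN hℓS ψ) _ ((hM.corr hp k).iota_spec ψ))

end Tower

/-! ### The lattice statement -/

/-- **`Stmt_LatticeLevel` at `(N, p, S)` from the analytic dictionary at the moduli `p ^ k`.** -/
theorem latticeLevel_of_multTower (N : ℕ) [NeZero N] (p : ℕ) (hp : p ≠ 0) (S : Finset ℕ)
    {Mult : ℕ → modularFunctionFieldBar N → (Additive (Gamma0 N) →+ ℤ) → Prop}
    (hM : MultTower N p Mult) :
    ∃ (Λ : Type) (_ : AddCommGroup Λ) (_ : Module.Free ℤ Λ) (_ : Module.Finite ℤ Λ)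
      (_ : Module (CuspForm.heckeAlgebra N 2 (↑S : Set ℕ)) Λ) (ι : ℕ → Λ →+ JZero N),
      (∀ r : CuspForm.heckeAlgebra N 2 (↑S : Set ℕ), (∀ x : Λ, r • x = 0) → r = 0) ∧
      (∀ (n : ℕ) (x : Λ), p ^ n • ι n x = 0) ∧
      (∀ (n : ℕ) (x : Λ), ι n x = 0 → ∃ y : Λ, x = p ^ n • y) ∧
      (∀ (n : ℕ) (x : Λ), p • ι (n + 1) x = ι n x) ∧
      (∀ (ℓ : ℕ) (hℓ : ℓ.Prime) (hℓN : ¬ ℓ ∣ N) (hℓS : ℓ ∉ (↑S : Set ℕ)) (n : ℕ) (x : Λ),
        ι n ((CuspForm.heckeAlgebra.T hℓ hℓN hℓS : CuspForm.heckeAlgebra N 2 (↑S : Set ℕ)) • x) =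
          heckeOperatorBar N ⟨ℓ, hℓ⟩ (ι n x)) := by
  refine ⟨Lam N, inferInstance, inferInstance, inferInstance,
    Module.compHom (Lam N) (heckeLatticeHom N (↑S : Set ℕ)), iotaLevel hM hp, ?_, ?_, ?_, ?_, ?_⟩
  · intro r hr
    exact eq_zero_of_forall_heckeLatticeHom_eq_zero N (↑S : Set ℕ) r hr
  · exact pow_nsmul_iotaLevel hM hp
  · exact exists_eq_nsmul_of_iotaLevel_eq_zero hM hp
  · exact nsmul_iotaLevel_succ hM hp
  · intro ℓ hℓ hℓN hℓS n x
    exact iotaLevel_hecke hM hp (↑S : Set ℕ) hℓ hℓN hℓS n x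

/-- The machine statement: the analytic Kummer dictionary at all moduli `p ^ k`, for all levels. -/
def Stmt_MultTower : Prop :=
  ∀ (N : ℕ) [NeZero N] (p : ℕ) [Fact p.Prime],
    ∃ Mult : ℕ → modularFunctionFieldBar N → (Additive (Gamma0 N) →+ ℤ) → Prop,
      MultTower N p Mult

/-- **`helper1094.Stmt_LatticeLevel` from the analytic Kummer dictionary.** -/
theorem stmt_LatticeLevel_of (h : Stmt_MultTower) :
    Fermat.Agent.S30.helper1094.Stmt_LatticeLevel := by
  intro N _ p hp S _ _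
  obtain ⟨Mult, hM⟩ := h N p
  exact latticeLevel_of_multTower N p hp.out.ne_zero S hM

/-! ### Kőnig: compatible families from level-wise existence -/

section Koenig

variable {Λ J : Type*} [AddCommGroup Λ] [AddCommGroup J] {I : Type*}

/-- The admissible maps at level `k`: additive maps `Λ → J[p ^ k]` with kernel `p ^ k • Λ`,
equivariant for the operators `(t i, τ i)`. -/
def levelSet (p : ℕ) (t : I → Λ →+ Λ) (τ : I → J →+ J) (k : ℕ) : Set (Λ →+ J) :=
  {ι | (∀ x, p ^ k • ι x = 0) ∧ (∀ x, ι x = 0 → ∃ y, x = p ^ k • y) ∧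
    ∀ i x, ι (t i x) = τ i (ι x)}

theorem zero_mem_levelSet (p : ℕ) (t : I → Λ →+ Λ) (τ : I → J →+ J) :
    (0 : Λ →+ J) ∈ levelSet p t τ 0 :=
  ⟨fun x => by simp, fun x _ => ⟨x, by rw [pow_zero, one_nsmul]⟩, fun i x => by simp⟩

/-- Multiplication by `p` maps the admissible maps of level `k + 1` to those of level `k`. -/
theorem nsmul_mem_levelSet {p : ℕ} (hΛ : ∀ x : Λ, p • x = 0 → x = 0) {t : I → Λ →+ Λ}
    {τ : I → J →+ J} {k : ℕ} {ι : Λ →+ J} (h : ι ∈ levelSet p t τ (k + 1)) :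
    p • ι ∈ levelSet p t τ k := by
  obtain ⟨h1, h2, h3⟩ := h
  refine ⟨fun x => ?_, fun x hx => ?_, fun i x => ?_⟩
  · rw [AddMonoidHom.smul_apply, ← mul_nsmul', ← pow_succ]
    exact h1 x
  · have h0 : ι (p • x) = 0 := by
      rw [map_nsmul]
      exact hx
    obtain ⟨y, hy⟩ := h2 _ h0
    refine ⟨y, ?_⟩
    have h4 : p • (x - p ^ k • y) = 0 := by
      rw [nsmul_sub, hy, ← mul_nsmul', ← pow_succ', sub_self]
    exact sub_eq_zero.mp (hΛ _ h4)
  · rw [AddMonoidHom.smul_apply, AddMonoidHom.smul_apply, h3, map_nsmul]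

/-- There are finitely many admissible maps at each level. -/
theorem finite_levelSet [Module.Finite ℤ Λ] {p : ℕ} (t : I → Λ →+ Λ) (τ : I → J →+ J) {k : ℕ}
    (hJ : Set.Finite {x : J | p ^ k • x = 0}) : (levelSet p t τ k).Finite := by
  obtain ⟨s, hs⟩ := (Module.Finite.fg_top : (⊤ : Submodule ℤ Λ).FG)
  have : Finite {x : J | p ^ k • x = 0} := hJ.to_subtype
  let f : levelSet p t τ k → (s → {x : J | p ^ k • x = 0}) :=
    fun ι g => ⟨ι.1 g.1, ι.2.1 g.1⟩
  have hf : Function.Injective f := by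
    intro ι ι' h
    apply Subtype.ext
    have h1 : ∀ g ∈ (s : Set Λ), ι.1.toIntLinearMap g = ι'.1.toIntLinearMap g := by
      intro g hg
      have := congrArg (fun F => (F ⟨g, hg⟩ : J)) h
      exact this
    have h2 : ι.1.toIntLinearMap = ι'.1.toIntLinearMap :=
      LinearMap.ext_on hs h1
    exact AddMonoidHom.ext fun x => LinearMap.congr_fun h2 x
  exact Set.finite_coe_iff.mp (Finite.of_injective f hf)

/-- **Kőnig.**  If every level has an admissible map, there is a compatible family of admissible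
maps: `p • ι (k + 1) = ι k`. -/
theorem exists_compatible_family [Module.Finite ℤ Λ] {p : ℕ} (hΛ : ∀ x : Λ, p • x = 0 → x = 0)
    (t : I → Λ →+ Λ) (τ : I → J →+ J) (hJ : ∀ k, Set.Finite {x : J | p ^ k • x = 0})
    (hne : ∀ k, (levelSet p t τ k).Nonempty) :
    ∃ ι : ℕ → Λ →+ J, (∀ k, ι k ∈ levelSet p t τ k) ∧ ∀ k, p • ι (k + 1) = ι k := by
  let F : ℕᵒᵖ ⥤ Type _ := Functor.ofOpSequence (X := fun k => ↥(levelSet p t τ k))
    (fun k => TypeCat.ofHom fun (ι : ↥(levelSet p t τ (k + 1))) =>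
      (⟨p • ι.1, nsmul_mem_levelSet hΛ ι.2⟩ : ↥(levelSet p t τ k)))
  have : ∀ j : ℕᵒᵖ, Finite (F.obj j) := fun j => (finite_levelSet t τ (hJ j.unop)).to_subtype
  have : ∀ j : ℕᵒᵖ, Nonempty (F.obj j) := fun j => (hne j.unop).to_subtype
  obtain ⟨u, hu⟩ := nonempty_sections_of_finite_inverse_system F
  refine ⟨fun k => (u ⟨k⟩).1, fun k => (u ⟨k⟩).2, fun k => ?_⟩
  have h := hu (homOfLE (Nat.le_add_right k 1)).op
  rw [Functor.ofOpSequence_map_homOfLE_succ] at h
  exact congrArg Subtype.val h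

end Koenig

/-! ### The lattice statement from level-wise (K5), without any cross-level rule -/

/-- **`Stmt_LatticeLevel` at `(N, p, S)` from the (K5) interface at every modulus `p ^ (k + 1)`
separately.**  No compatibility between the levels is assumed: it is produced by Kőnig's lemma
from the finiteness of `J₀(N)[p ^ k]`. -/
theorem latticeLevel_of_multSpec (N : ℕ) [NeZero N] (p : ℕ) (hp : p ≠ 0) (S : Finset ℕ)
    (hM : ∀ k : ℕ, ∃ Mult : modularFunctionFieldBar N → (Additive (Gamma0 N) →+ ℤ) → Prop,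
      MultSpec N (p ^ (k + 1)) Mult) :
    ∃ (Λ : Type) (_ : AddCommGroup Λ) (_ : Module.Free ℤ Λ) (_ : Module.Finite ℤ Λ)
      (_ : Module (CuspForm.heckeAlgebra N 2 (↑S : Set ℕ)) Λ) (ι : ℕ → Λ →+ JZero N),
      (∀ r : CuspForm.heckeAlgebra N 2 (↑S : Set ℕ), (∀ x : Λ, r • x = 0) → r = 0) ∧
      (∀ (n : ℕ) (x : Λ), p ^ n • ι n x = 0) ∧
      (∀ (n : ℕ) (x : Λ), ι n x = 0 → ∃ y : Λ, x = p ^ n • y) ∧
      (∀ (n : ℕ) (x : Λ), p • ι (n + 1) x = ι n x) ∧
      (∀ (ℓ : ℕ) (hℓ : ℓ.Prime) (hℓN : ¬ ℓ ∣ N) (hℓS : ℓ ∉ (↑S : Set ℕ)) (n : ℕ) (x : Λ),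
        ι n ((CuspForm.heckeAlgebra.T hℓ hℓN hℓS : CuspForm.heckeAlgebra N 2 (↑S : Set ℕ)) • x) =
          heckeOperatorBar N ⟨ℓ, hℓ⟩ (ι n x)) := by
  let I : Type := {ℓ : ℕ // ℓ.Prime ∧ ¬ ℓ ∣ N ∧ ℓ ∉ (↑S : Set ℕ)}
  let t : I → Lam N →+ Lam N := fun i =>
    (heckeLatticeHom N (↑S : Set ℕ)
      (CuspForm.heckeAlgebra.T i.2.1 i.2.2.1 i.2.2.2)).toAddMonoidHom
  let τ : I → JZero N →+ JZero N := fun i => (heckeOperatorBar N ⟨i.1, i.2.1⟩).toAddMonoidHom
  have hΛ : ∀ x : Lam N, p • x = 0 → x = 0 := by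
    intro x hx
    apply Subtype.ext
    refine AddMonoidHom.ext fun γ => ?_
    have h1 : p • (x : Additive (Gamma0 N) →+ ℤ) γ = 0 := by
      have := congrArg (fun y : Lam N => (y : Additive (Gamma0 N) →+ ℤ) γ) hx
      simpa using this
    rcases smul_eq_zero.mp h1 with h2 | h2
    · exact absurd h2 hp
    · simpa using h2
  have hne : ∀ k, (levelSet p t τ k).Nonempty := by
    intro k
    cases k with
    | zero => exact ⟨0, zero_mem_levelSet p t τ⟩
    | succ k =>
      obtain ⟨Mult, hMk⟩ := hM k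
      obtain ⟨ι, h1, h2, h3⟩ := exists_k5 (pow_ne_zero (k + 1) hp) hMk
      refine ⟨ι, h1, fun x hx => (h2 x).1 hx, fun i x => ?_⟩
      have : NeZero i.1 := ⟨i.2.1.ne_zero⟩
      exact h3 i.1 i.2.1 i.2.2.1 (Fermat.Agent.S37.helper8426.heckeInputsAlong N i.1) x _
        (coe_heckeLatticeHom_T N (↑S : Set ℕ) i.2.1 i.2.2.1 i.2.2.2 x)
  obtain ⟨ι, hι, hcompat⟩ := exists_compatible_family hΛ t τ
    (fun k => Fermat.Agent.S29.helper288.finite_torsion_JZero N (pow_ne_zero k hp)) hne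
  refine ⟨Lam N, inferInstance, inferInstance, inferInstance,
    Module.compHom (Lam N) (heckeLatticeHom N (↑S : Set ℕ)), ι, ?_, ?_, ?_, ?_, ?_⟩
  · exact fun r hr => eq_zero_of_forall_heckeLatticeHom_eq_zero N (↑S : Set ℕ) r hr
  · exact fun n x => (hι n).1 x
  · exact fun n x => (hι n).2.1 x
  · intro n x
    exact congrArg (fun f : Lam N →+ JZero N => f x) (hcompat n)
  · intro ℓ hℓ hℓN hℓS n x
    exact (hι n).2.2 ⟨ℓ, hℓ, hℓN, hℓS⟩ x

/-- The machine statement, level-wise form: the analytic Kummer dictionary (K5 interface) at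
every modulus `p ^ (k + 1)`, for all levels `N`.  The relation `Mult` may depend on the modulus
in an arbitrary way. -/
def Stmt_MultSpecPow : Prop :=
  ∀ (N : ℕ) [NeZero N] (p : ℕ) [Fact p.Prime] (k : ℕ),
    ∃ Mult : modularFunctionFieldBar N → (Additive (Gamma0 N) →+ ℤ) → Prop,
      MultSpec N (p ^ (k + 1)) Mult

/-- The machine statement at every modulus `n ≠ 0`. -/
def Stmt_MultSpecAll : Prop :=
  ∀ (N : ℕ) [NeZero N] (n : ℕ), n ≠ 0 →
    ∃ Mult : modularFunctionFieldBar N → (Additive (Gamma0 N) →+ ℤ) → Prop, MultSpec N n Mult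

theorem stmt_MultSpecPow_of_all (h : Stmt_MultSpecAll) : Stmt_MultSpecPow :=
  fun N _ p hp k => h N (p ^ (k + 1)) (pow_ne_zero _ hp.out.ne_zero)

/-- A tower gives the level-wise statement. -/
theorem stmt_MultSpecPow_of_tower (h : Stmt_MultTower) : Stmt_MultSpecPow := by
  intro N _ p _ k
  obtain ⟨Mult, hM⟩ := h N p
  exact ⟨Mult (p ^ (k + 1)), hM.spec k⟩

/-- **`helper1094.Stmt_LatticeLevel` from the level-wise analytic Kummer dictionary.** -/
theorem stmt_LatticeLevel_of_multSpec (h : Stmt_MultSpecPow) :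
    Fermat.Agent.S30.helper1094.Stmt_LatticeLevel := by
  intro N _ p hp S _ _
  exact latticeLevel_of_multSpec N p hp.out.ne_zero S (fun k => h N p k)

end Fermat.Agent.S30.helper30
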