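import Mathlib
import Fermat.Agent.S30.helper1094_JDatum
import Fermat.Agent.S29.helper8527_FiniteLevel
import Fermat.Agent.S29.helper5500_GalHecke
import Fermat.Agent.S29.helper288_FinTorsion

/-!
# S30: the three machine statements that are already theorems on main

`helper1094.Stmt_FinLevel` (open stabilisers of the points of `J₀(N)`),
`helper1094.Stmt_GalHecke` (operator-wise commutation of the Galois action with the Prelude Hecke
operators) and `helper1094.Stmt_TorsFin` (finiteness of `J₀(N)[p]`) are discharged from the landed
S29 modules `helper8527_FiniteLevel`, `helper5500_GalHecke` and `helper288_FinTorsion`.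
-/

set_option autoImplicit false

namespace Fermat.Agent.S30.helper30

/-- Every point of `J₀(N)` is fixed by an open subgroup of `G_ℚ`. -/
theorem stmt_FinLevel : Fermat.Agent.S30.helper1094.Stmt_FinLevel :=
  fun N _ x => Fermat.Agent.S29.helper8527.exists_finiteLevel_point N x

/-- The Prelude Hecke operators on `J₀(N)` commute with the Galois action. -/
theorem stmt_GalHecke : Fermat.Agent.S30.helper1094.Stmt_GalHecke :=
  fun N _ ℓ σ x => Fermat.Agent.S29.helper5500.galois_smul_heckeOperatorBar N ℓ σ x

/-- `J₀(N)[p]` is finite. -/
theorem stmt_TorsFin : Fermat.Agent.S30.helper1094.Stmt_TorsFin :=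
  fun N _ _ hp => Fermat.Agent.S29.helper288.finTorsion N hp.out

end Fermat.Agent.S30.helper30
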