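import Mathlib

/-!
# S30: transport of a Hecke eigenvector from a lattice into a `ℤ_p`-module (findings #2685, FIX B)

`Λ` is a finite free `ℤ`-module with operators `t i`, `T` is a `p`-torsion-free `ℤ_[p]`-module
with operators `τ i`, and `ι : Λ →+ T` is an additive map intertwining `t i` and `τ i` which is
injective modulo `p` (`ι x ∈ p T → x ∈ p Λ`).  Then, for every domain `K` into which `ℤ_[p]` embeds
(a field, or a discrete valuation ring `𝒪'` of characteristic zero and residue characteristic `p`),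
every common eigenvector of the `t i` in `K ⊗[ℤ] Λ` is carried to a NONZERO common eigenvector of
the `τ i` in `K ⊗[ℤ_[p]] T`, with the same eigenvalues.

No ring acts on `T`, the `τ i` need not commute, no cardinality and no surjectivity is used.
-/

set_option autoImplicit false

open scoped TensorProduct

namespace Fermat.Agent.S30.helper501

variable (p : ℕ) [Fact p.Prime]

section Independence

variable {Λ : Type*} [AddCommGroup Λ]
variable {T : Type*} [AddCommGroup T] [Module ℤ_[p] T]

/-- In a `ℤ_[p]`-module, the integer scalar action agrees with the action through `ℤ_[p]`. -/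
theorem intCast_smul_eq (a : ℤ) (y : T) : ((a : ℤ_[p]) • y) = a • y := by
  exact Int.cast_smul_eq_zsmul ℤ_[p] a y

/-- **One step of the descent**: if `ι` is injective modulo `p`, every `ℤ_[p]`-linear relation
between the images of a `ℤ`-basis has all its coefficients divisible by `p`. -/
theorem dvd_of_relation {n : ℕ} (b : Module.Basis (Fin n) ℤ Λ) (ι : Λ →+ T)
    (hsat : ∀ x : Λ, (∃ y : T, ι x = (p : ℤ_[p]) • y) → ∃ z : Λ, x = (p : ℤ) • z)
    (c : Fin n → ℤ_[p]) (hc : ∑ j, c j • ι (b j) = 0) (j : Fin n) : (p : ℤ_[p]) ∣ c j := by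
  classical
  -- integer approximations of the coefficients modulo `p`
  have happr : ∀ j, ∃ e : ℤ_[p], c j = (((c j).appr 1 : ℕ) : ℤ_[p]) + (p : ℤ_[p]) * e := by
    intro j
    have h := PadicInt.appr_spec 1 (c j)
    rw [pow_one, Ideal.mem_span_singleton'] at h
    obtain ⟨e, he⟩ := h
    exact ⟨e, by rw [mul_comm, he]; ring⟩
  choose e he using happr
  set a : Fin n → ℤ := fun j => (((c j).appr 1 : ℕ) : ℤ) with ha
  set x : Λ := ∑ j, a j • b j with hx
  have hιx : ι x = (p : ℤ_[p]) • (-(∑ j, e j • ι (b j))) := by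
    have h1 : ι x = ∑ j, ((a j : ℤ) : ℤ_[p]) • ι (b j) := by
      rw [hx, map_sum]
      refine Finset.sum_congr rfl fun j _ => ?_
      rw [map_zsmul, intCast_smul_eq]
    have h2 : ∀ j, ((a j : ℤ) : ℤ_[p]) • ι (b j)
        = c j • ι (b j) - (p : ℤ_[p]) • (e j • ι (b j)) := by
      intro j
      have : ((a j : ℤ) : ℤ_[p]) = c j - (p : ℤ_[p]) * e j := by
        have h0 : ((a j : ℤ) : ℤ_[p]) = (((c j).appr 1 : ℕ) : ℤ_[p]) := by
          rw [ha]; simp only [Int.cast_natCast]
        rw [h0]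
        exact eq_sub_of_add_eq (he j).symm
      rw [this, sub_smul, mul_smul]
    rw [h1, Finset.sum_congr rfl fun j _ => h2 j, Finset.sum_sub_distrib, hc, zero_sub,
      smul_neg, Finset.smul_sum]
  obtain ⟨z, hz⟩ := hsat x ⟨_, hιx⟩
  -- compare coordinates
  have hrepr : b.repr x j = a j := by
    rw [hx, map_sum]
    simp only [map_zsmul, Module.Basis.repr_self, Finsupp.coe_finsetSum, Finsupp.coe_smul,
      Finset.sum_apply, Pi.smul_apply, Finsupp.single_apply, smul_eq_mul, mul_ite, mul_one,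
      mul_zero, Finset.sum_ite_eq', Finset.mem_univ, if_true]
  have hdvd : (p : ℤ) ∣ a j := by
    rw [← hrepr, hz, map_zsmul]
    exact ⟨b.repr z j, by simp⟩
  obtain ⟨k, hk⟩ := hdvd
  refine ⟨(k : ℤ_[p]) + e j, ?_⟩
  rw [he j]
  have : (((c j).appr 1 : ℕ) : ℤ_[p]) = ((a j : ℤ) : ℤ_[p]) := by
    rw [ha]; simp
  rw [this, hk]
  push_cast
  ring

/-- **Independence**: if `ι` is injective modulo `p` and `T` has no `p`-torsion, the images of a
`ℤ`-basis of `Λ` are linearly independent over `ℤ_[p]`. -/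
theorem coeff_eq_zero_of_relation {n : ℕ} (b : Module.Basis (Fin n) ℤ Λ) (ι : Λ →+ T)
    (hT : ∀ y : T, (p : ℤ_[p]) • y = 0 → y = 0)
    (hsat : ∀ x : Λ, (∃ y : T, ι x = (p : ℤ_[p]) • y) → ∃ z : Λ, x = (p : ℤ) • z)
    (c : Fin n → ℤ_[p]) (hc : ∑ j, c j • ι (b j) = 0) : c = 0 := by
  -- all coefficients are divisible by every power of `p`
  have key : ∀ (k : ℕ) (c : Fin n → ℤ_[p]), ∑ j, c j • ι (b j) = 0 →
      ∀ j, (p : ℤ_[p]) ^ k ∣ c j := by
    intro k
    induction k with
    | zero => intro c _ j; simp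
    | succ k ih =>
      intro c hc j
      have hdiv := dvd_of_relation p b ι hsat c hc
      choose c' hc' using hdiv
      have hc0 : ∑ j, c' j • ι (b j) = 0 := by
        apply hT
        rw [Finset.smul_sum, ← hc]
        refine Finset.sum_congr rfl fun j _ => ?_
        rw [smul_smul, ← hc' j]
      obtain ⟨d, hd⟩ := ih c' hc0 j
      exact ⟨d, by rw [hc' j, hd, pow_succ]; ring⟩
  funext j
  by_contra hne
  have hfin : FiniteMultiplicity (p : ℤ_[p]) (c j) :=
    FiniteMultiplicity.of_not_isUnit PadicInt.prime_p.not_isUnit hne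
  obtain ⟨m, hm⟩ := hfin
  exact hm (key (m + 1) c hc j)

end Independence

section Transport

variable {Λ : Type*} [AddCommGroup Λ] [Module.Free ℤ Λ] [Module.Finite ℤ Λ]
variable {T : Type*} [AddCommGroup T] [Module ℤ_[p] T]
variable {K : Type*} [CommRing K] [IsDomain K] [Algebra ℤ_[p] K]

/-- The `K`-linear map `K ⊗[ℤ] Λ → K ⊗[ℤ_[p]] T` induced by an additive map `ι : Λ →+ T`. -/
noncomputable def transportMap (ι : Λ →+ T) : K ⊗[ℤ] Λ →ₗ[K] K ⊗[ℤ_[p]] T :=
  LinearMap.liftBaseChange K
    (((TensorProduct.mk ℤ_[p] K T 1).restrictScalars ℤ).comp ι.toIntLinearMap)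

omit [Module.Free ℤ Λ] [Module.Finite ℤ Λ] [IsDomain K] in
@[simp] theorem transportMap_tmul (ι : Λ →+ T) (k : K) (x : Λ) :
    transportMap p ι (k ⊗ₜ[ℤ] x) = k ⊗ₜ[ℤ_[p]] ι x := by
  simp [transportMap, TensorProduct.smul_tmul']

omit [Module.Free ℤ Λ] [Module.Finite ℤ Λ] [IsDomain K] in
/-- Equivariance of the transport map. -/
theorem transportMap_baseChange (ι : Λ →+ T) (t : Module.End ℤ Λ) (τ : Module.End ℤ_[p] T)
    (h : ∀ x, ι (t x) = τ (ι x)) (y : K ⊗[ℤ] Λ) :
    transportMap p ι (t.baseChange K y) = τ.baseChange K (transportMap (K := K) p ι y) := by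
  induction y using TensorProduct.induction_on with
  | zero => simp
  | tmul k x => simp [h]
  | add y₁ y₂ h₁ h₂ => simp only [map_add, h₁, h₂]

/-- Injectivity of the transport map: `ι` injective modulo `p`, `T` without `p`-torsion,
`ℤ_[p] → K` injective. -/
theorem transportMap_injective (hK : Function.Injective (algebraMap ℤ_[p] K)) (ι : Λ →+ T)
    (hT : ∀ y : T, (p : ℤ_[p]) • y = 0 → y = 0)
    (hsat : ∀ x : Λ, (∃ y : T, ι x = (p : ℤ_[p]) • y) → ∃ z : Λ, x = (p : ℤ) • z) :
    Function.Injective (transportMap (K := K) p ι) := by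
  classical
  set n := Module.finrank ℤ Λ
  let b : Module.Basis (Fin n) ℤ Λ := Module.finBasis ℤ Λ
  -- the `ℤ_[p]`-linear map `ℤ_[p]^n → T` is injective
  let F : (Fin n → ℤ_[p]) →ₗ[ℤ_[p]] T := Fintype.linearCombination ℤ_[p] (fun j => ι (b j))
  have hF : Function.Injective F := by
    rw [injective_iff_map_eq_zero]
    intro c hc
    refine coeff_eq_zero_of_relation p b ι hT hsat c ?_
    simpa [F, Fintype.linearCombination_apply] using hc
  -- `K` is flat over `ℤ_[p]`
  have htf : Module.IsTorsionFree ℤ_[p] K := by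
    rw [Module.isTorsionFree_iff_smul_eq_zero]
    intro r k hrk
    rw [Algebra.smul_def, mul_eq_zero] at hrk
    rcases hrk with h | h
    · left
      exact hK (by rw [h, map_zero])
    · right; exact h
  have hflat : Module.Flat ℤ_[p] K :=
    Module.Flat.flat_iff_torsion_eq_bot_of_isBezout.mpr
      (Submodule.isTorsionFree_iff_torsion_eq_bot.mp htf)
  have hFK : Function.Injective (LinearMap.lTensor K F) :=
    Module.Flat.lTensor_preserves_injective_linearMap F hF
  -- now the injectivity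
  rw [injective_iff_map_eq_zero]
  intro y hy
  let B : Module.Basis (Fin n) K (K ⊗[ℤ] Λ) := b.baseChange K
  have hyB : y = ∑ j, B.repr y j • (1 : K) ⊗ₜ[ℤ] b j := by
    conv_lhs => rw [← B.sum_repr y]
    refine Finset.sum_congr rfl fun j _ => ?_
    rw [Module.Basis.baseChange_apply]
  set k : Fin n → K := fun j => B.repr y j with hk
  -- the corresponding element of `K ⊗ ℤ_[p]^n`
  set w : K ⊗[ℤ_[p]] (Fin n → ℤ_[p]) :=
    ∑ j, k j ⊗ₜ[ℤ_[p]] (Pi.single j (1 : ℤ_[p])) with hw
  have hFw : LinearMap.lTensor K F w = 0 := by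
    rw [hw, map_sum]
    have : transportMap (K := K) p ι y = ∑ j, k j ⊗ₜ[ℤ_[p]] ι (b j) := by
      rw [hyB, map_sum]
      refine Finset.sum_congr rfl fun j _ => ?_
      rw [map_smul, transportMap_tmul, TensorProduct.smul_tmul', smul_eq_mul, mul_one]
    rw [← hy, this]
    refine Finset.sum_congr rfl fun j _ => ?_
    rw [LinearMap.lTensor_tmul]
    congr 1
    simp [F, Fintype.linearCombination_apply]
  have hw0 : w = 0 := hFK (by rw [hFw, map_zero])
  have hk0 : k = 0 := by
    have h := congrArg (TensorProduct.piScalarRight ℤ_[p] K K (Fin n)) hw0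
    rw [map_zero, hw, map_sum] at h
    funext i
    have hi := congrFun h i
    simp only [TensorProduct.piScalarRight_apply, TensorProduct.piScalarRightHom_tmul,
      Finset.sum_apply, Pi.zero_apply] at hi
    have hsum : ∑ c, ((Pi.single c (1 : ℤ_[p]) : Fin n → ℤ_[p]) i) • k c = k i := by
      simp [Pi.single_apply]
    rw [Pi.zero_apply, ← hsum, hi]
  rw [hyB]
  refine Finset.sum_eq_zero fun j _ => ?_
  have : B.repr y j = 0 := congrFun hk0 j
  rw [this, zero_smul]

/-- **Eigenvector transport** (findings #2685, FIX B).  `Λ` finite free over `ℤ` with operators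
`t i`; `T` a `ℤ_[p]`-module without `p`-torsion with operators `τ i`; `ι : Λ →+ T` additive,
intertwining `t i` with `τ i`, and injective modulo `p`; `K` a domain into which `ℤ_[p]` embeds.
Then a common eigenvector of the `t i` in `K ⊗[ℤ] Λ` with eigenvalues `a i` yields a nonzero common
eigenvector of the `τ i` in `K ⊗[ℤ_[p]] T` with the same eigenvalues. -/
theorem exists_eigenvector_transport {I : Type*} (t : I → Module.End ℤ Λ)
    (τ : I → Module.End ℤ_[p] T) (ι : Λ →+ T) (hι : ∀ i x, ι (t i x) = τ i (ι x))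
    (hT : ∀ y : T, (p : ℤ_[p]) • y = 0 → y = 0)
    (hsat : ∀ x : Λ, (∃ y : T, ι x = (p : ℤ_[p]) • y) → ∃ z : Λ, x = (p : ℤ) • z)
    (hK : Function.Injective (algebraMap ℤ_[p] K)) (a : I → K)
    (hocc : ∃ y : K ⊗[ℤ] Λ, y ≠ 0 ∧ ∀ i, (t i).baseChange K y = a i • y) :
    ∃ x : K ⊗[ℤ_[p]] T, x ≠ 0 ∧ ∀ i, (τ i).baseChange K x = a i • x := by
  obtain ⟨y, hy0, hy⟩ := hocc
  refine ⟨transportMap (K := K) p ι y, ?_, fun i => ?_⟩
  · intro h
    exact hy0 (transportMap_injective p hK ι hT hsat (by rw [h, map_zero]))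
  · rw [← transportMap_baseChange p ι (t i) (τ i) (hι i), hy i, map_smul]

end Transport

end Fermat.Agent.S30.helper501
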