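import Mathlib
import Fermat.Agent.S30.helper501_Transport
import Fermat.Agent.S29.helper5350_OccAlg
import Fermat.Agent.Lib.helper4786_TateModule

/-!
# S30: occurrence of a Hecke character in a Tate module (leaf E1b, findings #2685, FIX B)

`R` is a commutative ring acting FAITHFULLY on a finite free `ℤ`-module `Λ`, `χ : R →+* O` is a
ring homomorphism to a domain `O` into which `ℤ_[p]` embeds.

* `exists_integral_eigenvector`: there is a nonzero `y : O ⊗[ℤ] Λ` with `r • y = χ r • y` for all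
  `r : R` (the field case is `S29.helper5350.exists_eigen_vector`; denominators are cleared here).
* `exists_eigenvector_of_faithful`: if moreover `j : Λ →+ T` is additive, injective modulo `p`,
  into a `ℤ_[p]`-module `T` without `p`-torsion, and intertwines `t i : R` with operators `τ i` of
  `T`, there is a nonzero `x : O ⊗[ℤ_[p]] T` with `τ i x = χ (t i) • x` for all `i`.
* `exists_eigenvector_tateModule`: the same for `T := tateModule J p` and the map
  `x ↦ (ι n x)_n` given by level-wise maps `ι n : Λ →+ J[p ^ n]`;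
  `exists_eigenvector_tateModule_of_pred` is the same statement with hypotheses verbatim in the
  shape of the (occ) clause of `helper1094.JDatum`.

No ring acts on `T`, the `τ i` need not commute, no cardinality and no surjectivity is used.
-/

set_option autoImplicit false

open scoped TensorProduct

namespace Fermat.Agent.S30.helper501

section Integral

variable {Λ : Type*} [AddCommGroup Λ]
variable (O : Type*) [CommRing O]
variable (K : Type*) [Field K] [Algebra O K]

/-- The comparison map `O ⊗[ℤ] Λ → K ⊗[ℤ] Λ`. -/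
noncomputable def fracIncl : O ⊗[ℤ] Λ →ₗ[O] K ⊗[ℤ] Λ :=
  TensorProduct.AlgebraTensorModule.map (Algebra.linearMap O K) (LinearMap.id : Λ →ₗ[ℤ] Λ)

@[simp] theorem fracIncl_tmul (o : O) (x : Λ) :
    fracIncl (Λ := Λ) O K (o ⊗ₜ[ℤ] x) = algebraMap O K o ⊗ₜ[ℤ] x := by
  simp [fracIncl]

/-- The comparison map is injective when `Λ` is free and `O → K` is injective. -/
theorem fracIncl_injective [Module.Free ℤ Λ] (hOK : Function.Injective (algebraMap O K)) :
    Function.Injective (fracIncl (Λ := Λ) O K) := by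
  have h1 : Function.Injective
      (LinearMap.rTensor Λ ((Algebra.linearMap O K).restrictScalars ℤ)) :=
    Module.Flat.rTensor_preserves_injective_linearMap _ hOK
  have h2 : ∀ y : O ⊗[ℤ] Λ, fracIncl (Λ := Λ) O K y
      = LinearMap.rTensor Λ ((Algebra.linearMap O K).restrictScalars ℤ) y := by
    intro y
    induction y using TensorProduct.induction_on with
    | zero => simp
    | tmul o x => simp
    | add y₁ y₂ h₁ h₂ => simp only [map_add, h₁, h₂]
  intro y₁ y₂ h
  apply h1
  rw [← h2, ← h2, h]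

/-- The comparison map commutes with base-changed endomorphisms of `Λ`. -/
theorem fracIncl_baseChange (f : Module.End ℤ Λ) (y : O ⊗[ℤ] Λ) :
    fracIncl O K (f.baseChange O y) = f.baseChange K (fracIncl O K y) := by
  induction y using TensorProduct.induction_on with
  | zero => simp
  | tmul o x => simp
  | add y₁ y₂ h₁ h₂ => simp only [map_add, h₁, h₂]

/-- Clearing denominators: every element of `K ⊗[ℤ] Λ` has a nonzero `O`-multiple coming from
`O ⊗[ℤ] Λ`, when `K` is the fraction field of `O`. -/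
theorem exists_smul_eq_fracIncl [IsDomain O] [IsFractionRing O K] (y : K ⊗[ℤ] Λ) :
    ∃ d : O, d ≠ 0 ∧ ∃ y' : O ⊗[ℤ] Λ, fracIncl O K y' = d • y := by
  induction y using TensorProduct.induction_on with
  | zero => exact ⟨1, one_ne_zero, 0, by simp⟩
  | tmul k x =>
    obtain ⟨o, d, hd, rfl⟩ := IsFractionRing.div_surjective O k
    have hd0 : d ≠ 0 := nonZeroDivisors.ne_zero hd
    have hd1 : algebraMap O K d ≠ 0 := by
      intro h
      exact hd0 (IsFractionRing.injective O K (by rw [h, map_zero]))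
    refine ⟨d, hd0, o ⊗ₜ[ℤ] x, ?_⟩
    rw [fracIncl_tmul, TensorProduct.smul_tmul', Algebra.smul_def, mul_div_cancel₀ _ hd1]
  | add y₁ y₂ h₁ h₂ =>
    obtain ⟨d₁, hd₁, z₁, hz₁⟩ := h₁
    obtain ⟨d₂, hd₂, z₂, hz₂⟩ := h₂
    refine ⟨d₁ * d₂, mul_ne_zero hd₁ hd₂, d₂ • z₁ + d₁ • z₂, ?_⟩
    rw [map_add, map_smul, map_smul, hz₁, hz₂, smul_add, smul_smul, smul_smul, mul_comm d₂ d₁]

end Integral

section Occurrence

variable {Λ : Type*} [AddCommGroup Λ] [Module.Free ℤ Λ] [Module.Finite ℤ Λ]
variable {R : Type*} [CommRing R]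
variable {O : Type*} [CommRing O] [IsDomain O]

/-- **Integral eigen-occurrence.**  A commutative ring `R` acting faithfully on a finite free
`ℤ`-module `Λ`, `χ : R →+* O` a ring homomorphism to a domain: there is a nonzero vector of
`O ⊗[ℤ] Λ` on which every `r : R` acts as `χ r`. -/
theorem exists_integral_eigenvector (act : R →+* Module.End ℤ Λ)
    (hact : Function.Injective act) (χ : R →+* O) :
    ∃ y : O ⊗[ℤ] Λ, y ≠ 0 ∧ ∀ r : R, (act r).baseChange O y = χ r • y := by
  obtain ⟨c, hc0, hc⟩ := Fermat.Agent.S29.helper5350.exists_eigen_vector act hact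
    ((algebraMap O (FractionRing O)).comp χ)
  obtain ⟨d, hd, y, hy⟩ := exists_smul_eq_fracIncl O (FractionRing O) c
  have hinj : Function.Injective (fracIncl (Λ := Λ) O (FractionRing O)) :=
    fracIncl_injective O (FractionRing O) (IsFractionRing.injective O (FractionRing O))
  have hdc : ∀ z : FractionRing O ⊗[ℤ] Λ, d • z = algebraMap O (FractionRing O) d • z :=
    fun z => (algebraMap_smul (FractionRing O) d z).symm
  refine ⟨y, ?_, fun r => ?_⟩
  · rintro rfl
    rw [map_zero, hdc] at hy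
    rcases smul_eq_zero.mp hy.symm with h | h
    · exact hd (IsFractionRing.injective O (FractionRing O) (by rw [h, map_zero]))
    · exact hc0 h
  · apply hinj
    rw [fracIncl_baseChange, map_smul, hy, hdc, map_smul, hc r, RingHom.comp_apply,
      ← algebraMap_smul (FractionRing O) (χ r), smul_smul, smul_smul, mul_comm]

/-- The ring homomorphism `R → End_ℤ(Λ)` underlying an `R`-module structure. -/
noncomputable def actHom (R Λ : Type*) [CommRing R] [AddCommGroup Λ] [Module R Λ] :
    R →+* Module.End ℤ Λ :=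
  Module.toModuleEnd ℤ (S := R) Λ

omit [Module.Free ℤ Λ] [Module.Finite ℤ Λ] in
@[simp] theorem actHom_apply [Module R Λ] (r : R) (x : Λ) : actHom R Λ r x = r • x := rfl

omit [Module.Free ℤ Λ] [Module.Finite ℤ Λ] in
theorem actHom_injective [Module R Λ] (hfaith : ∀ r : R, (∀ x : Λ, r • x = 0) → r = 0) :
    Function.Injective (actHom R Λ) := by
  rw [injective_iff_map_eq_zero]
  intro r hr
  refine hfaith r fun x => ?_
  rw [← actHom_apply, hr, LinearMap.zero_apply]

variable (p : ℕ) [Fact p.Prime]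
variable {T : Type*} [AddCommGroup T] [Module ℤ_[p] T]
variable [Algebra ℤ_[p] O]

/-- **Occurrence, transported** (leaf E1b of S30).  `R` commutative acting faithfully on the
finite free `ℤ`-module `Λ`; `T` a `ℤ_[p]`-module without `p`-torsion with operators `τ i`;
`j : Λ →+ T` additive, injective modulo `p`, with `j (t i • x) = τ i (j x)`; `O` a domain into
which `ℤ_[p]` embeds and `χ : R →+* O`.  Then there is a nonzero `x : O ⊗[ℤ_[p]] T` with
`τ i x = χ (t i) • x` for all `i`. -/
theorem exists_eigenvector_of_faithful [Module R Λ]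
    (hfaith : ∀ r : R, (∀ x : Λ, r • x = 0) → r = 0)
    (hO : Function.Injective (algebraMap ℤ_[p] O)) (χ : R →+* O)
    {I : Type*} (t : I → R) (τ : I → Module.End ℤ_[p] T) (j : Λ →+ T)
    (hj : ∀ i x, j (t i • x) = τ i (j x))
    (hT : ∀ y : T, (p : ℤ_[p]) • y = 0 → y = 0)
    (hsat : ∀ x : Λ, (∃ y : T, j x = (p : ℤ_[p]) • y) → ∃ z : Λ, x = (p : ℤ) • z) :
    ∃ x : O ⊗[ℤ_[p]] T, x ≠ 0 ∧ ∀ i, (τ i).baseChange O x = χ (t i) • x := by
  obtain ⟨y, hy0, hy⟩ := exists_integral_eigenvector (actHom R Λ) (actHom_injective hfaith) χ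
  exact exists_eigenvector_transport p (fun i => actHom R Λ (t i)) τ j
    (fun i x => by rw [actHom_apply]; exact hj i x) hT hsat hO (fun i => χ (t i))
    ⟨y, hy0, fun i => hy (t i)⟩

end Occurrence

section Tate

open Fermat.Agent.Lib.helper4786

variable (p : ℕ) [Fact p.Prime]
variable {J : Type*} [AddCommGroup J]
variable {Λ : Type*} [AddCommGroup Λ]

/-- The map `Λ → T_p(J)`, `x ↦ (ι n x)_n`, attached to a compatible family of level maps. -/
noncomputable def tateLift (ι : ℕ → Λ →+ J) (h1 : ∀ (n : ℕ) (x : Λ), p ^ n • ι n x = 0)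
    (h3 : ∀ (n : ℕ) (x : Λ), p • ι (n + 1) x = ι n x) : Λ →+ tateModule J p where
  toFun x := ⟨fun n => ι n x, ⟨fun n => h1 n x, fun n => h3 n x⟩⟩
  map_zero' := by
    ext n
    exact map_zero (ι n)
  map_add' x y := by
    ext n
    exact map_add (ι n) x y

omit [Fact p.Prime] in
@[simp] theorem tateLift_apply (ι : ℕ → Λ →+ J) (h1 : ∀ (n : ℕ) (x : Λ), p ^ n • ι n x = 0)
    (h3 : ∀ (n : ℕ) (x : Λ), p • ι (n + 1) x = ι n x) (x : Λ) (n : ℕ) :
    (tateLift p ι h1 h3 x).1 n = ι n x := rfl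

/-- **Occurrence in the Tate module** (the (occ) clause of `helper1094.JDatum`, leaf E1b of S30).
`Λ` finite free over `ℤ` with a faithful action of a commutative ring `R`; level maps
`ι n : Λ →+ J` with values in `J[p ^ n]`, compatible in `n`, with `ker (ι 1) ⊆ p Λ`, intertwining
`t i : R` with additive operators `τ i` of `J`; `O` a domain into which `ℤ_[p]` embeds and
`χ : R →+* O`.  Then `χ` occurs in `O ⊗[ℤ_[p]] T_p(J)`. -/
theorem exists_eigenvector_tateModule [Module.Free ℤ Λ] [Module.Finite ℤ Λ]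
    {R : Type*} [CommRing R] [Module R Λ] (hfaith : ∀ r : R, (∀ x : Λ, r • x = 0) → r = 0)
    {O : Type*} [CommRing O] [IsDomain O] [Algebra ℤ_[p] O]
    (hO : Function.Injective (algebraMap ℤ_[p] O)) (χ : R →+* O)
    {I : Type*} (t : I → R) (τ : I → AddMonoid.End J) (ι : ℕ → Λ →+ J)
    (h1 : ∀ (n : ℕ) (x : Λ), p ^ n • ι n x = 0)
    (h2 : ∀ x : Λ, ι 1 x = 0 → ∃ y : Λ, x = p • y)
    (h3 : ∀ (n : ℕ) (x : Λ), p • ι (n + 1) x = ι n x)
    (h4 : ∀ (i : I) (n : ℕ) (x : Λ), ι n (t i • x) = τ i (ι n x)) :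
    ∃ x : O ⊗[ℤ_[p]] tateModule J p, x ≠ 0 ∧
      ∀ i, (tateEnd J p (τ i)).baseChange O x = χ (t i) • x := by
  refine exists_eigenvector_of_faithful p hfaith hO χ t (fun i => tateEnd J p (τ i))
    (tateLift p ι h1 h3) ?_ (fun y hy => tateModule.eq_zero_of_p_smul_eq_zero y hy) ?_
  · intro i x
    ext n
    rw [tateLift_apply, tateEnd_apply_apply, tateLift_apply]
    exact h4 i n x
  · rintro x ⟨y, hy⟩
    have h0 : ι 1 x = 0 := by
      rw [← tateLift_apply p ι h1 h3 x 1, hy, tateModule.natCast_smul_apply]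
      have := tateModule.pow_smul_apply y 1
      rwa [pow_one] at this
    obtain ⟨z, hz⟩ := h2 x h0
    exact ⟨z, by rw [hz, natCast_zsmul]⟩

/-- **Occurrence in the Tate module, `JDatum` shape**: the hypotheses are verbatim the clauses of
the (occ) part of `helper1094.JDatum` (with `P ℓ` the predicate `ℓ.Prime ∧ ¬ ℓ ∣ N ∧ ℓ ∉ S`, or any
other predicate), the conclusion is the occurrence hypothesis of
`helper4204.exists_eigenLattice_rep` for the index type `{ℓ // P ℓ}`. -/
theorem exists_eigenvector_tateModule_of_pred [Module.Free ℤ Λ] [Module.Finite ℤ Λ]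
    {R : Type*} [CommRing R] [Module R Λ] (hfaith : ∀ r : R, (∀ x : Λ, r • x = 0) → r = 0)
    {O : Type*} [CommRing O] [IsDomain O] [Algebra ℤ_[p] O]
    (hO : Function.Injective (algebraMap ℤ_[p] O)) (χ : R →+* O)
    (P : ℕ → Prop) (a : ℕ → O) (t : ℕ → R) (τ : ℕ → J →+ J) (ι : ℕ → Λ →+ J)
    (hχ : ∀ ℓ : ℕ, P ℓ → χ (t ℓ) = a ℓ)
    (h1 : ∀ (n : ℕ) (x : Λ), p ^ n • ι n x = 0)
    (h2 : ∀ (n : ℕ) (x : Λ), ι n x = 0 → ∃ y : Λ, x = p ^ n • y)
    (h3 : ∀ (n : ℕ) (x : Λ), p • ι (n + 1) x = ι n x)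
    (h4 : ∀ ℓ : ℕ, P ℓ → ∀ (n : ℕ) (x : Λ), ι n (t ℓ • x) = τ ℓ (ι n x)) :
    ∃ x : O ⊗[ℤ_[p]] tateModule J p, x ≠ 0 ∧
      ∀ i : {ℓ : ℕ // P ℓ}, (tateEnd J p (τ i.1)).baseChange O x = a i.1 • x := by
  obtain ⟨x, hx0, hx⟩ := exists_eigenvector_tateModule p hfaith hO χ
    (fun i : {ℓ : ℕ // P ℓ} => t i.1) (fun i => τ i.1) ι h1
    (fun x hx => by
      obtain ⟨y, hy⟩ := h2 1 x hx
      exact ⟨y, by rw [hy, pow_one]⟩)
    h3 (fun i n x => h4 i.1 i.2 n x)
  exact ⟨x, hx0, fun i => by rw [hx i, hχ i.1 i.2]⟩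

end Tate

end Fermat.Agent.S30.helper501
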