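import Mathlib
import Fermat.Prelude.Thm_IsAdicComplete_of_module_finite
import Fermat.Agent.Lib.helper4786_TateModule

/-!
# S30-E1a (TATE-FIN): the Tate module is finite free as soon as `A[p]` is finite  (helper767)

For an arbitrary abelian group `A` and a prime `p`, with `T := tateModule A p` the `ℤ_[p]`-module
of `Fermat.Agent.Lib.helper4786`:

* `isHausdorff_tateModule` : `T` is `p`-adically separated (as a Mathlib `IsHausdorff` instance
  statement);
* `tateModule_finite_of_finite` : if `{a : A | p • a = 0}` is finite then `T` is a finite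
  `ℤ_[p]`-module  (NO cardinality hypothesis on the `A[p ^ n]`, NO surjectivity of the
  projections `T → A[p ^ n]`);
* `tateModule_isTorsionFree`, `tateModule_free_of_finite` : `T` is torsion-free, hence free.

Proof of finiteness: `T / 𝔪 T` embeds into `A[p]` (kernel of the first projection is `𝔪 T`), so
finitely many elements of `T` represent all classes modulo `𝔪 T`; since `T` is `𝔪`-adically
separated and a finite free `ℤ_[p]`-module is `𝔪`-adically complete, Mathlib's
`surjective_of_mkQ_comp_surjective` (topological Nakayama) shows that they span `T`.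
-/

set_option autoImplicit false
set_option linter.unusedSectionVars false
set_option linter.style.haveILetI false

namespace Fermat.Agent.S30.helper767

open Fermat.Agent.Lib.helper4786

noncomputable section

variable (A : Type*) [AddCommGroup A] (p : ℕ) [Fact p.Prime]

/-- The Tate module is `p`-adically separated, in Mathlib's `IsHausdorff` form. -/
theorem isHausdorff_tateModule :
    IsHausdorff (IsLocalRing.maximalIdeal ℤ_[p]) (tateModule A p) := by
  refine ⟨fun x hx => tateModule.eq_zero_of_forall_mem x fun n => ?_⟩
  have h := hx n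
  rwa [SModEq.zero] at h

/-- Coordinates of a difference in the Tate module. -/
theorem tateModule_sub_apply (x y : tateModule A p) (n : ℕ) :
    (x - y).1 n = x.1 n - y.1 n := rfl

/-- Two elements of the Tate module with the same first coordinate are congruent modulo `𝔪 T`. -/
theorem sub_mem_of_apply_one_eq (x y : tateModule A p) (h : x.1 1 = y.1 1) :
    x - y ∈ IsLocalRing.maximalIdeal ℤ_[p] • (⊤ : Submodule ℤ_[p] (tateModule A p)) := by
  have h1 : (x - y).1 1 = 0 := by rw [tateModule_sub_apply, h, sub_self]
  have h2 := (tateModule.apply_eq_zero_iff_mem_maximalIdeal (x - y) 1).mp h1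
  rwa [pow_one] at h2

/-- **TATE-FIN**: if the `p`-torsion of `A` is finite, the Tate module is a finite
`ℤ_[p]`-module. -/
theorem tateModule_finite_of_finite (hfin : Set.Finite {a : A | p • a = 0}) :
    Module.Finite ℤ_[p] (tateModule A p) := by
  classical
  -- the finite set of first coordinates
  have hs : (Set.range fun x : tateModule A p => x.1 1).Finite := by
    refine hfin.subset ?_
    rintro a ⟨x, rfl⟩
    have h := tateModule.pow_smul_apply x 1
    rwa [pow_one] at h
  haveI : Finite (Set.range fun x : tateModule A p => x.1 1) := hs.to_subtype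
  haveI : Fintype (Set.range fun x : tateModule A p => x.1 1) := Fintype.ofFinite _
  -- representatives
  choose rep hrep using fun i : Set.range fun x : tateModule A p => x.1 1 => i.2
  let f : ((Set.range fun x : tateModule A p => x.1 1) → ℤ_[p]) →ₗ[ℤ_[p]] tateModule A p :=
    Fintype.linearCombination ℤ_[p] rep
  haveI : IsHausdorff (IsLocalRing.maximalIdeal ℤ_[p]) (tateModule A p) :=
    isHausdorff_tateModule A p
  haveI : IsAdicComplete (IsLocalRing.maximalIdeal ℤ_[p])
      ((Set.range fun x : tateModule A p => x.1 1) → ℤ_[p]) :=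
    IsAdicComplete.of_module_finite _ _
  have hsurj : Function.Surjective
      ((Submodule.mkQ (IsLocalRing.maximalIdeal ℤ_[p] •
        (⊤ : Submodule ℤ_[p] (tateModule A p)))) ∘ₗ f) := by
    intro q
    obtain ⟨x, rfl⟩ := Submodule.mkQ_surjective _ q
    refine ⟨Pi.single ⟨x.1 1, x, rfl⟩ 1, ?_⟩
    have hf : f (Pi.single ⟨x.1 1, x, rfl⟩ 1) = rep ⟨x.1 1, x, rfl⟩ := by
      simp [f, Fintype.linearCombination_apply_single]
    rw [LinearMap.comp_apply, hf, Submodule.mkQ_apply, Submodule.mkQ_apply,
      Submodule.Quotient.eq]
    exact sub_mem_of_apply_one_eq A p _ _ (hrep ⟨x.1 1, x, rfl⟩)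
  exact Module.Finite.of_surjective f (surjective_of_mkQ_comp_surjective hsurj)

/-- The Tate module is torsion-free over `ℤ_[p]` (no hypothesis on `A`). -/
theorem tateModule_isTorsionFree : Module.IsTorsionFree ℤ_[p] (tateModule A p) := by
  have hp : ∀ (n : ℕ) (x : tateModule A p), (p : ℤ_[p]) ^ n • x = 0 → x = 0 := by
    intro n
    induction n with
    | zero => intro x hx; simpa using hx
    | succ n ih =>
      intro x hx
      rw [pow_succ, mul_smul] at hx
      exact tateModule.eq_zero_of_p_smul_eq_zero x (ih _ hx)
  refine ⟨fun r hr x y hxy => ?_⟩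
  have hr0 : r ≠ 0 := hr.ne_zero
  have hsub : r • (x - y) = 0 := by
    rw [smul_sub]
    exact sub_eq_zero.mpr hxy
  obtain ⟨u, n, hun⟩ : ∃ (u : ℤ_[p]ˣ) (n : ℕ), r = (u : ℤ_[p]) * (p : ℤ_[p]) ^ n :=
    ⟨PadicInt.unitCoeff hr0, r.valuation, PadicInt.unitCoeff_spec hr0⟩
  rw [hun, mul_smul] at hsub
  have h2 : (p : ℤ_[p]) ^ n • (x - y) = 0 := by
    have h3 := congrArg (fun z => ((u⁻¹ : ℤ_[p]ˣ) : ℤ_[p]) • z) hsub
    simpa [smul_smul] using h3
  exact sub_eq_zero.mp (hp n _ h2)

/-- **TATE-FIN**: if the `p`-torsion of `A` is finite, the Tate module is a free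
`ℤ_[p]`-module. -/
theorem tateModule_free_of_finite (hfin : Set.Finite {a : A | p • a = 0}) :
    Module.Free ℤ_[p] (tateModule A p) := by
  haveI := tateModule_finite_of_finite A p hfin
  haveI := tateModule_isTorsionFree A p
  exact Module.free_of_finite_type_torsion_free'

end

end Fermat.Agent.S30.helper767
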