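import Mathlib
import Fermat.Prelude.Def_GaloisRep_ComplexConjugation
import Fermat.Prelude.Def_ModularCurve_HeckeModule
import Fermat.Agent.S30.helper54_Spec

/-!
# S30: second-level interface file (captain helper54)

`helper54_Spec.lean` splits the frozen statement into `Stmt_Eigen` (geometric side), `Stmt_Core`
(algebraic side) and `Stmt_GenCheb`.  This file splits each of them once more, into leaves that
can be proved independently, and PROVES the assembly (`result_of2`), so that the interfaces are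
checked against the frozen statement now.

Route (findings #2452, #2470, #2527): the coefficient ring is NOT extended (`𝒪'' := 𝒪'`); the
rank-two lattice is extracted inside the eigen-lattice with the help of complex conjugation.

```
Stmt_Machine  (Kummer machine at level p^n on JZero N)      Stmt_GenChebGal (shared Chebotarev)
      |                                                              |
Stmt_TateCore (Tate module, occurrence, eigen-lattice)               |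
      |                                                              |
  EigenDatum ---- Stmt_QuadAll (Lucas + closedness) <----------------+
                       |            ^
                       |            +---- Stmt_Cyclo (cyclotomic character into 𝒪')
                   QuadDatum
                       |
                  Stmt_Extract (complex conjugation, saturated lattice of rank 1 or 2)
                       |
                  Conclusion  =  frozen statement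
```
-/

set_option autoImplicit false

open Polynomial

namespace Fermat.Agent.S30.helper54

/-! ### Leaf CYCLO -/

/-- The properties of the `p`-adic cyclotomic character with values in a local ring `R` that the
core uses: trivial modulo `m ^ n` on an open subgroup, trivial on inertia at `q ≠ p`, equal to `ℓ`
at Frobenius lifts at `ℓ ≠ p`, and equal to `-1` at complex conjugation. -/
def CycloDatum (p : ℕ) (R : Type) [CommRing R] [IsLocalRing R] (ε : Gal →* Rˣ) : Prop :=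
  (∀ n : ℕ, ∃ L : IntermediateField ℚ (AlgebraicClosure ℚ), FiniteDimensional ℚ L ∧
      ∀ σ : Gal, (∀ x ∈ L, σ x = x) → ((ε σ : Rˣ) : R) - 1 ∈ IsLocalRing.maximalIdeal R ^ n) ∧
  (∀ q : ℕ, q.Prime → q ≠ p →
      ∀ A : ValuationSubring (AlgebraicClosure ℚ), A.LiesOverPrime q →
        ∀ σ ∈ A.inertiaSubgroupIn ℚ, ε σ = 1) ∧
  (∀ ℓ : ℕ, ℓ.Prime → ℓ ≠ p →
      ∀ A : ValuationSubring (AlgebraicClosure ℚ), A.LiesOverPrime ℓ →
        ∀ σ : Gal, A.IsFrobeniusAt σ ℓ → ((ε σ : Rˣ) : R) = (ℓ : R)) ∧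
  ε complexConjugation = -1

/-- **Leaf CYCLO**: the cyclotomic character exists with values in every complete DVR of
characteristic zero and residue characteristic `p`. -/
def Stmt_Cyclo : Prop :=
  ∀ (p : ℕ) [Fact p.Prime]
    (𝒪' : Type) [CommRing 𝒪'] [IsDomain 𝒪'] [IsDiscreteValuationRing 𝒪']
    [IsAdicComplete (IsLocalRing.maximalIdeal 𝒪') 𝒪'] [Finite (IsLocalRing.ResidueField 𝒪')]
    [CharZero 𝒪'] (_hp𝒪' : (p : 𝒪') ∈ IsLocalRing.maximalIdeal 𝒪'),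
    ∃ ε : Gal →* 𝒪'ˣ, CycloDatum p 𝒪' ε

/-! ### Leaf QUAD -/

/-- An eigen-datum together with a cyclotomic character `ε` such that EVERY element `g` of the
Galois group satisfies a quadratic relation `g² - t g + ε(g) = 0` on the module. -/
def QuadDatum (p N : ℕ) (S : Finset ℕ) (R : Type) [CommRing R] [IsLocalRing R] (a : ℕ → R) :
    Prop :=
  ∃ (M : Type) (_ : AddCommGroup M) (_ : Module R M) (_ : Module.Free R M) (_ : Module.Finite R M)
    (ρ : Gal →* Module.End R M) (ε : Gal →* Rˣ),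
    Nontrivial M ∧ GaloisActionIsAdicContinuous R ρ ∧
    (∀ q : ℕ, q.Prime → ¬ q ∣ N → q ≠ p →
      ∀ A : ValuationSubring (AlgebraicClosure ℚ), A.LiesOverPrime q →
        ∀ σ ∈ A.inertiaSubgroupIn ℚ, ρ σ = 1) ∧
    (∀ ℓ : ℕ, ℓ.Prime → ¬ ℓ ∣ N → ℓ ∉ S →
      ∀ A : ValuationSubring (AlgebraicClosure ℚ), A.LiesOverPrime ℓ →
        ∀ σ : Gal, A.IsFrobeniusAt σ ℓ → ρ σ * ρ σ - a ℓ • ρ σ + (ℓ : R) • 1 = 0) ∧
    CycloDatum p R ε ∧
    ∀ g : Gal, ∃ t : R, ρ g * ρ g - t • ρ g + ((ε g : Rˣ) : R) • 1 = 0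

/-- **Leaf QUAD**: generator-Chebotarev, the Lucas step for powers of Frobenius lifts and
closedness of the quadratic condition give a quadratic relation for every element. -/
def Stmt_QuadAll : Prop :=
  ∀ (p : ℕ) [Fact p.Prime] (N : ℕ) [NeZero N] (S : Finset ℕ) (_hpS : p ∈ S)
    (𝒪' : Type) [CommRing 𝒪'] [IsDomain 𝒪'] [IsDiscreteValuationRing 𝒪']
    [IsAdicComplete (IsLocalRing.maximalIdeal 𝒪') 𝒪'] [Finite (IsLocalRing.ResidueField 𝒪')]
    [CharZero 𝒪'] (_hp𝒪' : (p : 𝒪') ∈ IsLocalRing.maximalIdeal 𝒪') (a : ℕ → 𝒪'),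
    Stmt_GenCheb → (∃ ε : Gal →* 𝒪'ˣ, CycloDatum p 𝒪' ε) → EigenDatum p N S 𝒪' a →
      QuadDatum p N S 𝒪' a

/-! ### Leaf EXTRACT -/

/-- **Leaf EXTRACT**: from a module on which every element satisfies a quadratic relation with
constant term `ε`, complex conjugation produces a saturated stable sublattice of rank one or two,
hence a two-dimensional representation over `𝒪'` itself with the exact Frobenius characteristic
polynomials. -/
def Stmt_Extract : Prop :=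
  ∀ (p : ℕ) [Fact p.Prime] (N : ℕ) [NeZero N] (S : Finset ℕ) (_hpS : p ∈ S)
    (𝒪' : Type) [CommRing 𝒪'] [IsDomain 𝒪'] [IsDiscreteValuationRing 𝒪']
    [IsAdicComplete (IsLocalRing.maximalIdeal 𝒪') 𝒪'] [Finite (IsLocalRing.ResidueField 𝒪')]
    [CharZero 𝒪'] (_hp𝒪' : (p : 𝒪') ∈ IsLocalRing.maximalIdeal 𝒪') (a : ℕ → 𝒪'),
    QuadDatum p N S 𝒪' a → Conclusion p N S 𝒪' a

/-- `Stmt_Core` of `helper54_Spec.lean` for nonzero level. -/
def Stmt_Core2 : Prop :=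
  ∀ (p : ℕ) [Fact p.Prime] (N : ℕ) [NeZero N] (S : Finset ℕ) (_hpS : p ∈ S)
    (𝒪' : Type) [CommRing 𝒪'] [IsDomain 𝒪'] [IsDiscreteValuationRing 𝒪']
    [IsAdicComplete (IsLocalRing.maximalIdeal 𝒪') 𝒪'] [Finite (IsLocalRing.ResidueField 𝒪')]
    [CharZero 𝒪'] (_hp𝒪' : (p : 𝒪') ∈ IsLocalRing.maximalIdeal 𝒪') (a : ℕ → 𝒪'),
    Stmt_GenCheb → EigenDatum p N S 𝒪' a → Conclusion p N S 𝒪' a

theorem core2_of (hCy : Stmt_Cyclo) (hQ : Stmt_QuadAll) (hX : Stmt_Extract) : Stmt_Core2 := by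
  intro p _ N _ S hpS 𝒪' _ _ _ _ _ _ hp𝒪' a hG hE
  exact hX p N S hpS 𝒪' hp𝒪' a (hQ p N S hpS 𝒪' hp𝒪' a hG (hCy p 𝒪' hp𝒪') hE)

/-! ### Generator-Chebotarev: Galois levels suffice -/

/-- Generator-Chebotarev for finite GALOIS levels (the shape of
`Fermat.Agent.S29.helper9726.genCheb_pow_of_core`). -/
def Stmt_GenChebGal : Prop :=
  ∀ (K : IntermediateField ℚ (AlgebraicClosure ℚ)) [FiniteDimensional ℚ K] [IsGalois ℚ K]
    (g : Gal) (T : Finset ℕ),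
    ∃ (ℓ : ℕ) (A : ValuationSubring (AlgebraicClosure ℚ)) (σ : Gal) (n : ℕ),
      ℓ.Prime ∧ ℓ ∉ T ∧ A.LiesOverPrime ℓ ∧ A.IsFrobeniusAt σ ℓ ∧ ∀ x ∈ K, (σ ^ n) x = g x

theorem genCheb_of_gal (h : Stmt_GenChebGal) : Stmt_GenCheb := by
  intro L _ T g
  have : Algebra.IsAlgebraic ℚ (AlgebraicClosure ℚ) := AlgebraicClosure.isAlgebraic ℚ
  have : IsAlgClosure ℚ (AlgebraicClosure ℚ) := ⟨inferInstance, inferInstance⟩
  have : Normal ℚ (AlgebraicClosure ℚ) := IsAlgClosure.normal ℚ (AlgebraicClosure ℚ)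
  let K : IntermediateField ℚ (AlgebraicClosure ℚ) :=
    IntermediateField.normalClosure ℚ L (AlgebraicClosure ℚ)
  have : FiniteDimensional ℚ K :=
    normalClosure.is_finiteDimensional ℚ L (AlgebraicClosure ℚ)
  have : Normal ℚ K := normalClosure.normal ℚ L (AlgebraicClosure ℚ)
  have : IsGalois ℚ K := ⟨⟩
  obtain ⟨ℓ, A, σ, n, hℓ, hℓT, hA, hσ, hx⟩ := h K g T
  exact ⟨ℓ, A, σ, n, hℓ, hℓT, hA, hσ,
    fun x hx' => hx x (IntermediateField.le_normalClosure L hx')⟩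

/-! ### Geometric side: the torsion datum -/

/-- **Torsion datum** (geometry-free shape of what the Kummer machine delivers for `J₀(N)`).

An abelian group `J` with an action of `G_ℚ` and additive operators `τ ℓ` commuting with it; on
the `p`-power torsion: open stabilisers, trivial inertia at `q ∤ N p`, and the Eichler–Shimura
relation `σ² - τ_ℓ σ + ℓ = 0` for Frobenius lifts at `ℓ ∤ N`, `ℓ ∉ S`.  A finite free `ℤ`-module
`Lam` with a FAITHFUL action of a commutative ring `H` (the Hecke algebra), elements `T ℓ ∈ H`,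
and for every `n` an additive map `Lam → J` with image `J[p ^ n]` and kernel `p ^ n Lam`
intertwining `T ℓ` with `τ ℓ` (no compatibility between different `n` is required).  Finally a
character `χ : H → R` with `χ (T ℓ) = a ℓ`. -/
def TorsionDatum (p N : ℕ) (S : Finset ℕ) (R : Type) [CommRing R] (a : ℕ → R) : Prop :=
  ∃ (J : Type) (_ : AddCommGroup J) (_ : DistribMulAction Gal J) (τ : ℕ → J →+ J)
    (Lam : Type) (_ : AddCommGroup Lam) (_ : Module.Free ℤ Lam) (_ : Module.Finite ℤ Lam)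
    (H : Type) (_ : CommRing H) (act : H →+* Module.End ℤ Lam) (χ : H →+* R) (T : ℕ → H),
    Function.Injective act ∧
    (∀ ℓ : ℕ, ℓ.Prime → ¬ ℓ ∣ N → ℓ ∉ S → χ (T ℓ) = a ℓ) ∧
    (∀ (ℓ : ℕ) (σ : Gal) (x : J), σ • τ ℓ x = τ ℓ (σ • x)) ∧
    (∀ x : J, (∃ n : ℕ, p ^ n • x = 0) →
      ∃ L : IntermediateField ℚ (AlgebraicClosure ℚ), FiniteDimensional ℚ L ∧
        ∀ σ : Gal, (∀ y ∈ L, σ y = y) → σ • x = x) ∧
    (∀ q : ℕ, q.Prime → ¬ q ∣ N → q ≠ p →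
      ∀ A : ValuationSubring (AlgebraicClosure ℚ), A.LiesOverPrime q →
        ∀ σ ∈ A.inertiaSubgroupIn ℚ, ∀ x : J, (∃ n : ℕ, p ^ n • x = 0) → σ • x = x) ∧
    (∀ ℓ : ℕ, ℓ.Prime → ¬ ℓ ∣ N → ℓ ∉ S →
      ∀ A : ValuationSubring (AlgebraicClosure ℚ), A.LiesOverPrime ℓ →
        ∀ σ : Gal, A.IsFrobeniusAt σ ℓ → ∀ x : J, (∃ n : ℕ, p ^ n • x = 0) →
          σ • σ • x - τ ℓ (σ • x) + ℓ • x = 0) ∧
    (∀ n : ℕ, ∃ e : Lam →+ J,
      (∀ y : Lam, p ^ n • e y = 0) ∧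
      (∀ x : J, p ^ n • x = 0 → ∃ y : Lam, e y = x) ∧
      (∀ y : Lam, e y = 0 → ∃ z : Lam, y = p ^ n • z) ∧
      (∀ ℓ : ℕ, ℓ.Prime → ¬ ℓ ∣ N → ℓ ∉ S → ∀ y : Lam, e (act (T ℓ) y) = τ ℓ (e y)))

/-- **Leaf TATE-CORE** (geometry-free: Tate module of `J`, base change to `𝒪'`, occurrence of the
eigensystem, saturated eigen-lattice). -/
def Stmt_TateCore : Prop :=
  ∀ (p : ℕ) [Fact p.Prime] (N : ℕ) (S : Finset ℕ) (_hpS : p ∈ S)
    (𝒪' : Type) [CommRing 𝒪'] [IsDomain 𝒪'] [IsDiscreteValuationRing 𝒪']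
    [IsAdicComplete (IsLocalRing.maximalIdeal 𝒪') 𝒪'] [Finite (IsLocalRing.ResidueField 𝒪')]
    [CharZero 𝒪'] (_hp𝒪' : (p : 𝒪') ∈ IsLocalRing.maximalIdeal 𝒪') (a : ℕ → 𝒪'),
    TorsionDatum p N S 𝒪' a → EigenDatum p N S 𝒪' a

/-- The Hecke operator of `J₀(N)` at `ℓ` (junk value `0` at non-primes), as an additive map. -/
noncomputable def heckeTau (N : ℕ) [NeZero N] (ℓ : ℕ) :
    ModularCurve.JZero N →+ ModularCurve.JZero N :=
  open Classical in
  if h : ℓ.Prime then (ModularCurve.heckeOperatorBar N ⟨ℓ, h⟩).toAddMonoidHom else 0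

theorem heckeTau_apply (N : ℕ) [NeZero N] {ℓ : ℕ} (h : ℓ.Prime) (x : ModularCurve.JZero N) :
    heckeTau N ℓ x = ModularCurve.heckeOperatorBar N ⟨ℓ, h⟩ x := by
  unfold heckeTau
  rw [dif_pos h]
  rfl

/-- The element `T_ℓ` of the Hecke algebra (junk value `0` at the bad indices). -/
noncomputable def heckeElt (N : ℕ) [NeZero N] (S : Finset ℕ) (ℓ : ℕ) :
    CuspForm.heckeAlgebra N 2 (↑S : Set ℕ) :=
  open Classical in
  if h : ℓ.Prime ∧ ¬ ℓ ∣ N ∧ ℓ ∉ (↑S : Set ℕ) then CuspForm.heckeAlgebra.T h.1 h.2.1 h.2.2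
  else 0

theorem heckeElt_eq (N : ℕ) [NeZero N] (S : Finset ℕ) {ℓ : ℕ} (hℓ : ℓ.Prime) (hℓN : ¬ ℓ ∣ N)
    (hℓS : ℓ ∉ (↑S : Set ℕ)) :
    heckeElt N S ℓ = CuspForm.heckeAlgebra.T hℓ hℓN hℓS := by
  unfold heckeElt
  rw [dif_pos ⟨hℓ, hℓN, hℓS⟩]

/-- **Machine datum**: the concrete facts about `J₀(N)`, its Galois action and the Hecke
operators `heckeOperatorBar`, at the levels `p ^ n`.

* `unr`, `frob` are the shapes of `Fermat.Agent.S29.helper7959.inertia_smul_eq_of_coreHom` and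
  `es_of_coreHom`;
* `iso` is the Kummer / analytic comparison at level `p ^ n` with a lattice `Lam` carrying a
  faithful action of the Hecke algebra (period / cocycle lattice of S21 / S22). -/
def MachineDatum (p N : ℕ) [NeZero N] (S : Finset ℕ) : Prop :=
  (∀ q : ℕ, q.Prime → ¬ q ∣ N → q ≠ p →
      ∀ A : ValuationSubring (AlgebraicClosure ℚ), A.LiesOverPrime q →
        ∀ σ ∈ A.inertiaSubgroupIn ℚ, ∀ x : ModularCurve.JZero N,
          (∃ n : ℕ, p ^ n • x = 0) → σ • x = x) ∧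
  (∀ (ℓ : ℕ) (hℓ : ℓ.Prime), ¬ ℓ ∣ N → ℓ ∉ S →
      ∀ A : ValuationSubring (AlgebraicClosure ℚ), A.LiesOverPrime ℓ →
        ∀ σ : Gal, A.IsFrobeniusAt σ ℓ → ∀ x : ModularCurve.JZero N,
          (∃ n : ℕ, p ^ n • x = 0) →
            σ • σ • x - ModularCurve.heckeOperatorBar N ⟨ℓ, hℓ⟩ (σ • x) + ℓ • x = 0) ∧
  (∀ x : ModularCurve.JZero N, (∃ n : ℕ, p ^ n • x = 0) →
      ∃ L : IntermediateField ℚ (AlgebraicClosure ℚ), FiniteDimensional ℚ L ∧
        ∀ σ : Gal, (∀ y ∈ L, σ y = y) → σ • x = x) ∧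
  (∀ (ℓ : Nat.Primes) (σ : Gal) (x : ModularCurve.JZero N),
      σ • ModularCurve.heckeOperatorBar N ℓ x = ModularCurve.heckeOperatorBar N ℓ (σ • x)) ∧
  ∃ (Lam : Type) (_ : AddCommGroup Lam) (_ : Module.Free ℤ Lam) (_ : Module.Finite ℤ Lam)
    (act : CuspForm.heckeAlgebra N 2 (↑S : Set ℕ) →+* Module.End ℤ Lam),
    Function.Injective act ∧
    ∀ n : ℕ, ∃ e : Lam →+ ModularCurve.JZero N,
      (∀ y : Lam, p ^ n • e y = 0) ∧
      (∀ x : ModularCurve.JZero N, p ^ n • x = 0 → ∃ y : Lam, e y = x) ∧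
      (∀ y : Lam, e y = 0 → ∃ z : Lam, y = p ^ n • z) ∧
      (∀ (ℓ : ℕ) (hℓ : ℓ.Prime) (hℓN : ¬ ℓ ∣ N) (hℓS : ℓ ∉ (↑S : Set ℕ)) (y : Lam),
        e (act (CuspForm.heckeAlgebra.T hℓ hℓN hℓS) y) =
          ModularCurve.heckeOperatorBar N ⟨ℓ, hℓ⟩ (e y))

/-- **Leaf MACHINE** (geometric; the S29 Kummer machine at the levels `p ^ n`). -/
def Stmt_Machine : Prop :=
  ∀ (p : ℕ) [Fact p.Prime] (N : ℕ) [NeZero N] (S : Finset ℕ)
    (_hpS : p ∈ S) (_hNS : ∀ q : ℕ, q.Prime → q ∣ N → q ∈ S), MachineDatum p N S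

/-- The machine datum is a torsion datum for every point of the Hecke algebra. -/
theorem torsionDatum_of_machineDatum {p N : ℕ} [NeZero N] {S : Finset ℕ}
    (h : MachineDatum p N S) {R : Type} [CommRing R]
    (χ : CuspForm.heckeAlgebra N 2 (↑S : Set ℕ) →+* R) :
    TorsionDatum p N S R (eigenvalue χ) := by
  obtain ⟨hunr, hfrob, hcont, hcomm, Lam, i1, i2, i3, act, hact, hiso⟩ := h
  refine ⟨ModularCurve.JZero N, inferInstance, inferInstance, heckeTau N, Lam, i1, i2, i3,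
    CuspForm.heckeAlgebra N 2 (↑S : Set ℕ), inferInstance, act, χ, heckeElt N S, hact,
    ?_, ?_, hcont, hunr, ?_, ?_⟩
  · intro ℓ hℓ hℓN hℓS
    rw [heckeElt_eq N S hℓ hℓN (by simpa using hℓS), eigenvalue_eq χ hℓ hℓN (by simpa using hℓS)]
  · intro ℓ σ x
    by_cases hℓ : ℓ.Prime
    · rw [heckeTau_apply N hℓ, heckeTau_apply N hℓ]
      exact hcomm ⟨ℓ, hℓ⟩ σ x
    · have h0 : heckeTau N ℓ = 0 := by
        unfold heckeTau
        rw [dif_neg hℓ]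
      rw [h0, AddMonoidHom.zero_apply, AddMonoidHom.zero_apply, smul_zero]
  · intro ℓ hℓ hℓN hℓS A hA σ hσ x hx
    rw [heckeTau_apply N hℓ]
    exact hfrob ℓ hℓ hℓN hℓS A hA σ hσ x hx
  · intro n
    obtain ⟨e, h1, h2, h3, h4⟩ := hiso n
    refine ⟨e, h1, h2, h3, ?_⟩
    intro ℓ hℓ hℓN hℓS y
    rw [heckeElt_eq N S hℓ hℓN (by simpa using hℓS), heckeTau_apply N hℓ]
    exact h4 ℓ hℓ hℓN (by simpa using hℓS) y

theorem eigen_of (hM : Stmt_Machine) (hT : Stmt_TateCore) : Stmt_Eigen := by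
  intro p _ N _ S hpS hNS 𝒪' _ _ _ _ _ _ hp𝒪' χ
  exact hT p N S hpS 𝒪' hp𝒪' (eigenvalue χ) (torsionDatum_of_machineDatum (hM p N S hpS hNS) χ)

/-! ### Assembly -/

/-- The frozen statement S30 from `Stmt_Eigen`, `Stmt_Core2`, `Stmt_GenCheb`. -/
theorem result_of_core2 (hE : Stmt_Eigen) (hC : Stmt_Core2) (hG : Stmt_GenCheb) :
    ∀ (p : ℕ) [Fact p.Prime] (N : ℕ) [NeZero N] (S : Finset ℕ)
      (_hpS : p ∈ S) (_hNS : ∀ q : ℕ, q.Prime → q ∣ N → q ∈ S)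
      (𝒪' : Type) [CommRing 𝒪'] [IsDomain 𝒪'] [IsDiscreteValuationRing 𝒪']
      [IsAdicComplete (IsLocalRing.maximalIdeal 𝒪') 𝒪'] [Finite (IsLocalRing.ResidueField 𝒪')]
      [CharZero 𝒪'] (_hp𝒪' : (p : 𝒪') ∈ IsLocalRing.maximalIdeal 𝒪')
      (χ : CuspForm.heckeAlgebra N 2 (↑S : Set ℕ) →+* 𝒪'),
      ∃ (𝒪'' : Type) (_ : CommRing 𝒪'') (_ : IsDomain 𝒪'') (_ : IsDiscreteValuationRing 𝒪'')
        (_ : IsAdicComplete (IsLocalRing.maximalIdeal 𝒪'') 𝒪'')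
        (_ : Finite (IsLocalRing.ResidueField 𝒪'')) (_ : CharZero 𝒪'')
        (_ : Algebra 𝒪' 𝒪'') (_ : Module.Finite 𝒪' 𝒪'') (_ : IsLocalHom (algebraMap 𝒪' 𝒪'')),
      Function.Injective (algebraMap 𝒪' 𝒪'') ∧
      ∃ ρ : GaloisRepAdic 𝒪'',
        (∀ (ℓ : ℕ) (hℓ : ℓ.Prime) (hℓN : ¬ ℓ ∣ N) (hℓS : ℓ ∉ (↑S : Set ℕ)),
          ∀ A : ValuationSubring (AlgebraicClosure ℚ), A.LiesOverPrime ℓ →
            ∀ σ : AlgebraicClosure ℚ ≃ₐ[ℚ] AlgebraicClosure ℚ, A.IsFrobeniusAt σ ℓ →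
              LinearMap.charpoly (ρ.ρ σ) =
                X ^ 2 - C (algebraMap 𝒪' 𝒪'' (χ (CuspForm.heckeAlgebra.T hℓ hℓN hℓS))) * X
                  + C ((ℓ : 𝒪''))) ∧
        (∀ q : ℕ, q.Prime → ¬ q ∣ N → q ≠ p → ρ.IsUnramifiedAt q) := by
  intro p _ N _ S hpS hNS 𝒪' _ _ _ _ _ _ hp𝒪' χ
  obtain ⟨𝒪'', i1, i2, i3, i4, i5, i6, i7, i8, i9, hinj, ρ, hρ, hunr⟩ :=
    hC p N S hpS 𝒪' hp𝒪' (eigenvalue χ) hG (hE p N S hpS hNS 𝒪' hp𝒪' χ)
  refine ⟨𝒪'', i1, i2, i3, i4, i5, i6, i7, i8, i9, hinj, ρ, ?_, hunr⟩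
  intro ℓ hℓ hℓN hℓS A hA σ hσ
  rw [hρ ℓ hℓ hℓN hℓS A hA σ hσ, eigenvalue_eq χ hℓ hℓN hℓS]

/-- **The frozen statement S30 from the six leaves.** -/
theorem result_of2 (hM : Stmt_Machine) (hT : Stmt_TateCore) (hCy : Stmt_Cyclo)
    (hQ : Stmt_QuadAll) (hX : Stmt_Extract) (hG : Stmt_GenChebGal) :
    ∀ (p : ℕ) [Fact p.Prime] (N : ℕ) [NeZero N] (S : Finset ℕ)
      (_hpS : p ∈ S) (_hNS : ∀ q : ℕ, q.Prime → q ∣ N → q ∈ S)
      (𝒪' : Type) [CommRing 𝒪'] [IsDomain 𝒪'] [IsDiscreteValuationRing 𝒪']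
      [IsAdicComplete (IsLocalRing.maximalIdeal 𝒪') 𝒪'] [Finite (IsLocalRing.ResidueField 𝒪')]
      [CharZero 𝒪'] (_hp𝒪' : (p : 𝒪') ∈ IsLocalRing.maximalIdeal 𝒪')
      (χ : CuspForm.heckeAlgebra N 2 (↑S : Set ℕ) →+* 𝒪'),
      ∃ (𝒪'' : Type) (_ : CommRing 𝒪'') (_ : IsDomain 𝒪'') (_ : IsDiscreteValuationRing 𝒪'')
        (_ : IsAdicComplete (IsLocalRing.maximalIdeal 𝒪'') 𝒪'')
        (_ : Finite (IsLocalRing.ResidueField 𝒪'')) (_ : CharZero 𝒪'')
        (_ : Algebra 𝒪' 𝒪'') (_ : Module.Finite 𝒪' 𝒪'') (_ : IsLocalHom (algebraMap 𝒪' 𝒪'')),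
      Function.Injective (algebraMap 𝒪' 𝒪'') ∧
      ∃ ρ : GaloisRepAdic 𝒪'',
        (∀ (ℓ : ℕ) (hℓ : ℓ.Prime) (hℓN : ¬ ℓ ∣ N) (hℓS : ℓ ∉ (↑S : Set ℕ)),
          ∀ A : ValuationSubring (AlgebraicClosure ℚ), A.LiesOverPrime ℓ →
            ∀ σ : AlgebraicClosure ℚ ≃ₐ[ℚ] AlgebraicClosure ℚ, A.IsFrobeniusAt σ ℓ →
              LinearMap.charpoly (ρ.ρ σ) =
                X ^ 2 - C (algebraMap 𝒪' 𝒪'' (χ (CuspForm.heckeAlgebra.T hℓ hℓN hℓS))) * X
                  + C ((ℓ : 𝒪''))) ∧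
        (∀ q : ℕ, q.Prime → ¬ q ∣ N → q ≠ p → ρ.IsUnramifiedAt q) :=
  result_of_core2 (eigen_of hM hT) (core2_of hCy hQ hX) (genCheb_of_gal hG)

end Fermat.Agent.S30.helper54
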