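import Mathlib
import Fermat.Agent.S30.helper54_Spec2
import Fermat.Agent.S30.helper1094_JDatum
import Fermat.Agent.S29.helper4878_CycFrob

/-!
# S30: wiring of the machine side (helper831, architect)

Three things, all against landed names:

* `stmt_GenCheb` : the Chebotarev leaf `helper54.Stmt_GenCheb` of the S30 Spec holds
  unconditionally (adapter from the landed `Fermat.Agent.S29.helper4878.stmt_CycFrob`).
* `Stmt_UPow`, `Stmt_ESPow` : the two operator-wise facts about `J₀(N)` that S30 really needs at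
  the good primes, namely trivial inertia and the Eichler–Shimura relation on the `p`-POWER
  torsion.  They are what the direct Kummer route of S29 proves (modulus `p ^ n` instead of `p`);
  `Stmt_UMod`, `Stmt_ESMod` are the same for an arbitrary modulus prime to `ℓ`.  Either the S37
  back end (`helper1094.Stmt_S37Core`) or the general-modulus forms imply them.
* `stmt_Eigen_of_ues`, `result_of_ues` : `helper54.Stmt_Eigen` and the frozen statement S30 from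
  these two facts instead of the S37 back end.
-/

set_option autoImplicit false

open Polynomial

namespace Fermat.Agent.S30.helper831

open ModularCurve
open Fermat.Agent.S30.helper54 Fermat.Agent.S30.helper1094

/-! ### Generator-Chebotarev: closed -/

/-- The Chebotarev leaf of the S30 Spec, unconditionally. -/
theorem stmt_GenCheb : Stmt_GenCheb := by
  intro L _ T g
  obtain ⟨ℓ, hℓ, hℓT, A, hA, s, hs, n, hn⟩ :=
    Fermat.Agent.S29.helper4878.stmt_CycFrob L inferInstance g T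
  exact ⟨ℓ, A, s, n, hℓ, hℓT, hA, hs, hn⟩

/-- The Galois-level form of the Chebotarev leaf, unconditionally. -/
theorem stmt_GenChebGal : Stmt_GenChebGal := by
  intro K _ _ g T
  exact stmt_GenCheb K T g

/-! ### The two operator-wise facts at the good primes -/

/-- (U) Inertia at every prime `ℓ ∤ N p` acts trivially on the `p`-power torsion of `J₀(N)`. -/
def Stmt_UPow : Prop :=
  ∀ (N : ℕ) [NeZero N] (p : ℕ), p.Prime → ∀ ℓ : ℕ, ℓ.Prime → ¬ ℓ ∣ N * p →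
    ∀ A : ValuationSubring (AlgebraicClosure ℚ), A.LiesOverPrime ℓ →
      ∀ τ ∈ A.inertiaSubgroupIn ℚ, ∀ x : JZero N, (∃ n : ℕ, p ^ n • x = 0) → τ • x = x

/-- (ES) The Eichler–Shimura relation on the `p`-power torsion of `J₀(N)`, operator-wise, at
every Frobenius lift at every prime `ℓ ∤ N p`. -/
def Stmt_ESPow : Prop :=
  ∀ (N : ℕ) [NeZero N] (p : ℕ), p.Prime → ∀ (ℓ : ℕ) (hℓ : ℓ.Prime), ¬ ℓ ∣ N * p →
    ∀ A : ValuationSubring (AlgebraicClosure ℚ), A.LiesOverPrime ℓ →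
      ∀ σ : Gal, A.IsFrobeniusAt σ ℓ → ∀ x : JZero N, (∃ n : ℕ, p ^ n • x = 0) →
        σ • σ • x - heckeOperatorBar N ⟨ℓ, hℓ⟩ (σ • x) + ℓ • x = 0

/-- (U) for an arbitrary modulus `m` prime to `ℓ`. -/
def Stmt_UMod : Prop :=
  ∀ (N : ℕ) [NeZero N] (m : ℕ) (ℓ : ℕ), ℓ.Prime → ¬ ℓ ∣ N → ¬ ℓ ∣ m →
    ∀ A : ValuationSubring (AlgebraicClosure ℚ), A.LiesOverPrime ℓ →
      ∀ τ ∈ A.inertiaSubgroupIn ℚ, ∀ x : JZero N, m • x = 0 → τ • x = x

/-- (ES) for an arbitrary modulus `m` prime to `ℓ`. -/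
def Stmt_ESMod : Prop :=
  ∀ (N : ℕ) [NeZero N] (m : ℕ) (ℓ : ℕ) (hℓ : ℓ.Prime), ¬ ℓ ∣ N → ¬ ℓ ∣ m →
    ∀ A : ValuationSubring (AlgebraicClosure ℚ), A.LiesOverPrime ℓ →
      ∀ σ : Gal, A.IsFrobeniusAt σ ℓ → ∀ x : JZero N, m • x = 0 →
        σ • σ • x - heckeOperatorBar N ⟨ℓ, hℓ⟩ (σ • x) + ℓ • x = 0

theorem not_dvd_pow_of_not_dvd_mul {N p ℓ : ℕ} (hℓ : ℓ.Prime) (h : ¬ ℓ ∣ N * p) (n : ℕ) :
    ¬ ℓ ∣ p ^ n := fun hd => h (Dvd.dvd.mul_left (hℓ.dvd_of_dvd_pow hd) N)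

theorem stmt_UPow_of_mod (h : Stmt_UMod) : Stmt_UPow := by
  intro N _ p _ ℓ hℓ hℓNp A hA τ hτ x hx
  obtain ⟨n, hn⟩ := hx
  exact h N (p ^ n) ℓ hℓ (fun hd => hℓNp (Dvd.dvd.mul_right hd p))
    (not_dvd_pow_of_not_dvd_mul hℓ hℓNp n) A hA τ hτ x hn

theorem stmt_ESPow_of_mod (h : Stmt_ESMod) : Stmt_ESPow := by
  intro N _ p _ ℓ hℓ hℓNp A hA σ hσ x hx
  obtain ⟨n, hn⟩ := hx
  exact h N (p ^ n) ℓ hℓ (fun hd => hℓNp (Dvd.dvd.mul_right hd p))
    (not_dvd_pow_of_not_dvd_mul hℓ hℓNp n) A hA σ hσ x hn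

/-- The S37 back end implies (U) on `p`-power torsion. -/
theorem stmt_UPow_of_S37Core (h : Stmt_S37Core) : Stmt_UPow := by
  intro N _ p hp ℓ hℓ hℓNp A hA τ hτ x hx
  haveI : Fact p.Prime := ⟨hp⟩
  exact inertia_smul_eq (h N p) hℓ hℓNp A hA hτ x hx

/-- The S37 back end implies (ES) on `p`-power torsion. -/
theorem stmt_ESPow_of_S37Core (h : Stmt_S37Core) : Stmt_ESPow := by
  intro N _ p hp ℓ hℓ hℓNp A hA σ hσ x hx
  haveI : Fact p.Prime := ⟨hp⟩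
  exact frobenius_relation (h N p) hℓ hℓNp A hA hσ x hx

/-! ### The Jacobian datum from (U), (ES) -/

/-- **The Jacobian datum of `J₀(N)`** from the machine statements, with the S37 back end replaced
by the two operator-wise facts on `p`-power torsion. -/
theorem jDatum_JZero_of_ues (hfin : Stmt_TorsFin) (hlev : Stmt_FinLevel) (hgh : Stmt_GalHecke)
    (hU : Stmt_UPow) (hES : Stmt_ESPow) (hlat : Stmt_LatticeLevel)
    (p : ℕ) [Fact p.Prime] (N : ℕ) [NeZero N] (S : Finset ℕ)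
    (hpS : p ∈ S) (hNS : ∀ q : ℕ, q.Prime → q ∣ N → q ∈ S)
    (𝒪' : Type) [CommRing 𝒪'] (χ : CuspForm.heckeAlgebra N 2 (↑S : Set ℕ) →+* 𝒪') :
    JDatum p N S 𝒪' (eigenvalue χ) := by
  have hp : p.Prime := Fact.out
  have hNp : ∀ ℓ : ℕ, ℓ.Prime → ¬ ℓ ∣ N → ℓ ≠ p → ¬ ℓ ∣ N * p := by
    intro ℓ hℓ hℓN hℓp hdvd
    rcases (Nat.Prime.dvd_mul hℓ).mp hdvd with h | h
    · exact hℓN h
    · exact hℓp ((Nat.prime_dvd_prime_iff_eq hℓ hp).mp h)
  have hSp : ∀ ℓ : ℕ, ℓ ∉ S → ℓ ≠ p := fun ℓ hℓS h => hℓS (h ▸ hpS)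
  obtain ⟨Λ, i1, i2, i3, i4, ι, hfaith, hι1, hι2, hι3, hι4⟩ := hlat N p S hpS hNS
  refine ⟨JZero N, inferInstance, inferInstance, tauBar N, hfin N p, fun x _ => hlev N x, ?_, ?_,
    ?_, Λ, i1, i2, i3, CuspForm.heckeAlgebra N 2 (↑S : Set ℕ), inferInstance, i4, tElt N S, χ, ι,
    hfaith, ?_, hι1, hι2, hι3, ?_⟩
  · intro ℓ hℓ _ _ σ x
    rw [tauBar_apply N hℓ, tauBar_apply N hℓ]
    exact hgh N ⟨ℓ, hℓ⟩ σ x
  · intro q hq hqN hqp A hA σ hσ x hx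
    exact hU N p hp q hq (hNp q hq hqN hqp) A hA σ hσ x hx
  · intro ℓ hℓ hℓN hℓS A hA σ hσ x hx
    rw [tauBar_apply N hℓ]
    exact hES N p hp ℓ hℓ (hNp ℓ hℓ hℓN (hSp ℓ hℓS)) A hA σ hσ x hx
  · intro ℓ hℓ hℓN hℓS
    rw [tElt_eq N S hℓ hℓN (by exact_mod_cast hℓS), eigenvalue_eq χ hℓ hℓN (by exact_mod_cast hℓS)]
  · intro ℓ hℓ hℓN hℓS n x
    rw [tElt_eq N S hℓ hℓN (by exact_mod_cast hℓS), tauBar_apply N hℓ]
    exact hι4 ℓ hℓ hℓN (by exact_mod_cast hℓS) n x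

/-- **`Stmt_Eigen` from E1 and the machine statements**, with (U), (ES) on `p`-power torsion
instead of the S37 back end. -/
theorem stmt_Eigen_of_ues (hE1 : Stmt_E1) (hfin : Stmt_TorsFin) (hlev : Stmt_FinLevel)
    (hgh : Stmt_GalHecke) (hU : Stmt_UPow) (hES : Stmt_ESPow) (hlat : Stmt_LatticeLevel) :
    Stmt_Eigen := by
  intro p _ N _ S hpS hNS 𝒪' _ _ _ _ _ _ hp𝒪' χ
  exact hE1 p N S hpS 𝒪' hp𝒪' (eigenvalue χ)
    (jDatum_JZero_of_ues hfin hlev hgh hU hES hlat p N S hpS hNS 𝒪' χ)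

/-! ### The frozen statement from what is still missing -/

/-- **The frozen statement S30** from the eight statements that are not yet theorems: the two
geometry-free ones (`Stmt_E1`, `Stmt_Core2`) and six facts about `J₀(N)`.  The Chebotarev leaf is
filled in. -/
theorem result_of_ues (hE1 : Stmt_E1) (hC : Stmt_Core2) (hfin : Stmt_TorsFin)
    (hlev : Stmt_FinLevel) (hgh : Stmt_GalHecke) (hU : Stmt_UPow) (hES : Stmt_ESPow)
    (hlat : Stmt_LatticeLevel) :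
    ∀ (p : ℕ) [Fact p.Prime] (N : ℕ) [NeZero N] (S : Finset ℕ)
      (_hpS : p ∈ S) (_hNS : ∀ q : ℕ, q.Prime → q ∣ N → q ∈ S)
      (𝒪' : Type) [CommRing 𝒪'] [IsDomain 𝒪'] [IsDiscreteValuationRing 𝒪']
      [IsAdicComplete (IsLocalRing.maximalIdeal 𝒪') 𝒪'] [Finite (IsLocalRing.ResidueField 𝒪')]
      [CharZero 𝒪'] (_hp𝒪' : (p : 𝒪') ∈ IsLocalRing.maximalIdeal 𝒪')
      (χ : CuspForm.heckeAlgebra N 2 (↑S : Set ℕ) →+* 𝒪'),
      ∃ (𝒪'' : Type) (_ : CommRing 𝒪'') (_ : IsDomain 𝒪'') (_ : IsDiscreteValuationRing 𝒪'')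
        (_ : IsAdicComplete (IsLocalRing.maximalIdeal 𝒪'') 𝒪'')
        (_ : Finite (IsLocalRing.ResidueField 𝒪'')) (_ : CharZero 𝒪'')
        (_ : Algebra 𝒪' 𝒪'') (_ : Module.Finite 𝒪' 𝒪'') (_ : IsLocalHom (algebraMap 𝒪' 𝒪'')),
      Function.Injective (algebraMap 𝒪' 𝒪'') ∧
      ∃ ρ : GaloisRepAdic 𝒪'',
        (∀ (ℓ : ℕ) (hℓ : ℓ.Prime) (hℓN : ¬ ℓ ∣ N) (hℓS : ℓ ∉ (↑S : Set ℕ)),
          ∀ A : ValuationSubring (AlgebraicClosure ℚ), A.LiesOverPrime ℓ →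
            ∀ σ : AlgebraicClosure ℚ ≃ₐ[ℚ] AlgebraicClosure ℚ, A.IsFrobeniusAt σ ℓ →
              LinearMap.charpoly (ρ.ρ σ) =
                X ^ 2 - C (algebraMap 𝒪' 𝒪'' (χ (CuspForm.heckeAlgebra.T hℓ hℓN hℓS))) * X
                  + C ((ℓ : 𝒪''))) ∧
        (∀ q : ℕ, q.Prime → ¬ q ∣ N → q ≠ p → ρ.IsUnramifiedAt q) :=
  result_of_core2 (stmt_Eigen_of_ues hE1 hfin hlev hgh hU hES hlat) hC stmt_GenCheb

end Fermat.Agent.S30.helper831
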