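import Mathlib
import Fermat.Agent.S30.helper1094_E1
import Fermat.Agent.S30.helper767_TateFin
import Fermat.Agent.S30.helper501_Occ
import Fermat.Agent.S30.helper30_Machine
import Fermat.Agent.S30.helper30_LatticeLevel
import Fermat.Agent.S29.helper288_FinTorsion
import Fermat.Agent.S30.helper831_Wiring
import Fermat.Agent.S30.helper54_Final

/-!
# S30: `Stmt_E1` is a theorem; the frozen statement from the machine statements only (helper1094)

* `stmt_TateFin`, `stmt_OccTransport` : the two geometry-free hypotheses of `stmt_E1_of`, from the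
  landed leaves `helper767.tateModule_finite_of_finite` and
  `helper501.exists_eigenvector_of_faithful`;
* `stmt_E1 : Stmt_E1` : every abstract Jacobian datum gives an eigen-datum, unconditionally;
* `stmt_Eigen_of_machine` : `helper54.Stmt_Eigen` from the three statements about `J₀(N)` that are
  not yet theorems, with the S37 back end (`Stmt_TorsFin`, `Stmt_S37Core`, `Stmt_LatticeLevel`);
* `stmt_Eigen_of_pow` : the same with the operator-wise (U), (ES) on `p`-power torsion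
  (`helper831.Stmt_UPow`, `helper831.Stmt_ESPow`) instead of the S37 back end;
* `s30_of_machine`, `s30_of_pow` : the frozen statement S30 from these;
* `stmt_TorsFin : Stmt_TorsFin` (`S29.helper288.finTorsion`), and `s30_of_tower`: the frozen
  statement S30 from the analytic Kummer dictionary at the moduli `p ^ k`
  (`helper30.Stmt_MultTower`) and (U), (ES) on `p`-power torsion.
-/

set_option autoImplicit false

open Polynomial
open scoped TensorProduct

namespace Fermat.Agent.S30.helper1094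

open Fermat.Agent.S30.helper54 Fermat.Agent.Lib.helper4786

/-- **TATE-FIN** is a theorem (`helper767`). -/
theorem stmt_TateFin : Stmt_TateFin := fun p _ A _ hfin =>
  Fermat.Agent.S30.helper767.tateModule_finite_of_finite A p hfin

/-- **OCC-TRANSPORT** is a theorem (`helper501`). -/
theorem stmt_OccTransport : Stmt_OccTransport := by
  intro p _ Λ _ _ _ R _ _ hfaith T _ _ hT j hsat I t τ hj K _ _ hK χ
  exact Fermat.Agent.S30.helper501.exists_eigenvector_of_faithful p hfaith hK χ t τ j hj hT hsat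

/-- **E1**: every abstract Jacobian datum gives an eigen-datum. -/
theorem stmt_E1 : Stmt_E1 := stmt_E1_of stmt_TateFin stmt_OccTransport

/-- **`Stmt_Eigen` from the machine statements** (S37 back end): finiteness of `J₀(N)[p]`, the
S37 core, and the lattice-level statement. -/
theorem stmt_Eigen_of_machine (hfin : Stmt_TorsFin) (h37 : Stmt_S37Core)
    (hlat : Stmt_LatticeLevel) : Stmt_Eigen :=
  stmt_Eigen_of stmt_E1 hfin Fermat.Agent.S30.helper30.stmt_FinLevel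
    Fermat.Agent.S30.helper30.stmt_GalHecke h37 hlat

/-- **`Stmt_Eigen` from the machine statements** (direct route): finiteness of `J₀(N)[p]`, the
operator-wise (U) and (ES) on `p`-power torsion, and the lattice-level statement. -/
theorem stmt_Eigen_of_pow (hfin : Stmt_TorsFin) (hU : Fermat.Agent.S30.helper831.Stmt_UPow)
    (hES : Fermat.Agent.S30.helper831.Stmt_ESPow) (hlat : Stmt_LatticeLevel) : Stmt_Eigen :=
  Fermat.Agent.S30.helper831.stmt_Eigen_of_ues stmt_E1 hfin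
    Fermat.Agent.S30.helper30.stmt_FinLevel Fermat.Agent.S30.helper30.stmt_GalHecke hU hES hlat

/-- **The frozen statement S30** from the four machine statements of the direct route. -/
theorem s30_of_pow (hfin : Stmt_TorsFin) (hU : Fermat.Agent.S30.helper831.Stmt_UPow)
    (hES : Fermat.Agent.S30.helper831.Stmt_ESPow) (hlat : Stmt_LatticeLevel) :
    ∀ (p : ℕ) [Fact p.Prime] (N : ℕ) [NeZero N] (S : Finset ℕ)
      (_hpS : p ∈ S) (_hNS : ∀ q : ℕ, q.Prime → q ∣ N → q ∈ S)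
      (𝒪' : Type) [CommRing 𝒪'] [IsDomain 𝒪'] [IsDiscreteValuationRing 𝒪']
      [IsAdicComplete (IsLocalRing.maximalIdeal 𝒪') 𝒪'] [Finite (IsLocalRing.ResidueField 𝒪')]
      [CharZero 𝒪'] (_hp𝒪' : (p : 𝒪') ∈ IsLocalRing.maximalIdeal 𝒪')
      (χ : CuspForm.heckeAlgebra N 2 (↑S : Set ℕ) →+* 𝒪'),
      ∃ (𝒪'' : Type) (_ : CommRing 𝒪'') (_ : IsDomain 𝒪'') (_ : IsDiscreteValuationRing 𝒪'')
        (_ : IsAdicComplete (IsLocalRing.maximalIdeal 𝒪'') 𝒪'')
        (_ : Finite (IsLocalRing.ResidueField 𝒪'')) (_ : CharZero 𝒪'')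
        (_ : Algebra 𝒪' 𝒪'') (_ : Module.Finite 𝒪' 𝒪'') (_ : IsLocalHom (algebraMap 𝒪' 𝒪'')),
      Function.Injective (algebraMap 𝒪' 𝒪'') ∧
      ∃ ρ : GaloisRepAdic 𝒪'',
        (∀ (ℓ : ℕ) (hℓ : ℓ.Prime) (hℓN : ¬ ℓ ∣ N) (hℓS : ℓ ∉ (↑S : Set ℕ)),
          ∀ A : ValuationSubring (AlgebraicClosure ℚ), A.LiesOverPrime ℓ →
            ∀ σ : AlgebraicClosure ℚ ≃ₐ[ℚ] AlgebraicClosure ℚ, A.IsFrobeniusAt σ ℓ →
              LinearMap.charpoly (ρ.ρ σ) =
                X ^ 2 - C (algebraMap 𝒪' 𝒪'' (χ (CuspForm.heckeAlgebra.T hℓ hℓN hℓS))) * X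
                  + C ((ℓ : 𝒪''))) ∧
        (∀ q : ℕ, q.Prime → ¬ q ∣ N → q ≠ p → ρ.IsUnramifiedAt q) :=
  s30_of_eigen (stmt_Eigen_of_pow hfin hU hES hlat)

/-- **The frozen statement S30** from the three machine statements of the S37 route. -/
theorem s30_of_machine (hfin : Stmt_TorsFin) (h37 : Stmt_S37Core) (hlat : Stmt_LatticeLevel) :
    ∀ (p : ℕ) [Fact p.Prime] (N : ℕ) [NeZero N] (S : Finset ℕ)
      (_hpS : p ∈ S) (_hNS : ∀ q : ℕ, q.Prime → q ∣ N → q ∈ S)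
      (𝒪' : Type) [CommRing 𝒪'] [IsDomain 𝒪'] [IsDiscreteValuationRing 𝒪']
      [IsAdicComplete (IsLocalRing.maximalIdeal 𝒪') 𝒪'] [Finite (IsLocalRing.ResidueField 𝒪')]
      [CharZero 𝒪'] (_hp𝒪' : (p : 𝒪') ∈ IsLocalRing.maximalIdeal 𝒪')
      (χ : CuspForm.heckeAlgebra N 2 (↑S : Set ℕ) →+* 𝒪'),
      ∃ (𝒪'' : Type) (_ : CommRing 𝒪'') (_ : IsDomain 𝒪'') (_ : IsDiscreteValuationRing 𝒪'')
        (_ : IsAdicComplete (IsLocalRing.maximalIdeal 𝒪'') 𝒪'')
        (_ : Finite (IsLocalRing.ResidueField 𝒪'')) (_ : CharZero 𝒪'')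
        (_ : Algebra 𝒪' 𝒪'') (_ : Module.Finite 𝒪' 𝒪'') (_ : IsLocalHom (algebraMap 𝒪' 𝒪'')),
      Function.Injective (algebraMap 𝒪' 𝒪'') ∧
      ∃ ρ : GaloisRepAdic 𝒪'',
        (∀ (ℓ : ℕ) (hℓ : ℓ.Prime) (hℓN : ¬ ℓ ∣ N) (hℓS : ℓ ∉ (↑S : Set ℕ)),
          ∀ A : ValuationSubring (AlgebraicClosure ℚ), A.LiesOverPrime ℓ →
            ∀ σ : AlgebraicClosure ℚ ≃ₐ[ℚ] AlgebraicClosure ℚ, A.IsFrobeniusAt σ ℓ →
              LinearMap.charpoly (ρ.ρ σ) =
                X ^ 2 - C (algebraMap 𝒪' 𝒪'' (χ (CuspForm.heckeAlgebra.T hℓ hℓN hℓS))) * X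
                  + C ((ℓ : 𝒪''))) ∧
        (∀ q : ℕ, q.Prime → ¬ q ∣ N → q ≠ p → ρ.IsUnramifiedAt q) :=
  s30_of_eigen (stmt_Eigen_of_machine hfin h37 hlat)

/-- **`Stmt_TorsFin`** is a theorem (`S29.helper288`): `J₀(N)[p]` is finite. -/
theorem stmt_TorsFin : Stmt_TorsFin := fun N _ _ hp =>
  Fermat.Agent.S29.helper288.finTorsion N hp.out

/-- **`Stmt_Eigen`** from the three statements that are not yet theorems: the analytic Kummer
dictionary at the moduli `p ^ k` and the operator-wise (U), (ES) on `p`-power torsion. -/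
theorem stmt_Eigen_of_tower (hM : Fermat.Agent.S30.helper30.Stmt_MultTower)
    (hU : Fermat.Agent.S30.helper831.Stmt_UPow) (hES : Fermat.Agent.S30.helper831.Stmt_ESPow) :
    Stmt_Eigen :=
  stmt_Eigen_of_pow stmt_TorsFin hU hES (Fermat.Agent.S30.helper30.stmt_LatticeLevel_of hM)

/-- **The frozen statement S30** from the three statements that are not yet theorems: the
analytic Kummer dictionary at the moduli `p ^ k` and (U), (ES) on `p`-power torsion. -/
theorem s30_of_tower (hM : Fermat.Agent.S30.helper30.Stmt_MultTower)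
    (hU : Fermat.Agent.S30.helper831.Stmt_UPow) (hES : Fermat.Agent.S30.helper831.Stmt_ESPow) :
    ∀ (p : ℕ) [Fact p.Prime] (N : ℕ) [NeZero N] (S : Finset ℕ)
      (_hpS : p ∈ S) (_hNS : ∀ q : ℕ, q.Prime → q ∣ N → q ∈ S)
      (𝒪' : Type) [CommRing 𝒪'] [IsDomain 𝒪'] [IsDiscreteValuationRing 𝒪']
      [IsAdicComplete (IsLocalRing.maximalIdeal 𝒪') 𝒪'] [Finite (IsLocalRing.ResidueField 𝒪')]
      [CharZero 𝒪'] (_hp𝒪' : (p : 𝒪') ∈ IsLocalRing.maximalIdeal 𝒪')
      (χ : CuspForm.heckeAlgebra N 2 (↑S : Set ℕ) →+* 𝒪'),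
      ∃ (𝒪'' : Type) (_ : CommRing 𝒪'') (_ : IsDomain 𝒪'') (_ : IsDiscreteValuationRing 𝒪'')
        (_ : IsAdicComplete (IsLocalRing.maximalIdeal 𝒪'') 𝒪'')
        (_ : Finite (IsLocalRing.ResidueField 𝒪'')) (_ : CharZero 𝒪'')
        (_ : Algebra 𝒪' 𝒪'') (_ : Module.Finite 𝒪' 𝒪'') (_ : IsLocalHom (algebraMap 𝒪' 𝒪'')),
      Function.Injective (algebraMap 𝒪' 𝒪'') ∧
      ∃ ρ : GaloisRepAdic 𝒪'',
        (∀ (ℓ : ℕ) (hℓ : ℓ.Prime) (hℓN : ¬ ℓ ∣ N) (hℓS : ℓ ∉ (↑S : Set ℕ)),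
          ∀ A : ValuationSubring (AlgebraicClosure ℚ), A.LiesOverPrime ℓ →
            ∀ σ : AlgebraicClosure ℚ ≃ₐ[ℚ] AlgebraicClosure ℚ, A.IsFrobeniusAt σ ℓ →
              LinearMap.charpoly (ρ.ρ σ) =
                X ^ 2 - C (algebraMap 𝒪' 𝒪'' (χ (CuspForm.heckeAlgebra.T hℓ hℓN hℓS))) * X
                  + C ((ℓ : 𝒪''))) ∧
        (∀ q : ℕ, q.Prime → ¬ q ∣ N → q ≠ p → ρ.IsUnramifiedAt q) :=
  s30_of_eigen (stmt_Eigen_of_tower hM hU hES)

end Fermat.Agent.S30.helper1094
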