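import Mathlib

set_option autoImplicit false
open Polynomial

namespace Fermat.Agent.S30.helper2646

section Abstract

variable {R : Type*} [CommRing R] {M : Type*} [AddCommGroup M] [Module R M]
  {G : Type*} [Group G]

theorem act_mul (ρ : G →* Module.End R M) (g h : G) (m : M) :
    ρ g (ρ h m) = ρ (g * h) m := by
  rw [map_mul]; rfl

theorem act_one (ρ : G →* Module.End R M) (m : M) : ρ 1 m = m := by
  rw [map_one]; rfl

/-- The anticommutation identity: if every `g` satisfies `g² - t(g) g + ε(g) = 0`
and `c² = 1`, `ε(c) = -1`, then `c h + h c = t(h) c + t(c h)`. -/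
theorem key_identity (ρ : G →* Module.End R M) (t : G → R) (ε : G →* Rˣ) (c : G)
    (hrel : ∀ g m, ρ g (ρ g m) - t g • ρ g m + (ε g : R) • m = 0)
    (hc : c * c = 1) (hεc : (ε c : R) = -1) (h : G) (m : M) :
    ρ c (ρ h m) + ρ h (ρ c m) = t h • ρ c m + t (c * h) • m := by
  have R1 := hrel (c * h) (ρ (h⁻¹ * c) m)
  have R2 := hrel h (ρ (h⁻¹ * c) m)
  have e1 : ρ (c * h) (ρ (h⁻¹ * c) m) = m := by
    rw [act_mul]
    have : c * h * (h⁻¹ * c) = 1 := by
      rw [mul_assoc, mul_inv_cancel_left, hc]
    rw [this, act_one]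
  have e2 : ρ h (ρ (h⁻¹ * c) m) = ρ c m := by
    rw [act_mul, mul_inv_cancel_left]
  have e3 : ((ε (c * h) : Rˣ) : R) = - (ε h : R) := by
    rw [map_mul, Units.val_mul, hεc]; ring
  rw [e1, e3] at R1
  rw [e2] at R2
  rw [← act_mul] at R1
  linear_combination (norm := module) R1 + R2

end Abstract

section Saturation

variable {R : Type*} [CommRing R] [IsDomain R] {M : Type*} [AddCommGroup M] [Module R M]

/-- Saturation of a submodule: elements with a nonzero multiple in `N`. -/
def sat (N : Submodule R M) : Submodule R M where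
  carrier := {m | ∃ a : R, a ≠ 0 ∧ a • m ∈ N}
  add_mem' := by
    rintro x y ⟨a, ha, hx⟩ ⟨b, hb, hy⟩
    refine ⟨a * b, mul_ne_zero ha hb, ?_⟩
    have : (a * b) • (x + y) = b • (a • x) + a • (b • y) := by module
    rw [this]
    exact N.add_mem (N.smul_mem _ hx) (N.smul_mem _ hy)
  zero_mem' := ⟨1, one_ne_zero, by simp⟩
  smul_mem' := by
    rintro r x ⟨a, ha, hx⟩
    exact ⟨a, ha, by rw [smul_comm]; exact N.smul_mem _ hx⟩

theorem mem_sat {N : Submodule R M} {m : M} : m ∈ sat N ↔ ∃ a : R, a ≠ 0 ∧ a • m ∈ N :=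
  Iff.rfl

theorem le_sat (N : Submodule R M) : N ≤ sat N :=
  fun m hm => ⟨1, one_ne_zero, by simpa using hm⟩

theorem sat_saturated (N : Submodule R M) {a : R} (ha : a ≠ 0) {m : M} (h : a • m ∈ sat N) :
    m ∈ sat N := by
  obtain ⟨b, hb, hbm⟩ := h
  exact ⟨b * a, mul_ne_zero hb ha, by rwa [mul_smul]⟩

theorem sat_le_sat_of_le_sat {N N' : Submodule R M} (h : N ≤ sat N') : sat N ≤ sat N' := by
  rintro m ⟨a, ha, hm⟩
  exact sat_saturated N' ha (h hm)

theorem sat_map_mem (f : M →ₗ[R] M) {N : Submodule R M} (hf : ∀ m ∈ N, f m ∈ sat N)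
    {m : M} (hm : m ∈ sat N) : f m ∈ sat N := by
  obtain ⟨a, ha, hm⟩ := hm
  refine sat_saturated N ha ?_
  rw [← map_smul]
  exact hf _ hm

/-- The saturation of the span of a linearly independent family of `n` vectors has rank `n`. -/
theorem finrank_sat_span [IsPrincipalIdealRing R] [Module.Free R M] [Module.Finite R M]
    {ι : Type*} [Fintype ι] (v : ι → M) (hv : LinearIndependent R v) :
    Module.finrank R (sat (Submodule.span R (Set.range v))) = Fintype.card ι := by
  classical
  set Λ := sat (Submodule.span R (Set.range v)) with hΛ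
  apply le_antisymm
  · -- a nonzero multiple of `Λ` lies in the span
    obtain ⟨T, hT⟩ : Λ.FG := IsNoetherian.noetherian Λ
    have hch : ∀ x : M, ∃ a : R, a ≠ 0 ∧ (x ∈ Λ → a • x ∈ Submodule.span R (Set.range v)) := by
      intro x
      by_cases hx : x ∈ Λ
      · obtain ⟨a, ha, hax⟩ := hx
        exact ⟨a, ha, fun _ => hax⟩
      · exact ⟨1, one_ne_zero, fun h => absurd h hx⟩
    choose a ha hax using hch
    set A : R := ∏ x ∈ T, a x with hA
    have hA0 : A ≠ 0 := Finset.prod_ne_zero_iff.mpr fun x _ => ha x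
    have hAΛ : ∀ m ∈ Λ, A • m ∈ Submodule.span R (Set.range v) := by
      intro m hm
      rw [← hT] at hm
      refine Submodule.span_induction ?_ ?_ ?_ ?_ hm
      · intro x hx
        have hxΛ : x ∈ Λ := by rw [← hT]; exact Submodule.subset_span hx
        obtain ⟨k, hk⟩ := Finset.dvd_prod_of_mem a hx
        rw [hA, hk, mul_comm, mul_smul]
        exact Submodule.smul_mem _ _ (hax x hxΛ)
      · simp
      · intro x y _ _ hx hy
        rw [smul_add]
        exact add_mem hx hy
      · intro r x _ hx
        rw [smul_comm]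
        exact Submodule.smul_mem _ _ hx
    let φ : Λ →ₗ[R] Submodule.span R (Set.range v) :=
      LinearMap.codRestrict _ (A • Λ.subtype) fun m => hAΛ m m.2
    have hφ : Function.Injective φ := by
      intro x y hxy
      have h1 : A • (x : M) = A • (y : M) := congrArg Subtype.val hxy
      exact Subtype.ext (smul_right_injective M hA0 h1)
    calc Module.finrank R Λ ≤ Module.finrank R (Submodule.span R (Set.range v)) :=
          LinearMap.finrank_le_finrank_of_injective hφ
      _ = Fintype.card ι := finrank_span_eq_card hv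
  · let v' : ι → Λ := fun i => ⟨v i, le_sat _ (Submodule.subset_span ⟨i, rfl⟩)⟩
    have hv' : LinearIndependent R v' := by
      refine LinearIndependent.of_comp Λ.subtype ?_
      exact hv
    exact hv'.fintype_card_le_finrank

omit [IsDomain R] in
/-- Congruences modulo an ideal restrict to a saturated submodule. -/
theorem mem_smul_top_of_saturated [IsPrincipalIdealRing R] [Module.IsTorsionFree R M]
    (Λ : Submodule R M) (hsat : ∀ a : R, a ≠ 0 → ∀ m : M, a • m ∈ Λ → m ∈ Λ)
    (I : Ideal R) (x : Λ) (hx : (x : M) ∈ I • (⊤ : Submodule R M)) :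
    x ∈ I • (⊤ : Submodule R Λ) := by
  obtain ⟨a, rfl⟩ : ∃ a : R, I = Ideal.span {a} :=
    ⟨_, (Ideal.span_singleton_generator I).symm⟩
  rw [Submodule.ideal_span_singleton_smul] at hx ⊢
  rw [Submodule.mem_smul_pointwise_iff_exists] at hx ⊢
  obtain ⟨y, -, hy⟩ := hx
  by_cases ha : a = 0
  · subst ha
    refine ⟨0, trivial, ?_⟩
    apply Subtype.ext
    simp [← hy]
  · exact ⟨⟨y, hsat a ha y (hy ▸ x.2)⟩, trivial, Subtype.ext hy⟩

omit [IsDomain R] in
theorem map_mem_smul_top (f : M →ₗ[R] M) (I : Ideal R) {x : M}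
    (hx : x ∈ I • (⊤ : Submodule R M)) : f x ∈ I • (⊤ : Submodule R M) := by
  refine Submodule.smul_induction_on hx (fun a ha m _ => ?_) (fun x y hx hy => ?_)
  · rw [map_smul]
    exact Submodule.smul_mem_smul ha trivial
  · rw [map_add]
    exact add_mem hx hy

end Saturation

section RankTwo

variable {R : Type*} [CommRing R] [IsDomain R]

/-- 2×2 matrices: quadratic relation for `A` and for `C * A`, where `C` is a non-scalar
involution, force `tr A = t`, `det A = e`. -/
theorem fin_two_trace_det (A Cm : Matrix (Fin 2) (Fin 2) R) (t e tc : R)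
    (he : e ≠ 0)
    (h1 : A * A - t • A + e • (1 : Matrix (Fin 2) (Fin 2) R) = 0)
    (h2 : (Cm * A) * (Cm * A) - tc • (Cm * A) - e • (1 : Matrix (Fin 2) (Fin 2) R) = 0)
    (hC : Cm * Cm = 1) (hCns : ∀ a : R, Cm ≠ a • (1 : Matrix (Fin 2) (Fin 2) R)) :
    A.trace = t ∧ A.det = e := by
  have e00 := congrFun (congrFun h1 0) 0
  have e01 := congrFun (congrFun h1 0) 1
  have e10 := congrFun (congrFun h1 1) 0
  have e11 := congrFun (congrFun h1 1) 1
  simp only [Matrix.add_apply, Matrix.sub_apply, Matrix.smul_apply, Matrix.mul_apply,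
    Fin.sum_univ_two, Matrix.one_apply_eq, Matrix.one_apply_ne, Matrix.zero_apply, smul_eq_mul,
    ne_eq, Fin.isValue, zero_ne_one, one_ne_zero, not_false_eq_true, mul_zero, add_zero,
    mul_one] at e00 e01 e10 e11
  rw [Matrix.trace_fin_two, Matrix.det_fin_two]
  by_cases htr : A 0 0 + A 1 1 = t
  · refine ⟨htr, ?_⟩
    linear_combination (-1 : R) * e00 + A 0 0 * htr
  · exfalso
    have hd : A 0 0 + A 1 1 - t ≠ 0 := sub_ne_zero.mpr htr
    have hb : A 0 1 = 0 := by
      have : A 0 1 * (A 0 0 + A 1 1 - t) = 0 := by linear_combination e01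
      exact (mul_eq_zero.mp this).resolve_right hd
    have hc : A 1 0 = 0 := by
      have : A 1 0 * (A 0 0 + A 1 1 - t) = 0 := by linear_combination e10
      exact (mul_eq_zero.mp this).resolve_right hd
    have had : A 0 0 = A 1 1 := by
      have : (A 0 0 - A 1 1) * (A 0 0 + A 1 1 - t) = 0 := by
        rw [hb, hc] at e00 e11
        linear_combination e00 - e11
      exact sub_eq_zero.mp ((mul_eq_zero.mp this).resolve_right hd)
    set a := A 0 0 with ha
    have hA : A = a • (1 : Matrix (Fin 2) (Fin 2) R) := by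
      ext i j
      fin_cases i <;> fin_cases j <;> simp [hb, hc, ← had, ha]
    have hrel : a * a - t * a + e = 0 := by
      rw [hb] at e00
      linear_combination e00
    rw [hA] at h2
    have h2' : (a * a - e) • (1 : Matrix (Fin 2) (Fin 2) R) = (tc * a) • Cm := by
      have : (Cm * a • (1 : Matrix (Fin 2) (Fin 2) R)) * (Cm * a • (1 : Matrix (Fin 2) (Fin 2) R))
          = (a * a) • (1 : Matrix (Fin 2) (Fin 2) R) := by
        rw [Matrix.mul_smul, Matrix.mul_one, Matrix.smul_mul, Matrix.mul_smul, hC, smul_smul]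
      rw [this, Matrix.mul_smul, Matrix.mul_one, smul_smul] at h2
      rw [sub_smul]
      linear_combination (norm := module) h2
    by_cases htca : tc * a = 0
    · rw [htca, zero_smul] at h2'
      have hae : a * a = e := by
        have := congrFun (congrFun h2' 0) 0
        simp only [Matrix.smul_apply, Matrix.one_apply_eq, smul_eq_mul, mul_one,
          Matrix.zero_apply] at this
        exact sub_eq_zero.mp this
      have ha0 : a ≠ 0 := by
        rintro h0
        rw [h0, mul_zero] at hae
        exact he hae.symm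
      have : a * (2 * a - t) = 0 := by linear_combination hrel + hae
      have h2a : 2 * a - t = 0 := (mul_eq_zero.mp this).resolve_left ha0
      apply htr
      rw [← had]
      linear_combination h2a
    · -- `Cm` is scalar: contradiction
      have c01 := congrFun (congrFun h2' 0) 1
      have c10 := congrFun (congrFun h2' 1) 0
      have c00 := congrFun (congrFun h2' 0) 0
      have c11 := congrFun (congrFun h2' 1) 1
      simp only [Matrix.smul_apply, Matrix.one_apply_eq, Matrix.one_apply_ne, smul_eq_mul,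
        mul_one, mul_zero, ne_eq, Fin.isValue, zero_ne_one, one_ne_zero,
        not_false_eq_true] at c01 c10 c00 c11
      have k01 : Cm 0 1 = 0 := (mul_eq_zero.mp c01.symm).resolve_left htca
      have k10 : Cm 1 0 = 0 := (mul_eq_zero.mp c10.symm).resolve_left htca
      have k00 : Cm 0 0 = Cm 1 1 := by
        have : (tc * a) * (Cm 0 0 - Cm 1 1) = 0 := by linear_combination c11 - c00
        exact sub_eq_zero.mp ((mul_eq_zero.mp this).resolve_left htca)
      apply hCns (Cm 0 0)
      ext i j
      fin_cases i <;> fin_cases j <;> simp [k01, k10, ← k00]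

variable {V : Type*} [AddCommGroup V] [Module R V]
  [Module.Free R V] [Module.Finite R V] {G : Type*} [Group G]


theorem charpoly_of_rank_two (hfin : Module.finrank R V = 2)
    (ρ : G →* Module.End R V) (t : G → R) (ε : G →* Rˣ) (c : G)
    (hrel : ∀ g m, ρ g (ρ g m) - t g • ρ g m + (ε g : R) • m = 0)
    (hc : c * c = 1) (hεc : (ε c : R) = -1)
    (hns : ∀ a : R, ρ c ≠ a • (1 : Module.End R V)) (g : G) :
    LinearMap.charpoly (ρ g) = X ^ 2 - C (t g) * X + C (ε g : R) := by
  classical
  let b := Module.finBasisOfFinrankEq R V hfin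
  let Φ := LinearMap.toMatrixAlgEquiv b
  have hop : ∀ x : G, ρ x * ρ x - t x • ρ x + (ε x : R) • (1 : Module.End R V) = 0 := by
    intro x
    ext m
    simpa using hrel x m
  have h1 := congrArg Φ (hop g)
  have h2 := congrArg Φ (hop (c * g))
  simp only [map_add, map_sub, map_mul, map_smul, map_one, map_zero, Units.val_mul, hεc] at h1 h2
  have hC : Φ (ρ c) * Φ (ρ c) = 1 := by
    rw [← map_mul, ← map_mul, hc, map_one, map_one]
  have hCns : ∀ a : R, Φ (ρ c) ≠ a • (1 : Matrix (Fin 2) (Fin 2) R) := by
    intro a h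
    apply hns a
    apply Φ.injective
    rw [h, map_smul, map_one]
  have h2' : (Φ (ρ c) * Φ (ρ g)) * (Φ (ρ c) * Φ (ρ g)) - t (c * g) • (Φ (ρ c) * Φ (ρ g))
      - (ε g : R) • (1 : Matrix (Fin 2) (Fin 2) R) = 0 := by
    rw [← h2]
    module
  obtain ⟨htr, hdet⟩ := fin_two_trace_det (Φ (ρ g)) (Φ (ρ c)) (t g) (ε g) (t (c * g))
    (Units.ne_zero _) h1 h2' hC hCns
  rw [← LinearMap.charpoly_toMatrix (ρ g) b, Matrix.charpoly_fin_two]
  change X ^ 2 - C (Φ (ρ g)).trace * X + C (Φ (ρ g)).det = _
  rw [htr, hdet]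

end RankTwo

section Lattice

variable {R : Type*} [CommRing R] [IsDomain R] [IsPrincipalIdealRing R]
  {M : Type*} [AddCommGroup M] [Module R M] [Module.Free R M] [Module.Finite R M]
  {G : Type*} [Group G]

omit [IsDomain R] [IsPrincipalIdealRing R] [Module.Free R M] [Module.Finite R M] in
theorem eig_identity (ρ : G →* Module.End R M) (t : G → R) (ε : G →* Rˣ) (c : G)
    (hrel : ∀ g m, ρ g (ρ g m) - t g • ρ g m + (ε g : R) • m = 0)
    (hc : c * c = 1) (hεc : (ε c : R) = -1) (s : R) (u : M) (hu : ρ c u = s • u) (h : G) :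
    ρ c (ρ h u) + s • ρ h u = (s * t h + t (c * h)) • u := by
  have := key_identity ρ t ε c hrel hc hεc h u
  rw [hu, map_smul] at this
  rw [this]
  module

/-- **Odd lattice lemma.** If every `g` satisfies `g² - t(g) g + ε(g) = 0` on a nonzero finite
free module over a PID of characteristic `≠ 2`, and `c` is an involution with `ε(c) = -1`, then
there is a `G`-stable saturated submodule of rank `1`, or of rank `2` on which `c` has both
eigenvalues `±1`. -/
theorem exists_stable_lattice [Nontrivial M]
    (h2 : (2 : R) ≠ 0) (ρ : G →* Module.End R M) (t : G → R) (ε : G →* Rˣ) (c : G)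
    (hrel : ∀ g m, ρ g (ρ g m) - t g • ρ g m + (ε g : R) • m = 0)
    (hc : c * c = 1) (hεc : (ε c : R) = -1) :
    ∃ Λ : Submodule R M, (∀ g, ∀ m ∈ Λ, ρ g m ∈ Λ) ∧
      (∀ a : R, a ≠ 0 → ∀ m, a • m ∈ Λ → m ∈ Λ) ∧
      (Module.finrank R Λ = 1 ∨ (Module.finrank R Λ = 2 ∧
        ∃ u u' : M, u ∈ Λ ∧ u' ∈ Λ ∧ u ≠ 0 ∧ u' ≠ 0 ∧
          ∃ s : R, s * s = 1 ∧ ρ c u = s • u ∧ ρ c u' = -(s • u'))) := by
  classical
  have cc : ∀ m, ρ c (ρ c m) = m := fun m => by rw [act_mul, hc, act_one]
  have stable_span : ∀ (w : M) (g : G), ∀ m ∈ Submodule.span R (Set.range fun h => ρ h w),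
      ρ g m ∈ Submodule.span R (Set.range fun h => ρ h w) := by
    intro w g m hm
    refine Submodule.span_induction ?_ ?_ ?_ ?_ hm
    · rintro _ ⟨h, rfl⟩
      exact Submodule.subset_span ⟨g * h, (act_mul ρ g h w).symm⟩
    · simp
    · intro x y _ _ hx hy
      rw [map_add]
      exact add_mem hx hy
    · intro r x _ hx
      rw [map_smul]
      exact Submodule.smul_mem _ _ hx
  have eig_span : ∀ (s : R) (w : M), ρ c w = s • w →
      ∀ y ∈ Submodule.span R (Set.range fun h => ρ h w), ∃ a : R, ρ c y + s • y = a • w := by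
    intro s w hw y hy
    refine Submodule.span_induction ?_ ?_ ?_ ?_ hy
    · rintro _ ⟨h, rfl⟩
      exact ⟨s * t h + t (c * h), eig_identity ρ t ε c hrel hc hεc s w hw h⟩
    · exact ⟨0, by simp⟩
    · rintro x y _ _ ⟨a, ha⟩ ⟨b, hb⟩
      refine ⟨a + b, ?_⟩
      rw [map_add, add_smul, ← ha, ← hb]
      module
    · rintro r x _ ⟨a, ha⟩
      refine ⟨r * a, ?_⟩
      rw [map_smul, mul_smul, ← ha]
      module
  obtain ⟨v, hv⟩ := exists_ne (0 : M)
  obtain ⟨u, s, hu0, hs, hcu⟩ : ∃ (u : M) (s : R), u ≠ 0 ∧ s * s = 1 ∧ ρ c u = s • u := by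
    by_cases h : v + ρ c v = 0
    · refine ⟨v - ρ c v, -1, ?_, by ring, ?_⟩
      · intro h'
        have h2v : (2 : R) • v = 0 := by
          have : (2 : R) • v = (v + ρ c v) + (v - ρ c v) := by module
          rw [this, h, h', add_zero]
        exact hv ((smul_eq_zero.mp h2v).resolve_left h2)
      · rw [map_sub, cc]
        module
    · exact ⟨v + ρ c v, 1, h, by ring, by rw [map_add, cc]; module⟩
  have hs0 : s ≠ 0 := by
    rintro rfl
    simp at hs
  have h2s : 2 * s ≠ 0 := mul_ne_zero h2 hs0
  set N1 := Submodule.span R (Set.range fun h => ρ h u) with hN1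
  by_cases hcase : ∀ y ∈ N1, ρ c y = s • y
  · -- line through `u`
    refine ⟨sat (Submodule.span R (Set.range fun _ : Fin 1 => u)), ?_,
      fun a ha m hm => sat_saturated _ ha hm, Or.inl ?_⟩
    · intro g m hm
      refine sat_map_mem (ρ g) ?_ hm
      intro m hm
      rw [Set.range_const, Submodule.mem_span_singleton] at hm
      obtain ⟨r, rfl⟩ := hm
      rw [map_smul]
      refine Submodule.smul_mem _ _ ?_
      have hgu : ρ g u ∈ N1 := Submodule.subset_span ⟨g, rfl⟩
      obtain ⟨a, ha⟩ := eig_span s u hcu _ hgu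
      rw [hcase _ hgu] at ha
      refine ⟨2 * s, h2s, ?_⟩
      have : (2 * s) • ρ g u = a • u := by
        rw [← ha]
        module
      rw [this, Set.range_const]
      exact Submodule.smul_mem _ _ (Submodule.mem_span_singleton_self u)
    · rw [finrank_sat_span]
      · simp
      · exact linearIndependent_unique_iff.mpr hu0
  · push Not at hcase
    obtain ⟨x, hx, hxne⟩ := hcase
    set u' := ρ c x - s • x with hu'
    have hu'0 : u' ≠ 0 := sub_ne_zero.mpr hxne
    have hcu' : ρ c u' = (-s) • u' := by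
      rw [hu', map_sub, cc, map_smul]
      have hx1 : x = (s * s) • x := by rw [hs, one_smul]
      rw [smul_sub, neg_smul, neg_smul, smul_smul, ← hx1]
      abel
    have hu'N1 : u' ∈ N1 := N1.sub_mem (stable_span u c x hx) (N1.smul_mem s hx)
    set N2 := Submodule.span R (Set.range fun h => ρ h u') with hN2
    have hN21 : N2 ≤ N1 := Submodule.span_le.mpr (by
      rintro _ ⟨h, rfl⟩
      exact stable_span u h u' hu'N1)
    have hu'N2 : u' ∈ N2 := Submodule.subset_span ⟨1, act_one ρ u'⟩
    have hN2span : ∀ y ∈ N2, ∃ a b : R, (2 * s) • y = a • u + b • u' := by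
      intro y hy
      obtain ⟨a, ha⟩ := eig_span s u hcu y (hN21 hy)
      obtain ⟨b, hb⟩ := eig_span (-s) u' hcu' y hy
      refine ⟨a, -b, ?_⟩
      have : (2 * s) • y = (ρ c y + s • y) - (ρ c y + (-s) • y) := by module
      rw [this, ha, hb]
      module
    have hstab2 : ∀ g, ∀ m ∈ sat N2, ρ g m ∈ sat N2 := fun g m hm =>
      sat_map_mem (ρ g) (fun m hm => le_sat _ (stable_span u' g m hm)) hm
    by_cases huN2 : u ∈ sat N2
    · -- plane
      refine ⟨sat N2, hstab2, fun a ha m hm => sat_saturated _ ha hm,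
        Or.inr ⟨?_, u, u', huN2, le_sat _ hu'N2, hu0, hu'0, s, hs, hcu, by rw [hcu', neg_smul]⟩⟩
      have heq : sat N2 = sat (Submodule.span R (Set.range ![u, u'])) := by
        apply le_antisymm
        · apply sat_le_sat_of_le_sat
          intro y hy
          obtain ⟨a, b, hab⟩ := hN2span y hy
          refine ⟨2 * s, h2s, ?_⟩
          rw [hab]
          exact add_mem (Submodule.smul_mem _ _ (Submodule.subset_span ⟨0, rfl⟩))
            (Submodule.smul_mem _ _ (Submodule.subset_span ⟨1, rfl⟩))
        · apply sat_le_sat_of_le_sat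
          rw [Submodule.span_le]
          rintro _ ⟨i, rfl⟩
          fin_cases i
          · exact huN2
          · exact le_sat _ hu'N2
      rw [heq, finrank_sat_span]
      · simp
      · rw [LinearIndependent.pair_iff]
        intro a b hab
        have h1 : a • (s • u) + b • ((-s) • u') = 0 := by
          have := congrArg (ρ c) hab
          rwa [map_add, map_smul, map_smul, hcu, hcu', map_zero] at this
        have ha : (2 * s * a) • u = 0 := by
          have : (2 * s * a) • u = s • (a • u + b • u') + (a • (s • u) + b • ((-s) • u')) := by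
            module
          rw [this, hab, h1, smul_zero, add_zero]
        have hb : (2 * s * b) • u' = 0 := by
          have : (2 * s * b) • u' = s • (a • u + b • u') - (a • (s • u) + b • ((-s) • u')) := by
            module
          rw [this, hab, h1, smul_zero, sub_zero]
        constructor
        · have := (smul_eq_zero.mp ha).resolve_right hu0
          exact (mul_eq_zero.mp this).resolve_left h2s
        · have := (smul_eq_zero.mp hb).resolve_right hu'0
          exact (mul_eq_zero.mp this).resolve_left h2s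
    · -- line through `u'`
      refine ⟨sat N2, hstab2, fun a ha m hm => sat_saturated _ ha hm, Or.inl ?_⟩
      have heq : sat N2 = sat (Submodule.span R (Set.range fun _ : Fin 1 => u')) := by
        apply le_antisymm
        · apply sat_le_sat_of_le_sat
          intro y hy
          obtain ⟨a, b, hab⟩ := hN2span y hy
          have ha0 : a = 0 := by
            by_contra ha
            apply huN2
            refine ⟨a, ha, ?_⟩
            have : a • u = (2 * s) • y - b • u' := by
              rw [hab]
              abel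
            rw [this]
            exact sub_mem (Submodule.smul_mem _ _ hy) (Submodule.smul_mem _ _ hu'N2)
          refine ⟨2 * s, h2s, ?_⟩
          rw [hab, ha0, zero_smul, zero_add]
          exact Submodule.smul_mem _ _ (Submodule.subset_span ⟨0, rfl⟩)
        · apply sat_le_sat_of_le_sat
          rw [Submodule.span_le]
          rintro _ ⟨i, rfl⟩
          exact le_sat _ hu'N2
      rw [heq, finrank_sat_span]
      · simp
      · exact linearIndependent_unique_iff.mpr hu'0

end Lattice

section Restrict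

variable {R : Type*} [CommRing R] {M : Type*} [AddCommGroup M] [Module R M]
  {G : Type*} [Group G]

/-- Restriction of a representation to a stable submodule. -/
def restrictRep (ρ : G →* Module.End R M) (Λ : Submodule R M)
    (hstab : ∀ g, ∀ m ∈ Λ, ρ g m ∈ Λ) : G →* Module.End R Λ where
  toFun g := (ρ g).restrict (hstab g)
  map_one' := by
    ext x
    simp [LinearMap.restrict_apply]
  map_mul' g h := by
    ext x
    simp [LinearMap.restrict_apply, map_mul]

theorem restrictRep_coe (ρ : G →* Module.End R M) (Λ : Submodule R M)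
    (hstab : ∀ g, ∀ m ∈ Λ, ρ g m ∈ Λ) (g : G) (x : Λ) :
    ((restrictRep ρ Λ hstab g x : Λ) : M) = ρ g (x : M) := rfl

end Restrict

section RankOne

variable {R : Type*} [CommRing R] [IsDomain R]
  {V : Type*} [AddCommGroup V] [Module R V] [Module.Free R V] [Module.Finite R V]
  {G : Type*} [Group G]

/-- Rank one: the action is through a character `ψ` with `ψ + ε/ψ = t`; the representation
`ψ ⊕ ε ψ⁻¹` on `R²` has the required characteristic polynomials. -/
theorem exists_of_rank_one (h1 : Module.finrank R V = 1)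
    (ρ : G →* Module.End R V) (t : G → R) (ε : G →* Rˣ)
    (hrel : ∀ g m, ρ g (ρ g m) - t g • ρ g m + (ε g : R) • m = 0) :
    ∃ ρ' : G →* Module.End R (Fin 2 → R),
      (∀ g, LinearMap.charpoly (ρ' g) = X ^ 2 - C (t g) * X + C (ε g : R)) ∧
      (∀ g, ρ g = 1 → (ε g : R) = 1 → ρ' g = 1) ∧
      (∀ (I : Ideal R) (g : G), (∀ v, ρ g v - v ∈ I • (⊤ : Submodule R V)) →
        (ε g : R) - 1 ∈ I → ∀ w, ρ' g w - w ∈ I • (⊤ : Submodule R (Fin 2 → R))) := by
  classical
  let b := Module.finBasisOfFinrankEq R V h1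
  have hb0 : b 0 ≠ 0 := b.ne_zero 0
  have hx : ∀ y : V, y = b.repr y 0 • b 0 := by
    intro y
    conv_lhs => rw [← b.sum_repr y]
    rw [Fin.sum_univ_one]
  set ψ : G → R := fun g => b.repr (ρ g (b 0)) 0 with hψdef
  have hψ : ∀ g (x : V), ρ g x = ψ g • x := by
    intro g x
    have h0 : ρ g (b 0) = ψ g • b 0 := hx (ρ g (b 0))
    rw [hx x, map_smul, h0, smul_comm]
  have cancel : ∀ r : R, r • b 0 = 0 → r = 0 := fun r hr =>
    (smul_eq_zero.mp hr).resolve_right hb0
  have hψmul : ∀ g h, ψ (g * h) = ψ g * ψ h := by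
    intro g h
    have : ρ (g * h) (b 0) = ρ g (ρ h (b 0)) := (act_mul ρ g h (b 0)).symm
    rw [hψ, hψ h, hψ g, smul_smul] at this
    have h' : (ψ (g * h) - ψ g * ψ h) • b 0 = 0 := by
      rw [sub_smul, this, sub_self]
    linear_combination cancel _ h'
  have hψone : ψ 1 = 1 := by
    have : ρ 1 (b 0) = b 0 := act_one ρ (b 0)
    rw [hψ] at this
    have h' : (ψ 1 - 1) • b 0 = 0 := by
      rw [sub_smul, this, one_smul, sub_self]
    linear_combination cancel _ h'
  have hinv : ∀ g, ψ g * ψ g⁻¹ = 1 := fun g => by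
    rw [← hψmul, mul_inv_cancel, hψone]
  have hψrel : ∀ g, ψ g * ψ g - t g * ψ g + (ε g : R) = 0 := by
    intro g
    have := hrel g (b 0)
    rw [hψ g (b 0), hψ g, smul_smul, smul_smul] at this
    have h' : (ψ g * ψ g - t g * ψ g + (ε g : R)) • b 0 = 0 := by
      rw [add_smul, sub_smul]
      exact this
    exact cancel _ h'
  let d : G → Fin 2 → R := fun g => ![ψ g, (ε g : R) * ψ g⁻¹]
  have hd1 : d 1 = fun _ => 1 := by
    funext i
    fin_cases i
    · simp [d, hψone]
    · simp [d, hψone]
  have hdmul : ∀ g h, d (g * h) = fun i => d g i * d h i := by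
    intro g h
    funext i
    fin_cases i
    · simp [d, hψmul]
    · simp only [d, mul_inv_rev, map_mul, Units.val_mul, hψmul]
      simp
      ring
  let ρ' : G →* Module.End R (Fin 2 → R) :=
    { toFun := fun g => Matrix.toLin' (Matrix.diagonal (d g))
      map_one' := by
        rw [hd1, Matrix.diagonal_one, Matrix.toLin'_one]
        rfl
      map_mul' := fun g h => by
        rw [hdmul, ← Matrix.diagonal_mul_diagonal, Matrix.toLin'_mul]
        rfl }
  have hρ' : ∀ g, ρ' g = Matrix.toLin' (Matrix.diagonal (d g)) := fun g => rfl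
  refine ⟨ρ', ?_, ?_, ?_⟩
  · intro g
    rw [hρ', Matrix.charpoly_toLin', Matrix.charpoly_fin_two, Matrix.trace_diagonal,
      Matrix.det_diagonal, Fin.sum_univ_two, Fin.prod_univ_two]
    have htr : d g 0 + d g 1 = t g := by
      show ψ g + (ε g : R) * ψ g⁻¹ = t g
      linear_combination (ψ g⁻¹) * hψrel g - (ψ g - t g) * hinv g
    have hdet : d g 0 * d g 1 = (ε g : R) := by
      show ψ g * ((ε g : R) * ψ g⁻¹) = (ε g : R)
      linear_combination (ε g : R) * hinv g
    rw [htr, hdet]
  · intro g hg hε
    have h1g : ψ g = 1 := by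
      have : ρ g (b 0) = b 0 := by rw [hg]; rfl
      rw [hψ] at this
      have h' : (ψ g - 1) • b 0 = 0 := by
        rw [sub_smul, this, one_smul, sub_self]
      linear_combination cancel _ h'
    have h1g' : ψ g⁻¹ = 1 := by
      have := hinv g
      rw [h1g, one_mul] at this
      exact this
    have hdg : d g = fun _ => 1 := by
      funext i
      fin_cases i
      · simp [d, h1g]
      · simp [d, h1g', hε]
    rw [hρ', hdg, Matrix.diagonal_one, Matrix.toLin'_one]
    rfl
  · intro I g hg hε w
    have coord : ∀ x ∈ I • (⊤ : Submodule R V), b.repr x 0 ∈ I := by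
      intro x hx'
      refine Submodule.smul_induction_on hx' (fun a ha m _ => ?_) (fun x y hx hy => ?_)
      · rw [map_smul, Finsupp.smul_apply, smul_eq_mul]
        exact Ideal.mul_mem_right _ _ ha
      · rw [map_add, Finsupp.add_apply]
        exact add_mem hx hy
    have hψ1 : ψ g - 1 ∈ I := by
      have := coord _ (hg (b 0))
      rw [hψ, map_sub, map_smul, b.repr_self] at this
      simpa using this
    have hψ2 : ψ g⁻¹ - 1 ∈ I := by
      have : ψ g⁻¹ - 1 = -(ψ g⁻¹ * (ψ g - 1)) := by
        linear_combination hinv g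
      rw [this]
      exact neg_mem (Ideal.mul_mem_left _ _ hψ1)
    have hd0 : d g 0 - 1 ∈ I := by
      simpa [d] using hψ1
    have hd1' : d g 1 - 1 ∈ I := by
      have : d g 1 - 1 = (ε g : R) * (ψ g⁻¹ - 1) + ((ε g : R) - 1) := by
        show (ε g : R) * ψ g⁻¹ - 1 = _
        ring
      rw [this]
      exact add_mem (Ideal.mul_mem_left _ _ hψ2) hε
    have hvec : ρ' g w - w = (d g 0 - 1) • (Pi.single 0 (w 0) : Fin 2 → R)
        + (d g 1 - 1) • (Pi.single 1 (w 1) : Fin 2 → R) := by
      funext i
      rw [hρ', Pi.sub_apply, Matrix.toLin'_apply, Matrix.mulVec_diagonal]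
      fin_cases i
      · simp
        ring
      · simp
        ring
    rw [hvec]
    exact add_mem (Submodule.smul_mem_smul hd0 trivial) (Submodule.smul_mem_smul hd1' trivial)

end RankOne

section Core

variable {R : Type} [CommRing R] [IsDomain R] [IsPrincipalIdealRing R]
  {M : Type} [AddCommGroup M] [Module R M] [Module.Free R M] [Module.Finite R M]
  {G : Type*} [Group G]

/-- **Abstract core.** From quadratic relations `g² - t(g) g + ε(g) = 0` for all `g` on a
nonzero finite free module over a PID of characteristic `≠ 2` and an odd involution `c`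
(`c² = 1`, `ε(c) = -1`), one gets a rank-two representation over the SAME ring with
characteristic polynomials `X² - t(g) X + ε(g)`, inheriting triviality and congruences. -/
theorem abstract_core [Nontrivial M]
    (h2 : (2 : R) ≠ 0) (ρ : G →* Module.End R M) (t : G → R) (ε : G →* Rˣ) (c : G)
    (hrel : ∀ g m, ρ g (ρ g m) - t g • ρ g m + (ε g : R) • m = 0)
    (hc : c * c = 1) (hεc : (ε c : R) = -1) :
    ∃ (V : Type) (_ : AddCommGroup V) (_ : Module R V) (_ : Module.Free R V)
      (_ : Module.Finite R V) (ρ' : G →* Module.End R V),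
      Module.finrank R V = 2 ∧
      (∀ g, LinearMap.charpoly (ρ' g) = X ^ 2 - C (t g) * X + C (ε g : R)) ∧
      (∀ g, ρ g = 1 → (ε g : R) = 1 → ρ' g = 1) ∧
      (∀ (I : Ideal R) (g : G), (∀ v, ρ g v - v ∈ I • (⊤ : Submodule R M)) →
        (ε g : R) - 1 ∈ I → ∀ v, ρ' g v - v ∈ I • (⊤ : Submodule R V)) := by
  obtain ⟨Λ, hstab, hsat, hrank⟩ := exists_stable_lattice h2 ρ t ε c hrel hc hεc
  have : Module.Finite R Λ := inferInstance
  have : Module.Free R Λ := Module.free_of_finite_type_torsion_free'
  have hrelΛ : ∀ g (m : Λ), restrictRep ρ Λ hstab g (restrictRep ρ Λ hstab g m)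
      - t g • restrictRep ρ Λ hstab g m + (ε g : R) • m = 0 := by
    intro g m
    apply Subtype.ext
    exact hrel g m
  have htriv : ∀ g, ρ g = 1 → restrictRep ρ Λ hstab g = 1 := by
    intro g hg
    ext x
    rw [restrictRep_coe, hg]
    rfl
  have hcont : ∀ (I : Ideal R) (g : G), (∀ v, ρ g v - v ∈ I • (⊤ : Submodule R M)) →
      ∀ v : Λ, restrictRep ρ Λ hstab g v - v ∈ I • (⊤ : Submodule R Λ) := by
    intro I g hg v
    exact mem_smul_top_of_saturated Λ hsat I _ (hg v)
  rcases hrank with h1 | ⟨h2', u, u', hu, hu', hu0, hu'0, s, hs, hcu, hcu'⟩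
  · obtain ⟨ρ', hchar, htr, hct⟩ := exists_of_rank_one h1 (restrictRep ρ Λ hstab) t ε hrelΛ
    refine ⟨Fin 2 → R, inferInstance, inferInstance, inferInstance, inferInstance, ρ',
      Module.finrank_fin_fun R, hchar, fun g hg hε => htr g (htriv g hg) hε,
      fun I g hg hε => hct I g (hcont I g hg) hε⟩
  · refine ⟨Λ, inferInstance, inferInstance, inferInstance, inferInstance,
      restrictRep ρ Λ hstab, h2', ?_, fun g hg _ => htriv g hg, fun I g hg _ => hcont I g hg⟩
    have hs0 : s ≠ 0 := by
      rintro rfl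
      simp at hs
    have hns : ∀ a : R, restrictRep ρ Λ hstab c ≠ a • (1 : Module.End R Λ) := by
      intro a ha
      have e1 : ρ c u = a • u :=
        congrArg (fun f : Module.End R Λ => ((f ⟨u, hu⟩ : Λ) : M)) ha
      have e2 : ρ c u' = a • u' :=
        congrArg (fun f : Module.End R Λ => ((f ⟨u', hu'⟩ : Λ) : M)) ha
      rw [hcu] at e1
      rw [hcu'] at e2
      have a1 : (s - a) • u = 0 := by rw [sub_smul, e1, sub_self]
      have a2 : (s + a) • u' = 0 := by
        rw [add_smul, ← e2]
        simp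
      have b1 : s - a = 0 := (smul_eq_zero.mp a1).resolve_right hu0
      have b2 : s + a = 0 := (smul_eq_zero.mp a2).resolve_right hu'0
      have : 2 * s = 0 := by linear_combination b1 + b2
      exact mul_ne_zero h2 hs0 this
    exact charpoly_of_rank_two h2' (restrictRep ρ Λ hstab) t ε c hrelΛ hc hεc hns

end Core

end Fermat.Agent.S30.helper2646
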