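import Mathlib
import Fermat.Prelude.Def_CuspForm_HeckeGaloisRepDatum

/-!
# S30-CLOSED: the quadratic relation passes to adic limits

Backup copy (helper3194) of the leaf S30-QUAD.

* `lucas` : `f * f - a • f + e • 1 = 0` implies a quadratic relation with constant term `e ^ k`
  for every power `f ^ k`.
* `exists_quadratic_of_approx` : closedness of the quadratic condition over a noetherian local
  ring, for endomorphisms of a finite free module (no compactness, no minors).
* `exists_quadratic_of_genCheb` : the Galois consumer form.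
-/

set_option autoImplicit false

namespace Fermat.Agent.S30.helper3194

open IsLocalRing

section Lucas

variable {O M : Type*} [CommRing O] [AddCommGroup M] [Module O M]

/-- The Lucas sequence `s 0 = 2`, `s 1 = a`, `s (k+2) = a * s (k+1) - e * s k`. -/
def lucasSeq (a e : O) : ℕ → O
  | 0 => 2
  | 1 => a
  | (k + 2) => a * lucasSeq a e (k + 1) - e * lucasSeq a e k

theorem pow_add_pow_eq_lucasSeq (f : Module.End O M) (a e : O)
    (h : f * f - a • f + e • (1 : Module.End O M) = 0) (k : ℕ) :
    f ^ k + (a • (1 : Module.End O M) - f) ^ k = lucasSeq a e k • (1 : Module.End O M) := by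
  have hff' : f * (a • (1 : Module.End O M) - f) = e • (1 : Module.End O M) := by
    have : f * (a • (1 : Module.End O M) - f) = -(f * f - a • f + e • (1 : Module.End O M))
        + e • (1 : Module.End O M) := by
      rw [mul_sub, mul_smul_comm, mul_one]; abel
    rw [this, h, neg_zero, zero_add]
  have hcomm : Commute f (a • (1 : Module.End O M) - f) :=
    ((Commute.one_right f).smul_right a).sub_right (Commute.refl f)
  induction k using Nat.strong_induction_on with
  | _ k ih =>
    match k with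
    | 0 => simp [lucasSeq, two_smul]
    | 1 => simp [lucasSeq]
    | (k + 2) =>
      have h1 := ih (k + 1) (by omega)
      have h0 := ih k (by omega)
      set f' := a • (1 : Module.End O M) - f with hf'
      have hsum : f + f' = a • (1 : Module.End O M) := by rw [hf']; abel
      have key : f ^ (k + 2) + f' ^ (k + 2) =
          (f + f') * (f ^ (k + 1) + f' ^ (k + 1)) - (f * f') * (f ^ k + f' ^ k) := by
        have e1 : f' * f ^ (k + 1) = (f * f') * f ^ k := by
          rw [pow_succ', ← mul_assoc, hcomm.eq]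
        have e2 : f * f' ^ (k + 1) = (f * f') * f' ^ k := by
          rw [pow_succ', ← mul_assoc]
        have e3 : f * f ^ (k + 1) = f ^ (k + 2) := by rw [← pow_succ']
        have e4 : f' * f' ^ (k + 1) = f' ^ (k + 2) := by rw [← pow_succ']
        rw [add_mul, mul_add, mul_add, e1, e2, e3, e4, mul_add]
        abel
      rw [key, hsum, hff', h1, h0]
      simp only [lucasSeq, smul_mul_assoc, one_mul, smul_smul, sub_smul]

/-- **Lucas step**: a quadratic relation for `f` gives one for every power of `f`, with constant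
term the corresponding power. -/
theorem lucas (f : Module.End O M) (a e : O)
    (h : f * f - a • f + e • (1 : Module.End O M) = 0) (k : ℕ) :
    ∃ s : O, f ^ k * f ^ k - s • f ^ k + e ^ k • (1 : Module.End O M) = 0 := by
  refine ⟨lucasSeq a e k, ?_⟩
  have hff' : f * (a • (1 : Module.End O M) - f) = e • (1 : Module.End O M) := by
    have : f * (a • (1 : Module.End O M) - f) = -(f * f - a • f + e • (1 : Module.End O M))
        + e • (1 : Module.End O M) := by
      rw [mul_sub, mul_smul_comm, mul_one]; abel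
    rw [this, h, neg_zero, zero_add]
  have hcomm : Commute f (a • (1 : Module.End O M) - f) :=
    ((Commute.one_right f).smul_right a).sub_right (Commute.refl f)
  have hs := pow_add_pow_eq_lucasSeq f a e h k
  have hpow : (a • (1 : Module.End O M) - f) ^ k * f ^ k = e ^ k • (1 : Module.End O M) := by
    rw [← (hcomm.symm).mul_pow, hcomm.symm.eq, hff', smul_pow, one_pow]
  have hsk : lucasSeq a e k • f ^ k = (f ^ k + (a • (1 : Module.End O M) - f) ^ k) * f ^ k := by
    rw [hs, smul_mul_assoc, one_mul]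
  rw [hsk, add_mul, hpow]
  abel

end Lucas

section Closed

variable {O M : Type*} [CommRing O] [IsLocalRing O] [IsNoetherianRing O]
  [AddCommGroup M] [Module O M] [Module.Finite O M]

/-- Krull separation of a finite module over a noetherian local ring. -/
theorem eq_zero_of_forall_mem_pow_smul (v : M)
    (h : ∀ n : ℕ, v ∈ (maximalIdeal O ^ n) • (⊤ : Submodule O M)) : v = 0 := by
  have h0 := Ideal.iInf_pow_smul_eq_bot_of_isLocalRing (R := O) (M := M) (maximalIdeal O)
    (maximalIdeal.isMaximal O).ne_top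
  have hv : v ∈ (⨅ i : ℕ, maximalIdeal O ^ i • ⊤ : Submodule O M) := by
    rw [Submodule.mem_iInf]; exact h
  rw [h0] at hv
  exact (Submodule.mem_bot O).mp hv

omit [IsLocalRing O] [IsNoetherianRing O] [Module.Finite O M] in
/-- An endomorphism preserves `I • ⊤`. -/
theorem map_mem_smul_top (I : Ideal O) (f : Module.End O M) {x : M}
    (hx : x ∈ I • (⊤ : Submodule O M)) : f x ∈ I • (⊤ : Submodule O M) := by
  refine Submodule.smul_induction_on hx ?_ ?_
  · intro r hr m _
    rw [map_smul]
    exact Submodule.smul_mem_smul hr Submodule.mem_top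
  · intro x y hx hy
    rw [map_add]
    exact Submodule.add_mem _ hx hy

omit [IsLocalRing O] [IsNoetherianRing O] [Module.Finite O M] in
/-- A linear form maps `I • ⊤` into `I`. -/
theorem form_mem_of_mem_smul_top (I : Ideal O) (φ : M →ₗ[O] O) {x : M}
    (hx : x ∈ I • (⊤ : Submodule O M)) : φ x ∈ I := by
  refine Submodule.smul_induction_on hx ?_ ?_
  · intro r hr m _
    rw [map_smul, smul_eq_mul]
    exact Ideal.mul_mem_right _ _ hr
  · intro x y hx hy
    rw [map_add]
    exact Ideal.add_mem _ hx hy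

variable [Module.Free O M]

/-- **Closedness of the quadratic condition.**  Over a noetherian local ring `O`, let `X` be an
endomorphism of a finite free module with a right inverse.  If at every level `n` the pair
`(X, e)` is congruent modulo `𝔪 ^ n` to a pair `(Y, e')` satisfying a quadratic relation
`Y² - a Y + e' = 0`, then `X² - t X + e = 0` for some `t : O`. -/
theorem exists_quadratic_of_approx (X : Module.End O M) (hX : ∃ Z : Module.End O M, X * Z = 1)
    (e : O)
    (h : ∀ n : ℕ, ∃ (Y : Module.End O M) (a e' : O),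
      Y * Y - a • Y + e' • (1 : Module.End O M) = 0 ∧
      (∀ v : M, X v - Y v ∈ (maximalIdeal O ^ n) • (⊤ : Submodule O M)) ∧
      e - e' ∈ maximalIdeal O ^ n) :
    ∃ t : O, X * X - t • X + e • (1 : Module.End O M) = 0 := by
  classical
  rcases subsingleton_or_nontrivial M with hM | hM
  · exact ⟨0, LinearMap.ext fun v => Subsingleton.elim _ _⟩
  obtain ⟨Z, hZ⟩ := hX
  let B := Module.Free.chooseBasis O M
  obtain ⟨i0⟩ : Nonempty (Module.Free.ChooseBasisIndex O M) := B.index_nonempty
  set b : M := Z (B i0) with hb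
  set φ : M →ₗ[O] O := B.coord i0 with hφ
  have hXb : X b = B i0 := by
    have := congrArg (fun F : Module.End O M => F (B i0)) hZ
    simpa [hb] using this
  have hφXb : φ (X b) = 1 := by
    rw [hXb, hφ, Module.Basis.coord_apply, Module.Basis.repr_self, Finsupp.single_eq_same]
  refine ⟨φ ((X * X + e • (1 : Module.End O M)) b), ?_⟩
  set t : O := φ ((X * X + e • (1 : Module.End O M)) b) with ht
  refine LinearMap.ext fun v => ?_
  rw [LinearMap.zero_apply]
  refine eq_zero_of_forall_mem_pow_smul (O := O) _ fun n => ?_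
  obtain ⟨Y, a, e', hY, hXY, he⟩ := h n
  -- Claim A: the relation with `a` holds modulo `𝔪 ^ n`.
  have hA : ∀ w : M, (X * X - a • X + e • (1 : Module.End O M)) w ∈
      (maximalIdeal O ^ n) • (⊤ : Submodule O M) := by
    intro w
    have hYw : (Y * Y - a • Y + e' • (1 : Module.End O M)) w = 0 := by rw [hY]; rfl
    have hdecomp : (X * X - a • X + e • (1 : Module.End O M)) w =
        X (X w - Y w) + (X (Y w) - Y (Y w)) - a • (X w - Y w) + (e - e') • w := by
      have h1 : (X * X - a • X + e • (1 : Module.End O M)) w =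
          (X * X - a • X + e • (1 : Module.End O M)) w
            - (Y * Y - a • Y + e' • (1 : Module.End O M)) w := by rw [hYw, sub_zero]
      rw [h1]
      simp only [LinearMap.add_apply, LinearMap.sub_apply, Module.End.mul_apply,
        LinearMap.smul_apply, Module.End.one_apply, map_sub, smul_sub, sub_smul]
      abel
    rw [hdecomp]
    refine Submodule.add_mem _ (Submodule.sub_mem _ (Submodule.add_mem _ ?_ ?_) ?_) ?_
    · exact map_mem_smul_top _ X (hXY w)
    · exact hXY (Y w)
    · exact Submodule.smul_mem _ _ (hXY w)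
    · exact Submodule.smul_mem_smul he Submodule.mem_top
  -- Claim B: `t ≡ a` modulo `𝔪 ^ n`.
  have hB : t - a ∈ maximalIdeal O ^ n := by
    have h1 := form_mem_of_mem_smul_top _ φ (hA b)
    have h2 : φ ((X * X - a • X + e • (1 : Module.End O M)) b) = t - a := by
      have h3 : (X * X - a • X + e • (1 : Module.End O M)) b =
          (X * X + e • (1 : Module.End O M)) b - a • X b := by
        simp only [LinearMap.add_apply, LinearMap.sub_apply, LinearMap.smul_apply]
        abel
      rw [h3, map_sub, map_smul, hφXb, smul_eq_mul, mul_one]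
    rwa [h2] at h1
  -- Claim C.
  have hC : (X * X - t • X + e • (1 : Module.End O M)) v =
      (X * X - a • X + e • (1 : Module.End O M)) v - (t - a) • X v := by
    simp only [LinearMap.add_apply, LinearMap.sub_apply, LinearMap.smul_apply, sub_smul]
    abel
  rw [hC]
  exact Submodule.sub_mem _ (hA v) (Submodule.smul_mem_smul hB Submodule.mem_top)

/-- **Group form, generator shape**: if at every level every `g` is congruent to a power of an
element satisfying a quadratic relation with constant term `ε`, then every `g` satisfies a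
quadratic relation with constant term `ε g`. -/
theorem exists_quadratic_of_generators {G : Type*} [Group G] (ρ : G →* Module.End O M)
    (ε : G →* Oˣ)
    (h : ∀ (g : G) (n : ℕ), ∃ (σ : G) (k : ℕ) (a : O),
      ρ σ * ρ σ - a • ρ σ + ((ε σ : Oˣ) : O) • (1 : Module.End O M) = 0 ∧
      (∀ v : M, ρ g v - ρ (σ ^ k) v ∈ (maximalIdeal O ^ n) • (⊤ : Submodule O M)) ∧
      ((ε g : Oˣ) : O) - ((ε (σ ^ k) : Oˣ) : O) ∈ maximalIdeal O ^ n) (g : G) :
    ∃ t : O, ρ g * ρ g - t • ρ g + ((ε g : Oˣ) : O) • (1 : Module.End O M) = 0 := by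
  refine exists_quadratic_of_approx (ρ g) ⟨ρ g⁻¹, ?_⟩ _ fun n => ?_
  · rw [← map_mul, mul_inv_cancel, map_one]
  · obtain ⟨σ, k, a, hq, hρ, hε⟩ := h g n
    obtain ⟨s, hs⟩ := lucas (ρ σ) a ((ε σ : Oˣ) : O) hq k
    refine ⟨ρ (σ ^ k), s, ((ε (σ ^ k) : Oˣ) : O), ?_, hρ, hε⟩
    rw [map_pow, map_pow, Units.val_pow_eq_pow_val]
    exact hs

end Closed

section Galois

variable {O : Type} [CommRing O] [IsLocalRing O] [IsNoetherianRing O]
  {M : Type} [AddCommGroup M] [Module O M] [Module.Finite O M] [Module.Free O M]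

/-- **Galois consumer form.**  Generator-Chebotarev (in the shape of `helper54.Stmt_GenCheb`),
an adically continuous action `ρ` of `G_ℚ` on a finite free module over a noetherian local ring,
an adically continuous character `ε`, and quadratic relations `σ² - a_ℓ σ + ε(σ) = 0` at all
Frobenius lifts outside a finite set of primes give a quadratic relation with constant term
`ε g` for EVERY `g`. -/
theorem exists_quadratic_of_genCheb
    (hG : ∀ (L : IntermediateField ℚ (AlgebraicClosure ℚ)) [FiniteDimensional ℚ L] (T : Finset ℕ)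
      (g : AlgebraicClosure ℚ ≃ₐ[ℚ] AlgebraicClosure ℚ),
      ∃ (ℓ : ℕ) (A : ValuationSubring (AlgebraicClosure ℚ))
        (σ : AlgebraicClosure ℚ ≃ₐ[ℚ] AlgebraicClosure ℚ) (n : ℕ),
        ℓ.Prime ∧ ℓ ∉ T ∧ A.LiesOverPrime ℓ ∧ A.IsFrobeniusAt σ ℓ ∧ ∀ x ∈ L, (σ ^ n) x = g x)
    (ρ : (AlgebraicClosure ℚ ≃ₐ[ℚ] AlgebraicClosure ℚ) →* Module.End O M)
    (hρ : GaloisActionIsAdicContinuous O ρ)
    (ε : (AlgebraicClosure ℚ ≃ₐ[ℚ] AlgebraicClosure ℚ) →* Oˣ)
    (hε : ∀ n : ℕ, ∃ L : IntermediateField ℚ (AlgebraicClosure ℚ), FiniteDimensional ℚ L ∧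
      ∀ σ : AlgebraicClosure ℚ ≃ₐ[ℚ] AlgebraicClosure ℚ, (∀ x ∈ L, σ x = x) →
        ((ε σ : Oˣ) : O) - 1 ∈ maximalIdeal O ^ n)
    (T : Finset ℕ) (a : ℕ → O)
    (hfrob : ∀ ℓ : ℕ, ℓ.Prime → ℓ ∉ T →
      ∀ A : ValuationSubring (AlgebraicClosure ℚ), A.LiesOverPrime ℓ →
        ∀ σ : AlgebraicClosure ℚ ≃ₐ[ℚ] AlgebraicClosure ℚ, A.IsFrobeniusAt σ ℓ →
          ρ σ * ρ σ - a ℓ • ρ σ + ((ε σ : Oˣ) : O) • (1 : Module.End O M) = 0)
    (g : AlgebraicClosure ℚ ≃ₐ[ℚ] AlgebraicClosure ℚ) :
    ∃ t : O, ρ g * ρ g - t • ρ g + ((ε g : Oˣ) : O) • (1 : Module.End O M) = 0 := by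
  refine exists_quadratic_of_generators ρ ε (fun g n => ?_) g
  obtain ⟨L₁, hL₁, h₁⟩ := hρ n
  obtain ⟨L₂, hL₂, h₂⟩ := hε n
  have : FiniteDimensional ℚ (L₁ ⊔ L₂ : IntermediateField ℚ (AlgebraicClosure ℚ)) :=
    IntermediateField.finiteDimensional_sup L₁ L₂
  obtain ⟨ℓ, A, σ, k, hℓ, hℓT, hA, hσ, hagree⟩ := hG (L₁ ⊔ L₂) T g
  refine ⟨σ, k, a ℓ, hfrob ℓ hℓ hℓT A hA σ hσ, ?_, ?_⟩
  · -- `τ := (σ ^ k)⁻¹ * g` fixes `L₁`
    set τ : AlgebraicClosure ℚ ≃ₐ[ℚ] AlgebraicClosure ℚ := (σ ^ k)⁻¹ * g with hτ
    have hτfix : ∀ x ∈ L₁, τ x = x := by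
      intro x hx
      have hx' : x ∈ (L₁ ⊔ L₂ : IntermediateField ℚ (AlgebraicClosure ℚ)) :=
        (le_sup_left : L₁ ≤ L₁ ⊔ L₂) hx
      have := hagree x hx'
      rw [hτ, AlgEquiv.mul_apply, ← this]
      exact (σ ^ k).symm_apply_apply x
    intro v
    have hg : g = σ ^ k * τ := by rw [hτ, mul_inv_cancel_left]
    have h3 := h₁ τ hτfix v
    have h4 : ρ g v - ρ (σ ^ k) v = ρ (σ ^ k) (ρ τ v - v) := by
      rw [hg, map_mul, Module.End.mul_apply, map_sub]
    rw [h4]
    exact map_mem_smul_top _ _ h3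
  · set τ : AlgebraicClosure ℚ ≃ₐ[ℚ] AlgebraicClosure ℚ := (σ ^ k)⁻¹ * g with hτ
    have hτfix : ∀ x ∈ L₂, τ x = x := by
      intro x hx
      have hx' : x ∈ (L₁ ⊔ L₂ : IntermediateField ℚ (AlgebraicClosure ℚ)) :=
        (le_sup_right : L₂ ≤ L₁ ⊔ L₂) hx
      have := hagree x hx'
      rw [hτ, AlgEquiv.mul_apply, ← this]
      exact (σ ^ k).symm_apply_apply x
    have hg : g = σ ^ k * τ := by rw [hτ, mul_inv_cancel_left]
    have h3 := h₂ τ hτfix
    have h4 : ((ε g : Oˣ) : O) - ((ε (σ ^ k) : Oˣ) : O) =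
        ((ε (σ ^ k) : Oˣ) : O) * (((ε τ : Oˣ) : O) - 1) := by
      rw [hg, map_mul, Units.val_mul]
      ring
    rw [h4]
    exact Ideal.mul_mem_left _ _ h3

end Galois

end Fermat.Agent.S30.helper3194
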