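import Mathlib
import Fermat.Agent.S30.helper54_Spec2
import Fermat.Agent.S30.helper6350_CycloPkg
import Fermat.Agent.S30.helper3194_QuadClosed
import Fermat.Agent.S30.helper2646_OddLattice

/-!
# S30: the algebraic core (`Stmt_Core2`) from the landed leaves

* `stmt_Cyclo`   : `Stmt_Cyclo`   from `helper6350.exists_cycloPkg`;
* `stmt_QuadAll` : `Stmt_QuadAll` from `helper3194.exists_quadratic_of_genCheb`;
* `stmt_Extract` : `Stmt_Extract` from `helper2646.abstract_core` (complex conjugation; the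
  coefficient ring is not extended);
* `stmt_Core2`   : `Stmt_Core2`.

So the frozen statement S30 is `result_of_core2 hEigen stmt_Core2 hGenCheb`.
-/

set_option autoImplicit false

open Polynomial

namespace Fermat.Agent.S30.helper54

/-- **Leaf CYCLO** (from `helper6350.exists_cycloPkg`). -/
theorem stmt_Cyclo : Stmt_Cyclo := by
  intro p _ 𝒪' _ _ _ _ _ _ hp
  obtain ⟨ε, h1, h2, h3, h4⟩ := Fermat.Agent.S30.helper6350.exists_cycloPkg p 𝒪' hp
  refine ⟨ε, h1, h2, h3, ?_⟩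
  apply Units.ext
  rw [h4, Units.val_neg, Units.val_one]

/-- **Leaf QUAD** (from `helper3194.exists_quadratic_of_genCheb`). -/
theorem stmt_QuadAll : Stmt_QuadAll := by
  intro p _ N _ S hpS 𝒪' _ _ _ _ _ _ _ a hG hcy hE
  obtain ⟨ε, hε⟩ := hcy
  obtain ⟨M, i1, i2, i3, i4, ρ, hnt, hcont, hunr, hfrob⟩ := hE
  refine ⟨M, i1, i2, i3, i4, ρ, ε, hnt, hcont, hunr, hfrob, hε, ?_⟩
  intro g
  obtain ⟨hεc, -, hεf, -⟩ := hε
  refine Fermat.Agent.S30.helper3194.exists_quadratic_of_genCheb hG ρ hcont ε hεc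
    (S ∪ N.primeFactors) a ?_ g
  intro ℓ hℓ hℓT A hA σ hσ
  have hℓS : ℓ ∉ S := fun h => hℓT (Finset.mem_union_left _ h)
  have hℓN : ¬ ℓ ∣ N := fun h =>
    hℓT (Finset.mem_union_right _ (Nat.mem_primeFactors.mpr ⟨hℓ, h, NeZero.ne N⟩))
  have hℓp : ℓ ≠ p := fun h => hℓS (h ▸ hpS)
  rw [hεf ℓ hℓ hℓp A hA σ hσ]
  exact hfrob ℓ hℓ hℓN hℓS A hA σ hσ

/-- **Leaf EXTRACT** (from `helper2646.abstract_core`): the two-dimensional representation over
`𝒪'` itself. -/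
theorem stmt_Extract : Stmt_Extract := by
  intro p _ N _ S hpS 𝒪' _ _ _ _ _ _ _ a hQ
  obtain ⟨M, i1, i2, i3, i4, ρ, ε, hnt, hcont, hunr, hfrob, hε, hquad⟩ := hQ
  obtain ⟨hεc, hεu, hεf, hεo⟩ := hε
  -- a choice of the scalars `t g`
  choose t ht using hquad
  have hrel : ∀ (g : Gal) (m : M), ρ g (ρ g m) - t g • ρ g m + ((ε g : 𝒪'ˣ) : 𝒪') • m = 0 := by
    intro g m
    have h := congrArg (fun f : Module.End 𝒪' M => f m) (ht g)
    simpa using h
  have h2 : (2 : 𝒪') ≠ 0 := two_ne_zero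
  have hεc' : ((ε complexConjugation : 𝒪'ˣ) : 𝒪') = -1 := by
    rw [hεo, Units.val_neg, Units.val_one]
  obtain ⟨V, j1, j2, j3, j4, ρ', hrank, hchar, htriv, hcong⟩ :=
    Fermat.Agent.S30.helper2646.abstract_core h2 ρ t ε complexConjugation hrel
      complexConjugation_mul_self hεc'
  -- the scalar at a Frobenius lift is the prescribed one
  have ht_frob : ∀ ℓ : ℕ, ℓ.Prime → ¬ ℓ ∣ N → ℓ ∉ S →
      ∀ A : ValuationSubring (AlgebraicClosure ℚ), A.LiesOverPrime ℓ →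
        ∀ σ : Gal, A.IsFrobeniusAt σ ℓ → t σ = a ℓ ∧ ((ε σ : 𝒪'ˣ) : 𝒪') = (ℓ : 𝒪') := by
    intro ℓ hℓ hℓN hℓS A hA σ hσ
    have hℓp : ℓ ≠ p := fun h => hℓS (h ▸ hpS)
    have hεσ : ((ε σ : 𝒪'ˣ) : 𝒪') = (ℓ : 𝒪') := hεf ℓ hℓ hℓp A hA σ hσ
    refine ⟨?_, hεσ⟩
    obtain ⟨m, hm⟩ := exists_ne (0 : M)
    have e1 := hrel σ (ρ σ⁻¹ m)
    have e2 := congrArg (fun f : Module.End 𝒪' M => f (ρ σ⁻¹ m)) (hfrob ℓ hℓ hℓN hℓS A hA σ hσ)
    have e3 : ρ σ (ρ σ⁻¹ m) = m := by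
      rw [← Module.End.mul_apply, ← map_mul, mul_inv_cancel, map_one, Module.End.one_apply]
    rw [hεσ, e3] at e1
    simp only [LinearMap.add_apply, LinearMap.sub_apply, Module.End.mul_apply,
      LinearMap.smul_apply, Module.End.one_apply, LinearMap.zero_apply] at e2
    rw [e3] at e2
    have e4 : (t σ - a ℓ) • m = 0 := by
      rw [sub_smul]
      have : t σ • m - a ℓ • m = (ρ σ m - a ℓ • m + (ℓ : 𝒪') • ρ σ⁻¹ m)
          - (ρ σ m - t σ • m + (ℓ : 𝒪') • ρ σ⁻¹ m) := by abel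
      rw [this, e1, e2, sub_zero]
    rcases smul_eq_zero.mp e4 with h | h
    · exact sub_eq_zero.mp h
    · exact absurd h hm
  -- the representation
  let R : GaloisRepAdic 𝒪' :=
    { V := V
      finrank_eq := hrank
      ρ := ρ'
      isAdicContinuous := by
        intro n
        obtain ⟨L₁, hL₁, h₁⟩ := hcont n
        obtain ⟨L₂, hL₂, h₂⟩ := hεc n
        have : FiniteDimensional ℚ (L₁ ⊔ L₂ : IntermediateField ℚ (AlgebraicClosure ℚ)) :=
          IntermediateField.finiteDimensional_sup L₁ L₂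
        refine ⟨L₁ ⊔ L₂, inferInstance, fun σ hσ v => ?_⟩
        exact hcong (IsLocalRing.maximalIdeal 𝒪' ^ n) σ
          (h₁ σ fun x hx => hσ x ((le_sup_left : L₁ ≤ L₁ ⊔ L₂) hx))
          (h₂ σ fun x hx => hσ x ((le_sup_right : L₂ ≤ L₁ ⊔ L₂) hx)) v }
  refine ⟨𝒪', inferInstance, inferInstance, inferInstance, inferInstance, inferInstance,
    inferInstance, Algebra.id 𝒪', inferInstance, ?_, Function.injective_id, R, ?_, ?_⟩
  · show IsLocalHom (RingHom.id 𝒪')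
    infer_instance
  · intro ℓ hℓ hℓN hℓS A hA σ hσ
    obtain ⟨e1, e2⟩ := ht_frob ℓ hℓ hℓN (by simpa using hℓS) A hA σ hσ
    show LinearMap.charpoly (ρ' σ) = _
    rw [hchar σ, e1, e2]
    rfl
  · intro q hq hqN hqp P hP σ hσ
    show ρ' σ = 1
    refine htriv σ (hunr q hq hqN hqp P hP σ hσ) ?_
    rw [hεu q hq hqp P hP σ hσ, Units.val_one]

/-- **The algebraic core of S30.** -/
theorem stmt_Core2 : Stmt_Core2 :=
  core2_of stmt_Cyclo stmt_QuadAll stmt_Extract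

end Fermat.Agent.S30.helper54
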