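import Mathlib
import Fermat.Agent.S30.helper1094_E1
import Fermat.Agent.S30.helper501_Occ
import Fermat.Agent.S30.helper767_TateFin

/-!
# S30: `Stmt_E1` is unconditional

The two hypotheses of `helper1094.stmt_E1_of` are discharged:

* `Stmt_OccTransport` by `helper501.exists_eigenvector_of_faithful` (faithful ring action on a
  lattice + transport of the eigenvector along a map injective modulo `p`);
* `Stmt_TateFin` by `helper767.tateModule_finite_of_finite`.

Hence `stmt_E1 : helper1094.Stmt_E1` (an abstract Jacobian datum gives an eigen-datum).
-/

set_option autoImplicit false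

namespace Fermat.Agent.S30.helper501

/-- **OCC-TRANSPORT** in the exact shape of `helper1094.Stmt_OccTransport`. -/
theorem stmt_OccTransport : Fermat.Agent.S30.helper1094.Stmt_OccTransport := by
  intro p _ Λ _ _ _ R _ _ hfaith T _ _ hT j hsat I t τ hj K _ _ hK χ
  exact exists_eigenvector_of_faithful p hfaith hK χ t τ j hj hT hsat

/-- **TATE-FIN** in the exact shape of `helper1094.Stmt_TateFin`. -/
theorem stmt_TateFin : Fermat.Agent.S30.helper1094.Stmt_TateFin := by
  intro p _ A _ hfin
  exact Fermat.Agent.S30.helper767.tateModule_finite_of_finite A p hfin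

/-- **E1** (geometry-free), unconditional: an abstract Jacobian datum gives an eigen-datum. -/
theorem stmt_E1 : Fermat.Agent.S30.helper1094.Stmt_E1 :=
  Fermat.Agent.S30.helper1094.stmt_E1_of stmt_TateFin stmt_OccTransport

end Fermat.Agent.S30.helper501
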