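import Mathlib
import Fermat.Agent.S30.helper54_CoreGlue
import Fermat.Agent.S30.helper831_Wiring
import Fermat.Agent.S30.helper501_E1
import Fermat.Agent.S30.helper30_Machine
import Fermat.Agent.S30.helper30_LatticeLevel
import Fermat.Agent.S29.helper288_FinTorsion
import Fermat.Agent.S29.helper405_ESFinal
import Fermat.Agent.S31.helper2756_MultMer

/-!
# S30: the final assembly, from the three machine statements that are still in flight

Everything specific to S30 is a theorem on main.  This file closes the frozen statement S30 from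
exactly three statements about `J₀(N)` owned by the shared Kummer machine (S18 / S29 / S31):

* `helper831.Stmt_UMod`   : inertia at `ℓ ∤ N m` acts trivially on `J₀(N)[m]`;
* `helper831.Stmt_ESMod`  : the Eichler–Shimura relation `σ² − T_ℓ σ + ℓ = 0` on `J₀(N)[m]` for
                            every Frobenius lift `σ` at `ℓ ∤ N m`;
* `helper30.Stmt_MultTower`: the analytic Kummer dictionary (`MultSpec`) at the moduli `p ^ k`,
                            compatibly in `k`.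

`Fermat/Agent/S30.lean` is then `result := helper54.s30_of_machine hU hES hM`, or, with `(U)`,
`(ES)` derived from the S18 export by `S29.helper405`, `result := helper54.s30_of_kf0 hKF0 hMult`.
-/

set_option autoImplicit false

namespace Fermat.Agent.S30.helper54

open Polynomial CuspForm ModularCurve

/-- `J₀(N)[p]` is finite (S29 `helper288`, unconditional). -/
theorem stmt_TorsFin : Fermat.Agent.S30.helper1094.Stmt_TorsFin := fun N _ _ hp =>
  Fermat.Agent.S29.helper288.finTorsion N hp.out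

/-- **The frozen statement S30** from the three machine statements `(U)`, `(ES)` (any modulus)
and the analytic Kummer dictionary at the moduli `p ^ k`. -/
theorem s30_of_machine (hU : Fermat.Agent.S30.helper831.Stmt_UMod)
    (hES : Fermat.Agent.S30.helper831.Stmt_ESMod)
    (hM : Fermat.Agent.S30.helper30.Stmt_MultTower) :
    ∀ (p : ℕ) [Fact p.Prime] (N : ℕ) [NeZero N] (S : Finset ℕ)
      (_hpS : p ∈ S) (_hNS : ∀ q : ℕ, q.Prime → q ∣ N → q ∈ S)
      (𝒪' : Type) [CommRing 𝒪'] [IsDomain 𝒪'] [IsDiscreteValuationRing 𝒪']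
      [IsAdicComplete (IsLocalRing.maximalIdeal 𝒪') 𝒪'] [Finite (IsLocalRing.ResidueField 𝒪')]
      [CharZero 𝒪'] (_hp𝒪' : (p : 𝒪') ∈ IsLocalRing.maximalIdeal 𝒪')
      (χ : CuspForm.heckeAlgebra N 2 (↑S : Set ℕ) →+* 𝒪'),
      ∃ (𝒪'' : Type) (_ : CommRing 𝒪'') (_ : IsDomain 𝒪'') (_ : IsDiscreteValuationRing 𝒪'')
        (_ : IsAdicComplete (IsLocalRing.maximalIdeal 𝒪'') 𝒪'')
        (_ : Finite (IsLocalRing.ResidueField 𝒪'')) (_ : CharZero 𝒪'')
        (_ : Algebra 𝒪' 𝒪'') (_ : Module.Finite 𝒪' 𝒪'') (_ : IsLocalHom (algebraMap 𝒪' 𝒪'')),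
      Function.Injective (algebraMap 𝒪' 𝒪'') ∧
      ∃ ρ : GaloisRepAdic 𝒪'',
        (∀ (ℓ : ℕ) (hℓ : ℓ.Prime) (hℓN : ¬ ℓ ∣ N) (hℓS : ℓ ∉ (↑S : Set ℕ)),
          ∀ A : ValuationSubring (AlgebraicClosure ℚ), A.LiesOverPrime ℓ →
            ∀ σ : AlgebraicClosure ℚ ≃ₐ[ℚ] AlgebraicClosure ℚ, A.IsFrobeniusAt σ ℓ →
              LinearMap.charpoly (ρ.ρ σ) =
                X ^ 2 - C (algebraMap 𝒪' 𝒪'' (χ (CuspForm.heckeAlgebra.T hℓ hℓN hℓS))) * X
                  + C ((ℓ : 𝒪''))) ∧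
        (∀ q : ℕ, q.Prime → ¬ q ∣ N → q ≠ p → ρ.IsUnramifiedAt q) :=
  Fermat.Agent.S30.helper831.result_of_ues Fermat.Agent.S30.helper501.stmt_E1 stmt_Core2
    stmt_TorsFin Fermat.Agent.S30.helper30.stmt_FinLevel Fermat.Agent.S30.helper30.stmt_GalHecke
    (Fermat.Agent.S30.helper831.stmt_UPow_of_mod hU)
    (Fermat.Agent.S30.helper831.stmt_ESPow_of_mod hES)
    (Fermat.Agent.S30.helper30.stmt_LatticeLevel_of hM)

/-- **The frozen statement S30 from the two statements that are still in flight**: the S18 export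
(the Kummer field form `Stmt_KF0` at every level `N` and every prime `ℓ ∤ N`) and the analytic
Kummer dictionary `MultSpec` at the moduli `p ^ (k + 1)` (each level with its own `Mult`).
`(U)` and `(ES)` are derived from `KF0` by `S29.helper405` (`stmt_UMod_of_kf0`,
`stmt_ESMod_of_kf0`, with NORMQ on main). -/
theorem s30_of_kf0 (hKF : Fermat.Agent.S29.helper405.Stmt_KF0All)
    (hM : Fermat.Agent.S30.helper30.Stmt_MultSpecPow) :
    ∀ (p : ℕ) [Fact p.Prime] (N : ℕ) [NeZero N] (S : Finset ℕ)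
      (_hpS : p ∈ S) (_hNS : ∀ q : ℕ, q.Prime → q ∣ N → q ∈ S)
      (𝒪' : Type) [CommRing 𝒪'] [IsDomain 𝒪'] [IsDiscreteValuationRing 𝒪']
      [IsAdicComplete (IsLocalRing.maximalIdeal 𝒪') 𝒪'] [Finite (IsLocalRing.ResidueField 𝒪')]
      [CharZero 𝒪'] (_hp𝒪' : (p : 𝒪') ∈ IsLocalRing.maximalIdeal 𝒪')
      (χ : CuspForm.heckeAlgebra N 2 (↑S : Set ℕ) →+* 𝒪'),
      ∃ (𝒪'' : Type) (_ : CommRing 𝒪'') (_ : IsDomain 𝒪'') (_ : IsDiscreteValuationRing 𝒪'')
        (_ : IsAdicComplete (IsLocalRing.maximalIdeal 𝒪'') 𝒪'')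
        (_ : Finite (IsLocalRing.ResidueField 𝒪'')) (_ : CharZero 𝒪'')
        (_ : Algebra 𝒪' 𝒪'') (_ : Module.Finite 𝒪' 𝒪'') (_ : IsLocalHom (algebraMap 𝒪' 𝒪'')),
      Function.Injective (algebraMap 𝒪' 𝒪'') ∧
      ∃ ρ : GaloisRepAdic 𝒪'',
        (∀ (ℓ : ℕ) (hℓ : ℓ.Prime) (hℓN : ¬ ℓ ∣ N) (hℓS : ℓ ∉ (↑S : Set ℕ)),
          ∀ A : ValuationSubring (AlgebraicClosure ℚ), A.LiesOverPrime ℓ →
            ∀ σ : AlgebraicClosure ℚ ≃ₐ[ℚ] AlgebraicClosure ℚ, A.IsFrobeniusAt σ ℓ →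
              LinearMap.charpoly (ρ.ρ σ) =
                X ^ 2 - C (algebraMap 𝒪' 𝒪'' (χ (CuspForm.heckeAlgebra.T hℓ hℓN hℓS))) * X
                  + C ((ℓ : 𝒪''))) ∧
        (∀ q : ℕ, q.Prime → ¬ q ∣ N → q ≠ p → ρ.IsUnramifiedAt q) :=
  Fermat.Agent.S30.helper831.result_of_ues Fermat.Agent.S30.helper501.stmt_E1 stmt_Core2
    stmt_TorsFin Fermat.Agent.S30.helper30.stmt_FinLevel Fermat.Agent.S30.helper30.stmt_GalHecke
    (Fermat.Agent.S30.helper831.stmt_UPow_of_mod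
      (Fermat.Agent.S29.helper405.stmt_UMod_of_kf0 hKF))
    (Fermat.Agent.S30.helper831.stmt_ESPow_of_mod
      (Fermat.Agent.S29.helper405.stmt_ESMod_of_kf0 hKF))
    (Fermat.Agent.S30.helper30.stmt_LatticeLevel_of_multSpec hM)

/-- The analytic Kummer dictionary at the moduli `p ^ (k + 1)` (S31 `helper2756`, unconditional). -/
theorem stmt_MultSpecPow : Fermat.Agent.S30.helper30.Stmt_MultSpecPow := fun N _ p hp k =>
  Fermat.Agent.S31.helper2756.exists_multSpec_all N (pow_ne_zero (k + 1) hp.out.ne_zero)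

/-- **The frozen statement S30 from the S18 export alone**: the Kummer field form `Stmt_KF0` at
every level `N` and every prime `ℓ ∤ N`.  Everything else is a theorem. -/
theorem s30_of_kf0All (hKF : Fermat.Agent.S29.helper405.Stmt_KF0All) :
    ∀ (p : ℕ) [Fact p.Prime] (N : ℕ) [NeZero N] (S : Finset ℕ)
      (_hpS : p ∈ S) (_hNS : ∀ q : ℕ, q.Prime → q ∣ N → q ∈ S)
      (𝒪' : Type) [CommRing 𝒪'] [IsDomain 𝒪'] [IsDiscreteValuationRing 𝒪']
      [IsAdicComplete (IsLocalRing.maximalIdeal 𝒪') 𝒪'] [Finite (IsLocalRing.ResidueField 𝒪')]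
      [CharZero 𝒪'] (_hp𝒪' : (p : 𝒪') ∈ IsLocalRing.maximalIdeal 𝒪')
      (χ : CuspForm.heckeAlgebra N 2 (↑S : Set ℕ) →+* 𝒪'),
      ∃ (𝒪'' : Type) (_ : CommRing 𝒪'') (_ : IsDomain 𝒪'') (_ : IsDiscreteValuationRing 𝒪'')
        (_ : IsAdicComplete (IsLocalRing.maximalIdeal 𝒪'') 𝒪'')
        (_ : Finite (IsLocalRing.ResidueField 𝒪'')) (_ : CharZero 𝒪'')
        (_ : Algebra 𝒪' 𝒪'') (_ : Module.Finite 𝒪' 𝒪'') (_ : IsLocalHom (algebraMap 𝒪' 𝒪'')),
      Function.Injective (algebraMap 𝒪' 𝒪'') ∧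
      ∃ ρ : GaloisRepAdic 𝒪'',
        (∀ (ℓ : ℕ) (hℓ : ℓ.Prime) (hℓN : ¬ ℓ ∣ N) (hℓS : ℓ ∉ (↑S : Set ℕ)),
          ∀ A : ValuationSubring (AlgebraicClosure ℚ), A.LiesOverPrime ℓ →
            ∀ σ : AlgebraicClosure ℚ ≃ₐ[ℚ] AlgebraicClosure ℚ, A.IsFrobeniusAt σ ℓ →
              LinearMap.charpoly (ρ.ρ σ) =
                X ^ 2 - C (algebraMap 𝒪' 𝒪'' (χ (CuspForm.heckeAlgebra.T hℓ hℓN hℓS))) * X
                  + C ((ℓ : 𝒪''))) ∧
        (∀ q : ℕ, q.Prime → ¬ q ∣ N → q ≠ p → ρ.IsUnramifiedAt q) :=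
  s30_of_kf0 hKF stmt_MultSpecPow

end Fermat.Agent.S30.helper54
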