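/-
S30-COFIN (helper2352): the cofinite shift lemma.

For an abelian group `A` whose `p`-torsion `A[p]` is finite there is a constant `c` such that
`p ^ c • a` is the `n`-th term of a Tate sequence for every `a` killed by `p ^ n`.
Consequently level-wise injections `Λ / p ^ m → A[p ^ m]` which are NOT assumed compatible
between levels still give: an endomorphism killing the range of the `n`-th Tate projection
maps `Λ` into `p ^ n • Λ`.
-/
import Mathlib

set_option autoImplicit false

namespace Fermat.Agent.S30.helper2352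

variable {A : Type*} [AddCommGroup A]

/-- A Tate sequence: `y 0 = 0` and `p • y (n+1) = y n`. -/
def IsTateSeq (p : ℕ) (y : ℕ → A) : Prop :=
  y 0 = 0 ∧ ∀ n, p • y (n + 1) = y n

/-- `a` is the start of a coherent sequence of successive `p`-th "roots". -/
def Coherent (p : ℕ) (a : A) : Prop :=
  ∃ x : ℕ → A, x 0 = a ∧ ∀ k, p • x (k + 1) = x k

/-- `a` is divisible by every power of `p`. -/
def InfDiv (p : ℕ) (a : A) : Prop :=
  ∀ k : ℕ, ∃ b : A, p ^ k • b = a

theorem infDiv_zero (p : ℕ) : InfDiv p (0 : A) := fun _ => ⟨0, smul_zero _⟩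

theorem InfDiv.add {p : ℕ} {a b : A} (ha : InfDiv p a) (hb : InfDiv p b) :
    InfDiv p (a + b) := by
  intro k
  obtain ⟨a', ha'⟩ := ha k
  obtain ⟨b', hb'⟩ := hb k
  exact ⟨a' + b', by rw [smul_add, ha', hb']⟩

theorem InfDiv.nsmul {p : ℕ} {a : A} (ha : InfDiv p a) (m : ℕ) : InfDiv p (m • a) := by
  intro k
  obtain ⟨a', ha'⟩ := ha k
  exact ⟨m • a', by rw [smul_comm, ha']⟩

theorem Coherent.pow_smul {p : ℕ} {x : ℕ → A} (hx : ∀ k, p • x (k + 1) = x k) (k : ℕ) :
    p ^ k • x k = x 0 := by
  induction k with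
  | zero => simp
  | succ k ih => rw [pow_succ, mul_smul, hx k, ih]

theorem Coherent.infDiv {p : ℕ} {a : A} (h : Coherent p a) : InfDiv p a := by
  obtain ⟨x, hx0, hx⟩ := h
  intro k
  exact ⟨x k, by rw [Coherent.pow_smul hx k, hx0]⟩

/-- König step: an infinitely divisible element has an infinitely divisible `p`-th root,
provided the `p`-torsion is finite. -/
theorem InfDiv.exists_root {p : ℕ} (hfin : {a : A | p • a = 0}.Finite) {a : A}
    (ha : InfDiv p a) : ∃ b : A, p • b = a ∧ InfDiv p b := by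
  classical
  -- choose `b k` with `p ^ (k+1) • b k = a`
  choose b hb using fun k => ha (k + 1)
  -- the fibre `S = {b | p • b = a}` is finite
  have hS : {x : A | p • x = a}.Finite := by
    have h0 : p • (b 0) = a := by simpa using hb 0
    refine (hfin.image (fun t => b 0 + t)).subset ?_
    intro x hx
    refine ⟨x - b 0, ?_, by simp⟩
    show p • (x - b 0) = 0
    rw [smul_sub, hx, h0, sub_self]
  have hmem : ∀ k, p ^ k • b k ∈ {x : A | p • x = a} := by
    intro k
    show p • (p ^ k • b k) = a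
    rw [← mul_smul, ← pow_succ']
    exact hb k
  have : Finite ↥{x : A | p • x = a} := hS.to_subtype
  obtain ⟨⟨y, hy⟩, hinf⟩ := Finite.exists_infinite_fiber
    (fun k : ℕ => (⟨p ^ k • b k, hmem k⟩ : ↥{x : A | p • x = a}))
  refine ⟨y, hy, ?_⟩
  intro j
  have hinf' : (Set.preimage (fun k : ℕ => (⟨p ^ k • b k, hmem k⟩ : ↥{x : A | p • x = a}))
      {⟨y, hy⟩}).Infinite := Set.infinite_coe_iff.mp hinf
  obtain ⟨k, hk, hjk⟩ := hinf'.exists_gt j
  have hk' : p ^ k • b k = y := by
    have := hk
    simp only [Set.mem_preimage, Set.mem_singleton_iff, Subtype.mk.injEq] at this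
    exact this
  refine ⟨p ^ (k - j) • b k, ?_⟩
  rw [← mul_smul, ← pow_add, Nat.add_sub_cancel' hjk.le, hk']

/-- An infinitely divisible element starts a coherent sequence (finite `p`-torsion). -/
theorem InfDiv.coherent {p : ℕ} (hfin : {a : A | p • a = 0}.Finite) {a : A}
    (ha : InfDiv p a) : Coherent p a := by
  classical
  let next : {b : A // InfDiv p b} → {b : A // InfDiv p b} := fun s =>
    ⟨Classical.choose (InfDiv.exists_root hfin s.2),
      (Classical.choose_spec (InfDiv.exists_root hfin s.2)).2⟩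
  have hnext : ∀ s : {b : A // InfDiv p b}, p • (next s).1 = s.1 := fun s =>
    (Classical.choose_spec (InfDiv.exists_root hfin s.2)).1
  let seq : ℕ → {b : A // InfDiv p b} := fun k => Nat.rec ⟨a, ha⟩ (fun _ s => next s) k
  refine ⟨fun k => (seq k).1, rfl, ?_⟩
  intro k
  exact hnext (seq k)

/-- A coherent element killed by `p ^ n` is the `n`-th term of a Tate sequence. -/
theorem Coherent.exists_tateSeq {p : ℕ} {a : A} (h : Coherent p a) (n : ℕ)
    (ha : p ^ n • a = 0) : ∃ y : ℕ → A, IsTateSeq p y ∧ y n = a := by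
  obtain ⟨x, hx0, hx⟩ := h
  refine ⟨fun m => if m ≤ n then p ^ (n - m) • a else x (m - n), ⟨?_, ?_⟩, ?_⟩
  · simp [ha]
  · intro m
    by_cases h1 : m + 1 ≤ n
    · have h2 : m ≤ n := by omega
      simp only [h1, h2, if_true]
      rw [← mul_smul, ← pow_succ']
      congr 2
      omega
    · by_cases h2 : m ≤ n
      · have h3 : m = n := by omega
        subst h3
        simp only [h1, if_false, le_refl, if_true, Nat.sub_self, pow_zero, one_smul]
        have : m + 1 - m = 1 := by omega
        rw [this, ← hx0]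
        simpa using hx 0
      · simp only [h1, h2, if_false]
        have : m + 1 - n = (m - n) + 1 := by omega
        rw [this]
        exact hx (m - n)
  · simp

/-- The terms of a Tate sequence are coherent. -/
theorem IsTateSeq.coherent {p : ℕ} {y : ℕ → A} (hy : IsTateSeq p y) (n : ℕ) :
    Coherent p (y n) :=
  ⟨fun k => y (n + k), rfl, fun k => hy.2 (n + k)⟩

theorem IsTateSeq.pow_smul {p : ℕ} {y : ℕ → A} (hy : IsTateSeq p y) (n : ℕ) :
    p ^ n • y n = 0 := by
  rw [Coherent.pow_smul hy.2 n, hy.1]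

/-- Uniform bound: there is `c` such that a `p`-torsion element divisible by `p ^ c` is
infinitely divisible. -/
theorem exists_bound {p : ℕ} (hfin : {a : A | p • a = 0}.Finite) :
    ∃ c : ℕ, ∀ a : A, p • a = 0 → (∃ b : A, p ^ c • b = a) → InfDiv p a := by
  classical
  have hk : ∀ a : A, ∃ k : ℕ, (∃ b : A, p ^ k • b = a) → InfDiv p a := by
    intro a
    by_cases h : InfDiv p a
    · exact ⟨0, fun _ => h⟩
    · unfold InfDiv at h
      push Not at h
      obtain ⟨k, hk⟩ := h
      exact ⟨k, fun ⟨b, hb⟩ => absurd hb (hk b)⟩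
  choose k hk using hk
  refine ⟨hfin.toFinset.sup k, ?_⟩
  intro a ha hdiv
  apply hk a
  obtain ⟨b, hb⟩ := hdiv
  have hle : k a ≤ hfin.toFinset.sup k :=
    Finset.le_sup (f := k) (by simpa using ha)
  refine ⟨p ^ (hfin.toFinset.sup k - k a) • b, ?_⟩
  rw [← mul_smul, ← pow_add, Nat.add_sub_cancel' hle, hb]

/-- **Cofinite shift lemma**, divisibility form. -/
theorem exists_shift_infDiv {p : ℕ} (hfin : {a : A | p • a = 0}.Finite) :
    ∃ c : ℕ, ∀ (n : ℕ) (a : A), p ^ n • a = 0 → InfDiv p (p ^ c • a) := by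
  obtain ⟨c, hc⟩ := exists_bound hfin
  refine ⟨c, ?_⟩
  intro n
  induction n with
  | zero =>
    intro a ha
    have : a = 0 := by simpa using ha
    subst this
    rw [smul_zero]
    exact infDiv_zero p
  | succ n ih =>
    intro a ha
    by_cases hnc : n < c
    · -- `p ^ c • a = 0`
      have : p ^ c • a = 0 := by
        have h1 : c = (c - (n + 1)) + (n + 1) := by omega
        rw [h1, pow_add, mul_smul, ha, smul_zero]
      rw [this]
      exact infDiv_zero p
    · have hcn : c ≤ n := by omega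
      -- `b = p ^ n • a` is `p`-torsion and divisible by `p ^ c`
      have hb0 : p • (p ^ n • a) = 0 := by
        rw [← mul_smul, ← pow_succ']
        exact ha
      have hbdiv : ∃ b : A, p ^ c • b = p ^ n • a :=
        ⟨p ^ (n - c) • a, by rw [← mul_smul, ← pow_add, Nat.add_sub_cancel' hcn]⟩
      have hbinf : InfDiv p (p ^ n • a) := hc _ hb0 hbdiv
      obtain ⟨x, hx0, hx⟩ := hbinf.coherent hfin
      -- `d = x n` satisfies `p ^ n • d = p ^ n • a` and is infinitely divisible
      have hd : p ^ n • x n = p ^ n • a := by rw [Coherent.pow_smul hx n, hx0]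
      have hdinf : InfDiv p (x n) :=
        Coherent.infDiv ⟨fun k => x (n + k), rfl, fun k => hx (n + k)⟩
      have hsub : p ^ n • (a - x n) = 0 := by rw [smul_sub, hd, sub_self]
      have h1 : InfDiv p (p ^ c • (a - x n)) := ih _ hsub
      have h2 : InfDiv p (p ^ c • x n) := hdinf.nsmul _
      have : p ^ c • a = p ^ c • (a - x n) + p ^ c • x n := by
        rw [← smul_add, sub_add_cancel]
      rw [this]
      exact h1.add h2

/-- **Cofinite shift lemma** (C1): if the `p`-torsion of `A` is finite there is `c` such that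
for every `a` killed by `p ^ n` the element `p ^ c • a` is the `n`-th term of a Tate
sequence. -/
theorem exists_shift {p : ℕ} (hfin : {a : A | p • a = 0}.Finite) :
    ∃ c : ℕ, ∀ (n : ℕ) (a : A), p ^ n • a = 0 →
      ∃ y : ℕ → A, IsTateSeq p y ∧ y n = p ^ c • a := by
  obtain ⟨c, hc⟩ := exists_shift_infDiv hfin
  refine ⟨c, fun n a ha => ?_⟩
  refine ((hc n a ha).coherent hfin).exists_tateSeq n ?_
  rw [smul_comm, ha, smul_zero]

section Lattice

variable {Λ : Type*} [AddCommGroup Λ]

/-- (C3) Re-indexed level maps: from NON-compatible level-wise maps `ι m : Λ →+ A` with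
`p ^ m • ι m x = 0` and kernel inside `p ^ m • Λ` one gets `c` such that
`j n := p ^ c • ι (n + c)` takes values among the `n`-th terms of Tate sequences and still
has kernel inside `p ^ n • Λ`. -/
theorem exists_shift_maps {p : ℕ} (hfin : {a : A | p • a = 0}.Finite)
    (htf : ∀ (k : ℕ) (x : Λ), p ^ k • x = 0 → x = 0)
    (ι : ℕ → Λ →+ A) (hι : ∀ m x, p ^ m • ι m x = 0)
    (hker : ∀ m x, ι m x = 0 → ∃ z : Λ, x = p ^ m • z) :
    ∃ c : ℕ, (∀ n x, ∃ y : ℕ → A, IsTateSeq p y ∧ y n = p ^ c • ι (n + c) x) ∧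
      (∀ n x, p ^ c • ι (n + c) x = 0 → ∃ z : Λ, x = p ^ n • z) := by
  obtain ⟨c, hc⟩ := exists_shift_infDiv hfin
  refine ⟨c, ?_, ?_⟩
  · intro n x
    refine ((hc (n + c) _ (hι (n + c) x)).coherent hfin).exists_tateSeq n ?_
    rw [← mul_smul, ← pow_add]
    exact hι (n + c) x
  · intro n x hx
    rw [← map_nsmul] at hx
    obtain ⟨z, hz⟩ := hker (n + c) _ hx
    refine ⟨z, ?_⟩
    have : p ^ c • (x - p ^ n • z) = 0 := by
      rw [smul_sub, hz, ← mul_smul, ← pow_add, add_comm c n, sub_self]
    exact sub_eq_zero.mp (htf c _ this)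

/-- (C2) **Consumer form** (no constant visible): level-wise maps `ι m : Λ →+ A[p ^ m]` with
kernel inside `p ^ m • Λ`, NOT assumed compatible between levels.  If `f : A →+ A` and
`g : Λ →+ Λ` are intertwined by every `ι m` and `f` kills the `n`-th term of every Tate
sequence (i.e. the range of the `n`-th Tate projection), then `g` maps `Λ` into `p ^ n • Λ`. -/
theorem map_mem_of_kills_tateSeq {p : ℕ} (hfin : {a : A | p • a = 0}.Finite)
    (htf : ∀ (k : ℕ) (x : Λ), p ^ k • x = 0 → x = 0)
    (ι : ℕ → Λ →+ A) (hι : ∀ m x, p ^ m • ι m x = 0)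
    (hker : ∀ m x, ι m x = 0 → ∃ z : Λ, x = p ^ m • z)
    (n : ℕ) (f : A →+ A) (g : Λ →+ Λ) (hfg : ∀ m x, ι m (g x) = f (ι m x))
    (hf : ∀ y : ℕ → A, IsTateSeq p y → f (y n) = 0) (x : Λ) :
    ∃ z : Λ, g x = p ^ n • z := by
  obtain ⟨c, hc1, hc2⟩ := exists_shift_maps hfin htf ι hι hker
  apply hc2 n (g x)
  obtain ⟨y, hy, hyn⟩ := hc1 n x
  rw [hfg, ← map_nsmul, ← hyn]
  exact hf y hy

end Lattice

end Fermat.Agent.S30.helper2352
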