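import Mathlib

/-!
# S30-QUAD: closedness of the quadratic condition (geometry-free leaf of S30-CORE)

Mathlib-only.  Content:

* `lucas_pow` (Q1): if `f * f - a • f + e • 1 = 0` in an `R`-algebra, then every power `f ^ k`
  satisfies a quadratic relation with constant term `e ^ k`.
* `matrix_quadratic_of_forall_dvd`, `end_quadratic_of_forall_mem` (Q2): an invertible endomorphism
  `X` of a finite free module over a `π`-adically separated ring which satisfies
  `X * X - t_n • X + e • 1 ≡ 0 mod π ^ n` for every `n` (with `t_n` depending on `n`) satisfies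
  an exact relation `X * X - t • X + e • 1 = 0`.  No compactness, no completeness.
* `exists_quadratic_of_generator_approx` (Q3): the group form in *generator* shape: if every
  `g` agrees modulo `π ^ n` with a power `h ^ k` of an element `h` satisfying an exact quadratic
  relation with constant term `eps h` (and `eps g ≡ eps h ^ k`), then every `g` satisfies an exact
  quadratic relation with constant term `eps g`.
* `exists_quadratic_of_dense` (Q3'): the same in exact-element shape (`k = 1`).
* `restrict_congr_of_saturated` (Q4): congruences modulo `π ^ n` restrict to saturated stable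
  submodules.
* `forall_pow_dvd_imp_eq_zero_of_mem_maximalIdeal`: the separatedness hypothesis for a noetherian
  local ring and `π` in its maximal ideal.
-/

namespace Fermat.Agent.S30.helper3186

section Lucas

variable {R A : Type*} [CommRing R] [Ring A] [Algebra R A]

/-- (Q1) **Lucas step**: a quadratic relation for `f` gives one for every power of `f`,
with constant term the corresponding power. -/
theorem lucas_pow (f : A) (a e : R) (h : f * f - a • f + e • (1 : A) = 0) (k : ℕ) :
    ∃ s : R, f ^ k * f ^ k - s • f ^ k + e ^ k • (1 : A) = 0 := by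
  set g : A := a • (1 : A) - f with hg
  have hrel : a • f - f * f = e • (1 : A) := by
    calc a • f - f * f = a • f - f * f + (f * f - a • f + e • (1 : A)) := by rw [h, add_zero]
      _ = e • (1 : A) := by abel
  have hfg : f * g = e • (1 : A) := by
    rw [hg, mul_sub, mul_smul_comm, mul_one, hrel]
  have hgf : g * f = e • (1 : A) := by
    rw [hg, sub_mul, smul_mul_assoc, one_mul, hrel]
  have hc : Commute g f := by
    show g * f = f * g
    rw [hfg, hgf]
  have hsum : f + g = a • (1 : A) := by rw [hg]; abel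
  -- the power sums are scalars
  have key : ∀ k : ℕ, (∃ s : R, f ^ k + g ^ k = s • (1 : A)) ∧
      (∃ s : R, f ^ (k + 1) + g ^ (k + 1) = s • (1 : A)) := by
    intro k
    induction k with
    | zero =>
      refine ⟨⟨2, ?_⟩, ⟨a, ?_⟩⟩
      · rw [pow_zero, pow_zero, two_smul]
      · rw [zero_add, pow_one, pow_one, hsum]
    | succ k ih =>
      obtain ⟨⟨s0, hs0⟩, ⟨s1, hs1⟩⟩ := ih
      refine ⟨⟨s1, hs1⟩, ⟨a * s1 - e * s0, ?_⟩⟩
      have e1 : f * g ^ (k + 1) = e • g ^ k := by
        rw [pow_succ', ← mul_assoc, hfg, smul_mul_assoc, one_mul]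
      have e2 : g * f ^ (k + 1) = e • f ^ k := by
        rw [pow_succ', ← mul_assoc, hgf, smul_mul_assoc, one_mul]
      have e3 : f ^ (k + 1 + 1) + g ^ (k + 1 + 1)
          = (f + g) * (f ^ (k + 1) + g ^ (k + 1)) - (f * g ^ (k + 1) + g * f ^ (k + 1)) := by
        rw [pow_succ' f (k + 1), pow_succ' g (k + 1), add_mul, mul_add, mul_add]
        abel
      rw [e3, hsum, hs1, e1, e2, ← smul_add, add_comm (g ^ k) (f ^ k), hs0, smul_mul_assoc,
        one_mul, smul_smul, smul_smul, ← sub_smul]
  obtain ⟨s, hs⟩ := (key k).1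
  refine ⟨s, ?_⟩
  have hprod : g ^ k * f ^ k = e ^ k • (1 : A) := by
    rw [← hc.mul_pow, hgf, smul_pow, one_pow]
  have hs' : s • f ^ k = f ^ k * f ^ k + g ^ k * f ^ k := by
    rw [← add_mul, hs, smul_mul_assoc, one_mul]
  rw [hs', hprod]
  abel

/-- Shifting a quadratic relation: if `Y` satisfies a quadratic relation, then `Y + D` satisfies
it up to terms containing `D` and the difference of the constant terms. -/
theorem quadratic_shift (Y D : A) (s e e' : R) (hs : Y * Y - s • Y + e' • (1 : A) = 0) :
    (Y + D) * (Y + D) - s • (Y + D) + e • (1 : A)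
      = Y * D + D * Y + D * D - s • D + (e - e') • (1 : A) := by
  have h1 : (Y + D) * (Y + D) - s • (Y + D) + e • (1 : A)
      = (Y * Y - s • Y + e' • (1 : A))
        + (Y * D + D * Y + D * D - s • D + (e - e') • (1 : A)) := by
    simp only [mul_add, add_mul, smul_add, sub_smul]
    abel
  rw [h1, hs, zero_add]

end Lucas

section Closed

variable {O : Type*} [CommRing O]

/-- (Q2), matrix form.  `hsep` is `π`-adic separatedness of `O`. -/
theorem matrix_quadratic_of_forall_dvd (π : O)
    (hsep : ∀ x : O, (∀ n : ℕ, π ^ n ∣ x) → x = 0)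
    {ι : Type*} [Fintype ι] [DecidableEq ι] [Nonempty ι]
    (X : Matrix ι ι O) (hX : IsUnit X) (e : O)
    (h : ∀ n : ℕ, ∃ t : O, ∀ i j, π ^ n ∣ (X * X - t • X + e • (1 : Matrix ι ι O)) i j) :
    ∃ t : O, X * X - t • X + e • (1 : Matrix ι ι O) = 0 := by
  set Y : Matrix ι ι O := X * X + e • (1 : Matrix ι ι O) with hY
  have hentry : ∀ (t : O) (i j : ι),
      (X * X - t • X + e • (1 : Matrix ι ι O)) i j = Y i j - t * X i j := by
    intro t i j
    simp only [hY, Matrix.add_apply, Matrix.sub_apply, Matrix.smul_apply, smul_eq_mul]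
    ring
  -- all `2 × 2` minors of the pair `(X, Y)` vanish
  have hminor : ∀ i j k l, X i j * Y k l = X k l * Y i j := by
    intro i j k l
    have h0 : X i j * Y k l - X k l * Y i j = 0 := by
      apply hsep
      intro n
      obtain ⟨t, ht⟩ := h n
      obtain ⟨z1, hz1⟩ := ht k l
      obtain ⟨z2, hz2⟩ := ht i j
      rw [hentry] at hz1 hz2
      refine ⟨X i j * z1 - X k l * z2, ?_⟩
      linear_combination X i j * hz1 - X k l * hz2
    exact sub_eq_zero.mp h0
  obtain ⟨u, rfl⟩ := hX
  set X' : Matrix ι ι O := ((u⁻¹ : (Matrix ι ι O)ˣ) : Matrix ι ι O) with hX'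
  have hXX' : (u : Matrix ι ι O) * X' = 1 := by rw [hX']; exact Units.mul_inv u
  obtain ⟨a0⟩ := ‹Nonempty ι›
  refine ⟨(Y * X') a0 a0, ?_⟩
  have hYX : ∀ i j, Y i j = (Y * X') a0 a0 * (u : Matrix ι ι O) i j := by
    intro i j
    have h1 : (u : Matrix ι ι O) i j * (Y * X') a0 a0
        = Y i j * ((u : Matrix ι ι O) * X') a0 a0 := by
      rw [Matrix.mul_apply, Matrix.mul_apply, Finset.mul_sum, Finset.mul_sum]
      refine Finset.sum_congr rfl fun c _ => ?_
      have := hminor i j a0 c
      linear_combination X' c a0 * this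
    rw [hXX', Matrix.one_apply_eq, mul_one] at h1
    rw [← h1, mul_comm]
  ext i j
  rw [hentry, hYX i j, sub_self, Matrix.zero_apply]

variable {L : Type*} [AddCommGroup L] [Module O L]

/-- (Q2), endomorphism form: an invertible endomorphism `X` of a nonzero finite free module over
a `π`-adically separated ring that satisfies, for every `n`, a quadratic relation modulo `π ^ n`
with constant term `e`, satisfies an exact quadratic relation with constant term `e`. -/
theorem end_quadratic_of_forall_mem [Module.Free O L] [Module.Finite O L] [Nontrivial L] (π : O)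
    (hsep : ∀ x : O, (∀ n : ℕ, π ^ n ∣ x) → x = 0)
    (X : Module.End O L) (hX : IsUnit X) (e : O)
    (h : ∀ n : ℕ, ∃ t : O, ∀ x : L, ∃ y : L,
      (X * X - t • X + e • (1 : Module.End O L)) x = π ^ n • y) :
    ∃ t : O, X * X - t • X + e • (1 : Module.End O L) = 0 := by
  classical
  let b := Module.Free.chooseBasis O L
  let φ := LinearMap.toMatrixAlgEquiv b
  have hφ : ∀ t : O, φ (X * X - t • X + e • (1 : Module.End O L))
      = φ X * φ X - t • φ X + e • (1 : Matrix _ _ O) := by
    intro t
    simp only [map_add, map_sub, map_mul, map_smul, map_one]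
  obtain ⟨t, ht⟩ := matrix_quadratic_of_forall_dvd π hsep (φ X) (hX.map φ) e (by
    intro n
    obtain ⟨t, ht⟩ := h n
    refine ⟨t, fun i j => ?_⟩
    rw [← hφ t, LinearMap.toMatrixAlgEquiv_apply]
    obtain ⟨y, hy⟩ := ht (b j)
    rw [hy, map_smul, Finsupp.smul_apply, smul_eq_mul]
    exact Dvd.intro _ rfl)
  refine ⟨t, ?_⟩
  apply φ.injective
  rw [hφ t, ht, map_zero]

end Closed

section Group

variable {O L G : Type*} [CommRing O] [AddCommGroup L] [Module O L] [Group G]

/-- (Q3) **Group form, generator shape.**  Suppose that for every level `n` and every `g : G`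
there are `h : G`, `k : ℕ` such that `ρ h` satisfies an exact quadratic relation with constant
term `eps h`, `ρ g ≡ ρ h ^ k` modulo `π ^ n` and `eps g ≡ eps h ^ k` modulo `π ^ n`
(this is what a Chebotarev theorem in generator form provides, `h` being a Frobenius lift).
Then every `ρ g` satisfies an exact quadratic relation with constant term `eps g`. -/
theorem exists_quadratic_of_generator_approx [Module.Free O L] [Module.Finite O L] [Nontrivial L]
    (π : O) (hsep : ∀ x : O, (∀ n : ℕ, π ^ n ∣ x) → x = 0)
    (ρ : G →* Module.End O L) (eps : G → O)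
    (hgen : ∀ (n : ℕ) (g : G), ∃ (h : G) (k : ℕ) (a : O),
      ρ h * ρ h - a • ρ h + eps h • (1 : Module.End O L) = 0 ∧
      (∀ x : L, ∃ y : L, (ρ g - ρ h ^ k) x = π ^ n • y) ∧ π ^ n ∣ eps g - eps h ^ k)
    (g : G) : ∃ t : O, ρ g * ρ g - t • ρ g + eps g • (1 : Module.End O L) = 0 := by
  refine end_quadratic_of_forall_mem π hsep (ρ g) ((Group.isUnit g).map ρ) (eps g) ?_
  intro n
  obtain ⟨h, k, a, hrel, hcong, c, hc⟩ := hgen n g
  obtain ⟨s, hs⟩ := lucas_pow (ρ h) a (eps h) hrel k
  refine ⟨s, fun x => ?_⟩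
  have hsplit : ρ g = ρ h ^ k + (ρ g - ρ h ^ k) := by abel
  have hq := quadratic_shift (ρ h ^ k) (ρ g - ρ h ^ k) s (eps g) (eps h ^ k) hs
  rw [← hsplit] at hq
  rw [hq, hc]
  generalize ρ g - ρ h ^ k = D at hcong ⊢
  obtain ⟨y1, hy1⟩ := hcong x
  obtain ⟨y2, hy2⟩ := hcong ((ρ h ^ k) x)
  obtain ⟨y3, hy3⟩ := hcong (D x)
  refine ⟨(ρ h ^ k) y1 + y2 + y3 - s • y1 + c • x, ?_⟩
  simp only [LinearMap.add_apply, LinearMap.sub_apply, LinearMap.smul_apply,
    Module.End.mul_apply, Module.End.one_apply]
  rw [hy3, hy2, hy1, map_smul]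
  simp only [smul_add, smul_sub, smul_smul, mul_comm]

/-- (Q3') Group form, exact-element shape (`k = 1`): a set of elements with exact quadratic
relations that is dense at every level forces an exact quadratic relation for every element. -/
theorem exists_quadratic_of_dense [Module.Free O L] [Module.Finite O L] [Nontrivial L]
    (π : O) (hsep : ∀ x : O, (∀ n : ℕ, π ^ n ∣ x) → x = 0)
    (ρ : G →* Module.End O L) (eps : G → O)
    (hden : ∀ (n : ℕ) (g : G), ∃ (h : G) (a : O),
      ρ h * ρ h - a • ρ h + eps h • (1 : Module.End O L) = 0 ∧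
      (∀ x : L, ∃ y : L, (ρ g - ρ h) x = π ^ n • y) ∧ π ^ n ∣ eps g - eps h)
    (g : G) : ∃ t : O, ρ g * ρ g - t • ρ g + eps g • (1 : Module.End O L) = 0 := by
  refine exists_quadratic_of_generator_approx π hsep ρ eps ?_ g
  intro n g
  obtain ⟨h, a, hrel, hcong, heps⟩ := hden n g
  exact ⟨h, 1, a, hrel, by simpa using hcong, by simpa using heps⟩

end Group

section Saturated

variable {O M : Type*} [CommRing O] [AddCommGroup M] [Module O M]

/-- In a `π`-saturated submodule, `π ^ n • y ∈ L'` implies `y ∈ L'`. -/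
theorem mem_of_pow_smul_mem (π : O) (L' : Submodule O M)
    (hsat : ∀ y : M, π • y ∈ L' → y ∈ L') (n : ℕ) (y : M) (hy : π ^ n • y ∈ L') : y ∈ L' := by
  induction n generalizing y with
  | zero => simpa using hy
  | succ n ih =>
    apply hsat
    apply ih
    rwa [smul_smul, ← pow_succ]

/-- (Q4) **Saturated restriction**: a congruence `f ≡ 0` modulo `π ^ n` on `M` restricts to a
congruence on every `π`-saturated `f`-stable submodule. -/
theorem restrict_congr_of_saturated (π : O) (L' : Submodule O M)
    (hsat : ∀ y : M, π • y ∈ L' → y ∈ L') (f : M →ₗ[O] M) (hf : ∀ x ∈ L', f x ∈ L') (n : ℕ)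
    (hcong : ∀ x : M, ∃ y : M, f x = π ^ n • y) (x : L') :
    ∃ y : L', f.restrict hf x = π ^ n • y := by
  obtain ⟨y, hy⟩ := hcong x
  have hyL : y ∈ L' := by
    apply mem_of_pow_smul_mem π L' hsat n
    rw [← hy]
    exact hf x x.2
  refine ⟨⟨y, hyL⟩, ?_⟩
  apply Subtype.ext
  rw [LinearMap.coe_restrict_apply, hy]
  rfl

end Saturated

section Separated

/-- The separatedness hypothesis of (Q2)/(Q3) holds in a noetherian local ring for every `π`
in the maximal ideal (e.g. `π = p` in a complete DVR of residue characteristic `p`). -/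
theorem forall_pow_dvd_imp_eq_zero_of_mem_maximalIdeal {O : Type*} [CommRing O]
    [IsNoetherianRing O] [IsLocalRing O] (π : O) (hπ : π ∈ IsLocalRing.maximalIdeal O)
    (x : O) (hx : ∀ n : ℕ, π ^ n ∣ x) : x = 0 := by
  have hbot := Ideal.iInf_pow_eq_bot_of_isLocalRing (IsLocalRing.maximalIdeal O)
    Ideal.IsPrime.ne_top'
  have hmem : x ∈ ⨅ i : ℕ, IsLocalRing.maximalIdeal O ^ i := by
    rw [Ideal.mem_iInf]
    intro n
    obtain ⟨c, rfl⟩ := hx n
    exact Ideal.mul_mem_right _ _ (Ideal.pow_mem_pow hπ n)
  rw [hbot] at hmem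
  exact hmem

end Separated

end Fermat.Agent.S30.helper3186
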