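/-
S30 leaf S30-SATLAT (board #1030, route #2276(2)): the SATURATED LATTICE cut out of a finite free
module `M` over a principal ideal domain `O` (e.g. a discrete valuation ring) by a subspace `W`
of a scalar extension `V = L ⊗[O] M`, where `L` is ANY field containing `O`
(e.g. the fraction field, or an algebraic closure of it).

The scalar extension is given abstractly: `V` is an `L`-vector space with an `O`-linear map
`ι : M →ₗ[O] V` such that `IsBaseChange L ι` (e.g. `V = L ⊗[O] M`, `ι = TensorProduct.mk O L M 1`,
`TensorProduct.isBaseChange O M L`).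

Main results (namespace `Fermat.Agent.S30.helper3212`):

* `satLattice ι W : Submodule O M`          -- `{m | ι m ∈ W}`
* `satLattice_saturated`                    -- `a ≠ 0 → a • m ∈ Λ → m ∈ Λ`
* instances `Module.Free`, `Module.Finite`  -- found by Mathlib (submodule of a finite free module
                                               over a PID)
* `map_mem_satLattice`, `satRep`            -- stability under endomorphisms preserving `W`, and the
                                               restricted representation `G →* Module.End O Λ`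
* `satEquiv`                                -- `L ⊗[O] Λ ≃ₗ[L] W` when `W` is spanned by `ι Λ`
* `finrank_satLattice`                      -- `finrank O Λ = finrank L W`
* `charpoly_restrict_satLattice`, `charpoly_satRep`
                                            -- charpoly of `ρΛ g` maps to the charpoly of `ρ g` on `W`
* `restrict_sub_mem_smul_top`               -- `(f - 1) M ⊆ I M → (f - 1) Λ ⊆ I Λ` (adic continuity)
* `satRep_eq_one`                           -- `ρ g = 1 → ρΛ g = 1` (unramifiedness)

Mathlib only.
-/
import Mathlib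

set_option autoImplicit false

open scoped TensorProduct

namespace Fermat.Agent.S30.helper3212

section Core

variable {O : Type*} [CommRing O]
variable {L : Type*} [Field L] [Algebra O L]
variable {M : Type*} [AddCommGroup M] [Module O M]
variable {V : Type*} [AddCommGroup V] [Module L V] [Module O V] [IsScalarTower O L V]

/-- The lattice cut out in `M` by an `L`-subspace `W` of `V`: all `m` with `ι m ∈ W`. -/
def satLattice (ι : M →ₗ[O] V) (W : Submodule L V) : Submodule O M :=
  (W.restrictScalars O).comap ι

theorem mem_satLattice {ι : M →ₗ[O] V} {W : Submodule L V} {m : M} :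
    m ∈ satLattice ι W ↔ ι m ∈ W := Iff.rfl

/-- `satLattice ι W` is saturated in `M`. -/
theorem satLattice_saturated [FaithfulSMul O L] (ι : M →ₗ[O] V) (W : Submodule L V) {a : O}
    (ha : a ≠ 0) {m : M} (h : a • m ∈ satLattice ι W) : m ∈ satLattice ι W := by
  rw [mem_satLattice] at h ⊢
  have h1 : ι (a • m) = (algebraMap O L a) • ι m := by
    rw [map_smul, algebraMap_smul]
  rw [h1] at h
  have ha' : algebraMap O L a ≠ 0 := by
    rwa [Ne, FaithfulSMul.algebraMap_eq_zero_iff]
  exact (Submodule.smul_mem_iff _ ha').mp h

/-- An endomorphism `f` of `M` whose scalar extension `F` preserves `W` preserves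
`satLattice ι W`. -/
theorem map_mem_satLattice (ι : M →ₗ[O] V) (W : Submodule L V) (f : M →ₗ[O] M) (F : V →ₗ[L] V)
    (hfF : ∀ m, F (ι m) = ι (f m)) (hF : ∀ w ∈ W, F w ∈ W) {m : M} (hm : m ∈ satLattice ι W) :
    f m ∈ satLattice ι W := by
  rw [mem_satLattice] at hm ⊢
  rw [← hfF]
  exact hF _ hm

/-- The representation on the saturated lattice obtained by restricting a representation `ρ` on
`M` whose scalar extension `ρL` preserves `W`. -/
def satRep {G : Type*} [Monoid G] (ι : M →ₗ[O] V) (W : Submodule L V)
    (ρ : G →* Module.End O M) (ρL : G → Module.End L V)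
    (hρ : ∀ g m, ρL g (ι m) = ι (ρ g m)) (hW : ∀ g, ∀ w ∈ W, ρL g w ∈ W) :
    G →* Module.End O (satLattice ι W) where
  toFun g := (ρ g).restrict (fun _ hm => map_mem_satLattice ι W (ρ g) (ρL g) (hρ g) (hW g) hm)
  map_one' := by
    ext x
    simp
  map_mul' g h := by
    ext x
    simp

@[simp]
theorem satRep_apply_coe {G : Type*} [Monoid G] (ι : M →ₗ[O] V) (W : Submodule L V)
    (ρ : G →* Module.End O M) (ρL : G → Module.End L V)
    (hρ : ∀ g m, ρL g (ι m) = ι (ρ g m)) (hW : ∀ g, ∀ w ∈ W, ρL g w ∈ W) (g : G)
    (x : satLattice ι W) : ((satRep ι W ρ ρL hρ hW g x : satLattice ι W) : M) = ρ g x := rfl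

/-- Unramifiedness passes to the lattice: if `ρ g = 1` then `ρΛ g = 1`. -/
theorem satRep_eq_one {G : Type*} [Monoid G] (ι : M →ₗ[O] V) (W : Submodule L V)
    (ρ : G →* Module.End O M) (ρL : G → Module.End L V)
    (hρ : ∀ g m, ρL g (ι m) = ι (ρ g m)) (hW : ∀ g, ∀ w ∈ W, ρL g w ∈ W) {g : G}
    (hg : ρ g = 1) : satRep ι W ρ ρL hρ hW g = 1 := by
  ext x
  simp [hg]

/-- Adic continuity passes to the lattice (this uses saturation): if `f - 1` maps `M` into `I M`
then the restriction of `f - 1` maps `Λ` into `I Λ`. -/
theorem restrict_sub_mem_smul_top [IsPrincipalIdealRing O] [FaithfulSMul O L] (ι : M →ₗ[O] V)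
    (W : Submodule L V) (I : Ideal O) (f : M →ₗ[O] M)
    (hf : ∀ m ∈ satLattice ι W, f m ∈ satLattice ι W)
    (h : ∀ m : M, f m - m ∈ I • (⊤ : Submodule O M)) (x : satLattice ι W) :
    f.restrict hf x - x ∈ I • (⊤ : Submodule O (satLattice ι W)) := by
  obtain ⟨a, rfl⟩ : ∃ a, I = Ideal.span {a} := (IsPrincipalIdealRing.principal I).principal
  have hx := h x
  rw [Submodule.ideal_span_singleton_smul] at hx ⊢
  obtain ⟨m, -, hm⟩ := hx
  by_cases ha : a = 0
  · subst ha
    have h0 : f.restrict hf x - x = 0 := by
      apply Subtype.ext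
      simpa using hm.symm
    rw [h0]
    exact Submodule.zero_mem _
  · have hmΛ : m ∈ satLattice ι W := by
      refine satLattice_saturated ι W ha ?_
      have : a • m = f x - x := hm
      rw [this]
      exact sub_mem (hf x x.2) x.2
    refine ⟨⟨m, hmΛ⟩, Submodule.mem_top, Subtype.ext ?_⟩
    simpa using hm

/-- Representation form of `restrict_sub_mem_smul_top`. -/
theorem satRep_sub_mem_smul_top [IsPrincipalIdealRing O] [FaithfulSMul O L] {G : Type*} [Monoid G]
    (ι : M →ₗ[O] V) (W : Submodule L V)
    (ρ : G →* Module.End O M) (ρL : G → Module.End L V)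
    (hρ : ∀ g m, ρL g (ι m) = ι (ρ g m)) (hW : ∀ g, ∀ w ∈ W, ρL g w ∈ W) (I : Ideal O) {g : G}
    (h : ∀ m : M, ρ g m - m ∈ I • (⊤ : Submodule O M)) (x : satLattice ι W) :
    satRep ι W ρ ρL hρ hW g x - x ∈ I • (⊤ : Submodule O (satLattice ι W)) :=
  restrict_sub_mem_smul_top ι W I (ρ g)
    (fun _ hm => map_mem_satLattice ι W (ρ g) (ρL g) (hρ g) (hW g) hm) h x

end Core

section Rank

variable {O : Type*} [CommRing O] [IsDomain O] [IsPrincipalIdealRing O]
variable {L : Type*} [Field L] [Algebra O L] [FaithfulSMul O L]
variable {M : Type*} [AddCommGroup M] [Module O M] [Module.Free O M] [Module.Finite O M]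
variable {V : Type*} [AddCommGroup V] [Module L V] [Module O V] [IsScalarTower O L V]
variable {ι : M →ₗ[O] V}

/-- The natural `L`-linear map `L ⊗[O] Λ → V`, `c ⊗ λ ↦ c • ι λ`. -/
noncomputable def satIncl (hι : IsBaseChange L ι) (W : Submodule L V) :
    L ⊗[O] (satLattice ι W) →ₗ[L] V :=
  hι.equiv.toLinearMap ∘ₗ (satLattice ι W).subtype.baseChange L

omit [IsDomain O] [IsPrincipalIdealRing O] [FaithfulSMul O L] [Module.Free O M]
  [Module.Finite O M] in
@[simp]
theorem satIncl_tmul (hι : IsBaseChange L ι) (W : Submodule L V) (c : L) (x : satLattice ι W) :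
    satIncl hι W (c ⊗ₜ[O] x) = c • ι (x : M) := by
  simp [satIncl, IsBaseChange.equiv_tmul]

omit [Module.Free O M] [Module.Finite O M] in
theorem satIncl_injective (hι : IsBaseChange L ι) (W : Submodule L V) :
    Function.Injective (satIncl hι W) := by
  have h : Function.Injective ((satLattice ι W).subtype.lTensor L) :=
    Module.Flat.lTensor_preserves_injective_linearMap _ (Submodule.injective_subtype _)
  have h' : Function.Injective ((satLattice ι W).subtype.baseChange L) := by
    intro x y hxy
    apply h
    simpa [LinearMap.baseChange_eq_ltensor] using hxy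
  exact hι.equiv.injective.comp h'

omit [IsDomain O] [IsPrincipalIdealRing O] [FaithfulSMul O L] [Module.Free O M]
  [Module.Finite O M] in
theorem range_satIncl_le (hι : IsBaseChange L ι) (W : Submodule L V) :
    LinearMap.range (satIncl hι W) ≤ W := by
  rintro _ ⟨x, rfl⟩
  induction x using TensorProduct.induction_on with
  | zero => simp
  | tmul c m =>
    rw [satIncl_tmul]
    exact W.smul_mem c m.2
  | add x y hx hy =>
    rw [map_add]
    exact W.add_mem hx hy

omit [IsDomain O] [IsPrincipalIdealRing O] [FaithfulSMul O L] [Module.Free O M]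
  [Module.Finite O M] in
theorem span_le_range_satIncl (hι : IsBaseChange L ι) (W : Submodule L V) :
    Submodule.span L (ι '' (satLattice ι W : Set M)) ≤ LinearMap.range (satIncl hι W) := by
  rw [Submodule.span_le]
  rintro _ ⟨m, hm, rfl⟩
  exact ⟨(1 : L) ⊗ₜ[O] (⟨m, hm⟩ : satLattice ι W), by simp⟩

omit [IsDomain O] [IsPrincipalIdealRing O] [FaithfulSMul O L] [Module.Free O M]
  [Module.Finite O M] in
/-- If `W` is spanned over `L` by the image of the lattice ("`W` is defined over `Frac O`"),
the range of `L ⊗ Λ → V` is exactly `W`. -/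
theorem range_satIncl_eq (hι : IsBaseChange L ι) (W : Submodule L V)
    (hdef : W ≤ Submodule.span L (ι '' (satLattice ι W : Set M))) :
    LinearMap.range (satIncl hι W) = W :=
  le_antisymm (range_satIncl_le hι W) (hdef.trans (span_le_range_satIncl hι W))

omit [Module.Free O M] [Module.Finite O M] in
/-- The scalar extension of the saturated lattice is `W`, when `W` is spanned by the image of the
lattice. -/
noncomputable def satEquiv (hι : IsBaseChange L ι) (W : Submodule L V)
    (hdef : W ≤ Submodule.span L (ι '' (satLattice ι W : Set M))) :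
    L ⊗[O] (satLattice ι W) ≃ₗ[L] W :=
  (LinearEquiv.ofInjective (satIncl hι W) (satIncl_injective hι W)).trans
    (LinearEquiv.ofEq _ _ (range_satIncl_eq hι W hdef))

omit [Module.Free O M] [Module.Finite O M] in
@[simp]
theorem satEquiv_apply_coe (hι : IsBaseChange L ι) (W : Submodule L V)
    (hdef : W ≤ Submodule.span L (ι '' (satLattice ι W : Set M)))
    (x : L ⊗[O] (satLattice ι W)) : ((satEquiv hι W hdef x : W) : V) = satIncl hι W x := rfl

/-- The rank of the saturated lattice is the dimension of `W`. -/
theorem finrank_satLattice (hι : IsBaseChange L ι) (W : Submodule L V)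
    (hdef : W ≤ Submodule.span L (ι '' (satLattice ι W : Set M))) :
    Module.finrank O (satLattice ι W) = Module.finrank L W := by
  rw [← (satEquiv hι W hdef).finrank_eq, Module.finrank_baseChange]

end Rank

section Charpoly

variable {O : Type*} [CommRing O] [IsDomain O] [IsPrincipalIdealRing O]
variable {L : Type*} [Field L] [Algebra O L] [FaithfulSMul O L]
variable {M : Type*} [AddCommGroup M] [Module O M] [Module.Free O M] [Module.Finite O M]
variable {V : Type*} [AddCommGroup V] [Module L V] [Module O V] [IsScalarTower O L V]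
variable [Module.Finite L V]
variable {ι : M →ₗ[O] V}

/-- The characteristic polynomial of an endomorphism of the saturated lattice, induced by an
endomorphism `f` of `M` whose scalar extension `F` preserves `W`, maps to the characteristic
polynomial of the restriction of `F` to `W`. -/
theorem charpoly_restrict_satLattice (hι : IsBaseChange L ι) (W : Submodule L V)
    (hdef : W ≤ Submodule.span L (ι '' (satLattice ι W : Set M)))
    (f : M →ₗ[O] M) (F : V →ₗ[L] V) (hfF : ∀ m, F (ι m) = ι (f m)) (hF : ∀ w ∈ W, F w ∈ W) :
    (LinearMap.charpoly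
        (f.restrict (fun _ hm => map_mem_satLattice ι W f F hfF hF hm) :
          satLattice ι W →ₗ[O] satLattice ι W)).map (algebraMap O L) =
      LinearMap.charpoly (R := L) (M := W) (F.restrict hF) := by
  set fΛ : satLattice ι W →ₗ[O] satLattice ι W :=
    f.restrict (fun _ hm => map_mem_satLattice ι W f F hfF hF hm) with hfΛ
  rw [← LinearMap.charpoly_baseChange fΛ L, ← LinearEquiv.charpoly_conj (satEquiv hι W hdef)]
  congr 1
  apply LinearMap.ext
  intro w
  obtain ⟨x, rfl⟩ := (satEquiv hι W hdef).surjective w
  rw [LinearEquiv.conj_apply_apply, LinearEquiv.symm_apply_apply]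
  apply Subtype.ext
  rw [satEquiv_apply_coe, LinearMap.coe_restrict_apply, satEquiv_apply_coe]
  induction x using TensorProduct.induction_on with
  | zero => simp
  | tmul c m =>
    rw [LinearMap.baseChange_tmul, satIncl_tmul, satIncl_tmul, map_smul, hfF]
    rfl
  | add x y hx hy =>
    rw [map_add, map_add, hx, hy, map_add, map_add]

/-- Representation form of `charpoly_restrict_satLattice`. -/
theorem charpoly_satRep {G : Type*} [Monoid G] (hι : IsBaseChange L ι) (W : Submodule L V)
    (ρ : G →* Module.End O M) (ρL : G → Module.End L V)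
    (hρ : ∀ g m, ρL g (ι m) = ι (ρ g m)) (hW : ∀ g, ∀ w ∈ W, ρL g w ∈ W)
    (hdef : W ≤ Submodule.span L (ι '' (satLattice ι W : Set M))) (g : G) :
    (LinearMap.charpoly (satRep ι W ρ ρL hρ hW g)).map (algebraMap O L) =
      LinearMap.charpoly (R := L) (M := W) ((ρL g).restrict (hW g)) :=
  charpoly_restrict_satLattice hι W hdef (ρ g) (ρL g) (hρ g) (hW g)

end Charpoly

end Fermat.Agent.S30.helper3212
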