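import Mathlib

/-!
# The rational dimension-2 lemma (helper4057, S30-RAT)

Let `K` be a field with `2 ≠ 0` (no algebraic closedness), `G` a group acting on a nonzero
finite-dimensional `K`-vector space `W` through `ρ : G →* Module.End K W`, `eps : G →* Kˣ` a
character, and assume every `g` satisfies a quadratic relation
`ρ g ^ 2 - t • ρ g + eps g = 0` for some scalar `t : K`.  Assume moreover that there is an element
`c : G` with `c * c = 1` and `eps c = -1` ("complex conjugation").

Then every minimal nonzero invariant subspace `U` has dimension at most `2`; in dimension `2` the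
characteristic polynomial of `ρ g` on `U` is `X ^ 2 - t X + eps g` for every `g` and every `t` for
which the relation holds, and in dimension `1` the group acts on `U` through a character.

Consequently there is a two-dimensional representation over `K` itself with these characteristic
polynomials: no extension of scalars is needed.

Proof.  Polarising the relation gives `g h + h g = (t(hg) - t(g) t(h)) + t(g) h + t(h) g`.  For
`h = c` one has `t(c) = 0`, hence `(1 + c) g (1 + c) = (t(g) + t(cg)) (1 + c)` and
`(1 - c) g (1 - c) = (t(g) - t(cg)) (1 - c)`.  If `U` is irreducible and `w ∈ U` is fixed by `c`,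
then `U` is spanned by the `g w` and `(1 + c) g w = (t(g) + t(cg)) w`, so the `+1`-eigenspace of
`c` on `U` is at most a line; the same holds for the `-1`-eigenspace.
-/

set_option autoImplicit false

open Polynomial Module

namespace Fermat.Agent.S30.helper4057

section Core

variable {K : Type*} [Field K] {W : Type*} [AddCommGroup W] [Module K W]

/-- The quadratic relation `a ^ 2 - t a + e = 0` for an endomorphism `a`. -/
def QRel (a : Module.End K W) (t e : K) : Prop :=
  a * a - t • a + e • (1 : Module.End K W) = 0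

theorem QRel.sq_eq {a : Module.End K W} {t e : K} (h : QRel a t e) :
    a * a = t • a - e • (1 : Module.End K W) := by
  unfold QRel at h
  rw [← sub_eq_zero, ← h]
  abel

theorem QRel.apply {a : Module.End K W} {t e : K} (h : QRel a t e) (x : W) :
    a (a x) = t • a x - e • x := by
  have := congrArg (fun f : Module.End K W => f x) h.sq_eq
  simp only [Module.End.mul_apply, LinearMap.sub_apply, LinearMap.smul_apply,
    Module.End.one_apply] at this
  exact this

variable {G : Type*} [Group G]

theorem rho_mul_inv (ρ : G →* Module.End K W) (g : G) : ρ g * ρ g⁻¹ = 1 := by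
  rw [← map_mul, mul_inv_cancel, map_one]

theorem rho_inv_mul (ρ : G →* Module.End K W) (g : G) : ρ g⁻¹ * ρ g = 1 := by
  rw [← map_mul, inv_mul_cancel, map_one]

theorem rho_inv_apply (ρ : G →* Module.End K W) (g : G) (x : W) : ρ g⁻¹ (ρ g x) = x := by
  have := congrArg (fun f : Module.End K W => f x) (rho_inv_mul ρ g)
  simp only [Module.End.mul_apply, Module.End.one_apply] at this
  exact this

theorem rho_apply_inv (ρ : G →* Module.End K W) (g : G) (x : W) : ρ g (ρ g⁻¹ x) = x := by
  have := congrArg (fun f : Module.End K W => f x) (rho_mul_inv ρ g)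
  simp only [Module.End.mul_apply, Module.End.one_apply] at this
  exact this

/-- Polarisation of the quadratic relation, pointwise form:
`g h x + h g x = (t(hg) - t(g) t(h)) x + t(g) h x + t(h) g x`. -/
theorem polar_apply (ρ : G →* Module.End K W) (eps : G →* Kˣ) {g h : G} {tg th thg : K}
    (hg : QRel (ρ g) tg (eps g)) (hh : QRel (ρ h) th (eps h))
    (hhg : QRel (ρ (h * g)) thg (eps (h * g))) (x : W) :
    ρ g (ρ h x) + ρ h (ρ g x) = (thg - tg * th) • x + tg • ρ h x + th • ρ g x := by
  -- `a' := tg - a`, `b' := th - b`; then `(b a) (a' b') = eg eh = (b a) (thg - b a)`.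
  set a := ρ g with ha
  set b := ρ h with hb
  have hba : ρ (h * g) = b * a := by rw [map_mul]
  -- apply everything to the vector `y` and cancel `b a`
  have key : (b * a) ((tg • (1 : Module.End K W) - a) ((th • (1 : Module.End K W) - b) x))
      = (b * a) ((thg • (1 : Module.End K W) - b * a) x) := by
    have h1 : ∀ y : W, a ((tg • (1 : Module.End K W) - a) y) = (eps g : K) • y := by
      intro y
      simp only [LinearMap.sub_apply, LinearMap.smul_apply, Module.End.one_apply, map_sub,
        map_smul]
      rw [hg.apply y]; abel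
    have h2 : ∀ y : W, b ((th • (1 : Module.End K W) - b) y) = (eps h : K) • y := by
      intro y
      simp only [LinearMap.sub_apply, LinearMap.smul_apply, Module.End.one_apply, map_sub,
        map_smul]
      rw [hh.apply y]; abel
    have h3 : ∀ y : W, (b * a) ((thg • (1 : Module.End K W) - b * a) y)
        = (eps (h * g) : K) • y := by
      intro y
      have := hhg.apply y
      rw [hba] at this
      simp only [LinearMap.sub_apply, LinearMap.smul_apply, Module.End.one_apply, map_sub,
        map_smul]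
      rw [this]; abel
    rw [h3, Module.End.mul_apply, h1, map_smul, h2, map_mul, Units.val_mul, smul_smul, mul_comm]
  have hinj : Function.Injective (b * a) := by
    intro y z hyz
    have := congrArg (ρ (h * g)⁻¹) hyz
    rw [← hba, rho_inv_apply, rho_inv_apply] at this
    exact this
  have := hinj key
  simp only [LinearMap.sub_apply, LinearMap.smul_apply, Module.End.one_apply, map_sub,
    map_smul, Module.End.mul_apply] at this
  have e2 : a (b x) = thg • x - b (a x) - th • (tg • x - a x) + tg • b x := by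
    rw [← this]; abel
  rw [e2]
  module

end Core

variable {K : Type*} [Field K] {W : Type*} [AddCommGroup W] [Module K W] {G : Type*} [Group G]

/-! ### The element `c` -/

section Conj

variable (ρ : G →* Module.End K W) (eps : G →* Kˣ) {c : G}

theorem conj_apply_apply (hc : c * c = 1) (x : W) : ρ c (ρ c x) = x := by
  have h : ρ c * ρ c = 1 := by rw [← map_mul, hc, map_one]
  have := congrArg (fun f : Module.End K W => f x) h
  simp only [Module.End.mul_apply, Module.End.one_apply] at this
  exact this

/-- The "trace" of `c` kills everything. -/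
theorem conj_t_smul (hc : c * c = 1) (hepsc : eps c = -1) {tc : K}
    (htc : QRel (ρ c) tc (eps c)) (x : W) : tc • x = 0 := by
  have h1 : ∀ y : W, tc • ρ c y = 0 := by
    intro y
    have := htc.apply y
    rw [conj_apply_apply ρ hc, hepsc] at this
    simp only [Units.val_neg, Units.val_one, neg_smul, one_smul, sub_neg_eq_add] at this
    -- `y = tc • ρ c y + y`
    have h2 : tc • ρ c y + y = 0 + y := by rw [zero_add]; exact this.symm
    exact add_right_cancel h2
  have := h1 (ρ c x)
  rwa [conj_apply_apply ρ hc] at this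

/-- `g c x + c g x = t(cg) x + t(g) c x`. -/
theorem conj_polar (hc : c * c = 1) (hepsc : eps c = -1) {g : G} {tg tcg tc : K}
    (hg : QRel (ρ g) tg (eps g)) (hcg : QRel (ρ (c * g)) tcg (eps (c * g)))
    (htc : QRel (ρ c) tc (eps c)) (x : W) :
    ρ g (ρ c x) + ρ c (ρ g x) = tcg • x + tg • ρ c x := by
  have h := polar_apply ρ eps hg htc hcg x
  rw [h, sub_smul, mul_smul, conj_t_smul ρ eps hc hepsc htc, conj_t_smul ρ eps hc hepsc htc,
    smul_zero, sub_zero, add_zero]

/-- On vectors fixed by `c`: `g w + c g w = (t(g) + t(cg)) w`. -/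
theorem plus_fixed (hc : c * c = 1) (hepsc : eps c = -1) {g : G} {tg tcg tc : K}
    (hg : QRel (ρ g) tg (eps g)) (hcg : QRel (ρ (c * g)) tcg (eps (c * g)))
    (htc : QRel (ρ c) tc (eps c)) {w : W} (hw : ρ c w = w) :
    ρ g w + ρ c (ρ g w) = (tg + tcg) • w := by
  have h := conj_polar ρ eps hc hepsc hg hcg htc w
  rw [hw] at h
  rw [h, add_smul, add_comm]

/-- On vectors negated by `c`: `g w - c g w = (t(g) - t(cg)) w`. -/
theorem minus_fixed (hc : c * c = 1) (hepsc : eps c = -1) {g : G} {tg tcg tc : K}
    (hg : QRel (ρ g) tg (eps g)) (hcg : QRel (ρ (c * g)) tcg (eps (c * g)))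
    (htc : QRel (ρ c) tc (eps c)) {w : W} (hw : ρ c w = -w) :
    ρ g w - ρ c (ρ g w) = (tg - tcg) • w := by
  have h := conj_polar ρ eps hc hepsc hg hcg htc w
  rw [hw, map_neg, smul_neg] at h
  have h2 : ρ c (ρ g w) = tcg • w - tg • w + ρ g w := by
    rw [← sub_eq_zero]
    have : ρ c (ρ g w) - (tcg • w - tg • w + ρ g w) = -(ρ g w) + ρ c (ρ g w) - (tcg • w + -(tg • w)) := by
      abel
    rw [this, h, sub_self]
  rw [h2, sub_smul]
  abel

end Conj

/-! ### Minimal invariant subspaces -/

section Irr

variable (ρ : G →* Module.End K W)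

/-- `U` is a minimal nonzero `ρ`-invariant subspace. -/
def IsMinInv (U : Submodule K W) : Prop :=
  U ≠ ⊥ ∧ (∀ g, ∀ x ∈ U, ρ g x ∈ U) ∧
    ∀ U' : Submodule K W, U' ≠ ⊥ → (∀ g, ∀ x ∈ U', ρ g x ∈ U') → U' ≤ U → U' = U

theorem exists_isMinInv [FiniteDimensional K W] [Nontrivial W] : ∃ U, IsMinInv ρ U := by
  classical
  let P : ℕ → Prop := fun n => ∃ U : Submodule K W, U ≠ ⊥ ∧ (∀ g, ∀ x ∈ U, ρ g x ∈ U) ∧
    finrank K U = n
  have hP : ∃ n, P n := ⟨finrank K (⊤ : Submodule K W), ⊤, top_ne_bot, fun _ _ _ => trivial, rfl⟩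
  obtain ⟨U, hU0, hUs, hUn⟩ := Nat.find_spec hP
  refine ⟨U, hU0, hUs, fun U' hU'0 hU's hle => ?_⟩
  have h1 : Nat.find hP ≤ finrank K U' := Nat.find_min' hP ⟨U', hU'0, hU's, rfl⟩
  have h2 : finrank K U' ≤ finrank K U := Submodule.finrank_mono hle
  exact Submodule.eq_of_le_of_finrank_eq hle (le_antisymm h2 (hUn ▸ h1))

variable {ρ}

/-- The orbit of a nonzero vector spans a minimal invariant subspace. -/
theorem IsMinInv.span_orbit {U : Submodule K W} (hU : IsMinInv ρ U) {w : W} (hwU : w ∈ U)
    (hw : w ≠ 0) : Submodule.span K (Set.range fun g : G => ρ g w) = U := by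
  refine hU.2.2 _ ?_ ?_ ?_
  · intro h
    have : w ∈ Submodule.span K (Set.range fun g : G => ρ g w) :=
      Submodule.subset_span ⟨1, by simp⟩
    rw [h, Submodule.mem_bot] at this
    exact hw this
  · intro g x hx
    induction hx using Submodule.span_induction with
    | mem y hy =>
      obtain ⟨h, rfl⟩ := hy
      refine Submodule.subset_span ⟨g * h, ?_⟩
      simp only [map_mul, Module.End.mul_apply]
    | zero => simp
    | add y z _ _ hy hz => rw [map_add]; exact Submodule.add_mem _ hy hz
    | smul a y _ hy => rw [map_smul]; exact Submodule.smul_mem _ a hy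
  · rw [Submodule.span_le]
    rintro _ ⟨g, rfl⟩
    exact hU.2.1 g w hwU

variable (eps : G →* Kˣ) {c : G}

/-- The `+1`-eigenspace of `c` on a minimal invariant subspace is at most a line. -/
theorem IsMinInv.fixed_line {U : Submodule K W} (hU : IsMinInv ρ U) (h2 : (2 : K) ≠ 0)
    (hquad : ∀ g, ∃ t : K, QRel (ρ g) t (eps g)) (hc : c * c = 1) (hepsc : eps c = -1)
    {w : W} (hwU : w ∈ U) (hw : w ≠ 0) (hcw : ρ c w = w) {u : W} (huU : u ∈ U)
    (hcu : ρ c u = u) : u ∈ Submodule.span K {w} := by
  obtain ⟨tc, htc⟩ := hquad c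
  have hu : u ∈ Submodule.span K (Set.range fun g : G => ρ g w) := by
    rw [hU.span_orbit hwU hw]; exact huU
  have key : ∀ y ∈ Submodule.span K (Set.range fun g : G => ρ g w),
      y + ρ c y ∈ Submodule.span K {w} := by
    intro y hy
    induction hy using Submodule.span_induction with
    | mem y hy =>
      obtain ⟨g, rfl⟩ := hy
      obtain ⟨tg, hg⟩ := hquad g
      obtain ⟨tcg, hcg⟩ := hquad (c * g)
      show ρ g w + ρ c (ρ g w) ∈ _
      rw [plus_fixed ρ eps hc hepsc hg hcg htc hcw]
      exact Submodule.smul_mem _ _ (Submodule.mem_span_singleton_self w)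
    | zero => simp
    | add y z _ _ hy hz =>
      have : y + z + ρ c (y + z) = (y + ρ c y) + (z + ρ c z) := by rw [map_add]; abel
      rw [this]; exact Submodule.add_mem _ hy hz
    | smul a y _ hy =>
      have : a • y + ρ c (a • y) = a • (y + ρ c y) := by rw [map_smul, smul_add]
      rw [this]; exact Submodule.smul_mem _ a hy
  have h3 := key u hu
  rw [hcu] at h3
  have h4 : u = (2 : K)⁻¹ • (u + u) := by
    rw [← two_smul K u, smul_smul, inv_mul_cancel₀ h2, one_smul]
  rw [h4]
  exact Submodule.smul_mem _ _ h3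

/-- The `-1`-eigenspace of `c` on a minimal invariant subspace is at most a line. -/
theorem IsMinInv.anti_line {U : Submodule K W} (hU : IsMinInv ρ U) (h2 : (2 : K) ≠ 0)
    (hquad : ∀ g, ∃ t : K, QRel (ρ g) t (eps g)) (hc : c * c = 1) (hepsc : eps c = -1)
    {w : W} (hwU : w ∈ U) (hw : w ≠ 0) (hcw : ρ c w = -w) {u : W} (huU : u ∈ U)
    (hcu : ρ c u = -u) : u ∈ Submodule.span K {w} := by
  obtain ⟨tc, htc⟩ := hquad c
  have hu : u ∈ Submodule.span K (Set.range fun g : G => ρ g w) := by
    rw [hU.span_orbit hwU hw]; exact huU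
  have key : ∀ y ∈ Submodule.span K (Set.range fun g : G => ρ g w),
      y - ρ c y ∈ Submodule.span K {w} := by
    intro y hy
    induction hy using Submodule.span_induction with
    | mem y hy =>
      obtain ⟨g, rfl⟩ := hy
      obtain ⟨tg, hg⟩ := hquad g
      obtain ⟨tcg, hcg⟩ := hquad (c * g)
      show ρ g w - ρ c (ρ g w) ∈ _
      rw [minus_fixed ρ eps hc hepsc hg hcg htc hcw]
      exact Submodule.smul_mem _ _ (Submodule.mem_span_singleton_self w)
    | zero => simp
    | add y z _ _ hy hz =>
      have : y + z - ρ c (y + z) = (y - ρ c y) + (z - ρ c z) := by rw [map_add]; abel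
      rw [this]; exact Submodule.add_mem _ hy hz
    | smul a y _ hy =>
      have : a • y - ρ c (a • y) = a • (y - ρ c y) := by rw [map_smul, smul_sub]
      rw [this]; exact Submodule.smul_mem _ a hy
  have h3 := key u hu
  rw [hcu, sub_neg_eq_add] at h3
  have h4 : u = (2 : K)⁻¹ • (u + u) := by
    rw [← two_smul K u, smul_smul, inv_mul_cancel₀ h2, one_smul]
  rw [h4]
  exact Submodule.smul_mem _ _ h3

/-- A minimal invariant subspace is spanned by a `c`-fixed vector and a `c`-negated vector. -/
theorem IsMinInv.exists_span_pair {U : Submodule K W} (hU : IsMinInv ρ U) (h2 : (2 : K) ≠ 0)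
    (hquad : ∀ g, ∃ t : K, QRel (ρ g) t (eps g)) (hc : c * c = 1) (hepsc : eps c = -1) :
    ∃ wp wm : W, wp ∈ U ∧ wm ∈ U ∧ ρ c wp = wp ∧ ρ c wm = -wm ∧
      U ≤ Submodule.span K {wp, wm} := by
  classical
  -- choose the two vectors
  obtain ⟨wp, hwpU, hcwp, hwp⟩ : ∃ wp : W, wp ∈ U ∧ ρ c wp = wp ∧
      ∀ u ∈ U, ρ c u = u → u ∈ Submodule.span K {wp} := by
    by_cases h : ∃ w ∈ U, w ≠ 0 ∧ ρ c w = w
    · obtain ⟨w, hwU, hw, hcw⟩ := h
      exact ⟨w, hwU, hcw, fun u huU hcu =>
        hU.fixed_line eps h2 hquad hc hepsc hwU hw hcw huU hcu⟩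
    · refine ⟨0, U.zero_mem, by simp, fun u huU hcu => ?_⟩
      by_contra hne
      exact h ⟨u, huU, fun h0 => hne (by rw [h0]; exact Submodule.zero_mem _), hcu⟩
  obtain ⟨wm, hwmU, hcwm, hwm⟩ : ∃ wm : W, wm ∈ U ∧ ρ c wm = -wm ∧
      ∀ u ∈ U, ρ c u = -u → u ∈ Submodule.span K {wm} := by
    by_cases h : ∃ w ∈ U, w ≠ 0 ∧ ρ c w = -w
    · obtain ⟨w, hwU, hw, hcw⟩ := h
      exact ⟨w, hwU, hcw, fun u huU hcu =>
        hU.anti_line eps h2 hquad hc hepsc hwU hw hcw huU hcu⟩
    · refine ⟨0, U.zero_mem, by simp, fun u huU hcu => ?_⟩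
      by_contra hne
      exact h ⟨u, huU, fun h0 => hne (by rw [h0]; exact Submodule.zero_mem _), hcu⟩
  refine ⟨wp, wm, hwpU, hwmU, hcwp, hcwm, fun x hx => ?_⟩
  have hcx : ρ c x ∈ U := hU.2.1 c x hx
  have hp : x + ρ c x ∈ Submodule.span K {wp} := by
    refine hwp _ (U.add_mem hx hcx) ?_
    rw [map_add, conj_apply_apply ρ hc, add_comm]
  have hm : x - ρ c x ∈ Submodule.span K {wm} := by
    refine hwm _ (U.sub_mem hx hcx) ?_
    rw [map_sub, conj_apply_apply ρ hc, neg_sub]
  have hx2 : x = (2 : K)⁻¹ • ((x + ρ c x) + (x - ρ c x)) := by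
    have : (x + ρ c x) + (x - ρ c x) = (2 : K) • x := by rw [two_smul]; abel
    rw [this, smul_smul, inv_mul_cancel₀ h2, one_smul]
  rw [hx2]
  refine Submodule.smul_mem _ _ (Submodule.add_mem _ ?_ ?_)
  · exact Submodule.span_mono (by simp) hp
  · exact Submodule.span_mono (by simp) hm

/-- **Dimension bound**: a minimal invariant subspace has dimension at most `2`. -/
theorem IsMinInv.finrank_le_two [FiniteDimensional K W] {U : Submodule K W} (hU : IsMinInv ρ U)
    (h2 : (2 : K) ≠ 0) (hquad : ∀ g, ∃ t : K, QRel (ρ g) t (eps g)) (hc : c * c = 1)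
    (hepsc : eps c = -1) : finrank K U ≤ 2 := by
  classical
  obtain ⟨wp, wm, -, -, -, -, hle⟩ := hU.exists_span_pair eps h2 hquad hc hepsc
  calc finrank K U ≤ finrank K (Submodule.span K ({wp, wm} : Set W)) := Submodule.finrank_mono hle
    _ = finrank K (Submodule.span K (({wp, wm} : Finset W) : Set W)) := by
        rw [Finset.coe_insert, Finset.coe_singleton]
    _ ≤ ({wp, wm} : Finset W).card := finrank_span_finset_le_card _
    _ ≤ 2 := Finset.card_le_two

end Irr

/-! ### `2 × 2` matrices -/

section Mat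

theorem mat_two_CH (M : Matrix (Fin 2) (Fin 2) K) :
    M * M - M.trace • M + M.det • (1 : Matrix (Fin 2) (Fin 2) K) = 0 := by
  ext i j
  fin_cases i <;> fin_cases j <;>
    simp [Matrix.mul_apply, Fin.sum_univ_two, Matrix.trace_fin_two, Matrix.det_fin_two] <;> ring

theorem mat_trace_det_of_not_scalar {M : Matrix (Fin 2) (Fin 2) K} {t e : K}
    (h : M * M - t • M + e • (1 : Matrix (Fin 2) (Fin 2) K) = 0)
    (hns : ∀ s : K, M ≠ s • (1 : Matrix (Fin 2) (Fin 2) K)) : M.trace = t ∧ M.det = e := by
  have hCH := mat_two_CH M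
  have hd : (t - M.trace) • M = (e - M.det) • (1 : Matrix (Fin 2) (Fin 2) K) := by
    have : (t - M.trace) • M - (e - M.det) • (1 : Matrix (Fin 2) (Fin 2) K)
        = (M * M - M.trace • M + M.det • 1) - (M * M - t • M + e • 1) := by
      simp only [sub_smul]; abel
    rw [← sub_eq_zero, this, hCH, h, sub_zero]
  by_cases ht : t = M.trace
  · refine ⟨ht.symm, ?_⟩
    rw [ht, sub_self, zero_smul] at hd
    have h00 := congrFun (congrFun hd 0) 0
    simp only [Matrix.zero_apply, Matrix.smul_apply, Matrix.one_apply_eq, smul_eq_mul,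
      mul_one] at h00
    exact (sub_eq_zero.mp h00.symm).symm
  · exfalso
    refine hns ((t - M.trace)⁻¹ * (e - M.det)) ?_
    have : M = (t - M.trace)⁻¹ • ((t - M.trace) • M) := by
      rw [smul_smul, inv_mul_cancel₀ (sub_ne_zero.mpr ht), one_smul]
    exact this.trans (by rw [hd, smul_smul])

/-- Trace and determinant of a `2`-dimensional matrix representation all of whose elements
satisfy a quadratic relation, in the presence of a non-scalar involution `c` with `eps c = -1`. -/
theorem mat_rep_trace_det (M : G →* Matrix (Fin 2) (Fin 2) K) (eps : G →* Kˣ)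
    (hquad : ∀ g, ∃ t : K, M g * M g - t • M g + (eps g : K) • 1 = 0) {c : G}
    (hepsc : eps c = -1) (hcns : ∀ s : K, M c ≠ s • 1) (g : G) (t : K)
    (hg : M g * M g - t • M g + (eps g : K) • 1 = 0) :
    (M g).trace = t ∧ (M g).det = (eps g : K) := by
  by_cases hs : ∃ s : K, M g = s • 1
  · obtain ⟨s, hs⟩ := hs
    -- data on `c`
    obtain ⟨tc, htc⟩ := hquad c
    have hcdet : (M c).det = -1 := by
      have := (mat_trace_det_of_not_scalar htc hcns).2
      rw [this, hepsc]; simp
    -- `s ≠ 0`
    have hs0 : s ≠ 0 := by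
      rintro rfl
      have h1 : M g * M g⁻¹ = 1 := by rw [← map_mul, mul_inv_cancel, map_one]
      rw [hs, zero_smul, zero_mul] at h1
      exact zero_ne_one h1
    -- `M (c g) = s • M c` is not scalar
    have hcg : M (c * g) = s • M c := by
      rw [map_mul, hs, Matrix.mul_smul, mul_one]
    have hcgns : ∀ r : K, M (c * g) ≠ r • 1 := by
      intro r hr
      refine hcns (s⁻¹ * r) ?_
      rw [hcg] at hr
      have : M c = s⁻¹ • (s • M c) := by rw [smul_smul, inv_mul_cancel₀ hs0, one_smul]
      rw [this, hr, smul_smul]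
    obtain ⟨tcg, htcg⟩ := hquad (c * g)
    have hdet := (mat_trace_det_of_not_scalar htcg hcgns).2
    rw [hcg, Matrix.det_smul, hcdet, Fintype.card_fin, map_mul, hepsc] at hdet
    simp only [mul_neg, mul_one, Units.val_neg, neg_mul, one_mul, neg_inj] at hdet
    -- `s ^ 2 = eps g`; relation for `g` at the entry `(0, 0)`
    have h00 := congrFun (congrFun hg 0) 0
    rw [hs] at h00
    simp only [Matrix.sub_apply, Matrix.add_apply, Matrix.mul_apply, Fin.sum_univ_two,
      Matrix.smul_apply, Matrix.one_apply_eq, smul_eq_mul, mul_one, Matrix.zero_apply,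
      ne_eq, one_ne_zero, not_false_eq_true, Matrix.one_apply_ne, mul_zero, add_zero] at h00
    have hts : t = 2 * s := by
      have h3 : s * (2 * s - t) = 0 := by
        have : s * (2 * s - t) = (s * s - t * s + (eps g : K)) + (s ^ 2 - (eps g : K)) := by ring
        rw [this, h00, hdet, sub_self, add_zero]
      rcases mul_eq_zero.mp h3 with h | h
      · exact absurd h hs0
      · exact (sub_eq_zero.mp h).symm
    refine ⟨?_, ?_⟩
    · rw [hs, Matrix.trace_fin_two, hts]
      simp only [Matrix.smul_apply, Matrix.one_apply_eq, smul_eq_mul, mul_one]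
      ring
    · rw [hs, Matrix.det_smul, Matrix.det_one, Fintype.card_fin, mul_one, hdet]
  · exact mat_trace_det_of_not_scalar hg (fun s h => hs ⟨s, h⟩)

end Mat

/-! ### Restriction to an invariant subspace -/

section Restrict

/-- The restriction of a representation to an invariant subspace. -/
def restrictRep (ρ : G →* Module.End K W) (U : Submodule K W)
    (hU : ∀ g, ∀ x ∈ U, ρ g x ∈ U) : G →* Module.End K U where
  toFun g := (ρ g).restrict (hU g)
  map_one' := by
    ext x
    simp
  map_mul' g h := by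
    ext x
    simp

@[simp]
theorem restrictRep_apply (ρ : G →* Module.End K W) (U : Submodule K W)
    (hU : ∀ g, ∀ x ∈ U, ρ g x ∈ U) (g : G) (x : U) :
    ((restrictRep ρ U hU g x : U) : W) = ρ g (x : W) := rfl

theorem QRel.restrictRep {ρ : G →* Module.End K W} {U : Submodule K W}
    (hU : ∀ g, ∀ x ∈ U, ρ g x ∈ U) {g : G} {t e : K} (h : QRel (ρ g) t e) :
    QRel (restrictRep ρ U hU g) t e := by
  unfold QRel
  ext x
  simp only [LinearMap.add_apply, LinearMap.sub_apply, Module.End.mul_apply,
    LinearMap.smul_apply, Module.End.one_apply, LinearMap.zero_apply, Submodule.coe_add,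
    Submodule.coe_sub, restrictRep_apply, Submodule.coe_smul, Submodule.coe_zero]
  rw [h.apply]
  abel

variable {ρ : G →* Module.End K W} (eps : G →* Kˣ) {c : G}

/-- **Trace and determinant in dimension two**, in any basis. -/
theorem IsMinInv.trace_det_toMatrix [FiniteDimensional K W] {U : Submodule K W}
    (hU : IsMinInv ρ U) (h2 : (2 : K) ≠ 0) (hquad : ∀ g, ∃ t : K, QRel (ρ g) t (eps g))
    (hc : c * c = 1) (hepsc : eps c = -1) (b : Basis (Fin 2) K U) (g : G) (t : K)
    (hg : QRel (ρ g) t (eps g)) :
    (LinearMap.toMatrix b b (restrictRep ρ U hU.2.1 g)).trace = t ∧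
      (LinearMap.toMatrix b b (restrictRep ρ U hU.2.1 g)).det = (eps g : K) := by
  classical
  have hdim : finrank K U = 2 := by
    rw [finrank_eq_card_basis b, Fintype.card_fin]
  let M : G →* Matrix (Fin 2) (Fin 2) K :=
    { toFun := fun g => LinearMap.toMatrix b b (restrictRep ρ U hU.2.1 g)
      map_one' := by rw [map_one]; exact LinearMap.toMatrix_one b
      map_mul' := fun g h => by rw [map_mul]; exact LinearMap.toMatrix_mul b _ _ }
  have hMrel : ∀ (g : G) (t : K), QRel (ρ g) t (eps g) →
      M g * M g - t • M g + (eps g : K) • 1 = 0 := by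
    intro g t hgt
    have h := QRel.restrictRep hU.2.1 hgt
    unfold QRel at h
    have h' := congrArg (LinearMap.toMatrix b b) h
    rw [map_add, map_sub, map_smul, map_smul, LinearMap.toMatrix_mul, LinearMap.toMatrix_one,
      map_zero] at h'
    exact h'
  have hMquad : ∀ g, ∃ t : K, M g * M g - t • M g + (eps g : K) • 1 = 0 := fun g => by
    obtain ⟨t, ht⟩ := hquad g
    exact ⟨t, hMrel g t ht⟩
  -- `c` is not a scalar on `U`
  have hcns : ∀ s : K, M c ≠ s • 1 := by
    intro s hs
    have hs' : restrictRep ρ U hU.2.1 c = s • 1 := by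
      apply (LinearMap.toMatrix b b).injective
      rw [map_smul, LinearMap.toMatrix_one]
      exact hs
    have hsx : ∀ x ∈ U, ρ c x = s • x := by
      intro x hx
      have := congrArg (fun f : Module.End K U => ((f ⟨x, hx⟩ : U) : W)) hs'
      simpa using this
    obtain ⟨w, hwU, hw⟩ := (Submodule.ne_bot_iff U).mp hU.1
    have hss : s * s = 1 := by
      have h1 := conj_apply_apply ρ hc w
      rw [hsx w hwU, map_smul, hsx w hwU, smul_smul] at h1
      by_contra hne
      have : (s * s - 1) • w = 0 := by rw [sub_smul, h1, one_smul, sub_self]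
      rcases smul_eq_zero.mp this with h | h
      · exact hne (sub_eq_zero.mp h)
      · exact hw h
    have hle : U ≤ Submodule.span K {w} := by
      rcases mul_self_eq_one_iff.mp hss with rfl | rfl
      · intro u hu
        exact hU.fixed_line eps h2 hquad hc hepsc hwU hw (by rw [hsx w hwU, one_smul]) hu
          (by rw [hsx u hu, one_smul])
      · intro u hu
        exact hU.anti_line eps h2 hquad hc hepsc hwU hw (by rw [hsx w hwU, neg_one_smul]) hu
          (by rw [hsx u hu, neg_one_smul])
    have h3 : finrank K U ≤ 1 := by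
      calc finrank K U ≤ finrank K (Submodule.span K ({w} : Set W)) := Submodule.finrank_mono hle
        _ ≤ 1 := (finrank_span_singleton hw).le
    omega
  exact mat_rep_trace_det M eps hMquad hepsc hcns g t (hMrel g t hg)

/-- **Characteristic polynomial in dimension two.** -/
theorem IsMinInv.charpoly_restrict [FiniteDimensional K W] {U : Submodule K W}
    (hU : IsMinInv ρ U) (h2 : (2 : K) ≠ 0) (hquad : ∀ g, ∃ t : K, QRel (ρ g) t (eps g))
    (hc : c * c = 1) (hepsc : eps c = -1) (hdim : finrank K U = 2) (g : G) (t : K)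
    (hg : QRel (ρ g) t (eps g)) :
    LinearMap.charpoly (restrictRep ρ U hU.2.1 g) = X ^ 2 - C t * X + C (eps g : K) := by
  classical
  let b : Basis (Fin 2) K U := Module.finBasisOfFinrankEq K U hdim
  obtain ⟨htr, hdet⟩ := hU.trace_det_toMatrix eps h2 hquad hc hepsc b g t hg
  rw [← LinearMap.charpoly_toMatrix (restrictRep ρ U hU.2.1 g) b, Matrix.charpoly_fin_two,
    htr, hdet]

/-- **Dimension one**: the group acts through a character. -/
theorem IsMinInv.exists_character {U : Submodule K W} (hU : IsMinInv ρ U)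
    (hdim : finrank K U = 1) : ∃ ψ : G →* Kˣ, ∀ g, ∀ x ∈ U, ρ g x = (ψ g : K) • x := by
  classical
  obtain ⟨v, hv, hspan⟩ := finrank_eq_one_iff'.mp hdim
  have hv0 : (v : W) ≠ 0 := fun h => hv (Subtype.ext h)
  have hex : ∀ g : G, ∃ a : K, a • (v : W) = ρ g v := by
    intro g
    obtain ⟨a, ha⟩ := hspan ⟨ρ g v, hU.2.1 g v v.2⟩
    exact ⟨a, congrArg Subtype.val ha⟩
  choose a ha using hex
  have hact : ∀ g, ∀ x ∈ U, ρ g x = a g • x := by
    intro g x hx
    obtain ⟨r, hr⟩ := hspan ⟨x, hx⟩
    have hr' : r • (v : W) = x := congrArg Subtype.val hr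
    rw [← hr', map_smul, ← ha g, smul_comm]
  have hmul : ∀ g h, a (g * h) = a g * a h := by
    intro g h
    have h1 : a (g * h) • (v : W) = (a g * a h) • (v : W) := by
      rw [ha, map_mul, Module.End.mul_apply, ← ha h, map_smul, ← ha g, smul_smul, mul_comm]
    exact smul_left_injective K hv0 h1
  have hone : a 1 = 1 := by
    have h1 : a 1 • (v : W) = (1 : K) • (v : W) := by
      rw [ha, map_one, Module.End.one_apply, one_smul]
    exact smul_left_injective K hv0 h1
  have hne : ∀ g, a g ≠ 0 := by
    intro g h0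
    have : a g * a g⁻¹ = 1 := by rw [← hmul, mul_inv_cancel, hone]
    rw [h0, zero_mul] at this
    exact zero_ne_one this
  refine ⟨{ toFun := fun g => Units.mk0 (a g) (hne g)
            map_one' := Units.ext hone
            map_mul' := fun g h => Units.ext (hmul g h) }, fun g x hx => ?_⟩
  exact hact g x hx

end Restrict

/-! ### Main statements -/

section Main

/-- **Rational dimension-two lemma, unpackaged form.**  There is a nonzero invariant subspace `U`
of dimension `1` or `2`; in dimension `2` the restriction of `ρ g` to `U` has characteristic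
polynomial `X ^ 2 - t X + eps g` whenever the relation holds with `t`; in dimension `1` the group
acts on `U` through a character. -/
theorem exists_invariant_of_quadratic_of_conj [FiniteDimensional K W] [Nontrivial W]
    (h2 : (2 : K) ≠ 0) (ρ : G →* Module.End K W) (eps : G →* Kˣ)
    (hquad : ∀ g, ∃ t : K, ρ g * ρ g - t • ρ g + (eps g : K) • 1 = 0) (c : G) (hc : c * c = 1)
    (hepsc : eps c = -1) :
    ∃ (U : Submodule K W) (hU : ∀ g, ∀ x ∈ U, ρ g x ∈ U), U ≠ ⊥ ∧
      (finrank K U = 1 ∨ finrank K U = 2) ∧
      (finrank K U = 2 → ∀ g (t : K), ρ g * ρ g - t • ρ g + (eps g : K) • 1 = 0 →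
        LinearMap.charpoly ((ρ g).restrict (hU g)) = X ^ 2 - C t * X + C (eps g : K)) ∧
      (∀ (b : Basis (Fin 2) K U) g (t : K), ρ g * ρ g - t • ρ g + (eps g : K) • 1 = 0 →
        (LinearMap.toMatrix b b ((ρ g).restrict (hU g))).trace = t ∧
        (LinearMap.toMatrix b b ((ρ g).restrict (hU g))).det = (eps g : K)) ∧
      (finrank K U = 1 → ∃ ψ : G →* Kˣ, ∀ g, ∀ x ∈ U, ρ g x = (ψ g : K) • x) := by
  obtain ⟨U, hU⟩ := exists_isMinInv ρ
  have hle := hU.finrank_le_two eps h2 hquad hc hepsc
  have hpos : 0 < finrank K U := by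
    rw [Nat.pos_iff_ne_zero]
    intro h0
    exact hU.1 (Submodule.finrank_eq_zero.mp h0)
  refine ⟨U, hU.2.1, hU.1, by omega, fun hdim g t hg => ?_, fun b g t hg => ?_,
    fun hdim => hU.exists_character hdim⟩
  · exact hU.charpoly_restrict eps h2 hquad hc hepsc hdim g t hg
  · exact hU.trace_det_toMatrix eps h2 hquad hc hepsc b g t hg

/-- **Rational dimension-two lemma, matrix form** (same shape as the algebraically closed version
used for S29, but over the field `K` itself, with `[IsAlgClosed K]` replaced by `2 ≠ 0` and the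
element `c`): a representation `M : G →* Matrix (Fin 2) (Fin 2) K` with `trace (M g) = t` and
`det (M g) = eps g` whenever the relation holds with `t`, and `M g = 1` whenever `ρ g = 1` and
`eps g = 1`. -/
theorem exists_matrixRep_of_quadratic_of_conj [FiniteDimensional K W] [Nontrivial W]
    (h2 : (2 : K) ≠ 0) (ρ : G →* Module.End K W) (eps : G →* Kˣ)
    (hquad : ∀ g, ∃ t : K, ρ g * ρ g - t • ρ g + (eps g : K) • 1 = 0) (c : G) (hc : c * c = 1)
    (hepsc : eps c = -1) :
    ∃ M : G →* Matrix (Fin 2) (Fin 2) K,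
      (∀ g (t : K), ρ g * ρ g - t • ρ g + (eps g : K) • 1 = 0 →
        (M g).trace = t ∧ (M g).det = (eps g : K)) ∧
      (∀ g, ρ g = 1 → eps g = 1 → M g = 1) := by
  classical
  obtain ⟨U, hU, hU0, hdim, -, h2dim, h1dim⟩ :=
    exists_invariant_of_quadratic_of_conj h2 ρ eps hquad c hc hepsc
  rcases hdim with hdim | hdim
  · -- the character case: `ψ ⊕ eps ψ⁻¹`
    obtain ⟨ψ, hψ⟩ := h1dim hdim
    obtain ⟨v, hvU, hv⟩ := (Submodule.ne_bot_iff U).mp hU0
    let D : G →* Matrix (Fin 2) (Fin 2) K :=
      { toFun := fun g => Matrix.diagonal ![(ψ g : K), ((eps g * (ψ g)⁻¹ : Kˣ) : K)]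
        map_one' := by
          ext i j
          fin_cases i <;> fin_cases j <;> simp
        map_mul' := fun g h => by
          rw [Matrix.diagonal_mul_diagonal]
          congr 1
          ext i
          fin_cases i
          · simp
          · simp only [map_mul, mul_inv_rev, Units.val_mul, Fin.mk_one, Fin.isValue,
              Matrix.cons_val_one, Matrix.cons_val_zero]
            ring }
    have hD : ∀ g, D g = Matrix.diagonal ![(ψ g : K), ((eps g * (ψ g)⁻¹ : Kˣ) : K)] :=
      fun _ => rfl
    refine ⟨D, ?_, ?_⟩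
    · intro g t hg
      have hrel : (ψ g : K) * (ψ g : K) - t * (ψ g : K) + (eps g : K) = 0 := by
        have h := QRel.apply (show QRel (ρ g) t (eps g) from hg) v
        rw [hψ g v hvU, map_smul, hψ g v hvU, smul_smul, smul_smul] at h
        have h' : ((ψ g : K) * (ψ g : K) - t * (ψ g : K) + (eps g : K)) • v = 0 := by
          rw [add_smul, sub_smul, h]; abel
        rcases smul_eq_zero.mp h' with h0 | h0
        · exact h0
        · exact absurd h0 hv
      have hψ0 : (ψ g : K) ≠ 0 := (ψ g).ne_zero
      have e1 : (ψ g : K) + ((eps g * (ψ g)⁻¹ : Kˣ) : K) = t := by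
        rw [Units.val_mul, Units.val_inv_eq_inv_val]
        field_simp
        linear_combination hrel
      have e2 : (ψ g : K) * ((eps g * (ψ g)⁻¹ : Kˣ) : K) = (eps g : K) := by
        rw [Units.val_mul, Units.val_inv_eq_inv_val]
        field_simp
      rw [hD, Matrix.trace_fin_two, Matrix.det_fin_two]
      simp only [Matrix.diagonal_apply_eq, Matrix.cons_val_zero, Matrix.cons_val_one,
        ne_eq, zero_ne_one, one_ne_zero, not_false_eq_true, Matrix.diagonal_apply_ne, mul_zero,
        sub_zero]
      exact ⟨e1, e2⟩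
    · intro g hg1 heps1
      have hψ1 : ψ g = 1 := by
        have h := hψ g v hvU
        rw [hg1, Module.End.one_apply] at h
        have h' : ((ψ g : K) - 1) • v = 0 := by rw [sub_smul, ← h, one_smul, sub_self]
        rcases smul_eq_zero.mp h' with h0 | h0
        · exact Units.ext (sub_eq_zero.mp h0)
        · exact absurd h0 hv
      rw [hD, hψ1, heps1]
      ext i j
      fin_cases i <;> fin_cases j <;> simp
  · -- the two-dimensional case
    let b : Basis (Fin 2) K U := Module.finBasisOfFinrankEq K U hdim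
    let M : G →* Matrix (Fin 2) (Fin 2) K :=
      { toFun := fun g => LinearMap.toMatrix b b (restrictRep ρ U hU g)
        map_one' := by rw [map_one]; exact LinearMap.toMatrix_one b
        map_mul' := fun g h => by rw [map_mul]; exact LinearMap.toMatrix_mul b _ _ }
    refine ⟨M, fun g t hg => h2dim b g t hg, fun g hg1 _ => ?_⟩
    show LinearMap.toMatrix b b (restrictRep ρ U hU g) = 1
    have : restrictRep ρ U hU g = 1 := by
      ext x
      simp [hg1]
    rw [this]
    exact LinearMap.toMatrix_one b

/-- **Rational dimension-two lemma, `Module.End`/`charpoly` form** on `Fin 2 → K`. -/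
theorem exists_rep_charpoly_of_quadratic_of_conj [FiniteDimensional K W] [Nontrivial W]
    (h2 : (2 : K) ≠ 0) (ρ : G →* Module.End K W) (eps : G →* Kˣ)
    (hquad : ∀ g, ∃ t : K, ρ g * ρ g - t • ρ g + (eps g : K) • 1 = 0) (c : G) (hc : c * c = 1)
    (hepsc : eps c = -1) :
    ∃ ρ2 : G →* Module.End K (Fin 2 → K),
      (∀ g (t : K), ρ g * ρ g - t • ρ g + (eps g : K) • 1 = 0 →
        LinearMap.charpoly (ρ2 g) = X ^ 2 - C t * X + C (eps g : K)) ∧
      (∀ g, ρ g = 1 → eps g = 1 → ρ2 g = 1) := by
  obtain ⟨M, hM1, hM2⟩ := exists_matrixRep_of_quadratic_of_conj h2 ρ eps hquad c hc hepsc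
  let ρ2 : G →* Module.End K (Fin 2 → K) :=
    { toFun := fun g => Matrix.toLin' (M g)
      map_one' := by rw [map_one]; exact Matrix.toLin'_one
      map_mul' := fun g h => by rw [map_mul]; exact Matrix.toLin'_mul _ _ }
  refine ⟨ρ2, fun g t hg => ?_, fun g hg he => ?_⟩
  · obtain ⟨h1, h2'⟩ := hM1 g t hg
    show (Matrix.toLin' (M g)).charpoly = _
    rw [Matrix.charpoly_toLin', Matrix.charpoly_fin_two, h1, h2']
  · show Matrix.toLin' (M g) = 1
    rw [hM2 g hg he]
    exact Matrix.toLin'_one

end Main

end Fermat.Agent.S30.helper4057
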