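import Mathlib
import Fermat.Prelude.Def_GaloisRep_Adic

set_option autoImplicit false
set_option linter.unusedSectionVars false
set_option linter.style.haveILetI false

/-!
# S30-LATTICE (helper5273): saturated Galois-stable lattices, coordinate form

`O` a principal ideal domain (e.g. a DVR), `L` a field containing `O` (any field, e.g. an
algebraic closure of `Frac O`), `W ≤ L^r` an `L`-subspace.  `lattice W = O^r ∩ W`.
-/

namespace Fermat.Agent.S30.helper5273

open Module Polynomial

section Lattice

variable {O : Type*} [CommRing O] [IsDomain O] [IsPrincipalIdealRing O]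
variable {L : Type*} [Field L] [Algebra O L] [FaithfulSMul O L]
variable {r : ℕ}

/-- Coordinatewise `algebraMap`, as an `O`-linear map `O^r → L^r`. -/
noncomputable def coordMap (O L : Type*) [CommRing O] [Field L] [Algebra O L] (r : ℕ) :
    (Fin r → O) →ₗ[O] (Fin r → L) :=
  (Algebra.linearMap O L).compLeft (Fin r)

omit [IsDomain O] [IsPrincipalIdealRing O] [FaithfulSMul O L] in
@[simp] lemma coordMap_apply (m : Fin r → O) (i : Fin r) :
    coordMap O L r m i = algebraMap O L (m i) := rfl

omit [IsDomain O] [IsPrincipalIdealRing O] in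
lemma coordMap_injective : Function.Injective (coordMap O L r) := by
  intro a b h
  funext i
  have h1 := congrFun h i
  simp only [coordMap_apply] at h1
  exact FaithfulSMul.algebraMap_injective O L h1

omit [IsDomain O] [IsPrincipalIdealRing O] [FaithfulSMul O L] in
lemma coordMap_mulVec (A : Matrix (Fin r) (Fin r) O) (m : Fin r → O) :
    coordMap O L r (A.mulVec m) = (A.map (algebraMap O L)).mulVec (coordMap O L r m) := by
  funext i
  simp [Matrix.mulVec, dotProduct, map_sum, map_mul]

/-- The lattice `O^r ∩ W`. -/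
noncomputable def lattice (O : Type*) [CommRing O] {L : Type*} [Field L] [Algebra O L] {r : ℕ}
    (W : Submodule L (Fin r → L)) : Submodule O (Fin r → O) :=
  (W.restrictScalars O).comap (coordMap O L r)

omit [IsDomain O] [IsPrincipalIdealRing O] [FaithfulSMul O L] in
lemma mem_lattice {W : Submodule L (Fin r → L)} {m : Fin r → O} :
    m ∈ lattice O W ↔ coordMap O L r m ∈ W := Iff.rfl

omit [IsDomain O] [IsPrincipalIdealRing O] in
/-- The lattice is saturated. -/
lemma lattice_saturated (W : Submodule L (Fin r → L)) {c : O} (hc : c ≠ 0) {m : Fin r → O}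
    (h : c • m ∈ lattice O W) : m ∈ lattice O W := by
  rw [mem_lattice, map_smul] at h
  have hc' : algebraMap O L c ≠ 0 := by
    intro h0
    exact hc (FaithfulSMul.algebraMap_injective O L (by rw [h0, map_zero]))
  have h2 : (algebraMap O L c) • coordMap O L r m ∈ W := by rwa [algebraMap_smul]
  exact (W.smul_mem_iff hc').1 h2

/-- A saturated submodule of `O^r` has a basis which is part of a basis of `O^r`. -/
theorem exists_adapted_basis (N : Submodule O (Fin r → O))
    (hsat : ∀ (c : O), c ≠ 0 → ∀ m : Fin r → O, c • m ∈ N → m ∈ N) :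
    ∃ (n : ℕ) (bM : Basis (Fin r) O (Fin r → O)) (f : Fin n ↪ Fin r) (bN : Basis (Fin n) O N),
      ∀ i, (bN i : Fin r → O) = bM (f i) := by
  obtain ⟨n, snf⟩ := N.smithNormalForm (Pi.basisFun O (Fin r))
  obtain ⟨bM, bN, f, a, hsnf⟩ := snf
  have ha : ∀ i, a i ≠ 0 := by
    intro i h0
    have h1 := hsnf i
    rw [h0, zero_smul] at h1
    exact bN.ne_zero i (Subtype.ext h1)
  have hmem : ∀ i, bM (f i) ∈ N := fun i =>
    hsat (a i) (ha i) _ (by rw [← hsnf i]; exact (bN i).2)
  let v : Fin n → N := fun i => ⟨bM (f i), hmem i⟩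
  have hli : LinearIndependent O v := by
    have h1 : LinearIndependent O (fun i => bM (f i)) :=
      bM.linearIndependent.comp f f.injective
    exact LinearIndependent.of_comp N.subtype (by simpa [Function.comp_def, v] using h1)
  have hsp : ⊤ ≤ Submodule.span O (Set.range v) := by
    rw [← bN.span_eq, Submodule.span_le]
    rintro _ ⟨i, rfl⟩
    have : bN i = a i • v i := Subtype.ext (by simpa [v] using hsnf i)
    rw [this]
    exact Submodule.smul_mem _ _ (Submodule.subset_span ⟨i, rfl⟩)
  refine ⟨n, bM, f, Basis.mk hli hsp, fun i => ?_⟩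
  simp [v]

omit [IsDomain O] [IsPrincipalIdealRing O] in
/-- An `O`-basis of `O^r` stays linearly independent in `L^r`. -/
theorem linearIndependent_coordMap_basis (bM : Basis (Fin r) O (Fin r → O)) :
    LinearIndependent L (fun j => coordMap O L r (bM j)) := by
  classical
  set P : Matrix (Fin r) (Fin r) O := (Pi.basisFun O (Fin r)).toMatrix bM with hP
  have hPu : IsUnit P := by
    haveI := (Pi.basisFun O (Fin r)).invertibleToMatrix bM
    exact isUnit_of_invertible P
  have hPLu : IsUnit (P.map (algebraMap O L)) := by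
    have := hPu.map (RingHom.mapMatrix (algebraMap O L) : Matrix (Fin r) (Fin r) O →+* _)
    simpa using this
  have h := Matrix.linearIndependent_cols_of_isUnit hPLu
  have heq : (fun j => coordMap O L r (bM j)) = (P.map (algebraMap O L)).col := by
    funext j i
    simp [hP, Matrix.col, Basis.toMatrix_apply]
  rw [heq]
  exact h

/-- `W` is *defined over `O`*: it is spanned by (the images of) lattice vectors.  See
`definedOver_of_span_fractionRing` for the criterion "spanned by vectors with coordinates in
`Frac O`". -/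
def DefinedOver (O : Type*) [CommRing O] {L : Type*} [Field L] [Algebra O L] {r : ℕ}
    (W : Submodule L (Fin r → L)) : Prop :=
  W ≤ Submodule.span L (coordMap O L r '' (lattice O W : Set (Fin r → O)))

/-- Simultaneous bases: an `O`-basis of the lattice whose image is an `L`-basis of `W`. -/
theorem exists_compatible_bases (W : Submodule L (Fin r → L)) (hW : DefinedOver O W) :
    ∃ (n : ℕ) (bΛ : Basis (Fin n) O (lattice O W)) (bW : Basis (Fin n) L W),
      ∀ i, (bW i : Fin r → L) = coordMap O L r (bΛ i : Fin r → O) := by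
  obtain ⟨n, bM, f, bΛ, hb⟩ := exists_adapted_basis (lattice O W)
    (fun c hc m hm => lattice_saturated W hc hm)
  have hmem : ∀ i, coordMap O L r (bΛ i : Fin r → O) ∈ W := fun i => (bΛ i).2
  let w : Fin n → W := fun i => ⟨coordMap O L r (bΛ i : Fin r → O), hmem i⟩
  have hli : LinearIndependent L w := by
    have h1 : LinearIndependent L (fun i => coordMap O L r (bM (f i))) :=
      (linearIndependent_coordMap_basis (L := L) bM).comp f f.injective
    refine LinearIndependent.of_comp W.subtype ?_
    have : (W.subtype ∘ w) = fun i => coordMap O L r (bM (f i)) := by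
      funext i
      simp [w, hb i]
    rw [this]
    exact h1
  have hsp : ⊤ ≤ Submodule.span L (Set.range w) := by
    rintro ⟨x, hx⟩ -
    have hx' := hW hx
    -- `x` is an `L`-combination of images of lattice vectors
    have key : ∀ y ∈ Submodule.span L (coordMap O L r '' (lattice O W : Set (Fin r → O))),
        ∀ hy : y ∈ W, (⟨y, hy⟩ : W) ∈ Submodule.span L (Set.range w) := by
      intro y hy
      induction hy using Submodule.span_induction with
      | mem y hy =>
        obtain ⟨m, hm, rfl⟩ := hy
        intro hy'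
        -- m is an O-combination of the bΛ i
        have hrep := bΛ.sum_repr ⟨m, hm⟩
        have hm2 : (⟨coordMap O L r m, hy'⟩ : W)
            = ∑ i, algebraMap O L (bΛ.repr ⟨m, hm⟩ i) • w i := by
          apply Subtype.ext
          have h3 : m = ∑ i, bΛ.repr ⟨m, hm⟩ i • (bΛ i : Fin r → O) := by
            have h4 := congrArg (Subtype.val) hrep
            rw [Submodule.coe_sum] at h4
            simp only [Submodule.coe_smul] at h4
            exact h4.symm
          simp only [Submodule.coe_sum, Submodule.coe_smul, w]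
          conv_lhs => rw [h3]
          rw [map_sum]
          refine Finset.sum_congr rfl fun i _ => ?_
          rw [map_smul, algebraMap_smul]
        rw [hm2]
        exact Submodule.sum_mem _ fun i _ =>
          Submodule.smul_mem _ _ (Submodule.subset_span ⟨i, rfl⟩)
      | zero =>
        intro hy'
        have : (⟨0, hy'⟩ : W) = 0 := rfl
        rw [this]; exact Submodule.zero_mem _
      | add y z hy hz ihy ihz =>
        intro hyz
        -- need y ∈ W and z ∈ W: both are in the span of lattice images, which lies in W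
        have hsub : Submodule.span L (coordMap O L r '' (lattice O W : Set (Fin r → O))) ≤ W := by
          rw [Submodule.span_le]
          rintro _ ⟨m, hm, rfl⟩
          exact hm
        have hyW := hsub hy
        have hzW := hsub hz
        have : (⟨y + z, hyz⟩ : W) = ⟨y, hyW⟩ + ⟨z, hzW⟩ := rfl
        rw [this]
        exact Submodule.add_mem _ (ihy hyW) (ihz hzW)
      | smul c y hy ihy =>
        intro hcy
        have hsub : Submodule.span L (coordMap O L r '' (lattice O W : Set (Fin r → O))) ≤ W := by
          rw [Submodule.span_le]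
          rintro _ ⟨m, hm, rfl⟩
          exact hm
        have hyW := hsub hy
        have : (⟨c • y, hcy⟩ : W) = c • ⟨y, hyW⟩ := rfl
        rw [this]
        exact Submodule.smul_mem _ _ (ihy hyW)
    exact key x hx' hx
  refine ⟨n, bΛ, Basis.mk hli hsp, fun i => ?_⟩
  simp [w]

/-- The rank of the lattice is the dimension of `W`. -/
theorem finrank_lattice (W : Submodule L (Fin r → L)) (hW : DefinedOver O W) :
    finrank O (lattice O W) = finrank L W := by
  obtain ⟨n, bΛ, bW, -⟩ := exists_compatible_bases W hW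
  rw [finrank_eq_card_basis bΛ, finrank_eq_card_basis bW]

/-- `W` is stable under the matrix `A` (acting through `algebraMap O L`). -/
def StableUnder (A : Matrix (Fin r) (Fin r) O) (W : Submodule L (Fin r → L)) : Prop :=
  ∀ w ∈ W, (A.map (algebraMap O L)).mulVec w ∈ W

omit [IsDomain O] [IsPrincipalIdealRing O] [FaithfulSMul O L] in
lemma lattice_stable {A : Matrix (Fin r) (Fin r) O} {W : Submodule L (Fin r → L)}
    (hA : StableUnder A W) : ∀ m ∈ lattice O W, A.mulVecLin m ∈ lattice O W := by
  intro m hm
  rw [mem_lattice] at hm ⊢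
  rw [Matrix.mulVecLin_apply, coordMap_mulVec]
  exact hA _ hm

/-- The restriction of `A` to the lattice. -/
noncomputable def latEnd (A : Matrix (Fin r) (Fin r) O) (W : Submodule L (Fin r → L))
    (hA : StableUnder A W) : Module.End O (lattice O W) :=
  (A.mulVecLin).restrict (lattice_stable hA)

/-- The restriction of `A` (base-changed to `L`) to `W`. -/
noncomputable def subEnd (A : Matrix (Fin r) (Fin r) O) (W : Submodule L (Fin r → L))
    (hA : StableUnder A W) : Module.End L W :=
  ((A.map (algebraMap O L)).mulVecLin).restrict (fun w hw => hA w hw)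

omit [IsDomain O] [IsPrincipalIdealRing O] [FaithfulSMul O L] in
@[simp] lemma latEnd_coe (A : Matrix (Fin r) (Fin r) O) (W : Submodule L (Fin r → L))
    (hA : StableUnder A W) (v : lattice O W) :
    ((latEnd A W hA v : lattice O W) : Fin r → O) = A.mulVec (v : Fin r → O) := rfl

omit [IsDomain O] [IsPrincipalIdealRing O] [FaithfulSMul O L] in
@[simp] lemma subEnd_coe (A : Matrix (Fin r) (Fin r) O) (W : Submodule L (Fin r → L))
    (hA : StableUnder A W) (w : W) :
    ((subEnd A W hA w : W) : Fin r → L) = (A.map (algebraMap O L)).mulVec (w : Fin r → L) := rfl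

/-- The characteristic polynomial of `A` on the lattice maps to the characteristic polynomial
of `A` on `W`. -/
theorem charpoly_latEnd (A : Matrix (Fin r) (Fin r) O) (W : Submodule L (Fin r → L))
    (hW : DefinedOver O W) (hA : StableUnder A W) :
    (latEnd A W hA).charpoly.map (algebraMap O L) = (subEnd A W hA).charpoly := by
  classical
  obtain ⟨n, bΛ, bW, hb⟩ := exists_compatible_bases W hW
  rw [← LinearMap.charpoly_toMatrix (latEnd A W hA) bΛ,
    ← LinearMap.charpoly_toMatrix (subEnd A W hA) bW, ← Matrix.charpoly_map]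
  congr 1
  ext i j
  simp only [Matrix.map_apply, LinearMap.toMatrix_apply]
  have h1 : subEnd A W hA (bW j)
      = ∑ k, algebraMap O L (bΛ.repr (latEnd A W hA (bΛ j)) k) • bW k := by
    apply Subtype.ext
    have hrep := bΛ.sum_repr (latEnd A W hA (bΛ j))
    have h4 := congrArg (Subtype.val) hrep
    rw [Submodule.coe_sum] at h4
    simp only [Submodule.coe_smul, latEnd_coe] at h4
    rw [subEnd_coe, hb j, ← coordMap_mulVec, ← h4, map_sum, Submodule.coe_sum]
    refine Finset.sum_congr rfl fun k _ => ?_
    rw [map_smul, Submodule.coe_smul, hb k, algebraMap_smul]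
  rw [h1, Basis.repr_sum_self]

omit [IsDomain O] [IsPrincipalIdealRing O] [FaithfulSMul O L] in
lemma latEnd_eq_one (A : Matrix (Fin r) (Fin r) O) (W : Submodule L (Fin r → L))
    (hA : StableUnder A W) (h1 : A = 1) : latEnd A W hA = 1 := by
  subst h1
  ext v : 1
  apply Subtype.ext
  simp

/-- Congruence inheritance: if `A ≡ 1` modulo the ideal `I` (entrywise) then `A - 1` maps the
lattice into `I • lattice` (this uses saturation). -/
theorem latEnd_sub_mem (A : Matrix (Fin r) (Fin r) O) (W : Submodule L (Fin r → L))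
    (hA : StableUnder A W) (I : Ideal O) (hI : ∀ i j, (A - 1) i j ∈ I) (v : lattice O W) :
    latEnd A W hA v - v ∈ I • (⊤ : Submodule O (lattice O W)) := by
  obtain ⟨a, ha⟩ := IsPrincipalIdealRing.principal I
  have haI : a ∈ I := by rw [ha]; exact Submodule.mem_span_singleton_self a
  have hcoord : ∀ k, ∃ u : O, (A.mulVec (v : Fin r → O) - (v : Fin r → O)) k = a * u := by
    intro k
    have h1 : (A.mulVec (v : Fin r → O) - (v : Fin r → O)) k
        = ∑ j, (A - 1) k j * (v : Fin r → O) j := by
      have : A.mulVec (v : Fin r → O) - (v : Fin r → O) = (A - 1).mulVec (v : Fin r → O) := by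
        rw [Matrix.sub_mulVec, Matrix.one_mulVec]
      rw [this]; rfl
    have h2 : (A.mulVec (v : Fin r → O) - (v : Fin r → O)) k ∈ I := by
      rw [h1]
      exact Ideal.sum_mem _ fun j _ => Ideal.mul_mem_right _ _ (hI k j)
    rw [ha] at h2
    obtain ⟨u, hu⟩ := Submodule.mem_span_singleton.1 h2
    exact ⟨u, by rw [← hu]; simp [mul_comm]⟩
  choose u hu using hcoord
  have hsub : A.mulVec (v : Fin r → O) - (v : Fin r → O) = a • u := by
    funext k; simpa using hu k
  by_cases ha0 : a = 0
  · have : latEnd A W hA v - v = 0 := by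
      apply Subtype.ext
      simp [hsub, ha0]
    rw [this]; exact Submodule.zero_mem _
  · have hmem : a • u ∈ lattice O W := by
      rw [← hsub]
      exact Submodule.sub_mem _ (lattice_stable hA _ v.2) v.2
    have hu' : u ∈ lattice O W := lattice_saturated W ha0 hmem
    have : latEnd A W hA v - v = a • (⟨u, hu'⟩ : lattice O W) := by
      apply Subtype.ext
      simp [hsub]
    rw [this]
    exact Submodule.smul_mem_smul haI Submodule.mem_top

/-- The representation on the lattice. -/
noncomputable def latRep {G : Type*} [Monoid G] (rho : G →* Matrix (Fin r) (Fin r) O)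
    (W : Submodule L (Fin r → L)) (h : ∀ g, StableUnder (rho g) W) :
    G →* Module.End O (lattice O W) where
  toFun g := latEnd (rho g) W (h g)
  map_one' := latEnd_eq_one _ W _ (map_one rho)
  map_mul' g g' := by
    ext v : 1
    apply Subtype.ext
    simp [map_mul, Matrix.mulVec_mulVec]

/-- Criterion: a subspace spanned by vectors with coordinates in `K = Frac O` is defined
over `O`. -/
theorem definedOver_of_span {K : Type*} [Field K] [Algebra O K] [IsFractionRing O K]
    [Algebra K L] [IsScalarTower O K L] (W : Submodule L (Fin r → L)) (S : Set (Fin r → K))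
    (hS : W = Submodule.span L ((fun v : Fin r → K => fun i => algebraMap K L (v i)) '' S)) :
    DefinedOver O W := by
  have hSW : ∀ v ∈ S, (fun i => algebraMap K L (v i)) ∈ W := by
    intro v hv
    rw [hS]
    exact Submodule.subset_span ⟨v, hv, rfl⟩
  have hgoal : Submodule.span L ((fun v : Fin r → K => fun i => algebraMap K L (v i)) '' S)
      ≤ Submodule.span L (coordMap O L r '' (lattice O W : Set (Fin r → O))) := by
    rw [Submodule.span_le]
    rintro _ ⟨v, hv, rfl⟩
    obtain ⟨b, hb⟩ := IsLocalization.exist_integer_multiples (nonZeroDivisors O)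
      (Finset.univ : Finset (Fin r)) v
    have hb0 : (b : O) ≠ 0 := nonZeroDivisors.coe_ne_zero b
    choose m hm using fun i => hb i (Finset.mem_univ i)
    have hbL : algebraMap O L (b : O) ≠ 0 := by
      intro h0
      exact hb0 (FaithfulSMul.algebraMap_injective O L (by rw [h0, map_zero]))
    have hcoord : coordMap O L r m
        = algebraMap O L (b : O) • (fun i => algebraMap K L (v i)) := by
      funext i
      have h1 := hm i
      simp only [coordMap_apply, Pi.smul_apply, smul_eq_mul]
      rw [IsScalarTower.algebraMap_apply O K L, h1, Algebra.smul_def, map_mul,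
        ← IsScalarTower.algebraMap_apply O K L]
    have hmW : m ∈ lattice O W := by
      rw [mem_lattice, hcoord]
      exact W.smul_mem _ (hSW v hv)
    have hv' : (fun i => algebraMap K L (v i))
        = (algebraMap O L (b : O))⁻¹ • coordMap O L r m := by
      rw [hcoord, smul_smul, inv_mul_cancel₀ hbL, one_smul]
    show (fun i => algebraMap K L (v i)) ∈ _
    rw [hv']
    exact Submodule.smul_mem _ _ (Submodule.subset_span ⟨m, hmW, rfl⟩)
  intro w hw
  rw [hS] at hw
  exact hgoal hw

end Lattice

section FieldOfDefinition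

/-- FIELD OF DEFINITION: every subspace of `L^r`, `L/K` algebraic, is spanned by vectors with
coordinates in a finite subextension. -/
theorem exists_finite_field_of_definition {K : Type*} [Field K] {L : Type*} [Field L]
    [Algebra K L] [Algebra.IsAlgebraic K L] {r : ℕ} (W : Submodule L (Fin r → L)) :
    ∃ K' : IntermediateField K L, FiniteDimensional K K' ∧
      ∃ S : Set (Fin r → K'),
        W = Submodule.span L ((fun v : Fin r → K' => fun i => algebraMap K' L (v i)) '' S) := by
  classical
  let b := Module.finBasis L W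
  let T : Set L := Set.range (fun x : Fin (finrank L W) × Fin r => (b x.1 : Fin r → L) x.2)
  haveI : Finite T := Set.finite_range _
  refine ⟨IntermediateField.adjoin K T,
    IntermediateField.finiteDimensional_adjoin fun x _ => (Algebra.IsAlgebraic.isAlgebraic x).isIntegral,
    ?_⟩
  have hT : ∀ j i, (b j : Fin r → L) i ∈ IntermediateField.adjoin K T := fun j i =>
    IntermediateField.subset_adjoin K T ⟨(j, i), rfl⟩
  let v : Fin (finrank L W) → (Fin r → IntermediateField.adjoin K T) :=
    fun j i => ⟨(b j : Fin r → L) i, hT j i⟩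
  refine ⟨Set.range v, ?_⟩
  have h1 : (fun v : Fin r → IntermediateField.adjoin K T => fun i => algebraMap _ L (v i)) ''
      (Set.range v) = Set.range (fun j => (b j : Fin r → L)) := by
    ext x
    constructor
    · rintro ⟨_, ⟨j, rfl⟩, rfl⟩
      exact ⟨j, rfl⟩
    · rintro ⟨j, rfl⟩
      exact ⟨v j, ⟨j, rfl⟩, rfl⟩
  rw [h1]
  have h2 : Set.range (fun j => (b j : Fin r → L)) = W.subtype '' Set.range b := by
    rw [← Set.range_comp]; rfl
  rw [h2, ← Submodule.map_span, b.span_eq, Submodule.map_subtype_top]

end FieldOfDefinition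

section Line

variable {O : Type*} [CommRing O] [IsDomain O] [IsPrincipalIdealRing O]
variable {L : Type*} [Field L] [Algebra O L] [FaithfulSMul O L]
variable {r : ℕ}

/-- RANK ONE: a stable line defined over `O` gives an `O`-valued character, with the same
congruence inheritance. -/
theorem exists_character_of_line {G : Type*} [Monoid G]
    (rho : G →* Matrix (Fin r) (Fin r) O) (W : Submodule L (Fin r → L)) (hW : DefinedOver O W)
    (hstab : ∀ g, StableUnder (rho g) W) (hdim : finrank L W = 1) :
    ∃ ψ : G →* O,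
      (∀ g, ∀ w ∈ W, ((rho g).map (algebraMap O L)).mulVec w = algebraMap O L (ψ g) • w) ∧
      (∀ g (I : Ideal O), (∀ i j, (rho g - 1) i j ∈ I) → ψ g - 1 ∈ I) ∧
      (∀ g, rho g = 1 → ψ g = 1) := by
  classical
  obtain ⟨n, bΛ, bW, hb⟩ := exists_compatible_bases W hW
  have hn : n = 1 := by
    have h1 := finrank_eq_card_basis bW
    rw [hdim, Fintype.card_fin] at h1
    exact h1.symm
  subst hn
  -- the scalar by which `g` acts on the basis vector
  let ψf : G → O := fun g => bΛ.repr (latEnd (rho g) W (hstab g) (bΛ 0)) 0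
  have hψ : ∀ g, latEnd (rho g) W (hstab g) (bΛ 0) = ψf g • bΛ 0 := by
    intro g
    have h1 := bΛ.sum_repr (latEnd (rho g) W (hstab g) (bΛ 0))
    rw [Fin.sum_univ_one] at h1
    exact h1.symm
  have hrepr : ∀ c : O, bΛ.repr (c • bΛ 0) 0 = c := by
    intro c
    rw [map_smul, Basis.repr_self, Finsupp.smul_apply, Finsupp.single_eq_same, smul_eq_mul,
      mul_one]
  have hone : ψf 1 = 1 := by
    have h1 : latEnd (rho 1) W (hstab 1) = 1 := latEnd_eq_one _ W _ (map_one rho)
    show bΛ.repr (latEnd (rho 1) W (hstab 1) (bΛ 0)) 0 = 1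
    rw [h1, Module.End.one_apply, Basis.repr_self, Finsupp.single_eq_same]
  have hmul : ∀ g g', ψf (g * g') = ψf g * ψf g' := by
    intro g g'
    have h1 : latEnd (rho (g * g')) W (hstab (g * g')) (bΛ 0)
        = latEnd (rho g) W (hstab g) (latEnd (rho g') W (hstab g') (bΛ 0)) := by
      apply Subtype.ext
      simp [map_mul, Matrix.mulVec_mulVec]
    show bΛ.repr (latEnd (rho (g * g')) W (hstab (g * g')) (bΛ 0)) 0 = _
    rw [h1, hψ g', map_smul, hψ g, smul_smul, hrepr, mul_comm]
  refine ⟨{ toFun := ψf, map_one' := hone, map_mul' := hmul }, ?_, ?_, ?_⟩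
  · intro g w hw
    show ((rho g).map (algebraMap O L)).mulVec w = algebraMap O L (ψf g) • w
    have h1 := bW.sum_repr ⟨w, hw⟩
    rw [Fin.sum_univ_one] at h1
    have h2 : w = bW.repr ⟨w, hw⟩ 0 • coordMap O L r (bΛ 0 : Fin r → O) := by
      have h3 := congrArg Subtype.val h1
      rw [Submodule.coe_smul, hb 0] at h3
      exact h3.symm
    have h4 : ((rho g).map (algebraMap O L)).mulVec (coordMap O L r (bΛ 0 : Fin r → O))
        = algebraMap O L (ψf g) • coordMap O L r (bΛ 0 : Fin r → O) := by
      rw [← coordMap_mulVec]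
      have h5 := congrArg Subtype.val (hψ g)
      rw [latEnd_coe, Submodule.coe_smul] at h5
      rw [h5, map_smul, algebraMap_smul]
    rw [h2, Matrix.mulVec_smul, h4, smul_comm]
  · intro g I hI
    have h1 := latEnd_sub_mem (rho g) W (hstab g) I hI (bΛ 0)
    rw [hψ g] at h1
    have h2 : ψf g • bΛ 0 - bΛ 0 = (ψf g - 1) • bΛ 0 := by module
    rw [h2] at h1
    -- apply the coordinate functional
    let φ : lattice O W →ₗ[O] O := (Finsupp.lapply (0 : Fin 1)).comp bΛ.repr.toLinearMap
    have hφ : ∀ x ∈ I • (⊤ : Submodule O (lattice O W)), φ x ∈ I := by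
      intro x hx
      refine Submodule.smul_induction_on hx (fun a ha x _ => ?_) (fun x y hx hy => ?_)
      · rw [map_smul, smul_eq_mul]
        exact Ideal.mul_mem_right _ _ ha
      · rw [map_add]
        exact Ideal.add_mem _ hx hy
    have h3 := hφ _ h1
    have h4 : φ ((ψf g - 1) • bΛ 0) = ψf g - 1 := hrepr _
    show ψf g - 1 ∈ I
    rw [← h4]
    exact h3
  · intro g h1
    show ψf g = 1
    have h2 : latEnd (rho g) W (hstab g) = 1 := latEnd_eq_one _ W _ h1
    show bΛ.repr (latEnd (rho g) W (hstab g) (bΛ 0)) 0 = 1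
    rw [h2, Module.End.one_apply, Basis.repr_self, Finsupp.single_eq_same]

end Line

section Packaging

/-- Notation: the absolute Galois group of `ℚ`. -/
local notation "GQ" => (AlgebraicClosure ℚ ≃ₐ[ℚ] AlgebraicClosure ℚ)

variable {O : Type} [CommRing O] [IsDomain O] [IsPrincipalIdealRing O] [IsLocalRing O]
variable {L : Type*} [Field L] [Algebra O L] [FaithfulSMul O L]
variable {r : ℕ}

/-- The continuity hypothesis in matrix form: at every level `n` the matrices are `≡ 1`
modulo `𝔪^n` on the absolute Galois group of a number field. -/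
def MatrixAdicContinuous (rho : GQ →* Matrix (Fin r) (Fin r) O) : Prop :=
  ∀ n : ℕ, ∃ F : IntermediateField ℚ (AlgebraicClosure ℚ), FiniteDimensional ℚ F ∧
    ∀ σ : GQ, (∀ x ∈ F, σ x = x) → ∀ i j, (rho σ - 1) i j ∈ IsLocalRing.maximalIdeal O ^ n

/-- PACKAGING: a `G_ℚ`-stable 2-dimensional subspace `W` of `L^r`, defined over `O`, of a
matrix representation `rho : G_ℚ → M_r(O)` which is adically continuous, gives a
`GaloisRepAdic O` (on the saturated lattice `O^r ∩ W`) with the characteristic polynomials of
`rho` on `W`, and trivial wherever `rho` is trivial. -/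
theorem exists_galoisRepAdic_of_subspace (rho : GQ →* Matrix (Fin r) (Fin r) O)
    (W : Submodule L (Fin r → L)) (hW : DefinedOver O W) (hstab : ∀ g, StableUnder (rho g) W)
    (hdim : finrank L W = 2) (hcont : MatrixAdicContinuous rho) :
    ∃ ρ : GaloisRepAdic O,
      (∀ σ : GQ, (LinearMap.charpoly (ρ.ρ σ)).map (algebraMap O L)
        = (subEnd (rho σ) W (hstab σ)).charpoly) ∧
      (∀ σ : GQ, rho σ = 1 → ρ.ρ σ = 1) := by
  refine ⟨{ V := lattice O W
            finrank_eq := by rw [finrank_lattice W hW, hdim]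
            ρ := latRep rho W hstab
            isAdicContinuous := ?_ }, ?_, ?_⟩
  · intro n
    obtain ⟨F, hF, h⟩ := hcont n
    refine ⟨F, hF, fun σ hσ v => ?_⟩
    exact latEnd_sub_mem (rho σ) W (hstab σ) _ (h σ hσ) v
  · intro σ
    exact charpoly_latEnd (rho σ) W hW (hstab σ)
  · intro σ h1
    exact latEnd_eq_one (rho σ) W (hstab σ) h1

/-- Variant: the characteristic polynomial itself, when the one on `W` is known to come from
`O[X]`. -/
theorem charpoly_eq_of_map_eq {V : Type*} [AddCommGroup V] [Module O V] [Module.Free O V]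
    [Module.Finite O V] (f : Module.End O V) (P : O[X]) {Q : L[X]}
    (h1 : f.charpoly.map (algebraMap O L) = Q) (h2 : P.map (algebraMap O L) = Q) :
    f.charpoly = P :=
  Polynomial.map_injective _ (FaithfulSMul.algebraMap_injective O L) (h1.trans h2.symm)

/-- Unramifiedness is inherited. -/
theorem isUnramifiedAt_of_forall (ρ : GaloisRepAdic O) (rho : GQ →* Matrix (Fin r) (Fin r) O)
    (h : ∀ σ : GQ, rho σ = 1 → ρ.ρ σ = 1) (q : ℕ)
    (hq : ∀ P : ValuationSubring (AlgebraicClosure ℚ), P.LiesOverPrime q →
      ∀ σ ∈ P.inertiaSubgroupIn ℚ, rho σ = 1) : ρ.IsUnramifiedAt q :=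
  fun P hP σ hσ => h σ (hq P hP σ hσ)

end Packaging

section Characters

/-- Notation: the absolute Galois group of `ℚ`. -/
local notation "GQ" => (AlgebraicClosure ℚ ≃ₐ[ℚ] AlgebraicClosure ℚ)

variable {O : Type} [CommRing O] [IsLocalRing O]

/-- Adic continuity of an `O`-valued character. -/
def CharacterAdicContinuous (ψ : GQ →* O) : Prop :=
  ∀ n : ℕ, ∃ F : IntermediateField ℚ (AlgebraicClosure ℚ), FiniteDimensional ℚ F ∧
    ∀ σ : GQ, (∀ x ∈ F, σ x = x) → ψ σ - 1 ∈ IsLocalRing.maximalIdeal O ^ n

/-- The diagonal representation `ψ₁ ⊕ ψ₂` as a `GaloisRepAdic`. -/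
theorem exists_galoisRepAdic_of_characters (ψ₁ ψ₂ : GQ →* O)
    (h₁ : CharacterAdicContinuous ψ₁) (h₂ : CharacterAdicContinuous ψ₂) :
    ∃ ρ : GaloisRepAdic O,
      (∀ σ : GQ, LinearMap.charpoly (ρ.ρ σ)
        = X ^ 2 - C (ψ₁ σ + ψ₂ σ) * X + C (ψ₁ σ * ψ₂ σ)) ∧
      (∀ σ : GQ, ψ₁ σ = 1 → ψ₂ σ = 1 → ρ.ρ σ = 1) := by
  classical
  let D : GQ → Matrix (Fin 2) (Fin 2) O := fun σ => Matrix.diagonal ![ψ₁ σ, ψ₂ σ]
  have hD1 : D 1 = 1 := by
    have : (![ψ₁ 1, ψ₂ 1] : Fin 2 → O) = 1 := by
      ext i; fin_cases i <;> simp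
    show Matrix.diagonal ![ψ₁ 1, ψ₂ 1] = 1
    rw [this]
    exact Matrix.diagonal_one
  have hDmul : ∀ σ τ, D (σ * τ) = D σ * D τ := by
    intro σ τ
    show Matrix.diagonal ![ψ₁ (σ * τ), ψ₂ (σ * τ)]
      = Matrix.diagonal ![ψ₁ σ, ψ₂ σ] * Matrix.diagonal ![ψ₁ τ, ψ₂ τ]
    rw [Matrix.diagonal_mul_diagonal]
    congr 1
    ext i; fin_cases i <;> simp
  let ρf : GQ →* Module.End O (Fin 2 → O) :=
    { toFun := fun σ => (D σ).toLin'
      map_one' := by rw [hD1, Matrix.toLin'_one]; rfl
      map_mul' := fun σ τ => by rw [hDmul, Matrix.toLin'_mul]; rfl }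
  have hρf : ∀ σ (v : Fin 2 → O) (i : Fin 2), ρf σ v i = ![ψ₁ σ, ψ₂ σ] i * v i := by
    intro σ v i
    show ((D σ).toLin' v) i = _
    rw [Matrix.toLin'_apply]
    show (Matrix.diagonal ![ψ₁ σ, ψ₂ σ]).mulVec v i = _
    rw [Matrix.mulVec_diagonal]
  refine ⟨{ V := Fin 2 → O
            finrank_eq := by simp
            ρ := ρf
            isAdicContinuous := ?_ }, ?_, ?_⟩
  · intro n
    obtain ⟨F₁, hF₁, hc₁⟩ := h₁ n
    obtain ⟨F₂, hF₂, hc₂⟩ := h₂ n
    refine ⟨F₁ ⊔ F₂, IntermediateField.finiteDimensional_sup F₁ F₂, fun σ hσ v => ?_⟩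
    have hm₁ := hc₁ σ (fun x hx => hσ x ((le_sup_left : F₁ ≤ F₁ ⊔ F₂) hx))
    have hm₂ := hc₂ σ (fun x hx => hσ x ((le_sup_right : F₂ ≤ F₁ ⊔ F₂) hx))
    have hd : ∀ i : Fin 2, ![ψ₁ σ, ψ₂ σ] i - 1 ∈ IsLocalRing.maximalIdeal O ^ n := by
      intro i; fin_cases i
      · simpa using hm₁
      · simpa using hm₂
    have hv : ρf σ v - v = ∑ i : Fin 2, ((![ψ₁ σ, ψ₂ σ] i - 1) * v i) • (Pi.single i (1 : O)) := by
      funext j
      rw [Pi.sub_apply, hρf, Finset.sum_apply]
      simp only [Pi.smul_apply, smul_eq_mul, Pi.single_apply, mul_ite, mul_one, mul_zero]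
      rw [Finset.sum_ite_eq]
      simp only [Finset.mem_univ, if_true]
      ring
    rw [hv]
    exact Submodule.sum_mem _ fun i _ =>
      Submodule.smul_mem_smul (Ideal.mul_mem_right _ _ (hd i)) Submodule.mem_top
  · intro σ
    show LinearMap.charpoly ((D σ).toLin') = _
    rw [Matrix.charpoly_toLin', Matrix.charpoly_fin_two]
    show X ^ 2 - C (Matrix.diagonal ![ψ₁ σ, ψ₂ σ]).trace * X
      + C (Matrix.diagonal ![ψ₁ σ, ψ₂ σ]).det = _
    rw [Matrix.trace_diagonal, Matrix.det_diagonal, Fin.sum_univ_two, Fin.prod_univ_two]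
    simp
  · intro σ h1 h2
    show (D σ).toLin' = 1
    have : D σ = 1 := by
      show Matrix.diagonal ![ψ₁ σ, ψ₂ σ] = 1
      rw [h1, h2]
      have : (![(1 : O), 1] : Fin 2 → O) = 1 := by
        ext i; fin_cases i <;> simp
      rw [this]
      exact Matrix.diagonal_one
    rw [this, Matrix.toLin'_one]; rfl

end Characters

end Fermat.Agent.S30.helper5273
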