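import Fermat.Prelude.Def_CuspForm_HeckeGaloisRepDatum

/-!
# S30, statement-facing end (helper5891)

The frozen statement S30 asks, for a ring homomorphism `χ` from the anemic Hecke algebra to a
complete discrete valuation ring `𝒪'`, for a finite extension `𝒪''` of `𝒪'` of the same kind
and a `GaloisRepAdic 𝒪''` with prescribed characteristic polynomials at Frobenius lifts and
trivial inertia at the primes `q ∤ N p`.

This file contains the statement-facing packaging, with no geometry and no arithmetic: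

* `Concl p N S 𝒪' χ` : the conclusion of the frozen statement, verbatim, as a `Prop`;
* `Datum p N S χ 𝒪''` : an abstract rank-two lattice with an action of the absolute Galois
  group having the three local properties (adic continuity, Frobenius, inertia);
* `concl_of_datum` : a datum over any admissible `𝒪''` gives `Concl`;
* constructors of data from weaker / differently shaped inputs:
  `Datum.ofSubmodule` (a stable rank-two submodule of a bigger module),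
  `charpoly_eq_of_sq_of_det` (quadratic relation + determinant ⇒ characteristic polynomial),
  `adicContinuous_of_pow` (continuity with respect to powers of an element of the maximal
  ideal, e.g. `p`), `adicContinuous_restrict` (continuity passes to a saturated stable
  submodule).
-/

set_option autoImplicit false

open Polynomial

namespace Fermat.Agent.S30.helper5891

/-- The absolute Galois group of `ℚ`. -/
abbrev GQ : Type := AlgebraicClosure ℚ ≃ₐ[ℚ] AlgebraicClosure ℚ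

/-! ## The conclusion of the frozen statement -/

/-- The conclusion of the frozen statement S30 for fixed `p`, `N`, `S`, `𝒪'`, `χ`
(verbatim). -/
def Concl (p N : ℕ) [NeZero N] (S : Finset ℕ) (𝒪' : Type) [CommRing 𝒪']
    (χ : CuspForm.heckeAlgebra N 2 (↑S : Set ℕ) →+* 𝒪') : Prop :=
  ∃ (𝒪'' : Type) (_ : CommRing 𝒪'') (_ : IsDomain 𝒪'') (_ : IsDiscreteValuationRing 𝒪'')
    (_ : IsAdicComplete (IsLocalRing.maximalIdeal 𝒪'') 𝒪'')
    (_ : Finite (IsLocalRing.ResidueField 𝒪'')) (_ : CharZero 𝒪'')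
    (_ : Algebra 𝒪' 𝒪'') (_ : Module.Finite 𝒪' 𝒪'') (_ : IsLocalHom (algebraMap 𝒪' 𝒪'')),
  Function.Injective (algebraMap 𝒪' 𝒪'') ∧
  ∃ ρ : GaloisRepAdic 𝒪'',
    (∀ (ℓ : ℕ) (hℓ : ℓ.Prime) (hℓN : ¬ ℓ ∣ N) (hℓS : ℓ ∉ (↑S : Set ℕ)),
      ∀ A : ValuationSubring (AlgebraicClosure ℚ), A.LiesOverPrime ℓ →
        ∀ σ : AlgebraicClosure ℚ ≃ₐ[ℚ] AlgebraicClosure ℚ, A.IsFrobeniusAt σ ℓ →
          LinearMap.charpoly (ρ.ρ σ) =
            X ^ 2 - C (algebraMap 𝒪' 𝒪'' (χ (CuspForm.heckeAlgebra.T hℓ hℓN hℓS))) * X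
              + C ((ℓ : 𝒪''))) ∧
    (∀ q : ℕ, q.Prime → ¬ q ∣ N → q ≠ p → ρ.IsUnramifiedAt q)

/-! ## Linear algebra in rank two -/

section RankTwo

variable {R : Type*} [CommRing R] [IsDomain R] {V : Type*} [AddCommGroup V] [Module R V]
  [Module.Free R V] [Module.Finite R V]

/-- In rank two over a domain: an endomorphism with `f² - t f + d = 0`, `det f = d ≠ 0` has
characteristic polynomial `X² - t X + d`. -/
theorem charpoly_eq_of_sq_of_det (hV : Module.finrank R V = 2) (f : Module.End R V) (t d : R)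
    (hd : d ≠ 0) (hq : f * f - t • f + d • (1 : Module.End R V) = 0)
    (hdet : LinearMap.det f = d) :
    f.charpoly = X ^ 2 - C t * X + C d := by
  classical
  let b : Module.Basis (Fin 2) R V := Module.finBasisOfFinrankEq R V hV
  set M : Matrix (Fin 2) (Fin 2) R := LinearMap.toMatrix b b f with hM
  have hch : f.charpoly = M.charpoly := (LinearMap.charpoly_toMatrix f b).symm
  have hMdet : M.det = d := by rw [hM, LinearMap.det_toMatrix]; exact hdet
  have hCH : M * M - M.trace • M + M.det • (1 : Matrix (Fin 2) (Fin 2) R) = 0 := by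
    have h := Matrix.aeval_self_charpoly M
    rw [Matrix.charpoly_fin_two] at h
    simp only [map_sub, map_add, map_mul, map_pow, aeval_X, aeval_C,
      Algebra.algebraMap_eq_smul_one, smul_mul_assoc, one_mul] at h
    rw [pow_two] at h
    exact h
  have hq' : M * M - t • M + d • (1 : Matrix (Fin 2) (Fin 2) R) = 0 := by
    have h := congrArg (LinearMap.toMatrix b b) hq
    simpa [LinearMap.toMatrix_mul, hM, Module.End.one_eq_id] using h
  have hsub : (t - M.trace) • M = 0 := by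
    have : (t - M.trace) • M = (M * M - M.trace • M + M.det • (1 : Matrix (Fin 2) (Fin 2) R))
        - (M * M - t • M + d • (1 : Matrix (Fin 2) (Fin 2) R)) := by
      rw [hMdet, sub_smul]; abel
    rw [this, hCH, hq', sub_zero]
  have hM0 : M ≠ 0 := by
    intro h
    rw [h] at hMdet
    simp at hMdet
    exact hd hMdet.symm
  have ht : t = M.trace := by
    rcases smul_eq_zero.mp hsub with h | h
    · exact sub_eq_zero.mp h
    · exact absurd h hM0
  rw [hch, Matrix.charpoly_fin_two, ← ht, hMdet]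

end RankTwo

/-! ## Adic continuity: adapters -/

section Continuity

variable {A : Type} [CommRing A] [IsLocalRing A]

/-- Continuity with respect to the powers of an element `π` of the maximal ideal (for instance
`π = p`) implies `GaloisActionIsAdicContinuous`. -/
theorem adicContinuous_of_pow {V : Type} [AddCommGroup V] [Module A V]
    (ρ : GQ →* Module.End A V) (π : A) (hπ : π ∈ IsLocalRing.maximalIdeal A)
    (h : ∀ n : ℕ, ∃ L : IntermediateField ℚ (AlgebraicClosure ℚ), FiniteDimensional ℚ L ∧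
      ∀ σ : GQ, (∀ x ∈ L, σ x = x) → ∀ v : V, ∃ w : V, ρ σ v - v = π ^ n • w) :
    GaloisActionIsAdicContinuous A ρ := by
  intro n
  obtain ⟨L, hL, hσ⟩ := h n
  refine ⟨L, hL, fun σ hσL v => ?_⟩
  obtain ⟨w, hw⟩ := hσ σ hσL v
  rw [hw]
  exact Submodule.smul_mem_smul (Ideal.pow_mem_pow hπ n) Submodule.mem_top

/-- The restriction of an endomorphism-valued action to a stable submodule. -/
noncomputable def restrictHom {V : Type} [AddCommGroup V] [Module A V] (ρ : GQ →* Module.End A V)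
    (Λ : Submodule A V) (hΛ : ∀ σ : GQ, ∀ v ∈ Λ, ρ σ v ∈ Λ) : GQ →* Module.End A Λ where
  toFun σ := (ρ σ).restrict (hΛ σ)
  map_one' := by
    ext v
    simp
  map_mul' σ τ := by
    ext v
    simp [LinearMap.restrict_apply]

omit [IsLocalRing A] in
@[simp]
theorem restrictHom_apply_coe {V : Type} [AddCommGroup V] [Module A V] (ρ : GQ →* Module.End A V)
    (Λ : Submodule A V) (hΛ : ∀ σ : GQ, ∀ v ∈ Λ, ρ σ v ∈ Λ) (σ : GQ) (v : Λ) :
    ((restrictHom ρ Λ hΛ σ v : Λ) : V) = ρ σ v := rfl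

/-- Adic continuity passes to a stable submodule `Λ` which is adically saturated:
`𝔪ⁿ V ∩ Λ ⊆ 𝔪ⁿ Λ` for all `n`. -/
theorem adicContinuous_restrict {V : Type} [AddCommGroup V] [Module A V]
    (ρ : GQ →* Module.End A V) (hρ : GaloisActionIsAdicContinuous A ρ)
    (Λ : Submodule A V) (hΛ : ∀ σ : GQ, ∀ v ∈ Λ, ρ σ v ∈ Λ)
    (hsat : ∀ n : ℕ, ∀ v : Λ,
      (v : V) ∈ (IsLocalRing.maximalIdeal A ^ n) • (⊤ : Submodule A V) →
        v ∈ (IsLocalRing.maximalIdeal A ^ n) • (⊤ : Submodule A Λ)) :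
    GaloisActionIsAdicContinuous A (restrictHom ρ Λ hΛ) := by
  intro n
  obtain ⟨L, hL, hσ⟩ := hρ n
  refine ⟨L, hL, fun σ hσL v => hsat n _ ?_⟩
  simpa using hσ σ hσL (v : V)

end Continuity

/-- The saturation hypothesis of `adicContinuous_restrict` for a discrete valuation ring:
it holds as soon as `a • v ∈ Λ`, `a ≠ 0` implies `v ∈ Λ`. -/
theorem saturated_pow_of_torsionFree {A : Type} [CommRing A] [IsDomain A]
    [IsDiscreteValuationRing A] {V : Type} [AddCommGroup V] [Module A V] (Λ : Submodule A V)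
    (hsat : ∀ (a : A) (v : V), a ≠ 0 → a • v ∈ Λ → v ∈ Λ) (n : ℕ) (v : Λ)
    (hv : (v : V) ∈ (IsLocalRing.maximalIdeal A ^ n) • (⊤ : Submodule A V)) :
    v ∈ (IsLocalRing.maximalIdeal A ^ n) • (⊤ : Submodule A Λ) := by
  obtain ⟨ϖ, hϖ⟩ := IsDiscreteValuationRing.exists_irreducible A
  have hm : IsLocalRing.maximalIdeal A ^ n = Ideal.span {ϖ ^ n} := by
    rw [hϖ.maximalIdeal_eq, Ideal.span_singleton_pow]
  rw [hm, Submodule.ideal_span_singleton_smul] at hv ⊢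
  obtain ⟨w, -, hw⟩ := hv
  have hw' : ϖ ^ n • w = (v : V) := hw
  have hwΛ : w ∈ Λ := hsat (ϖ ^ n) w (pow_ne_zero n hϖ.ne_zero) (by rw [hw']; exact v.2)
  refine ⟨⟨w, hwΛ⟩, Submodule.mem_top, ?_⟩
  exact Subtype.ext hw'


/-! ## Abstract lattice data -/

/-- An abstract rank-two lattice over `𝒪''` with an action of the absolute Galois group having
the three local properties required by the frozen statement S30. -/
structure Datum (p N : ℕ) [NeZero N] (S : Finset ℕ) {𝒪' : Type} [CommRing 𝒪']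
    (χ : CuspForm.heckeAlgebra N 2 (↑S : Set ℕ) →+* 𝒪')
    (𝒪'' : Type) [CommRing 𝒪''] [IsLocalRing 𝒪''] [Algebra 𝒪' 𝒪''] : Type 1 where
  /-- the lattice -/
  L : Type
  [instAddCommGroup : AddCommGroup L]
  [instModule : Module 𝒪'' L]
  [instFree : Module.Free 𝒪'' L]
  [instFinite : Module.Finite 𝒪'' L]
  finrank_eq : Module.finrank 𝒪'' L = 2
  /-- the Galois action -/
  ρ : GQ →* Module.End 𝒪'' L
  cont : GaloisActionIsAdicContinuous 𝒪'' ρ
  frob : ∀ (ℓ : ℕ) (hℓ : ℓ.Prime) (hℓN : ¬ ℓ ∣ N) (hℓS : ℓ ∉ (↑S : Set ℕ)),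
    ∀ A : ValuationSubring (AlgebraicClosure ℚ), A.LiesOverPrime ℓ →
      ∀ σ : GQ, A.IsFrobeniusAt σ ℓ →
        LinearMap.charpoly (ρ σ) =
          X ^ 2 - C (algebraMap 𝒪' 𝒪'' (χ (CuspForm.heckeAlgebra.T hℓ hℓN hℓS))) * X
            + C ((ℓ : 𝒪''))
  unr : ∀ q : ℕ, q.Prime → ¬ q ∣ N → q ≠ p →
    ∀ P : ValuationSubring (AlgebraicClosure ℚ), P.LiesOverPrime q →
      ∀ σ ∈ P.inertiaSubgroupIn ℚ, ρ σ = 1

attribute [instance] Datum.instAddCommGroup Datum.instModule Datum.instFree Datum.instFinite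

section Packaging

variable {p N : ℕ} [NeZero N] {S : Finset ℕ} {𝒪' : Type} [CommRing 𝒪']
  {χ : CuspForm.heckeAlgebra N 2 (↑S : Set ℕ) →+* 𝒪'}

/-- The `GaloisRepAdic` of a datum. -/
def Datum.toGaloisRepAdic {𝒪'' : Type} [CommRing 𝒪''] [IsLocalRing 𝒪''] [Algebra 𝒪' 𝒪'']
    (D : Datum p N S χ 𝒪'') : GaloisRepAdic 𝒪'' where
  V := D.L
  finrank_eq := D.finrank_eq
  ρ := D.ρ
  isAdicContinuous := D.cont

/-- **Statement-facing end of S30**: a lattice datum over an admissible extension `𝒪''` of `𝒪'`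
gives the conclusion of the frozen statement. -/
theorem concl_of_datum (𝒪'' : Type) [CommRing 𝒪''] [IsDomain 𝒪''] [IsDiscreteValuationRing 𝒪'']
    [IsAdicComplete (IsLocalRing.maximalIdeal 𝒪'') 𝒪''] [Finite (IsLocalRing.ResidueField 𝒪'')]
    [CharZero 𝒪''] [Algebra 𝒪' 𝒪''] [Module.Finite 𝒪' 𝒪''] [IsLocalHom (algebraMap 𝒪' 𝒪'')]
    (hinj : Function.Injective (algebraMap 𝒪' 𝒪'')) (D : Datum p N S χ 𝒪'') :
    Concl p N S 𝒪' χ :=
  ⟨𝒪'', inferInstance, inferInstance, inferInstance, inferInstance, inferInstance, inferInstance,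
    inferInstance, inferInstance, inferInstance, hinj, D.toGaloisRepAdic, D.frob, D.unr⟩

/-- The same with the admissible extension given in the existential shape produced by the
"finite extension of a complete DVR" bricks. -/
theorem concl_of_exists_datum
    (h : ∃ (𝒪'' : Type) (_ : CommRing 𝒪'') (_ : IsDomain 𝒪'') (_ : IsDiscreteValuationRing 𝒪'')
      (_ : IsAdicComplete (IsLocalRing.maximalIdeal 𝒪'') 𝒪'')
      (_ : Finite (IsLocalRing.ResidueField 𝒪'')) (_ : CharZero 𝒪'')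
      (_ : Algebra 𝒪' 𝒪'') (_ : Module.Finite 𝒪' 𝒪'') (_ : IsLocalHom (algebraMap 𝒪' 𝒪'')),
      Function.Injective (algebraMap 𝒪' 𝒪'') ∧ Nonempty (Datum p N S χ 𝒪'')) :
    Concl p N S 𝒪' χ := by
  obtain ⟨𝒪'', _, _, _, _, _, _, _, _, _, hinj, ⟨D⟩⟩ := h
  exact concl_of_datum 𝒪'' hinj D

/-- A datum from a stable, saturated, free rank-two submodule `Λ` of a module `V` with an
adically continuous action: the three local properties may be checked on `Λ` (Frobenius) and on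
`V` or `Λ` (inertia). -/
noncomputable def Datum.ofSubmodule {𝒪'' : Type} [CommRing 𝒪''] [IsDomain 𝒪'']
    [IsDiscreteValuationRing 𝒪''] [Algebra 𝒪' 𝒪'']
    {V : Type} [AddCommGroup V] [Module 𝒪'' V] (ρ : GQ →* Module.End 𝒪'' V)
    (hρ : GaloisActionIsAdicContinuous 𝒪'' ρ)
    (Λ : Submodule 𝒪'' V) [Module.Free 𝒪'' Λ] [Module.Finite 𝒪'' Λ]
    (hrank : Module.finrank 𝒪'' Λ = 2)
    (hΛ : ∀ σ : GQ, ∀ v ∈ Λ, ρ σ v ∈ Λ)
    (hsat : ∀ (a : 𝒪'') (v : V), a ≠ 0 → a • v ∈ Λ → v ∈ Λ)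
    (hfrob : ∀ (ℓ : ℕ) (hℓ : ℓ.Prime) (hℓN : ¬ ℓ ∣ N) (hℓS : ℓ ∉ (↑S : Set ℕ)),
      ∀ A : ValuationSubring (AlgebraicClosure ℚ), A.LiesOverPrime ℓ →
        ∀ σ : GQ, A.IsFrobeniusAt σ ℓ →
          LinearMap.charpoly ((ρ σ).restrict (hΛ σ)) =
            X ^ 2 - C (algebraMap 𝒪' 𝒪'' (χ (CuspForm.heckeAlgebra.T hℓ hℓN hℓS))) * X
              + C ((ℓ : 𝒪'')))
    (hunr : ∀ q : ℕ, q.Prime → ¬ q ∣ N → q ≠ p →
      ∀ P : ValuationSubring (AlgebraicClosure ℚ), P.LiesOverPrime q →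
        ∀ σ ∈ P.inertiaSubgroupIn ℚ, ∀ v ∈ Λ, ρ σ v = v) :
    Datum p N S χ 𝒪'' where
  L := Λ
  finrank_eq := hrank
  ρ := restrictHom ρ Λ hΛ
  cont := adicContinuous_restrict ρ hρ Λ hΛ
    (fun n v hv => saturated_pow_of_torsionFree Λ hsat n v hv)
  frob := fun ℓ hℓ hℓN hℓS A hA σ hσ => hfrob ℓ hℓ hℓN hℓS A hA σ hσ
  unr := fun q hq hqN hqp P hP σ hσ => by
    ext v
    exact hunr q hq hqN hqp P hP σ hσ v v.2

/-- The diagonal action attached to two multiplicative characters. -/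
noncomputable def diagHom {R : Type} [CommRing R] (ψ₁ ψ₂ : GQ →* R) :
    GQ →* Module.End R (Fin 2 → R) where
  toFun σ := Matrix.toLin' (Matrix.diagonal ![ψ₁ σ, ψ₂ σ])
  map_one' := by
    have : (![ψ₁ 1, ψ₂ 1] : Fin 2 → R) = fun _ => 1 := by
      funext i; fin_cases i <;> simp
    rw [this, Matrix.diagonal_one, Matrix.toLin'_one]
    rfl
  map_mul' σ τ := by
    have : (![ψ₁ (σ * τ), ψ₂ (σ * τ)] : Fin 2 → R)
        = fun i => ![ψ₁ σ, ψ₂ σ] i * ![ψ₁ τ, ψ₂ τ] i := by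
      funext i; fin_cases i <;> simp
    rw [this, ← Matrix.diagonal_mul_diagonal, Matrix.toLin'_mul]
    rfl

theorem diagHom_apply {R : Type} [CommRing R] (ψ₁ ψ₂ : GQ →* R) (σ : GQ) (v : Fin 2 → R)
    (i : Fin 2) : diagHom ψ₁ ψ₂ σ v i = ![ψ₁ σ, ψ₂ σ] i * v i := by
  simp [diagHom, Matrix.toLin'_apply, Matrix.mulVec_diagonal]

theorem charpoly_diagHom {R : Type} [CommRing R] [Nontrivial R] (ψ₁ ψ₂ : GQ →* R) (σ : GQ) :
    LinearMap.charpoly (diagHom ψ₁ ψ₂ σ) = X ^ 2 - C (ψ₁ σ + ψ₂ σ) * X + C (ψ₁ σ * ψ₂ σ) := by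
  have h : LinearMap.charpoly (diagHom ψ₁ ψ₂ σ)
      = (Matrix.diagonal ![ψ₁ σ, ψ₂ σ]).charpoly := Matrix.charpoly_toLin' _
  rw [h, Matrix.charpoly_diagonal, Fin.prod_univ_two]
  simp only [Matrix.cons_val_zero, Matrix.cons_val_one, C_add, C_mul]
  ring

/-- The split (reducible) case: a datum from two characters `ψ₁, ψ₂` with values in `𝒪''`
which are adically continuous, trivial on the relevant inertia groups, and whose sum and
product at Frobenius lifts are `χ(T_ℓ)` and `ℓ`. -/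
noncomputable def Datum.ofCharacters {𝒪'' : Type} [CommRing 𝒪''] [IsLocalRing 𝒪'']
    [Algebra 𝒪' 𝒪''] (ψ₁ ψ₂ : GQ →* 𝒪'')
    (hcont : ∀ n : ℕ, ∃ L : IntermediateField ℚ (AlgebraicClosure ℚ), FiniteDimensional ℚ L ∧
      ∀ σ : GQ, (∀ x ∈ L, σ x = x) →
        ψ₁ σ - 1 ∈ IsLocalRing.maximalIdeal 𝒪'' ^ n ∧ ψ₂ σ - 1 ∈ IsLocalRing.maximalIdeal 𝒪'' ^ n)
    (hfrob : ∀ (ℓ : ℕ) (hℓ : ℓ.Prime) (hℓN : ¬ ℓ ∣ N) (hℓS : ℓ ∉ (↑S : Set ℕ)),
      ∀ A : ValuationSubring (AlgebraicClosure ℚ), A.LiesOverPrime ℓ →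
        ∀ σ : GQ, A.IsFrobeniusAt σ ℓ →
          ψ₁ σ + ψ₂ σ = algebraMap 𝒪' 𝒪'' (χ (CuspForm.heckeAlgebra.T hℓ hℓN hℓS)) ∧
          ψ₁ σ * ψ₂ σ = (ℓ : 𝒪''))
    (hunr : ∀ q : ℕ, q.Prime → ¬ q ∣ N → q ≠ p →
      ∀ P : ValuationSubring (AlgebraicClosure ℚ), P.LiesOverPrime q →
        ∀ σ ∈ P.inertiaSubgroupIn ℚ, ψ₁ σ = 1 ∧ ψ₂ σ = 1) :
    Datum p N S χ 𝒪'' where
  L := Fin 2 → 𝒪''
  finrank_eq := by simp
  ρ := diagHom ψ₁ ψ₂
  cont := by
    intro n
    obtain ⟨L, hL, hσ⟩ := hcont n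
    refine ⟨L, hL, fun σ hσL v => ?_⟩
    obtain ⟨h1, h2⟩ := hσ σ hσL
    have hv : diagHom ψ₁ ψ₂ σ v - v
        = (ψ₁ σ - 1) • (Pi.single 0 (v 0) : Fin 2 → 𝒪'')
          + (ψ₂ σ - 1) • (Pi.single 1 (v 1) : Fin 2 → 𝒪'') := by
      funext i
      fin_cases i <;> simp [diagHom_apply, sub_mul]
    rw [hv]
    exact Submodule.add_mem _ (Submodule.smul_mem_smul h1 Submodule.mem_top)
      (Submodule.smul_mem_smul h2 Submodule.mem_top)
  frob := fun ℓ hℓ hℓN hℓS A hA σ hσ => by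
    obtain ⟨hs, hp⟩ := hfrob ℓ hℓ hℓN hℓS A hA σ hσ
    rw [charpoly_diagHom, hs, hp]
  unr := fun q hq hqN hqp P hP σ hσ => by
    obtain ⟨h1, h2⟩ := hunr q hq hqN hqp P hP σ hσ
    refine LinearMap.ext fun v => funext fun i => ?_
    rw [diagHom_apply, h1, h2]
    fin_cases i <;> simp

end Packaging

/-! ## Rank two: Frobenius clause from a quadratic relation and the determinant -/

/-- The Frobenius clause of a datum from the quadratic relation `f² - t f + ℓ = 0` and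
`det f = ℓ` (rank two, characteristic zero). -/
theorem charpoly_eq_of_sq_of_det_natCast {R : Type*} [CommRing R] [IsDomain R] [CharZero R]
    {V : Type*} [AddCommGroup V] [Module R V] [Module.Free R V] [Module.Finite R V]
    (hV : Module.finrank R V = 2) (f : Module.End R V) (t : R) (ℓ : ℕ) (hℓ : ℓ ≠ 0)
    (hq : f * f - t • f + (ℓ : R) • (1 : Module.End R V) = 0)
    (hdet : LinearMap.det f = (ℓ : R)) :
    f.charpoly = X ^ 2 - C t * X + C (ℓ : R) :=
  charpoly_eq_of_sq_of_det hV f t (ℓ : R) (Nat.cast_ne_zero.mpr hℓ) hq hdet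

/-! ## The frozen statement from `Concl` -/

/-- The frozen statement S30 (verbatim type) from `Concl` for all admissible inputs: the
file `S30.lean` only has to supply `Concl p N S 𝒪' χ`. -/
theorem frozen_of_concl
    (h : ∀ (p : ℕ) [Fact p.Prime] (N : ℕ) [NeZero N] (S : Finset ℕ)
      (_hpS : p ∈ S) (_hNS : ∀ q : ℕ, q.Prime → q ∣ N → q ∈ S)
      (𝒪' : Type) [CommRing 𝒪'] [IsDomain 𝒪'] [IsDiscreteValuationRing 𝒪']
      [IsAdicComplete (IsLocalRing.maximalIdeal 𝒪') 𝒪'] [Finite (IsLocalRing.ResidueField 𝒪')]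
      [CharZero 𝒪'] (_hp𝒪' : (p : 𝒪') ∈ IsLocalRing.maximalIdeal 𝒪')
      (χ : CuspForm.heckeAlgebra N 2 (↑S : Set ℕ) →+* 𝒪'), Concl p N S 𝒪' χ) :
    ∀ (p : ℕ) [Fact p.Prime] (N : ℕ) [NeZero N] (S : Finset ℕ)
      (_hpS : p ∈ S) (_hNS : ∀ q : ℕ, q.Prime → q ∣ N → q ∈ S)
      (𝒪' : Type) [CommRing 𝒪'] [IsDomain 𝒪'] [IsDiscreteValuationRing 𝒪']
      [IsAdicComplete (IsLocalRing.maximalIdeal 𝒪') 𝒪'] [Finite (IsLocalRing.ResidueField 𝒪')]
      [CharZero 𝒪'] (_hp𝒪' : (p : 𝒪') ∈ IsLocalRing.maximalIdeal 𝒪')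
      (χ : CuspForm.heckeAlgebra N 2 (↑S : Set ℕ) →+* 𝒪'),
      ∃ (𝒪'' : Type) (_ : CommRing 𝒪'') (_ : IsDomain 𝒪'') (_ : IsDiscreteValuationRing 𝒪'')
        (_ : IsAdicComplete (IsLocalRing.maximalIdeal 𝒪'') 𝒪'')
        (_ : Finite (IsLocalRing.ResidueField 𝒪'')) (_ : CharZero 𝒪'')
        (_ : Algebra 𝒪' 𝒪'') (_ : Module.Finite 𝒪' 𝒪'') (_ : IsLocalHom (algebraMap 𝒪' 𝒪'')),
      Function.Injective (algebraMap 𝒪' 𝒪'') ∧
      ∃ ρ : GaloisRepAdic 𝒪'',
        (∀ (ℓ : ℕ) (hℓ : ℓ.Prime) (hℓN : ¬ ℓ ∣ N) (hℓS : ℓ ∉ (↑S : Set ℕ)),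
          ∀ A : ValuationSubring (AlgebraicClosure ℚ), A.LiesOverPrime ℓ →
            ∀ σ : AlgebraicClosure ℚ ≃ₐ[ℚ] AlgebraicClosure ℚ, A.IsFrobeniusAt σ ℓ →
              LinearMap.charpoly (ρ.ρ σ) =
                X ^ 2 - C (algebraMap 𝒪' 𝒪'' (χ (CuspForm.heckeAlgebra.T hℓ hℓN hℓS))) * X
                  + C ((ℓ : 𝒪''))) ∧
        (∀ q : ℕ, q.Prime → ¬ q ∣ N → q ≠ p → ρ.IsUnramifiedAt q) :=
  h


end Fermat.Agent.S30.helper5891
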