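/-
helper6068 — S30: the ODD dimension-two lemma (findings #2470).

`K` is ANY field with `2 ≠ 0` (no algebraic closedness), `rho : G →* End_K V` a nonzero
representation, `eps : G →* Kˣ` a character, `c : G` an "odd involution" (`c * c = 1`,
`eps c = -1`; complex conjugation in the application) and every `rho g` satisfies SOME
quadratic relation `rho g ^ 2 - t • rho g + eps g = 0`.

Then there is a `G`-stable subspace `W` of dimension `1` or `2`; in dimension `2` the
characteristic polynomial of `rho g` on `W` is `X ^ 2 - t X + eps g` for EVERY relation `(g, t)`,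
in dimension `1` the group acts through a character `psi` with `psi ^ 2 - t psi + eps = 0`.

Consequence for S30: the `χ`-eigenspace of `K' ⊗ T` is `K'`-rational, so the representation can be
realised over `𝒪'` itself: no finite extension `𝒪''` of the complete DVR `𝒪'`, no algebraic
closure, no field of definition and no irreducible constituent are needed.

Mathlib only.
-/
import Mathlib

set_option autoImplicit false

namespace Fermat.Agent.S30.helper6068

open Polynomial

/-! ## Two-by-two matrices -/

section TwoByTwo

variable {K : Type*} [Field K]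

/-- Cayley–Hamilton for `2 × 2` matrices, in explicit form. -/
theorem cayley_hamilton_two (M : Matrix (Fin 2) (Fin 2) K) :
    M * M - M.trace • M + M.det • (1 : Matrix (Fin 2) (Fin 2) K) = 0 := by
  ext i j
  fin_cases i <;> fin_cases j <;>
    simp [Matrix.mul_apply, Fin.sum_univ_two, Matrix.trace_fin_two, Matrix.det_fin_two] <;> ring

/-- A non-scalar `2 × 2` matrix killed by `X ^ 2 - t X + e` has trace `t` and determinant `e`. -/
theorem trace_det_of_not_scalar (M : Matrix (Fin 2) (Fin 2) K) (t e : K)
    (h : M * M - t • M + e • (1 : Matrix (Fin 2) (Fin 2) K) = 0)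
    (hns : ∀ r : K, M ≠ r • (1 : Matrix (Fin 2) (Fin 2) K)) :
    M.trace = t ∧ M.det = e := by
  have hCH := cayley_hamilton_two M
  have hdiff : (M.trace - t) • M = (M.det - e) • (1 : Matrix (Fin 2) (Fin 2) K) := by
    have h1 : (M.trace - t) • M - (M.det - e) • (1 : Matrix (Fin 2) (Fin 2) K)
        = (M * M - t • M + e • (1 : Matrix (Fin 2) (Fin 2) K))
          - (M * M - M.trace • M + M.det • (1 : Matrix (Fin 2) (Fin 2) K)) := by
      simp only [sub_smul]; abel
    rw [h, hCH, sub_zero] at h1
    exact sub_eq_zero.mp h1
  have htr : M.trace = t := by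
    by_contra hne
    have hne' : M.trace - t ≠ 0 := sub_ne_zero.mpr hne
    apply hns ((M.trace - t)⁻¹ * (M.det - e))
    calc M = (M.trace - t)⁻¹ • ((M.trace - t) • M) := by
          rw [smul_smul, inv_mul_cancel₀ hne', one_smul]
      _ = ((M.trace - t)⁻¹ * (M.det - e)) • (1 : Matrix (Fin 2) (Fin 2) K) := by
          rw [hdiff, smul_smul]
  refine ⟨htr, ?_⟩
  rw [htr, sub_self, zero_smul] at hdiff
  have h00 := congrFun (congrFun hdiff 0) 0
  simp at h00
  exact (sub_eq_zero.mp h00.symm)

/-- The characteristic polynomial of a non-scalar `2 × 2` matrix killed by `X ^ 2 - t X + e`. -/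
theorem charpoly_of_not_scalar (M : Matrix (Fin 2) (Fin 2) K) (t e : K)
    (h : M * M - t • M + e • (1 : Matrix (Fin 2) (Fin 2) K) = 0)
    (hns : ∀ r : K, M ≠ r • (1 : Matrix (Fin 2) (Fin 2) K)) :
    M.charpoly = X ^ 2 - C t * X + C e := by
  obtain ⟨h1, h2⟩ := trace_det_of_not_scalar M t e h hns
  rw [Matrix.charpoly_fin_two, h1, h2]

/-- The characteristic polynomial of a scalar `2 × 2` matrix. -/
theorem charpoly_scalar_two (a : K) :
    (a • (1 : Matrix (Fin 2) (Fin 2) K)).charpoly = X ^ 2 - C (2 * a) * X + C (a * a) := by
  rw [Matrix.charpoly_fin_two]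
  congr 2
  · simp; ring
  · simp; ring

end TwoByTwo

/-! ## The eigenvector computation -/

section Core

variable {K : Type*} [Field K] {G : Type*} [Group G] {V : Type*} [AddCommGroup V] [Module K V]

theorem rho_inv_apply (rho : G →* Module.End K V) (g : G) (x : V) :
    rho g⁻¹ (rho g x) = x := by
  rw [← Module.End.mul_apply, ← map_mul, inv_mul_cancel, map_one, Module.End.one_apply]

theorem rho_sq_apply (rho : G →* Module.End K V) {c : G} (hc : c * c = 1) (x : V) :
    rho c (rho c x) = x := by
  rw [← Module.End.mul_apply, ← map_mul, hc, map_one, Module.End.one_apply]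

/-- The key computation: if `w` is an eigenvector of the odd involution `c` with eigenvalue `s`,
then `c + s` maps every `g w` into the line `K w`. -/
theorem eigen_step (rho : G →* Module.End K V) (eps : G →* Kˣ) (c : G) (hc : c * c = 1)
    (hepsc : eps c = -1)
    (hquad : ∀ g, ∃ t : K, rho g * rho g - t • rho g + (eps g : K) • (1 : Module.End K V) = 0)
    {w : V} {s : K} (hw : rho c w = s • w) (g : G) :
    ∃ a : K, rho c (rho g w) + s • rho g w = a • w := by
  obtain ⟨t, ht⟩ := hquad g
  obtain ⟨t', ht'⟩ := hquad (g * c)
  refine ⟨t' + t * s, ?_⟩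
  have heps : ((eps g * eps c : Kˣ) : K) = -(eps g : K) := by
    rw [hepsc]; simp
  -- the relation at `g c`, applied to `c w`
  have e1 : rho g (rho c (rho g w)) - t' • rho g w - ((eps g : K) * s) • w = 0 := by
    have h := congrArg (fun f : Module.End K V => f (rho c w)) ht'
    simp only [LinearMap.add_apply, LinearMap.sub_apply, LinearMap.smul_apply,
      Module.End.mul_apply, Module.End.one_apply, LinearMap.zero_apply, map_mul] at h
    rw [rho_sq_apply rho hc, heps, hw] at h
    rw [← h]
    simp only [smul_smul]
    module
  -- the relation at `g`, applied to `w`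
  have e2 : rho g (rho g w) - t • rho g w + (eps g : K) • w = 0 := by
    have h := congrArg (fun f : Module.End K V => f w) ht
    simpa only [LinearMap.add_apply, LinearMap.sub_apply, LinearMap.smul_apply,
      Module.End.mul_apply, Module.End.one_apply, LinearMap.zero_apply] using h
  -- `rho g` is injective
  have hinj : Function.Injective (rho g) :=
    Function.LeftInverse.injective (rho_inv_apply rho g)
  apply hinj
  rw [map_add, map_smul, map_smul]
  linear_combination (norm := module) e1 + s • e2

/-- The cyclic subspace generated by `w`. -/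
def orbitSpan (rho : G →* Module.End K V) (w : V) : Submodule K V :=
  Submodule.span K (Set.range fun g : G => rho g w)

theorem mem_orbitSpan_self (rho : G →* Module.End K V) (w : V) : w ∈ orbitSpan rho w :=
  Submodule.subset_span ⟨1, by simp⟩

theorem orbitSpan_stable (rho : G →* Module.End K V) (w : V) (h : G) {x : V}
    (hx : x ∈ orbitSpan rho w) : rho h x ∈ orbitSpan rho w := by
  unfold orbitSpan at hx ⊢
  induction hx using Submodule.span_induction with
  | mem x hx =>
    obtain ⟨g, rfl⟩ := hx
    exact Submodule.subset_span ⟨h * g, by simp [map_mul]⟩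
  | zero => simp
  | add x y _ _ hx hy => rw [map_add]; exact Submodule.add_mem _ hx hy
  | smul a x _ hx => rw [map_smul]; exact Submodule.smul_mem _ _ hx

theorem orbitSpan_le (rho : G →* Module.End K V) {w : V} {W : Submodule K V}
    (hW : ∀ g, ∀ x ∈ W, rho g x ∈ W) (hw : w ∈ W) : orbitSpan rho w ≤ W :=
  Submodule.span_le.mpr (by rintro _ ⟨g, rfl⟩; exact hW g w hw)

theorem orbitSpan_eigen (rho : G →* Module.End K V) (eps : G →* Kˣ) (c : G) (hc : c * c = 1)
    (hepsc : eps c = -1)
    (hquad : ∀ g, ∃ t : K, rho g * rho g - t • rho g + (eps g : K) • (1 : Module.End K V) = 0)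
    {w : V} {s : K} (hw : rho c w = s • w) {x : V} (hx : x ∈ orbitSpan rho w) :
    ∃ a : K, rho c x + s • x = a • w := by
  unfold orbitSpan at hx
  induction hx using Submodule.span_induction with
  | mem x hx =>
    obtain ⟨g, rfl⟩ := hx
    exact eigen_step rho eps c hc hepsc hquad hw g
  | zero => exact ⟨0, by simp⟩
  | add x y _ _ hx hy =>
    obtain ⟨a, ha⟩ := hx
    obtain ⟨b, hb⟩ := hy
    exact ⟨a + b, by rw [map_add, smul_add, add_smul, ← ha, ← hb]; abel⟩
  | smul r x _ hx =>
    obtain ⟨a, ha⟩ := hx
    exact ⟨r * a, by rw [map_smul, smul_comm s r x, ← smul_add, ha, smul_smul]⟩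

/-- The line case: a `G`-stable line gives a character. -/
theorem exists_character (rho : G →* Module.End K V) (eps : G →* Kˣ) {w : V} (hw0 : w ≠ 0)
    (hstab : ∀ g, ∃ a : K, rho g w = a • w) :
    ∃ psi : G →* Kˣ, (∀ g, rho g w = (psi g : K) • w) ∧
      ∀ (g : G) (t : K),
        rho g * rho g - t • rho g + (eps g : K) • (1 : Module.End K V) = 0 →
          (psi g : K) * psi g - t * psi g + eps g = 0 := by
  choose a ha using hstab
  have hinj : ∀ x y : K, x • w = y • w → x = y := by
    intro x y h
    have h' : (x - y) • w = 0 := by rw [sub_smul, h, sub_self]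
    rcases smul_eq_zero.mp h' with h0 | h0
    · exact sub_eq_zero.mp h0
    · exact absurd h0 hw0
  let a' : G →* K :=
    { toFun := a
      map_one' := by
        apply hinj
        rw [← ha, map_one, Module.End.one_apply, one_smul]
      map_mul' := by
        intro g h
        apply hinj
        rw [← ha, map_mul, Module.End.mul_apply, ha h, map_smul, ha g, smul_smul, mul_comm] }
  refine ⟨a'.toHomUnits, fun g => ?_, fun g t ht => ?_⟩
  · rw [MonoidHom.coe_toHomUnits]; exact ha g
  · rw [MonoidHom.coe_toHomUnits]
    change a g * a g - t * a g + (eps g : K) = 0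
    have h := congrArg (fun f : Module.End K V => f w) ht
    simp only [LinearMap.add_apply, LinearMap.sub_apply, LinearMap.smul_apply,
      Module.End.mul_apply, Module.End.one_apply, LinearMap.zero_apply] at h
    rw [ha g, map_smul, ha g, smul_smul, smul_smul] at h
    have h' : (a g * a g - t * a g + (eps g : K)) • w = 0 := by
      rw [add_smul, sub_smul]; exact h
    rcases smul_eq_zero.mp h' with h0 | h0
    · exact h0
    · exact absurd h0 hw0

end Core

/-! ## The plane case -/

section Plane

variable {K : Type*} [Field K] {G : Type*} [Group G] {V : Type*} [AddCommGroup V] [Module K V]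

/-- Restriction of a representation to a stable subspace. -/
def restrictRep (rho : G →* Module.End K V) (W : Submodule K V)
    (hW : ∀ g, ∀ x ∈ W, rho g x ∈ W) : G →* Module.End K W where
  toFun g := (rho g).restrict (hW g)
  map_one' := by
    ext x
    simp
  map_mul' g h := by
    ext x
    simp [map_mul]

theorem restrictRep_apply (rho : G →* Module.End K V) (W : Submodule K V)
    (hW : ∀ g, ∀ x ∈ W, rho g x ∈ W) (g : G) (x : W) :
    ((restrictRep rho W hW g x : W) : V) = rho g x := rfl

theorem restrictRep_rel (rho : G →* Module.End K V) (W : Submodule K V)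
    (hW : ∀ g, ∀ x ∈ W, rho g x ∈ W) {g : G} {t e : K}
    (hg : rho g * rho g - t • rho g + e • (1 : Module.End K V) = 0) :
    restrictRep rho W hW g * restrictRep rho W hW g - t • restrictRep rho W hW g
      + e • (1 : Module.End K W) = 0 := by
  ext x
  have h := congrArg (fun f : Module.End K V => f (x : V)) hg
  simp only [LinearMap.add_apply, LinearMap.sub_apply, LinearMap.smul_apply,
    Module.End.mul_apply, Module.End.one_apply, LinearMap.zero_apply] at h
  simp only [LinearMap.add_apply, LinearMap.sub_apply, LinearMap.smul_apply,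
    Module.End.mul_apply, Module.End.one_apply, LinearMap.zero_apply, Submodule.coe_add,
    Submodule.coe_sub, Submodule.coe_smul, restrictRep_apply, ZeroMemClass.coe_zero]
  exact h

/-- In a stable plane on which the odd involution has both eigenvalues, the characteristic
polynomial of `rho g` is `X ^ 2 - t X + eps g` for every relation `(g, t)`. -/
theorem plane_case [FiniteDimensional K V] (rho : G →* Module.End K V) (eps : G →* Kˣ) (c : G)
    (hepsc : eps c = -1)
    (hquad : ∀ g, ∃ t : K, rho g * rho g - t • rho g + (eps g : K) • (1 : Module.End K V) = 0)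
    (W : Submodule K V) (hW : ∀ g, ∀ x ∈ W, rho g x ∈ W) (hfin : Module.finrank K W = 2)
    {w w' : V} {s : K} (h2s : 2 * s ≠ 0) (hwW : w ∈ W) (hw'W : w' ∈ W) (hw0 : w ≠ 0)
    (hw'0 : w' ≠ 0) (hw : rho c w = s • w) (hw' : rho c w' = (-s) • w')
    (g : G) (t : K)
    (hg : rho g * rho g - t • rho g + (eps g : K) • (1 : Module.End K V) = 0) :
    LinearMap.charpoly (restrictRep rho W hW g) = X ^ 2 - C t * X + C (eps g : K) := by
  classical
  let b : Module.Basis (Fin 2) K W := Module.finBasisOfFinrankEq K W hfin
  let Φ : Module.End K W ≃ₐ[K] Matrix (Fin 2) (Fin 2) K := LinearMap.toMatrixAlgEquiv b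
  let M : G → Matrix (Fin 2) (Fin 2) K := fun g => Φ (restrictRep rho W hW g)
  have hMmul : ∀ g h, M (g * h) = M g * M h := by
    intro g h
    change Φ (restrictRep rho W hW (g * h)) = _
    rw [map_mul, map_mul]
  have hrel : ∀ (g : G) (t : K),
      rho g * rho g - t • rho g + (eps g : K) • (1 : Module.End K V) = 0 →
      M g * M g - t • M g + (eps g : K) • (1 : Matrix (Fin 2) (Fin 2) K) = 0 := by
    intro g t hg
    have h2 := congrArg Φ (restrictRep_rel rho W hW hg)
    simpa only [map_sub, map_add, map_mul, map_smul, map_one, map_zero] using h2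
  have hscal : ∀ (g : G) (r : K), M g = r • (1 : Matrix (Fin 2) (Fin 2) K) →
      restrictRep rho W hW g = r • (1 : Module.End K W) := by
    intro g r h
    apply Φ.injective
    rw [map_smul, map_one]
    exact h
  have hinj : ∀ (v : V), v ≠ 0 → ∀ x y : K, x • v = y • v → x = y := by
    intro v hv x y h
    have h' : (x - y) • v = 0 := by rw [sub_smul, h, sub_self]
    rcases smul_eq_zero.mp h' with h0 | h0
    · exact sub_eq_zero.mp h0
    · exact absurd h0 hv
  have hcns : ∀ r : K, M c ≠ r • (1 : Matrix (Fin 2) (Fin 2) K) := by
    intro r h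
    have h' := hscal c r h
    have e1 : rho c w = r • w := by
      have := congrArg (fun f : Module.End K W => ((f ⟨w, hwW⟩ : W) : V)) h'
      simpa [restrictRep_apply] using this
    have e2 : rho c w' = r • w' := by
      have := congrArg (fun f : Module.End K W => ((f ⟨w', hw'W⟩ : W) : V)) h'
      simpa [restrictRep_apply] using this
    rw [hw] at e1
    rw [hw'] at e2
    have hs := hinj w hw0 _ _ e1
    have hs' := hinj w' hw'0 _ _ e2
    apply h2s
    linear_combination hs - hs'
  obtain ⟨tc, htc⟩ := hquad c
  have hdetc : (M c).det = -1 := by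
    have h := (trace_det_of_not_scalar (M c) tc (eps c) (hrel c tc htc) hcns).2
    rw [h, hepsc]
    simp
  have hchar : LinearMap.charpoly (restrictRep rho W hW g) = (M g).charpoly := by
    rw [← LinearMap.charpoly_toMatrix (restrictRep rho W hW g) b]
    rfl
  rw [hchar]
  by_cases hns : ∀ r : K, M g ≠ r • (1 : Matrix (Fin 2) (Fin 2) K)
  · exact charpoly_of_not_scalar (M g) t (eps g) (hrel g t hg) hns
  · simp only [not_forall, not_not] at hns
    obtain ⟨a, ha⟩ := hns
    have hrel_g := hrel g t hg
    rw [ha] at hrel_g
    have hq : a * a - t * a + (eps g : K) = 0 := by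
      have h00 := congrFun (congrFun hrel_g 0) 0
      simpa using h00
    have ha0 : a ≠ 0 := by
      rintro rfl
      simp at hq
    obtain ⟨t2, ht2⟩ := hquad (g * c)
    have hgc : M (g * c) = a • M c := by
      rw [hMmul, ha, smul_mul_assoc, one_mul]
    have hgcns : ∀ r : K, M (g * c) ≠ r • (1 : Matrix (Fin 2) (Fin 2) K) := by
      intro r h
      rw [hgc] at h
      apply hcns (a⁻¹ * r)
      rw [← smul_smul, ← h, smul_smul, inv_mul_cancel₀ ha0, one_smul]
    have hdet := (trace_det_of_not_scalar (M (g * c)) t2 (eps (g * c))
      (hrel (g * c) t2 ht2) hgcns).2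
    rw [hgc, Matrix.det_smul, hdetc, map_mul, hepsc] at hdet
    have he : (eps g : K) = a * a := by
      simp at hdet
      linear_combination -hdet
    have ht : t = 2 * a := by
      have h3 : a * (2 * a - t) = 0 := by
        rw [he] at hq
        linear_combination hq
      rcases mul_eq_zero.mp h3 with h | h
      · exact absurd h ha0
      · linear_combination -h
    rw [ha, charpoly_scalar_two, ht, he]

end Plane

/-! ## The main theorem -/

section Main

variable {K : Type*} [Field K] {G : Type*} [Group G] {V : Type*} [AddCommGroup V] [Module K V]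

/-- **ODD-DIM2, submodule form.**  `K` any field with `2 ≠ 0`, `rho` a nonzero representation all
of whose elements satisfy a quadratic relation with constant term `eps g`, `c` an odd involution.
Then there is a `G`-stable subspace `W` which is either a plane on which every relation `(g, t)`
is the characteristic polynomial, or a line on which `G` acts through a character `psi` with
`psi ^ 2 - t psi + eps = 0`. -/
theorem exists_stable_submodule [FiniteDimensional K V] [Nontrivial V] (h2 : (2 : K) ≠ 0)
    (rho : G →* Module.End K V) (eps : G →* Kˣ) (c : G) (hc : c * c = 1) (hepsc : eps c = -1)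
    (hquad : ∀ g, ∃ t : K, rho g * rho g - t • rho g + (eps g : K) • (1 : Module.End K V) = 0) :
    ∃ (W : Submodule K V) (hW : ∀ g, ∀ x ∈ W, rho g x ∈ W),
      (Module.finrank K W = 2 ∧ ∀ (g : G) (t : K),
          rho g * rho g - t • rho g + (eps g : K) • (1 : Module.End K V) = 0 →
          LinearMap.charpoly (restrictRep rho W hW g) = X ^ 2 - C t * X + C (eps g : K)) ∨
      (∃ w : V, w ≠ 0 ∧ W = Submodule.span K {w} ∧ ∃ psi : G →* Kˣ,
          (∀ g, rho g w = (psi g : K) • w) ∧
          ∀ (g : G) (t : K),
            rho g * rho g - t • rho g + (eps g : K) • (1 : Module.End K V) = 0 →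
            (psi g : K) * psi g - t * psi g + eps g = 0) := by
  -- the line case, packaged
  have line : ∀ w : V, w ≠ 0 → (∀ g, ∃ a : K, rho g w = a • w) →
      ∃ (W : Submodule K V) (hW : ∀ g, ∀ x ∈ W, rho g x ∈ W),
      (Module.finrank K W = 2 ∧ ∀ (g : G) (t : K),
          rho g * rho g - t • rho g + (eps g : K) • (1 : Module.End K V) = 0 →
          LinearMap.charpoly (restrictRep rho W hW g) = X ^ 2 - C t * X + C (eps g : K)) ∨
      (∃ w : V, w ≠ 0 ∧ W = Submodule.span K {w} ∧ ∃ psi : G →* Kˣ,
          (∀ g, rho g w = (psi g : K) • w) ∧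
          ∀ (g : G) (t : K),
            rho g * rho g - t • rho g + (eps g : K) • (1 : Module.End K V) = 0 →
            (psi g : K) * psi g - t * psi g + eps g = 0) := by
    intro w hw0 hstab
    refine ⟨Submodule.span K {w}, ?_, Or.inr ⟨w, hw0, rfl, exists_character rho eps hw0 hstab⟩⟩
    intro g x hx
    obtain ⟨r, rfl⟩ := Submodule.mem_span_singleton.mp hx
    obtain ⟨a, ha⟩ := hstab g
    rw [map_smul, ha, smul_smul]
    exact Submodule.mem_span_singleton.mpr ⟨r * a, rfl⟩
  -- an eigenvector of `c`
  obtain ⟨s, w, hss, hw0, hw⟩ : ∃ (s : K) (w : V), s * s = 1 ∧ w ≠ 0 ∧ rho c w = s • w := by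
    obtain ⟨v, hv⟩ := exists_ne (0 : V)
    by_cases h : v + rho c v = 0
    · refine ⟨-1, v, by ring, hv, ?_⟩
      rw [neg_one_smul]
      exact eq_neg_of_add_eq_zero_right h
    · refine ⟨1, v + rho c v, by ring, h, ?_⟩
      rw [map_add, rho_sq_apply rho hc, one_smul, add_comm]
  have hs0 : s ≠ 0 := by
    rintro rfl
    simp at hss
  have h2s : 2 * s ≠ 0 := mul_ne_zero h2 hs0
  have hinj : ∀ (v : V), v ≠ 0 → ∀ x y : K, x • v = y • v → x = y := by
    intro v hv x y h
    have h' : (x - y) • v = 0 := by rw [sub_smul, h, sub_self]
    rcases smul_eq_zero.mp h' with h0 | h0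
    · exact sub_eq_zero.mp h0
    · exact absurd h0 hv
  by_cases hX : ∀ x ∈ orbitSpan rho w, rho c x = s • x
  · -- the orbit of `w` spans a line
    apply line w hw0
    intro g
    have hgw := orbitSpan_stable rho w g (mem_orbitSpan_self rho w)
    obtain ⟨a, ha⟩ := orbitSpan_eigen rho eps c hc hepsc hquad hw hgw
    rw [hX _ hgw] at ha
    refine ⟨(2 * s)⁻¹ * a, ?_⟩
    rw [← smul_smul, ← ha, ← add_smul, smul_smul]
    have : (2 * s)⁻¹ * (s + s) = 1 := by
      rw [← two_mul]; exact inv_mul_cancel₀ h2s
    rw [this, one_smul]
  · -- there is an eigenvector `w'` of eigenvalue `-s` in the orbit span of `w`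
    simp only [not_forall] at hX
    obtain ⟨x0, hx0, hx0ne⟩ := hX
    set w' : V := x0 - s • rho c x0 with hw'def
    have hw' : rho c w' = (-s) • w' := by
      rw [hw'def, map_sub, map_smul, rho_sq_apply rho hc, smul_sub, smul_smul]
      have : -s * s = -1 := by linear_combination -hss
      rw [this]
      module
    have hw'0 : w' ≠ 0 := by
      intro h
      apply hx0ne
      have h1 : x0 = s • rho c x0 := sub_eq_zero.mp h
      calc rho c x0 = (s * s) • rho c x0 := by rw [hss, one_smul]
        _ = s • (s • rho c x0) := by rw [smul_smul]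
        _ = s • x0 := by rw [← h1]
    have hw'X : w' ∈ orbitSpan rho w :=
      Submodule.sub_mem _ hx0 (Submodule.smul_mem _ _ (orbitSpan_stable rho w c hx0))
    have hWX : orbitSpan rho w' ≤ orbitSpan rho w :=
      orbitSpan_le rho (fun g x hx => orbitSpan_stable rho w g hx) hw'X
    -- every element of `W` is a combination of `w` and `w'`
    have hcomb : ∀ x ∈ orbitSpan rho w', ∃ a b : K, (2 * s) • x = b • w - a • w' := by
      intro x hx
      obtain ⟨a, ha⟩ := orbitSpan_eigen rho eps c hc hepsc hquad hw' hx
      obtain ⟨b, hb⟩ := orbitSpan_eigen rho eps c hc hepsc hquad hw (hWX hx)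
      refine ⟨a, b, ?_⟩
      rw [← ha, ← hb]
      module
    by_cases hwW : w ∈ orbitSpan rho w'
    · -- the plane case
      have hli : LinearIndependent K ![w, w'] := by
        rw [LinearIndependent.pair_iff]
        intro p q hpq
        have h1 := congrArg (rho c) hpq
        rw [map_add, map_smul, map_smul, hw, hw', map_zero] at h1
        have h3 : (2 * s * p) • w = 0 := by
          have : (2 * s * p) • w = s • (p • w + q • w') + (p • s • w + q • (-s) • w') := by
            module
          rw [this, hpq, h1, smul_zero, add_zero]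
        have hp : p = 0 := by
          rcases smul_eq_zero.mp h3 with h0 | h0
          · rcases mul_eq_zero.mp h0 with h4 | h4
            · exact absurd h4 h2s
            · exact h4
          · exact absurd h0 hw0
        refine ⟨hp, ?_⟩
        rw [hp, zero_smul, zero_add] at hpq
        rcases smul_eq_zero.mp hpq with h0 | h0
        · exact h0
        · exact absurd h0 hw'0
      have hspan : orbitSpan rho w' = Submodule.span K (Set.range ![w, w']) := by
        apply le_antisymm
        · intro x hx
          obtain ⟨a, b, hab⟩ := hcomb x hx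
          have hx' : x = (2 * s)⁻¹ • (b • w - a • w') := by
            rw [← hab, smul_smul, inv_mul_cancel₀ h2s, one_smul]
          rw [hx']
          refine Submodule.smul_mem _ _ (Submodule.sub_mem _ ?_ ?_)
          · exact Submodule.smul_mem _ _ (Submodule.subset_span ⟨0, rfl⟩)
          · exact Submodule.smul_mem _ _ (Submodule.subset_span ⟨1, rfl⟩)
        · rw [Submodule.span_le]
          rintro _ ⟨i, rfl⟩
          fin_cases i
          · exact hwW
          · exact mem_orbitSpan_self rho w'
      have hfin : Module.finrank K (orbitSpan rho w') = 2 := by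
        rw [hspan, finrank_span_eq_card hli]
        simp
      refine ⟨orbitSpan rho w', fun g x hx => orbitSpan_stable rho w' g hx, Or.inl ⟨hfin, ?_⟩⟩
      intro g t hg
      exact plane_case rho eps c hepsc hquad _ _ hfin h2s hwW (mem_orbitSpan_self rho w')
        hw0 hw'0 hw hw' g t hg
    · -- the orbit of `w'` spans a line
      apply line w' hw'0
      intro g
      have hgw := orbitSpan_stable rho w' g (mem_orbitSpan_self rho w')
      obtain ⟨a, b, hab⟩ := hcomb _ hgw
      have hb : b = 0 := by
        by_contra hb
        apply hwW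
        have : w = b⁻¹ • ((2 * s) • rho g w' + a • w') := by
          rw [hab, sub_add_cancel, smul_smul, inv_mul_cancel₀ hb, one_smul]
        rw [this]
        exact Submodule.smul_mem _ _ (Submodule.add_mem _ (Submodule.smul_mem _ _ hgw)
          (Submodule.smul_mem _ _ (mem_orbitSpan_self rho w')))
      refine ⟨-((2 * s)⁻¹ * a), ?_⟩
      rw [hb, zero_smul, zero_sub] at hab
      calc rho g w' = (2 * s)⁻¹ • ((2 * s) • rho g w') := by
            rw [smul_smul, inv_mul_cancel₀ h2s, one_smul]
        _ = -((2 * s)⁻¹ * a) • w' := by rw [hab]; module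

end Main

end Fermat.Agent.S30.helper6068
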