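import Fermat.Agent.Lib.helper74_GenChebQbar
import Fermat.Agent.S30.helper54_Spec2

/-!
# S30: the generator-Chebotarev inputs, unconditional (helper74)

`stmt_GenCheb : helper54.Stmt_GenCheb` and `stmt_GenChebGal : helper54.Stmt_GenChebGal`, from
the landed number-field core `Lib/helper74_GenChebCore` (Frobenius density theorem in existence
form) through `Lib/helper74_GenChebQbar`.
-/

set_option autoImplicit false

namespace Fermat.Agent.S30.helper74

/-- **`Stmt_GenCheb` of the S30 spec**, unconditionally. -/
theorem stmt_GenCheb : Fermat.Agent.S30.helper54.Stmt_GenCheb := by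
  intro L _ T g
  exact Fermat.Agent.Lib.helper74.exists_frobenius_pow_eq L g T

/-- **`Stmt_GenChebGal` of the S30 spec**, unconditionally. -/
theorem stmt_GenChebGal : Fermat.Agent.S30.helper54.Stmt_GenChebGal := by
  intro K _ _ g T
  exact Fermat.Agent.Lib.helper74.exists_frobenius_pow_eq K g T

end Fermat.Agent.S30.helper74
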