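import Mathlib
import Fermat.Agent.S30.helper767_TateFin
import Fermat.Agent.S30.helper1094_E1
import Fermat.Agent.S30.helper501_Occ

/-!
# S30: the E1 leaves closed in the shapes consumed by the E1c glue

* `stmt_TateFin : helper1094.Stmt_TateFin` from `helper767.tateModule_finite_of_finite` (E1a);
* `stmt_OccTransport : helper1094.Stmt_OccTransport` from
  `helper501.exists_eigenvector_of_faithful` (E1b);
* `stmt_E1 : helper1094.Stmt_E1` (E1c glue applied to both).
-/

set_option autoImplicit false

open scoped TensorProduct

namespace Fermat.Agent.S30.helper767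

/-- **TATE-FIN** in the shape of `helper1094.Stmt_TateFin`. -/
theorem stmt_TateFin : Fermat.Agent.S30.helper1094.Stmt_TateFin :=
  fun p _ A _ hfin => tateModule_finite_of_finite A p hfin

/-- **OCC-TRANSPORT** in the shape of `helper1094.Stmt_OccTransport`. -/
theorem stmt_OccTransport : Fermat.Agent.S30.helper1094.Stmt_OccTransport := by
  intro p _ Λ _ _ _ R _ _ hfaith T _ _ hT j hsat I t τ hj K _ _ hK χ
  exact Fermat.Agent.S30.helper501.exists_eigenvector_of_faithful p hfaith hK χ t τ j hj hT hsat

/-- `Stmt_E1` from occupation transport alone. -/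
theorem stmt_E1_of_occTransport (hOT : Fermat.Agent.S30.helper1094.Stmt_OccTransport) :
    Fermat.Agent.S30.helper1094.Stmt_E1 :=
  Fermat.Agent.S30.helper1094.stmt_E1_of stmt_TateFin hOT

/-- **E1**: an abstract Jacobian datum gives an eigen-datum, unconditionally. -/
theorem stmt_E1 : Fermat.Agent.S30.helper1094.Stmt_E1 :=
  Fermat.Agent.S30.helper1094.stmt_E1_of stmt_TateFin stmt_OccTransport

end Fermat.Agent.S30.helper767
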