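/-
S30-BRIDGE, part 1: the machine interface (helper831, S30 architect).

`MachineFacts N S p`: the complete list of facts about `JZero N` (in Prelude vocabulary) that the
S30 / S31 assemblies consume from the S29 / S37 "Kummer machine", together with the adapters
deriving the two local clauses from the conclusion of the frozen S37 statement.
-/
import Mathlib
import Fermat.Prelude.Def_ModularCurve_HeckeModule
import Fermat.Prelude.Def_CuspForm_HeckeAlgebra

set_option autoImplicit false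

noncomputable section

namespace Fermat.Agent.S30.helper831

open ModularCurve

/-- The absolute Galois group of `ℚ`. -/
abbrev Gal : Type := AlgebraicClosure ℚ ≃ₐ[ℚ] AlgebraicClosure ℚ

/-- Index type of the Hecke generators away from `S` and from the level. -/
abbrev GoodPrime (N : ℕ) (S : Set ℕ) : Type := {ℓ : Nat.Primes // (ℓ : ℕ) ∉ S ∧ ¬ (ℓ : ℕ) ∣ N}

/-- Polynomials in the good Hecke generators. -/
abbrev GoodPoly (N : ℕ) (S : Set ℕ) : Type := MvPolynomial (GoodPrime N S) ℤ

variable (N : ℕ) [NeZero N] (S : Set ℕ)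

/-- Evaluation of a polynomial in the good Hecke generators in the Hecke ring of cusp forms. -/
def evalForms : GoodPoly N S →ₐ[ℤ] CuspForm.heckeAlgebra N 2 S :=
  MvPolynomial.aeval fun ℓ => CuspForm.heckeAlgebra.T ℓ.1.2 ℓ.2.2 ℓ.2.1

theorem evalForms_X (ℓ : GoodPrime N S) :
    evalForms N S (MvPolynomial.X ℓ) = CuspForm.heckeAlgebra.T ℓ.1.2 ℓ.2.2 ℓ.2.1 :=
  MvPolynomial.aeval_X _ ℓ

/-- The same polynomial as an element of the Prelude Hecke ring `HeckeAlg`. -/
def toHeckeAlg : GoodPoly N S →ₐ[ℤ] HeckeAlg :=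
  MvPolynomial.rename (fun ℓ : GoodPrime N S => (ℓ.1 : Nat.Primes))

theorem toHeckeAlg_X (ℓ : GoodPrime N S) :
    toHeckeAlg N S (MvPolynomial.X ℓ) = heckeGen ℓ.1 :=
  MvPolynomial.rename_X _ ℓ

variable (p : ℕ)

/-- Faithfulness (up to bounded `p`-power index) of the `p`-power torsion of `JZero N` as a module
over the Hecke ring of cusp forms: a polynomial in the `T_ℓ` (`ℓ ∉ S`, `ℓ ∤ N`) that kills
`J[p^n]` evaluates, on cusp forms, in `p^(n-c)` times the Hecke ring. -/
def HeckeFaithful : Prop :=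
  letI := heckeModuleBar N
  ∃ c : ℕ, ∀ (n : ℕ) (P : GoodPoly N S),
    (∀ x : JZero N, p ^ n • x = 0 → toHeckeAlg N S P • x = 0) →
      ∃ Q : CuspForm.heckeAlgebra N 2 S, evalForms N S P = p ^ (n - c) • Q

/-- Everything S30 / S31 consume from the Kummer machine, in Prelude vocabulary. -/
structure MachineFacts : Prop where
  /-- the Hecke correspondences on `JZero N` commute -/
  hcomm : HeckeOperatorsCommuteBar N
  /-- Galois commutes with the Hecke correspondences -/
  galHecke : ∀ (ℓ : Nat.Primes) (σ : Gal) (x : JZero N),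
    σ • heckeOperatorBar N ℓ x = heckeOperatorBar N ℓ (σ • x)
  /-- inertia at `ℓ ∤ N p` acts trivially on `p`-power torsion -/
  unr : ∀ ℓ : ℕ, ℓ.Prime → ¬ ℓ ∣ N * p →
    ∀ A : ValuationSubring (AlgebraicClosure ℚ), A.LiesOverPrime ℓ →
      ∀ σ ∈ A.inertiaSubgroupIn ℚ, ∀ x : JZero N, (∃ n : ℕ, p ^ n • x = 0) → σ • x = x
  /-- Eichler-Shimura relation at Frobenius lifts at `ℓ ∤ N p` on `p`-power torsion -/
  frob : ∀ ℓ : ℕ, (hℓ : ℓ.Prime) → ¬ ℓ ∣ N * p →
    ∀ A : ValuationSubring (AlgebraicClosure ℚ), A.LiesOverPrime ℓ →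
      ∀ σ : Gal, A.IsFrobeniusAt σ ℓ →
        ∀ x : JZero N, (∃ n : ℕ, p ^ n • x = 0) →
          σ • σ • x - heckeOperatorBar N (⟨ℓ, hℓ⟩ : Nat.Primes) (σ • x) + ℓ • x = 0
  /-- the stabiliser of every point is open -/
  finLevel : ∀ x : JZero N, ∃ L : IntermediateField ℚ (AlgebraicClosure ℚ),
    FiniteDimensional ℚ L ∧ ∀ σ : Gal, (∀ y ∈ L, σ y = y) → σ • x = x
  /-- the `p`-torsion is finite -/
  finTorsion : Set.Finite {x : JZero N | p • x = 0}
  /-- Hecke-faithfulness of the torsion -/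
  occ : HeckeFaithful N S p

section FromSpecialization

variable {N} {p}

theorem gal_nsmul (σ : Gal) (n : ℕ) (x : JZero N) : σ • (n • x) = n • (σ • x) :=
  map_nsmul (DistribMulAction.toAddMonoidHom (JZero N) σ) n x

theorem gal_zsmul (σ : Gal) (n : ℤ) (x : JZero N) : σ • (n • x) = n • (σ • x) :=
  map_zsmul (DistribMulAction.toAddMonoidHom (JZero N) σ) n x

theorem gal_smul_zero (σ : Gal) : σ • (0 : JZero N) = 0 :=
  map_zero (DistribMulAction.toAddMonoidHom (JZero N) σ)

/-- The Hecke module structure commutes with Galois as soon as the generators do. -/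
theorem smulCommClass_of_galHecke (hcomm : HeckeOperatorsCommuteBar N)
    (hgal : ∀ (ℓ : Nat.Primes) (σ : Gal) (x : JZero N),
      σ • heckeOperatorBar N ℓ x = heckeOperatorBar N ℓ (σ • x)) :
    letI := heckeModuleBar N
    SMulCommClass Gal HeckeAlg (JZero N) := by
  letI := heckeModuleBar N
  refine ⟨fun σ t x => ?_⟩
  induction t using MvPolynomial.induction_on generalizing x with
  | C a =>
    rw [heckeModuleBar_C_smul, heckeModuleBar_C_smul, gal_zsmul]
  | add P Q hP hQ =>
    rw [add_smul, add_smul, smul_add, hP, hQ]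
  | mul_X P ℓ hP =>
    have h1 : ∀ y : JZero N, (MvPolynomial.X ℓ : HeckeAlg) • y = heckeOperatorBar N ℓ y :=
      fun y => heckeModuleBar_heckeGen_smul hcomm ℓ y
    rw [mul_smul, mul_smul, hP, h1, h1, hgal]

/-- Inertia acts trivially on `p`-power torsion, from the conclusion of the frozen S37. -/
theorem unr_of_specializationExists
    (hsc : letI := heckeModuleBar N; SMulCommClass Gal HeckeAlg (JZero N))
    (hspec : letI := heckeModuleBar N
      SpecializationExists (K := ℚ) (L := AlgebraicClosure ℚ) N p (JZero N)) :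
    ∀ ℓ : ℕ, ℓ.Prime → ¬ ℓ ∣ N * p →
      ∀ A : ValuationSubring (AlgebraicClosure ℚ), A.LiesOverPrime ℓ →
        ∀ σ ∈ A.inertiaSubgroupIn ℚ, ∀ x : JZero N, (∃ n : ℕ, p ^ n • x = 0) → σ • x = x := by
  letI := heckeModuleBar N
  intro ℓ hℓ hℓNp A hA σ hσ x ⟨n, hn⟩
  obtain ⟨J', _, _, sp, F, hsp, -⟩ := hspec ℓ hℓ hℓNp A hA
  have h0 : σ • x - x = 0 := by
    refine hsp.injective_torsion (σ • x - x) ⟨n, ?_⟩ ?_
    · rw [nsmul_sub, ← gal_nsmul, hn, gal_smul_zero, sub_zero]
    · rw [map_sub, hsp.inertia_comm σ hσ x, sub_self]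
  exact sub_eq_zero.mp h0

/-- The Eichler-Shimura relation on `p`-power torsion, from the conclusion of the frozen S37. -/
theorem frob_of_specializationExists (hcomm : HeckeOperatorsCommuteBar N)
    (hsc : letI := heckeModuleBar N; SMulCommClass Gal HeckeAlg (JZero N))
    (hspec : letI := heckeModuleBar N
      SpecializationExists (K := ℚ) (L := AlgebraicClosure ℚ) N p (JZero N)) :
    ∀ ℓ : ℕ, (hℓ : ℓ.Prime) → ¬ ℓ ∣ N * p →
      ∀ A : ValuationSubring (AlgebraicClosure ℚ), A.LiesOverPrime ℓ →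
        ∀ σ : Gal, A.IsFrobeniusAt σ ℓ →
          ∀ x : JZero N, (∃ n : ℕ, p ^ n • x = 0) →
            σ • σ • x - heckeOperatorBar N (⟨ℓ, hℓ⟩ : Nat.Primes) (σ • x) + ℓ • x = 0 := by
  letI := heckeModuleBar N
  intro ℓ hℓ hℓNp A hA σ hσ x ⟨n, hn⟩
  obtain ⟨J', _, _, sp, F, hsp, hrel⟩ := hspec ℓ hℓ hℓNp A hA
  have hop : ∀ y : JZero N, heckeOperatorBar N (⟨ℓ, hℓ⟩ : Nat.Primes) y
      = heckeGen (⟨ℓ, hℓ⟩ : Nat.Primes) • y :=
    fun y => (heckeModuleBar_heckeGen_smul hcomm ⟨ℓ, hℓ⟩ y).symm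
  have hσn : p ^ n • (σ • x) = 0 := by rw [← gal_nsmul, hn, gal_smul_zero]
  have hσσn : p ^ n • (σ • σ • x) = 0 := by rw [← gal_nsmul, hσn, gal_smul_zero]
  refine hsp.injective_torsion _ ⟨n, ?_⟩ ?_
  · rw [nsmul_add, nsmul_sub, hσσn, ← map_nsmul, hσn, map_zero, smul_comm (p ^ n) ℓ x, hn]
    simp
  · rw [map_add, map_sub, map_nsmul, hop, hsp.hecke_comm, hsp.frobenius_comm σ hσ,
      hsp.frobenius_comm σ hσ]
    exact hrel (sp x)

/-- `MachineFacts` from the conclusion of the frozen S37 and the remaining machine facts. -/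
theorem MachineFacts.of_specializationExists {S : Set ℕ} (hcomm : HeckeOperatorsCommuteBar N)
    (hgal : ∀ (ℓ : Nat.Primes) (σ : Gal) (x : JZero N),
      σ • heckeOperatorBar N ℓ x = heckeOperatorBar N ℓ (σ • x))
    (hspec : letI := heckeModuleBar N
      ∀ (_ : SMulCommClass Gal HeckeAlg (JZero N)),
        SpecializationExists (K := ℚ) (L := AlgebraicClosure ℚ) N p (JZero N))
    (hlevel : ∀ x : JZero N, ∃ L : IntermediateField ℚ (AlgebraicClosure ℚ),
      FiniteDimensional ℚ L ∧ ∀ σ : Gal, (∀ y ∈ L, σ y = y) → σ • x = x)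
    (hfin : Set.Finite {x : JZero N | p • x = 0})
    (hocc : HeckeFaithful N S p) : MachineFacts N S p := by
  have hsc := smulCommClass_of_galHecke hcomm hgal
  exact
    { hcomm := hcomm
      galHecke := hgal
      unr := unr_of_specializationExists hsc (hspec hsc)
      frob := frob_of_specializationExists hcomm hsc (hspec hsc)
      finLevel := hlevel
      finTorsion := hfin
      occ := hocc }

end FromSpecialization

end Fermat.Agent.S30.helper831
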